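/-
Elementary API for places of a function field (`AlgebraicCurve.Place`): membership via `ord`,
ultrametric inequality, maximality, and the weak approximation theorem.
-/
import Fermat.Prelude.Def_AlgebraicCurve_DivisorClassGroup
import Mathlib.RingTheory.Valuation.Discrete.IsDiscreteValuationRing
import Mathlib.RingTheory.Algebraic.Basic
import Mathlib.RingTheory.IntegralClosure.IntegrallyClosed

set_option autoImplicit false

namespace Fermat.Agent.Curve

open AlgebraicCurve

variable {K F : Type*} [Field K] [Field F] [Algebra K F] (v : Place K F)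

theorem ord_nonneg_of_mem {f : F} (hf : f ∈ v.toValuationSubring) : 0 ≤ v.ord f := by
  rcases eq_or_ne f 0 with rfl | hf0
  · simp
  obtain ⟨π, hπ⟩ := IsDiscreteValuationRing.exists_irreducible v.toValuationSubring
  obtain ⟨n, u, hu⟩ := IsDiscreteValuationRing.eq_unit_mul_pow_irreducible
      (x := (⟨f, hf⟩ : v.toValuationSubring)) (by simpa [Subtype.ext_iff] using hf0) hπ
  have hcoe : f = ((u : v.toValuationSubring) : F) * ((π : F) ^ (n : ℤ)) := by
    have h := congrArg Subtype.val hu
    push_cast at h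
    rw [zpow_natCast]
    exact h
  rw [hcoe, v.ord_unit_smul_zpow u hπ (n : ℤ)]
  exact Int.natCast_nonneg n

theorem mem_of_ord_nonneg {f : F} (h : 0 ≤ v.ord f) : f ∈ v.toValuationSubring := by
  rcases eq_or_ne f 0 with rfl | hf0
  · exact zero_mem _
  obtain ⟨π, hπ⟩ := IsDiscreteValuationRing.exists_irreducible v.toValuationSubring
  obtain ⟨u, hu⟩ := v.exists_unit_mul_zpow hf0 hπ
  rw [hu, show v.ord f = (((v.ord f).toNat : ℕ) : ℤ) from (Int.toNat_of_nonneg h).symm,
    zpow_natCast]
  exact mul_mem (u : v.toValuationSubring).2 (pow_mem (π : v.toValuationSubring).2 _)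

theorem mem_iff_ord_nonneg {f : F} : f ∈ v.toValuationSubring ↔ 0 ≤ v.ord f :=
  ⟨ord_nonneg_of_mem v, mem_of_ord_nonneg v⟩

theorem ord_neg (f : F) : v.ord (-f) = v.ord f := by
  simp only [Place.ord, Valuation.map_neg]

theorem ord_pow (f : F) (n : ℕ) : v.ord (f ^ n) = n * v.ord f := by
  simpa using v.ord_zpow f n

theorem ord_div {f g : F} (hf : f ≠ 0) (hg : g ≠ 0) : v.ord (f / g) = v.ord f - v.ord g := by
  rw [div_eq_mul_inv, v.ord_mul hf (inv_ne_zero hg), v.ord_inv]; ring

theorem ord_prod {ι : Type*} (s : Finset ι) {f : ι → F} (hf : ∀ i ∈ s, f i ≠ 0) :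
    v.ord (∏ i ∈ s, f i) = ∑ i ∈ s, v.ord (f i) := by
  classical
  induction s using Finset.induction_on with
  | empty => simp
  | insert a t hat ih =>
    rw [Finset.prod_insert hat, Finset.sum_insert hat, v.ord_mul (hf a (by simp))
      (Finset.prod_ne_zero_iff.mpr fun i hi => hf i (Finset.mem_insert_of_mem hi)),
      ih fun i hi => hf i (Finset.mem_insert_of_mem hi)]

/-- An element of prescribed order. -/
theorem exists_ord_eq (n : ℤ) : ∃ f : F, f ≠ 0 ∧ v.ord f = n := by
  obtain ⟨π, hπ⟩ := IsDiscreteValuationRing.exists_irreducible v.toValuationSubring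
  have hπ0 : (π : F) ≠ 0 := by simpa [ne_eq, ZeroMemClass.coe_eq_zero] using hπ.ne_zero
  exact ⟨(π : F) ^ n, zpow_ne_zero _ hπ0, by
    rw [v.ord_zpow, v.ord_coe_irreducible hπ, mul_one]⟩

theorem le_ord_add {f g : F} (n : ℤ) (hfg : f + g ≠ 0) (hf : f ≠ 0 → n ≤ v.ord f)
    (hg : g ≠ 0 → n ≤ v.ord g) : n ≤ v.ord (f + g) := by
  obtain ⟨t, ht, htn⟩ := exists_ord_eq v n
  have key : ∀ a : F, (a ≠ 0 → n ≤ v.ord a) → a / t ∈ v.toValuationSubring := fun a ha => by
    rcases eq_or_ne a 0 with rfl | ha0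
    · simp
    · exact mem_of_ord_nonneg v (by rw [ord_div v ha0 ht, htn]; linarith [ha ha0])
  have h := ord_nonneg_of_mem v (add_mem (key f hf) (key g hg))
  rw [← add_div, ord_div v hfg ht, htn] at h
  linarith

theorem min_le_ord_add {f g : F} (hfg : f + g ≠ 0) :
    min (v.ord f) (v.ord g) ≤ v.ord (f + g) :=
  le_ord_add v _ hfg (fun _ => min_le_left _ _) (fun _ => min_le_right _ _)

theorem ord_add_eq_left {f g : F} (hf : f ≠ 0) (hg : g ≠ 0 → v.ord f < v.ord g) :
    v.ord (f + g) = v.ord f := by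
  rcases eq_or_ne g 0 with rfl | hg0
  · simp
  have hlt := hg hg0
  have hfg : f + g ≠ 0 := fun h => by
    rw [eq_neg_of_add_eq_zero_left h, ord_neg] at hlt; exact lt_irrefl _ hlt
  have h1 := min_le_ord_add v hfg
  rw [min_eq_left hlt.le] at h1
  have h2 := min_le_ord_add v (f := f + g) (g := -g) (by simpa using hf)
  rw [add_neg_cancel_right, ord_neg] at h2
  rcases le_or_gt (v.ord (f + g)) (v.ord g) with h | h
  · rw [min_eq_left h] at h2; omega
  · rw [min_eq_right h.le] at h2; omega

theorem le_ord_sum {ι : Type*} (s : Finset ι) (f : ι → F) (n : ℤ)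
    (hf : ∀ i ∈ s, f i ≠ 0 → n ≤ v.ord (f i)) (hs : ∑ i ∈ s, f i ≠ 0) :
    n ≤ v.ord (∑ i ∈ s, f i) := by
  classical
  induction s using Finset.induction_on with
  | empty => simp at hs
  | insert a t hat ih =>
    rw [Finset.sum_insert hat] at hs ⊢
    exact le_ord_add v n hs (hf a (by simp))
      fun h => ih (fun i hi => hf i (Finset.mem_insert_of_mem hi)) h

theorem ord_algebraMap (a : K) : v.ord (algebraMap K F a) = 0 := by
  rcases eq_or_ne a 0 with rfl | ha
  · simp
  have h1 := ord_nonneg_of_mem v (v.algebraMap_mem' a)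
  have h2 := ord_nonneg_of_mem v (v.algebraMap_mem' a⁻¹)
  rw [map_inv₀, v.ord_inv] at h2
  omega

/-- Elements algebraic over the constants have order zero. -/
theorem ord_eq_zero_of_isAlgebraic {f : F} (hf : IsAlgebraic K f) : v.ord f = 0 := by
  have key : ∀ g : F, IsIntegral K g → g ∈ v.toValuationSubring := fun g hg => by
    have hx : IsIntegral v.toValuationSubring g := hg.tower_top
    obtain ⟨y, hy⟩ := IsIntegrallyClosed.isIntegral_iff.mp hx
    exact hy ▸ y.2
  have h1 := ord_nonneg_of_mem v (key f hf.isIntegral)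
  have h2 := ord_nonneg_of_mem v (key f⁻¹ hf.isIntegral.inv)
  rw [v.ord_inv] at h2
  omega

theorem transcendental_of_ord_ne_zero {f : F} (hf : v.ord f ≠ 0) : Transcendental K f :=
  fun h => hf (ord_eq_zero_of_isAlgebraic v h)

/-- Two places with nested valuation rings are equal. -/
theorem place_eq_of_le {v w : Place K F} (h : v.toValuationSubring ≤ w.toValuationSubring) :
    v = w := by
  apply Place.ext
  refine le_antisymm h fun f hf => ?_
  by_contra hfv
  have hneg : v.ord f < 0 := not_le.mp fun h0 => hfv (mem_of_ord_nonneg v h0)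
  obtain ⟨g, hg0, hgw⟩ := exists_ord_eq w (-1)
  have hf0 : f ≠ 0 := by rintro rfl; simp at hneg
  -- `g / f ^ N` has non-negative order at `v` and negative order at `w`
  set N : ℕ := (v.ord g).natAbs with hN
  have hfN : f ^ N ≠ 0 := pow_ne_zero _ hf0
  have hv : g / f ^ N ∈ v.toValuationSubring := mem_of_ord_nonneg v (by
    rw [ord_div v hg0 hfN, ord_pow]
    have : (N : ℤ) * v.ord f ≤ (N : ℤ) * (-1) :=
      mul_le_mul_of_nonneg_left (by omega) (by positivity)
    omega)
  have hw := ord_nonneg_of_mem w (h hv)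
  have : (0 : ℤ) ≤ (N : ℤ) * w.ord f := mul_nonneg (by positivity) (ord_nonneg_of_mem w hf)
  rw [ord_div w hg0 hfN, ord_pow, hgw] at hw
  omega

theorem exists_ord_nonneg_of_ne {v w : Place K F} (h : v ≠ w) :
    ∃ f : F, f ≠ 0 ∧ 0 ≤ v.ord f ∧ w.ord f < 0 := by
  by_contra hne
  push Not at hne
  exact h (place_eq_of_le fun f hf => by
    rcases eq_or_ne f 0 with rfl | hf0
    · exact zero_mem _
    · exact mem_of_ord_nonneg w (hne f hf0 (ord_nonneg_of_mem v hf)))

/-- Separation of two places. -/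
theorem exists_ord_pos_neg {v w : Place K F} (h : v ≠ w) :
    ∃ f : F, f ≠ 0 ∧ 0 < v.ord f ∧ w.ord f < 0 := by
  obtain ⟨a, ha0, hav, haw⟩ := exists_ord_nonneg_of_ne h
  obtain ⟨b, hb0, hbw, hbv⟩ := exists_ord_nonneg_of_ne h.symm
  refine ⟨a / b, div_ne_zero ha0 hb0, ?_, ?_⟩ <;> rw [ord_div _ ha0 hb0] <;> omega

/-- An element with a zero at `v` and poles at each of finitely many other places. -/
theorem exists_ord_pos_forall_neg (v : Place K F) (s : Finset (Place K F)) (hv : v ∉ s) :
    ∃ f : F, f ≠ 0 ∧ 0 < v.ord f ∧ ∀ w ∈ s, w.ord f < 0 := by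
  classical
  induction s using Finset.induction_on with
  | empty =>
    obtain ⟨f, hf, h⟩ := exists_ord_eq v 1
    exact ⟨f, hf, by omega, by simp⟩
  | insert a t hat ih =>
    obtain ⟨f, hf0, hfv, hft⟩ := ih fun h => hv (Finset.mem_insert_of_mem h)
    obtain ⟨g, hg0, hgv, hga⟩ := exists_ord_pos_neg (v := v) (w := a)
      (fun h => hv (h ▸ Finset.mem_insert_self _ _))
    rcases lt_or_ge (a.ord f) 0 with hfa | hfa
    · exact ⟨f, hf0, hfv, fun w hw => by
        rcases Finset.mem_insert.mp hw with rfl | hw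
        exacts [hfa, hft w hw]⟩
    -- `f + g ^ m` with `m` large enough that no cancellation occurs
    obtain ⟨m, hm1, hm⟩ : ∃ m : ℕ, 0 < m ∧
        ∀ w ∈ insert a t, w.ord g ≠ 0 → (w.ord f).natAbs < m * (w.ord g).natAbs := by
      refine ⟨((insert a t).sup fun w => (w.ord f).natAbs) + 1, by omega, fun w hw hg => ?_⟩
      have : (w.ord f).natAbs ≤ (insert a t).sup fun w => (w.ord f).natAbs :=
        Finset.le_sup (f := fun w : Place K F => (w.ord f).natAbs) hw
      have h2 : 1 ≤ (w.ord g).natAbs := by omega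
      calc (w.ord f).natAbs < ((insert a t).sup fun w => (w.ord f).natAbs) + 1 := by omega
        _ ≤ _ := Nat.le_mul_of_pos_right _ h2
    have hgm : g ^ m ≠ 0 := pow_ne_zero _ hg0
    have haord : a.ord (f + g ^ m) < 0 := by
      have := hm a (Finset.mem_insert_self _ _) hga.ne
      have hlt : a.ord (g ^ m) < 0 := by
        rw [ord_pow]; exact mul_neg_of_pos_of_neg (by exact_mod_cast hm1) hga
      rw [add_comm, ord_add_eq_left a hgm fun _ => by omega]
      exact hlt
    have hsum : f + g ^ m ≠ 0 := fun h => by rw [h] at haord; simp at haord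
    refine ⟨f + g ^ m, hsum, ?_, fun w hw => ?_⟩
    · have h1 : 0 < v.ord (g ^ m) := by rw [ord_pow]; positivity
      have h2 : 1 ≤ v.ord (f + g ^ m) :=
        le_ord_add v 1 hsum (fun _ => by omega) (fun _ => by omega)
      omega
    · rcases Finset.mem_insert.mp hw with rfl | hwt
      · exact haord
      have hfw := hft w hwt
      rcases lt_trichotomy (w.ord g) 0 with hgw | hgw | hgw
      · have := hm w hw hgw.ne
        have hlt : w.ord (g ^ m) < w.ord f := by
          have e : ((m * (w.ord g).natAbs : ℕ) : ℤ) = -(w.ord (g ^ m)) := by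
            rw [ord_pow]; push_cast; rw [abs_of_neg hgw]; ring
          omega
        rw [add_comm, ord_add_eq_left w hgm fun _ => hlt]
        omega
      · rw [ord_add_eq_left w hf0 fun _ => by rw [ord_pow, hgw, mul_zero]; exact hfw]
        exact hfw
      · rw [ord_add_eq_left w hf0 fun _ => by
          rw [ord_pow]
          have : 0 < (m : ℤ) * w.ord g := by positivity
          omega]
        exact hfw

/-- An element congruent to `1` at `v` and to `0` at finitely many other places, to any order. -/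
theorem exists_approx_one (v : Place K F) (s : Finset (Place K F)) (hv : v ∉ s) (n : ℕ) :
    ∃ f : F, (f - 1 = 0 ∨ (n : ℤ) ≤ v.ord (f - 1)) ∧
      ∀ w ∈ s, f = 0 ∨ (n : ℤ) ≤ w.ord f := by
  obtain ⟨g, hg0, hgv, hgs⟩ := exists_ord_pos_forall_neg v s hv
  set m := n + 1 with hm
  have hgm : g ^ m ≠ 0 := pow_ne_zero _ hg0
  have hv1 : (m : ℤ) ≤ v.ord (g ^ m) := by
    rw [ord_pow]; exact le_mul_of_one_le_right (by positivity) hgv
  have h1 : v.ord (1 + g ^ m) = 0 := by
    rw [ord_add_eq_left v one_ne_zero fun _ => by rw [v.ord_one]; omega, v.ord_one]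
  have hne : 1 + g ^ m ≠ 0 := fun h => by
    have h' : g ^ m = -1 := by linear_combination h
    rw [h', ord_neg, v.ord_one] at hv1
    omega
  refine ⟨(1 + g ^ m)⁻¹, Or.inr ?_, fun w hw => Or.inr ?_⟩
  · have : (1 + g ^ m)⁻¹ - 1 = -(g ^ m) / (1 + g ^ m) := by field_simp; ring
    rw [this, ord_div v (neg_ne_zero.mpr hgm) hne, ord_neg, h1]
    omega
  · have hw' : w.ord (g ^ m) ≤ -(m : ℤ) := by
      rw [ord_pow]
      have := mul_le_mul_of_nonneg_left (show w.ord g ≤ -1 by have := hgs w hw; omega)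
        (show (0 : ℤ) ≤ m by positivity)
      linarith
    rw [w.ord_inv, add_comm, ord_add_eq_left w hgm fun _ => by rw [w.ord_one]; omega]
    omega

/-- Weak approximation: finitely many places, prescribed elements, prescribed precision. -/
theorem exists_approx (s : Finset (Place K F)) (a : Place K F → F) (n : ℤ) :
    ∃ f : F, ∀ w ∈ s, f - a w = 0 ∨ n ≤ w.ord (f - a w) := by
  classical
  obtain ⟨M, hM⟩ : ∃ M : ℕ, ∀ u ∈ s, ∀ w ∈ s, n ≤ (M : ℤ) + w.ord (a u) := by
    refine ⟨(s ×ˢ s).sup fun p => (n - p.2.ord (a p.1)).toNat, fun u hu w hw => ?_⟩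
    have := Finset.le_sup (f := fun p : Place K F × Place K F => (n - p.2.ord (a p.1)).toNat)
      (Finset.mk_mem_product hu hw)
    simp only at this
    omega
  choose! e he using fun u (_ : u ∈ s) => exists_approx_one u (s.erase u) (by simp) M
  refine ⟨∑ u ∈ s, e u * a u, fun w hw => ?_⟩
  rcases eq_or_ne (∑ u ∈ s, e u * a u - a w) 0 with h | h
  · exact Or.inl h
  refine Or.inr ?_
  have hrw : ∑ u ∈ s, e u * a u - a w = ∑ u ∈ s, (e u - if u = w then 1 else 0) * a u := by
    simp [sub_mul, Finset.sum_sub_distrib, hw]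
  rw [hrw] at h ⊢
  refine le_ord_sum w s _ n (fun u hu hne => ?_) h
  have hne' := mul_ne_zero_iff.mp hne
  rw [w.ord_mul hne'.1 hne'.2]
  by_cases huw : u = w
  · subst huw
    rcases (he u hu).1 with h0 | h0
    · simp [h0] at hne
    · rw [if_pos rfl]; have := hM u hu u hu; omega
  · rcases (he u hu).2 w (by simp [Ne.symm huw, hw]) with h0 | h0
    · simp [h0, huw] at hne
    · rw [if_neg huw, sub_zero]; have := hM u hu w hw; omega

end Fermat.Agent.Curve
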