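/-
Local theory over a place of a subfield: `∑ e_w f_w ≤ [F' : F]`, and, in the case of equality,
the order of a norm.
-/
import Fermat.Agent.Curve.BasicPlace
import Fermat.Prelude.Def_AlgebraicCurve_DivisorPushPull
import Mathlib.LinearAlgebra.Matrix.Determinant.Basic
import Mathlib.LinearAlgebra.Matrix.ToLin
import Mathlib.RingTheory.Norm.Basic
import Mathlib.LinearAlgebra.FiniteDimensional.Lemmas

set_option autoImplicit false

noncomputable section

namespace Fermat.Agent.Curve

open AlgebraicCurve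

section OrdGE

variable {K F : Type*} [Field K] [Field F] [Algebra K F]

/-- `f` vanishes at `v` to order at least `n`; true for `f = 0`. -/
def OrdGE (v : Place K F) (n : ℤ) (f : F) : Prop := f = 0 ∨ n ≤ v.ord f

variable {v : Place K F} {m n : ℤ} {f g : F}

theorem ordGE_zero : OrdGE v n (0 : F) := Or.inl rfl

theorem OrdGE.of_le (h : n ≤ v.ord f) : OrdGE v n f := Or.inr h

theorem OrdGE.le_ord (h : OrdGE v n f) (hf : f ≠ 0) : n ≤ v.ord f := h.resolve_left hf

theorem OrdGE.mono (h : OrdGE v n f) (hmn : m ≤ n) : OrdGE v m f :=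
  h.imp_right hmn.trans

theorem OrdGE.add (hf : OrdGE v n f) (hg : OrdGE v n g) : OrdGE v n (f + g) := by
  rcases eq_or_ne (f + g) 0 with h | h
  · exact Or.inl h
  · exact Or.inr (le_ord_add v n h hf.le_ord hg.le_ord)

theorem OrdGE.neg (hf : OrdGE v n f) : OrdGE v n (-f) := by
  rcases hf with rfl | h
  · simp [OrdGE]
  · exact Or.inr (by rwa [ord_neg])

theorem OrdGE.sub (hf : OrdGE v n f) (hg : OrdGE v n g) : OrdGE v n (f - g) :=
  sub_eq_add_neg f g ▸ hf.add hg.neg

theorem OrdGE.sum {ι : Type*} {s : Finset ι} {f : ι → F} (h : ∀ i ∈ s, OrdGE v n (f i)) :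
    OrdGE v n (∑ i ∈ s, f i) :=
  Finset.sum_induction f _ (fun _ _ => OrdGE.add) ordGE_zero h

theorem OrdGE.mul (hf : OrdGE v m f) (hg : OrdGE v n g) : OrdGE v (m + n) (f * g) := by
  rcases eq_or_ne f 0 with rfl | hf0
  · simp [OrdGE]
  rcases eq_or_ne g 0 with rfl | hg0
  · simp [OrdGE]
  exact Or.inr (by rw [v.ord_mul hf0 hg0]; exact add_le_add (hf.le_ord hf0) (hg.le_ord hg0))

theorem ordGE_iff_mem : OrdGE v 0 f ↔ f ∈ v.toValuationSubring := by
  rw [mem_iff_ord_nonneg, OrdGE]
  exact ⟨fun h => h.elim (fun h => by simp [h]) id, Or.inr⟩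

theorem OrdGE.sign_mul (u : ℤˣ) (hf : OrdGE v n f) : OrdGE v n (u • f) := by
  rcases Int.units_eq_one_or u with rfl | rfl
  · simpa using hf
  · simpa [Units.smul_def] using hf.neg

theorem OrdGE.prod {ι : Type*} {s : Finset ι} {f : ι → F} {m : ι → ℤ}
    (h : ∀ i ∈ s, OrdGE v (m i) (f i)) : OrdGE v (∑ i ∈ s, m i) (∏ i ∈ s, f i) := by
  classical
  induction s using Finset.induction_on with
  | empty => exact Or.inr (by simp)
  | insert a t hat ih =>
    rw [Finset.sum_insert hat, Finset.prod_insert hat]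
    exact (h a (by simp)).mul (ih fun i hi => h i (Finset.mem_insert_of_mem hi))

theorem ordGE_det {ι : Type*} [Fintype ι] [DecidableEq ι] (M : Matrix ι ι F) (m : ι → ℤ)
    (hM : ∀ i j, OrdGE v (m j) (M i j)) : OrdGE v (∑ j, m j) M.det := by
  rw [Matrix.det_apply]
  exact OrdGE.sum fun σ _ => OrdGE.sign_mul _ (OrdGE.prod fun j _ => hM (σ j) j)

theorem exists_uniformizer (v : Place K F) : ∃ t : F, t ≠ 0 ∧ v.ord t = 1 :=
  exists_ord_eq v 1

end OrdGE

section Local

variable {K F F' : Type*} [Field K] [Field F] [Field F'] [Algebra K F] [Algebra K F']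
  [Algebra F F'] [IsScalarTower K F F'] [Algebra.IsIntegral F F']

theorem OrdGE.map {w : Place K F'} {n : ℤ} {c : F}
    (hc : OrdGE (w.restrict F) n c) :
    OrdGE w (w.ramificationIndex F * n) (algebraMap F F' c) := by
  rcases hc with rfl | h
  · exact Or.inl (map_zero _)
  · exact Or.inr (by rw [w.ord_restrict]; exact mul_le_mul_of_nonneg_left h (by positivity))

theorem OrdGE.map_nonneg {w : Place K F'} {v : Place K F} (hwv : w.restrict F = v) {c : F}
    (hc : OrdGE v 0 c) : OrdGE w 0 (algebraMap F F' c) := by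
  subst hwv
  simpa using OrdGE.map hc

theorem ordGE_mk_of_residue_eq_zero {v : Place K F} {x : v.toValuationSubring}
    (h : IsLocalRing.residue _ x = 0) : OrdGE v 1 (x : F) := by
  rcases eq_or_ne (x : F) 0 with h0 | h0
  · exact Or.inl h0
  refine Or.inr ?_
  have hnu : ¬ IsUnit x := by
    rwa [← mem_nonunits_iff, ← IsLocalRing.mem_maximalIdeal, ← IsLocalRing.residue_eq_zero_iff]
  by_contra hlt
  have h1 := ord_nonneg_of_mem v x.2
  have hinv : (x : F)⁻¹ ∈ v.toValuationSubring := mem_of_ord_nonneg v (by rw [v.ord_inv]; omega)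
  exact hnu (isUnit_iff_exists_inv.mpr ⟨⟨_, hinv⟩, Subtype.ext (mul_inv_cancel₀ h0)⟩)

theorem residue_eq_zero_of_ordGE {v : Place K F} {x : v.toValuationSubring}
    (h : OrdGE v 1 (x : F)) : IsLocalRing.residue _ x = 0 := by
  rw [IsLocalRing.residue_eq_zero_iff, IsLocalRing.mem_maximalIdeal, mem_nonunits_iff]
  intro hu
  rcases h with h | h
  · exact hu.ne_zero (Subtype.ext h)
  · have := v.ord_coe_unit hu.unit
    rw [IsUnit.unit_spec] at this
    omega

variable (F) in
/-- The functions `z i` are `w`-integral with residues independent over the residue field below. -/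
structure ResIndep (w : Place K F') {κ : Type*} [Fintype κ] (z : κ → F') : Prop where
  nonneg : ∀ i, OrdGE w 0 (z i)
  indep : ∀ c : κ → F, (∀ i, OrdGE (w.restrict F) 0 (c i)) →
    OrdGE w 1 (∑ i, algebraMap F F' (c i) * z i) → ∀ i, OrdGE (w.restrict F) 1 (c i)

theorem exists_resIndep (w : Place K F') {κ : Type*} [Fintype κ] {r : κ → w.ResidueField}
    (hr : LinearIndependent (w.restrict F).ResidueField r) :
    ∃ z : κ → F', ResIndep F w z := by
  choose z hz using fun i => IsLocalRing.residue_surjective (r i)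
  refine ⟨fun i => (z i : F'), fun i => ordGE_iff_mem.mpr (z i).2, fun c hc hsum i => ?_⟩
  let c' : κ → (w.restrict F).toValuationSubring := fun i => ⟨c i, ordGE_iff_mem.mp (hc i)⟩
  have h0 : IsLocalRing.residue _ (∑ i, Place.restrictInclusion F w (c' i) * z i) = 0 :=
    residue_eq_zero_of_ordGE (by
      convert hsum using 1
      push_cast
      exact Finset.sum_congr rfl fun i _ => congrArg (· * (z i : F')) (Place.coe_restrictInclusion w (c' i)))
  rw [map_sum] at h0
  refine ordGE_mk_of_residue_eq_zero (x := c' i)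
    (Fintype.linearIndependent_iff.mp hr (fun i => IsLocalRing.residue _ (c' i)) ?_ i)
  refine Eq.trans (Finset.sum_congr rfl fun j _ => ?_) h0
  rw [Algebra.smul_def, Place.algebraMap_residueField_eq, Place.restrictResidueMap_residue,
    map_mul, hz]

theorem ResIndep.congr {w : Place K F'} {κ : Type*} [Fintype κ] {z z' : κ → F'}
    (hz : ResIndep F w z) (h : ∀ i, OrdGE w 1 (z' i - z i)) : ResIndep F w z' where
  nonneg i := by simpa using ((h i).mono (by omega)).add (hz.nonneg i)
  indep c hc hsum := hz.indep c hc (by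
    have : ∑ i, algebraMap F F' (c i) * z i = ∑ i, algebraMap F F' (c i) * z' i
        - ∑ i, algebraMap F F' (c i) * (z' i - z i) := by
      rw [← Finset.sum_sub_distrib]
      exact Finset.sum_congr rfl fun i _ => by ring
    rw [this]
    refine hsum.sub (OrdGE.sum fun i _ => ?_)
    simpa using (OrdGE.map_nonneg rfl (hc i)).mul (h i))

variable (F) in
/-- Index type of a local family attached to finitely many places `w` and sizes `f w`. -/
abbrev LocalIndex (s : Finset (Place K F')) (f : Place K F' → ℕ) : Type _ :=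
  Σ w : ↥s, Fin (f w) × Fin ((w : Place K F').ramificationIndex F)

variable (F) in
/-- A family of functions that will be shown to be independent over `F`. -/
structure IsLocalFamily (s : Finset (Place K F')) (f : Place K F' → ℕ)
    (a : LocalIndex F s f → F') : Prop where
  self : ∀ k : LocalIndex F s f, OrdGE (k.1 : Place K F') ((k.2.2 : ℕ) : ℤ) (a k)
  other : ∀ (k : LocalIndex F s f) (w : ↥s), w ≠ k.1 →
    OrdGE (w : Place K F') ((w : Place K F').ramificationIndex F) (a k)
  indep : ∀ (w : ↥s) (j : Fin ((w : Place K F').ramificationIndex F)) (c : Fin (f w) → F),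
    (∀ i, OrdGE ((w : Place K F').restrict F) 0 (c i)) →
    OrdGE (w : Place K F') (((j : ℕ) : ℤ) + 1) (∑ i, algebraMap F F' (c i) * a ⟨w, i, j⟩) →
    ∀ i, OrdGE ((w : Place K F').restrict F) 1 (c i)

variable {s : Finset (Place K F')} {f : Place K F' → ℕ} {v : Place K F}

theorem exists_isLocalFamily (hs : ∀ w ∈ s, w.restrict F = v)
    (z : ∀ w : ↥s, Fin (f w) → F') (hz : ∀ w : ↥s, ResIndep F (w : Place K F') (z w))
    (g : ∀ w : ↥s, Fin ((w : Place K F').ramificationIndex F) → F')
    (hg : ∀ (w : ↥s) j, g w j ≠ 0 ∧ (w : Place K F').ord (g w j) = ((j : ℕ) : ℤ) ∧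
      ∀ u : ↥s, u ≠ w → OrdGE (u : Place K F') ((u : Place K F').ramificationIndex F) (g w j)) :
    ∃ z' : ∀ w : ↥s, Fin (f w) → F', (∀ w i (u : ↥s), OrdGE (u : Place K F') 0 (z' w i)) ∧
      IsLocalFamily F s f (fun k => g k.1 k.2.2 * z' k.1 k.2.1) := by
  classical
  have key : ∀ (w : ↥s) (i : Fin (f w)), ∃ x : F', OrdGE (w : Place K F') 1 (x - z w i) ∧
      ∀ u : ↥s, u ≠ w → OrdGE (u : Place K F') 0 x := fun w i => by
    obtain ⟨x, hx⟩ := exists_approx s (fun u => if u = (w : Place K F') then z w i else 0) 1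
    refine ⟨x, ?_, fun u hu => ?_⟩
    · have := hx w w.2
      rw [if_pos rfl] at this
      exact this
    · have := hx u u.2
      rw [if_neg (fun h => hu (Subtype.ext h)), sub_zero] at this
      exact OrdGE.mono (n := 1) this (by omega)
  choose z' hz' hz'0 using key
  have hz'' : ∀ w i (u : ↥s), OrdGE (u : Place K F') 0 (z' w i) := fun w i u => by
    rcases eq_or_ne u w with rfl | h
    · exact ((hz u).congr fun i => hz' u i).nonneg i
    · exact hz'0 w i u h
  refine ⟨z', hz'', fun k => ?_, fun k u hu => ?_, fun w j c hc hsum => ?_⟩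
  · simpa using (OrdGE.of_le (hg k.1 k.2.2).2.1.ge).mul (hz'' k.1 k.2.1 k.1)
  · simpa using ((hg k.1 k.2.2).2.2 u hu).mul (hz'' k.1 k.2.1 u)
  · refine ((hz w).congr fun i => hz' w i).indep c hc ?_
    have hsum' : OrdGE (w : Place K F') (((j : ℕ) : ℤ) + 1)
        (g w j * ∑ i, algebraMap F F' (c i) * z' w i) := by
      rw [Finset.mul_sum]
      convert hsum using 2 with i
      ring
    rcases hsum' with h | h
    · exact Or.inl ((mul_eq_zero.mp h).resolve_left (hg w j).1)
    · rcases eq_or_ne (∑ i, algebraMap F F' (c i) * z' w i) 0 with h0 | h0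
      · exact Or.inl h0
      · rw [(w : Place K F').ord_mul (hg w j).1 h0, (hg w j).2.1] at h
        exact Or.inr (by omega)

theorem exists_approx_pow (w : ↥s) (j : ℕ) : ∃ g : F', g ≠ 0 ∧
    (w : Place K F').ord g = (j : ℤ) ∧
    ∀ u : ↥s, u ≠ w → OrdGE (u : Place K F') ((u : Place K F').ramificationIndex F) g := by
  classical
  obtain ⟨p, hp, hpo⟩ := exists_ord_eq (w : Place K F') (j : ℤ)
  set n : ℤ := (s.sup fun u => u.ramificationIndex F : ℕ) + (j : ℤ) + 1 with hn
  obtain ⟨g, hg⟩ := exists_approx s (fun u => if u = (w : Place K F') then p else 0) n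
  have hgw := hg w w.2
  rw [if_pos rfl] at hgw
  have hord : (w : Place K F').ord g = (j : ℤ) ∧ g ≠ 0 := by
    rcases hgw with h | h
    · rw [sub_eq_zero] at h; subst h; exact ⟨hpo, hp⟩
    · have e : g = p + (g - p) := by ring
      refine ⟨?_, ?_⟩
      · rw [e, ord_add_eq_left _ hp fun _ => by omega, hpo]
      · rintro rfl
        rw [zero_sub, ord_neg, hpo] at h
        omega
  refine ⟨g, hord.2, hord.1, fun u hu => ?_⟩
  have := hg u u.2
  rw [if_neg (fun h => hu (Subtype.ext h)), sub_zero] at this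
  refine OrdGE.mono (n := n) this ?_
  have := Finset.le_sup (f := fun u : Place K F' => u.ramificationIndex F) u.2
  omega

namespace IsLocalFamily

variable {a : LocalIndex F s f → F'}

theorem coeff_pos (ha : IsLocalFamily F s f a) (hs : ∀ w ∈ s, w.restrict F = v)
    {c : LocalIndex F s f → F} (hc : ∀ k, OrdGE v 0 (c k))
    (hX : ∀ w : ↥s, OrdGE (w : Place K F') ((w : Place K F').ramificationIndex F)
      (∑ k, algebraMap F F' (c k) * a k)) :
    ∀ k, OrdGE v 1 (c k) := by
  classical
  suffices h : ∀ (w : ↥s) (j : ℕ) (hj : j < (w : Place K F').ramificationIndex F) (i : Fin (f w)),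
      OrdGE v 1 (c ⟨w, i, ⟨j, hj⟩⟩) by
    intro k
    exact h k.1 k.2.2 k.2.2.2 k.2.1
  intro w j
  induction j using Nat.strong_induction_on with
  | _ j ih =>
    intro hj
    have hw : (w : Place K F').restrict F = v := hs w w.2
    have hmain := ha.indep w ⟨j, hj⟩ (fun i => c ⟨w, i, ⟨j, hj⟩⟩) (fun i => by rw [hw]; exact hc _) ?_
    · intro i; simpa only [hw] using hmain i
    -- the terms with a different index vanish to order at least `j + 1`
    set e : ℤ := ((w : Place K F').ramificationIndex F : ℤ) with he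
    let t : LocalIndex F s f → F' := fun k => algebraMap F F' (c k) * a k
    let blk : Finset (LocalIndex F s f) :=
      Finset.univ.image fun i : Fin (f w) => ⟨w, i, ⟨j, hj⟩⟩
    have hblk : ∑ k ∈ blk, t k = ∑ i, algebraMap F F' (c ⟨w, i, ⟨j, hj⟩⟩) * a ⟨w, i, ⟨j, hj⟩⟩ :=
      Finset.sum_image fun i _ i' _ h => by simpa using h
    rw [← hblk, show ∑ k ∈ blk, t k = ∑ k, t k - ∑ k ∈ blkᶜ, t k by
      rw [← Finset.sum_add_sum_compl blk]; ring]
    refine ((hX w).mono (by omega)).sub (OrdGE.sum fun k hk => ?_)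
    obtain ⟨w', i', ⟨j', hj'⟩⟩ := k
    rcases eq_or_ne w' w with rfl | hne
    · rcases lt_trichotomy j' j with hlt | heq | hgt
      · have h1 := OrdGE.map (w := (w' : Place K F')) (hw.symm ▸ ih j' hlt hj' i')
        refine (h1.mul (ha.self ⟨w', i', ⟨j', hj'⟩⟩)).mono ?_
        simp only
        omega
      · subst heq
        simp [blk] at hk
      · refine ((OrdGE.map_nonneg hw (hc _)).mul (ha.self ⟨w', i', ⟨j', hj'⟩⟩)).mono ?_
        simp only
        omega
    · refine ((OrdGE.map_nonneg hw (hc _)).mul (ha.other ⟨w', i', ⟨j', hj'⟩⟩ w hne.symm)).mono ?_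
      omega

theorem coeff_nonneg (ha : IsLocalFamily F s f a) (hs : ∀ w ∈ s, w.restrict F = v)
    {c : LocalIndex F s f → F}
    (hX : ∀ w : ↥s, OrdGE (w : Place K F') 0 (∑ k, algebraMap F F' (c k) * a k)) :
    ∀ k, OrdGE v 0 (c k) := by
  classical
  intro k
  by_contra hk
  have hS : (Finset.univ.filter fun k => c k ≠ 0).Nonempty :=
    ⟨k, by simp only [Finset.mem_filter, Finset.mem_univ, true_and]; exact fun h => hk (Or.inl h)⟩
  obtain ⟨k₀, hk₀, hmin⟩ := Finset.exists_min_image _ (fun k => v.ord (c k)) hS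
  simp only [Finset.mem_filter, Finset.mem_univ, true_and] at hk₀ hmin
  set m := v.ord (c k₀) with hm
  have hm0 : m < 0 := by
    have := hmin k fun h => hk (Or.inl h)
    have h2 : v.ord (c k) < 0 := not_le.mp fun h => hk (Or.inr h)
    omega
  obtain ⟨g, hg0, hg⟩ := exists_ord_eq v (-m)
  have hgw : ∀ w : ↥s, OrdGE (w : Place K F') ((w : Place K F').ramificationIndex F)
      (algebraMap F F' g) := fun w => by
    have h := OrdGE.map (w := (w : Place K F')) (n := -m) (c := g)
      (OrdGE.of_le (by rw [hs w w.2, hg]))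
    exact h.mono (le_mul_of_one_le_right (by positivity) (by omega))
  have h1 := coeff_pos ha hs (c := fun k => g * c k) (fun k => ?_) (fun w => ?_) k₀
  · rcases h1 with h | h
    · exact mul_ne_zero hg0 hk₀ h
    · rw [v.ord_mul hg0 hk₀, hg, ← hm] at h
      omega
  · rcases eq_or_ne (c k) 0 with h | h
    · exact Or.inl (by rw [h, mul_zero])
    · exact Or.inr (by rw [v.ord_mul hg0 h, hg]; have := hmin k h; omega)
  · simpa [mul_assoc, ← Finset.mul_sum] using (hgw w).mul (hX w)

theorem linearIndependent (ha : IsLocalFamily F s f a) (hs : ∀ w ∈ s, w.restrict F = v) :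
    LinearIndependent F a := by
  rw [Fintype.linearIndependent_iff]
  intro c hc k
  by_contra hk
  obtain ⟨g, hg0, hg⟩ := exists_ord_eq v (-1 - v.ord (c k))
  have h := coeff_nonneg ha hs (c := fun k => g * c k) (fun w => Or.inl ?_) k
  · rcases h with h | h
    · exact mul_ne_zero hg0 hk h
    · rw [v.ord_mul hg0 hk, hg] at h
      omega
  · simp only [Algebra.smul_def] at hc
    simp only [map_mul, mul_assoc, ← Finset.mul_sum, hc, mul_zero]

end IsLocalFamily

variable [Module.Finite F F']

/-- The local inequality. -/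
theorem sum_mul_le_finrank (hs : ∀ w ∈ s, w.restrict F = v)
    (z : ∀ w : ↥s, Fin (f w) → F') (hz : ∀ w : ↥s, ResIndep F (w : Place K F') (z w)) :
    ∑ w ∈ s, f w * w.ramificationIndex F ≤ Module.finrank F F' := by
  choose g hg using fun (w : ↥s) (j : Fin ((w : Place K F').ramificationIndex F)) =>
    exists_approx_pow (F := F) w (j : ℕ)
  obtain ⟨z', -, ha⟩ := exists_isLocalFamily hs z hz g hg
  have h := (ha.linearIndependent hs).fintype_card_le_finrank
  rw [Fintype.card_sigma] at h
  simp only [Fintype.card_prod, Fintype.card_fin] at h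
  rwa [Finset.sum_coe_sort s (fun w => f w * w.ramificationIndex F)] at h

/-- Residue extensions are finite. -/
theorem finite_residueField_restrict (w : Place K F') :
    Module.Finite (w.restrict F).ResidueField w.ResidueField := by
  rw [← Module.rank_lt_aleph0_iff]
  refine lt_of_le_of_lt (rank_le (n := Module.finrank F F') fun t ht => ?_)
    (Cardinal.natCast_lt_aleph0)
  obtain ⟨z, hz⟩ := exists_resIndep (F := F) w (r := fun i : Fin t.card => ((t.equivFin.symm i) : w.ResidueField))
    (ht.comp _ t.equivFin.symm.injective)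
  have h := sum_mul_le_finrank (F := F) (v := w.restrict F) (s := ({w} : Finset (Place K F')))
    (f := fun _ => t.card) (fun u hu => by rw [Finset.mem_singleton.mp hu]) (fun _ => z)
    (fun u => by rw [Finset.mem_singleton.mp u.2]; exact hz)
  rw [Finset.sum_singleton] at h
  exact le_trans (Nat.le_mul_of_pos_right _ (w.ramificationIndex_pos (F := F))) h

variable (F) in
/-- Lifts of a basis of the residue extension. -/
theorem exists_resIndep_inertiaDeg (w : Place K F') :
    ∃ z : Fin (w.inertiaDeg F) → F', ResIndep F w z := by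
  have := finite_residueField_restrict (F := F) w
  exact exists_resIndep w (Module.finBasis (w.restrict F).ResidueField w.ResidueField).linearIndependent

/-- The local inequality `∑ e f ≤ n`. -/
theorem sum_ramificationIndex_mul_inertiaDeg_le (hs : ∀ w ∈ s, w.restrict F = v) :
    ∑ w ∈ s, w.ramificationIndex F * w.inertiaDeg F ≤ Module.finrank F F' := by
  choose z hz using fun w : ↥s => exists_resIndep_inertiaDeg F (w : Place K F')
  simpa only [mul_comm] using sum_mul_le_finrank (f := fun w => w.inertiaDeg F) hs z hz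

theorem norm_zpow' (x : F') (n : ℤ) : Algebra.norm F (x ^ n) = Algebra.norm F x ^ n := by
  obtain ⟨n, rfl | rfl⟩ := n.eq_nat_or_neg
  · simp
  · simp [Algebra.norm_inv]

variable (hs : ∀ w ∈ s, w.restrict F = v)
  (hsum : ∑ w ∈ s, w.ramificationIndex F * w.inertiaDeg F = Module.finrank F F')

include hs hsum

/-- Under `∑ e f = n`, norms of integral functions are integral, with the expected bound. -/
theorem ordGE_norm_aux (z : ∀ w : ↥s, Fin (w.1.inertiaDeg F) → F')
    (hz : ∀ w : ↥s, ResIndep F (w : Place K F') (z w))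
    (g : ∀ w : ↥s, Fin ((w : Place K F').ramificationIndex F) → F')
    (hg : ∀ (w : ↥s) j, g w j ≠ 0 ∧ (w : Place K F').ord (g w j) = ((j : ℕ) : ℤ) ∧
      ∀ u : ↥s, u ≠ w → OrdGE (u : Place K F') ((u : Place K F').ramificationIndex F) (g w j))
    (x : F') (hx : ∀ u : ↥s, OrdGE (u : Place K F') 0 x)
    (m : LocalIndex F s (fun w => w.inertiaDeg F) → ℕ) (hm : ∀ k, m k ≤ 1)
    (hm1 : ∀ k, m k = 1 → ∀ u : ↥s,
      OrdGE (u : Place K F') ((u : Place K F').ramificationIndex F) (x * g k.1 k.2.2)) :
    OrdGE v ((∑ k, m k : ℕ) : ℤ) (Algebra.norm F x) := by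
  classical
  obtain ⟨z', hz', ha⟩ := exists_isLocalFamily hs z hz g hg
  set a : LocalIndex F s (fun w => w.inertiaDeg F) → F' :=
    fun k => g k.1 k.2.2 * z' k.1 k.2.1 with hadef
  have hcard : Fintype.card (LocalIndex F s (fun w => w.inertiaDeg F)) = Module.finrank F F' := by
    rw [Fintype.card_sigma]
    simp only [Fintype.card_prod, Fintype.card_fin]
    rw [Finset.sum_coe_sort s (fun w => w.inertiaDeg F * w.ramificationIndex F), ← hsum]
    exact Finset.sum_congr rfl fun w _ => mul_comm _ _
  let b := basisOfLinearIndependentOfCardEqFinrank' a (ha.linearIndependent hs) hcard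
  have hb : ∀ k, b k = a k := fun k => by simp [b]
  rw [Algebra.norm_eq_matrix_det b]
  push_cast
  refine ordGE_det _ _ fun i k => ?_
  have haint : ∀ u : ↥s, OrdGE (u : Place K F') 0 (a k) := fun u => by
    rcases eq_or_ne u k.1 with h | h
    · exact h ▸ (ha.self k).mono (by positivity)
    · exact (ha.other k u h).mono (by positivity)
  have hrepr : ∀ y : F', ∑ j, algebraMap F F' (b.repr y j) * a j = y := fun y => by
    conv_rhs => rw [← b.sum_repr y]
    exact Finset.sum_congr rfl fun j _ => by rw [Algebra.smul_def, hb]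
  have hnn : ∀ j, OrdGE v 0 (b.repr (x * a k) j) :=
    ha.coeff_nonneg hs fun u => by rw [hrepr]; simpa using (hx u).mul (haint u)
  rw [Algebra.leftMulMatrix_eq_repr_mul, hb]
  rcases Nat.le_one_iff_eq_zero_or_eq_one.mp (hm k) with h | h
  · simpa [h] using hnn i
  · simpa [h] using ha.coeff_pos hs hnn (fun u => by
      rw [hrepr, hadef, ← mul_assoc]
      simpa using (hm1 k h u).mul (hz' k.1 k.2.1 u)) i

theorem ordGE_norm {x : F'} (hx : ∀ u ∈ s, OrdGE u 0 x) : OrdGE v 0 (Algebra.norm F x) := by
  choose z hz using fun w : ↥s => exists_resIndep_inertiaDeg F (w : Place K F')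
  choose g hg using fun (w : ↥s) (j : Fin ((w : Place K F').ramificationIndex F)) =>
    exists_approx_pow (F := F) w (j : ℕ)
  simpa using ordGE_norm_aux hs hsum z hz g hg x (fun u => hx u u.2) (fun _ => 0)
    (fun _ => Nat.zero_le _) (fun _ h => absurd h zero_ne_one)

theorem ord_norm_unit {x : F'} (hx0 : x ≠ 0) (hx : ∀ u ∈ s, u.ord x = 0) :
    v.ord (Algebra.norm F x) = 0 := by
  have h1 := (ordGE_norm hs hsum (x := x) fun u hu => Or.inr (hx u hu).ge).le_ord
    (Algebra.norm_ne_zero_iff.mpr hx0)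
  have h2 := (ordGE_norm hs hsum (x := x⁻¹) fun u hu => Or.inr (by rw [u.ord_inv, hx u hu]; simp)).le_ord
    (Algebra.norm_ne_zero_iff.mpr (inv_ne_zero hx0))
  rw [Algebra.norm_inv, v.ord_inv] at h2
  omega

theorem inertiaDeg_le_ord_norm {x : F'} (hx0 : x ≠ 0) {w₀ : Place K F'} (hw₀ : w₀ ∈ s)
    (h1 : w₀.ord x = 1) (h0 : ∀ u ∈ s, u ≠ w₀ → u.ord x = 0) :
    (w₀.inertiaDeg F : ℤ) ≤ v.ord (Algebra.norm F x) := by
  classical
  choose z hz using fun w : ↥s => exists_resIndep_inertiaDeg F (w : Place K F')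
  choose g hg using fun (w : ↥s) (j : Fin ((w : Place K F').ramificationIndex F)) =>
    exists_approx_pow (F := F) w (j : ℕ)
  obtain ⟨t, ht0, ht⟩ := exists_uniformizer v
  set T := algebraMap F F' t with hT
  have hT0 : T ≠ 0 := by simpa [hT] using ht0
  have hTord : ∀ u : ↥s, (u : Place K F').ord T = (u : Place K F').ramificationIndex F := fun u => by
    rw [hT, Place.ord_restrict, hs u u.2, ht, mul_one]
  -- replace the top power at `w₀` by `t / x`
  let top : (w : ↥s) → Fin ((w : Place K F').ramificationIndex F) → Prop :=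
    fun w j => (w : Place K F') = w₀ ∧ (j : ℕ) + 1 = (w : Place K F').ramificationIndex F
  let g' : (w : ↥s) → Fin ((w : Place K F').ramificationIndex F) → F' :=
    fun w j => if top w j then T / x else g w j
  have hg' : ∀ (w : ↥s) j, g' w j ≠ 0 ∧ (w : Place K F').ord (g' w j) = ((j : ℕ) : ℤ) ∧
      ∀ u : ↥s, u ≠ w → OrdGE (u : Place K F') ((u : Place K F').ramificationIndex F) (g' w j) := by
    intro w j
    by_cases h : top w j
    · simp only [g', if_pos h]
      obtain ⟨hw, hj⟩ := h
      refine ⟨div_ne_zero hT0 hx0, ?_, fun u hu => Or.inr ?_⟩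
      · have h1' : (w : Place K F').ord x = 1 := by rw [hw]; exact h1
        rw [ord_div _ hT0 hx0, hTord, h1']
        omega
      · rw [ord_div _ hT0 hx0, hTord, h0 u u.2 (fun h' => hu (Subtype.ext (h'.trans hw.symm)))]
        simp
    · simp only [g', if_neg h]
      exact hg w j
  let m : LocalIndex F s (fun w => w.inertiaDeg F) → ℕ := fun k => if top k.1 k.2.2 then 1 else 0
  have hx' : ∀ u : ↥s, OrdGE (u : Place K F') 0 x := fun u => Or.inr (by
    rcases eq_or_ne (u : Place K F') w₀ with h | h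
    · rw [h, h1]; omega
    · rw [h0 u u.2 h])
  have key := ordGE_norm_aux hs hsum z hz g' hg' x hx' m
    (fun k => by simp only [m]; split <;> omega)
    (fun k hk u => by
      have htop : top k.1 k.2.2 := by by_contra h; simp [m, h] at hk
      simp only [g', if_pos htop]
      rw [mul_div_cancel₀ _ hx0]
      exact Or.inr (hTord u).ge)
  refine le_trans ?_ (key.le_ord (Algebra.norm_ne_zero_iff.mpr hx0))
  have hpos := w₀.ramificationIndex_pos (F := F)
  let emb : Fin (w₀.inertiaDeg F) → LocalIndex F s (fun w => w.inertiaDeg F) :=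
    fun i => ⟨⟨w₀, hw₀⟩, i, ⟨w₀.ramificationIndex F - 1, by simp only; omega⟩⟩
  have hemb : Function.Injective emb := fun i i' h => by simpa [emb] using h
  have hle : ∑ i, m (emb i) ≤ ∑ k, m k := by
    rw [← Finset.sum_image (g := emb) fun i _ i' _ h => hemb h]
    exact Finset.sum_le_univ_sum_of_nonneg fun _ => Nat.zero_le _
  have hone : ∀ i, m (emb i) = 1 := fun i => by
    simp only [m, emb, top]
    rw [if_pos]
    exact ⟨trivial, by omega⟩
  simp only [hone, Finset.sum_const, Finset.card_univ, Fintype.card_fin, smul_eq_mul, mul_one] at hle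
  exact_mod_cast hle

/-- The order of a norm, when `∑ e f = n`. -/
theorem ord_norm {y : F'} (hy : y ≠ 0) :
    v.ord (Algebra.norm F y) = ∑ w ∈ s, w.ord y * (w.inertiaDeg F : ℤ) := by
  classical
  have hpi : ∀ w ∈ s, ∃ p : F', p ≠ 0 ∧ w.ord p = 1 ∧ ∀ u ∈ s, u ≠ w → u.ord p = 0 := fun w hw => by
    obtain ⟨p₀, hp₀, hp₀o⟩ := exists_uniformizer w
    obtain ⟨p, hp⟩ := exists_approx s (fun u => if u = w then p₀ else 1) 2
    have hw' := hp w hw
    rw [if_pos rfl] at hw'
    have hp1 : w.ord p = 1 ∧ p ≠ 0 := by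
      rcases hw' with h | h
      · rw [sub_eq_zero] at h; subst h; exact ⟨hp₀o, hp₀⟩
      · have e : p = p₀ + (p - p₀) := by ring
        refine ⟨?_, ?_⟩
        · rw [e, ord_add_eq_left _ hp₀ fun _ => by omega, hp₀o]
        · rintro rfl
          rw [zero_sub, ord_neg, hp₀o] at h
          omega
    refine ⟨p, hp1.2, hp1.1, fun u hu hne => ?_⟩
    have hu' := hp u hu
    rw [if_neg hne] at hu'
    rcases hu' with h | h
    · rw [sub_eq_zero.mp h, u.ord_one]
    · have e : p = 1 + (p - 1) := by ring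
      rw [e, ord_add_eq_left _ one_ne_zero fun _ => by rw [u.ord_one]; omega, u.ord_one]
  choose! p hp0 hp1 hpz using hpi
  -- `ord (norm)` as a function of the orders
  have main : ∀ y : F', y ≠ 0 →
      v.ord (Algebra.norm F y) = ∑ w ∈ s, w.ord y * v.ord (Algebra.norm F (p w)) := by
    intro y hy
    set P : F' := ∏ w ∈ s, p w ^ w.ord y with hP
    have hP0 : P ≠ 0 := Finset.prod_ne_zero_iff.mpr fun w hw => zpow_ne_zero _ (hp0 w hw)
    have hPord : ∀ u ∈ s, u.ord P = u.ord y := fun u hu => by
      rw [hP, ord_prod u s fun w hw => zpow_ne_zero _ (hp0 w hw), Finset.sum_eq_single_of_mem u hu]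
      · rw [u.ord_zpow, hp1 u hu, mul_one]
      · intro w hw hne
        rw [u.ord_zpow, hpz w hw u hu hne.symm, mul_zero]
    have hu := ord_norm_unit hs hsum (x := y / P) (div_ne_zero hy hP0)
      (fun u hu => by rw [ord_div u hy hP0, hPord u hu, sub_self])
    rw [div_eq_mul_inv, map_mul, Algebra.norm_inv, ← div_eq_mul_inv,
      ord_div v (Algebra.norm_ne_zero_iff.mpr hy) (Algebra.norm_ne_zero_iff.mpr hP0),
      sub_eq_zero] at hu
    rw [hu, hP, map_prod, ord_prod v s fun w hw =>
      Algebra.norm_ne_zero_iff.mpr (zpow_ne_zero _ (hp0 w hw))]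
    exact Finset.sum_congr rfl fun w hw => by rw [norm_zpow', v.ord_zpow]
  have hle : ∀ w ∈ s, (w.ramificationIndex F : ℤ) * w.inertiaDeg F ≤
      (w.ramificationIndex F : ℤ) * v.ord (Algebra.norm F (p w)) := fun w hw =>
    mul_le_mul_of_nonneg_left
      (inertiaDeg_le_ord_norm hs hsum (hp0 w hw) hw (hp1 w hw) (hpz w hw)) (by positivity)
  obtain ⟨t, ht0, ht⟩ := exists_uniformizer v
  have htn := main (algebraMap F F' t) (by simpa using ht0)
  rw [Algebra.norm_algebraMap, ord_pow, ht, mul_one] at htn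
  have htn' : (Module.finrank F F' : ℤ) =
      ∑ w ∈ s, (w.ramificationIndex F : ℤ) * v.ord (Algebra.norm F (p w)) := by
    rw [htn]
    exact Finset.sum_congr rfl fun w hw => by rw [w.ord_restrict, hs w hw, ht, mul_one]
  have hn : (∑ w ∈ s, (w.ramificationIndex F : ℤ) * w.inertiaDeg F) = (Module.finrank F F' : ℤ) := by
    exact_mod_cast hsum
  have heq := (Finset.sum_eq_sum_iff_of_le hle).mp (hn.trans htn')
  rw [main y hy]
  refine Finset.sum_congr rfl fun w hw => ?_
  rw [← mul_left_cancel₀ (by exact_mod_cast (w.ramificationIndex_pos (F := F)).ne') (heq w hw)]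

end Local

end Fermat.Agent.Curve

end
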