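/-
Function fields of one variable: finitely many zeros and poles, the degree of the zero divisor is
the degree of the extension, principal divisors have degree zero, finite residue fields.
-/
import Fermat.Agent.Curve.BasicLocal
import Fermat.Prelude.Def_AlgebraicCurve_Repartitions
import Mathlib.FieldTheory.IntermediateField.Adjoin.Algebra
import Mathlib.RingTheory.AlgebraicIndependent.Transcendental
import Mathlib.RingTheory.AlgebraicIndependent.TranscendenceBasis
import Mathlib.RingTheory.AlgebraicIndependent.AlgebraicClosure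
import Mathlib.RingTheory.Valuation.LocalSubring
import Mathlib.RingTheory.Noetherian.Basic
import Mathlib.LinearAlgebra.FiniteDimensional.Basic
import Mathlib.Algebra.Polynomial.Basis
import Mathlib.FieldTheory.IntermediateField.Adjoin.Basic
import Mathlib.LinearAlgebra.Dimension.Finrank
import Mathlib.RingTheory.EssentialFiniteness

set_option autoImplicit false

noncomputable section

namespace Fermat.Agent.Curve

open AlgebraicCurve IntermediateField

variable (K F : Type*) [Field K] [Field F] [Algebra K F]

/-- `F/K` is a function field of one variable. No separability is assumed. -/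
class IsFunctionFieldOne : Prop where
  exists_transcendental_finite : ∃ x : F, Transcendental K x ∧ Module.Finite K⟮x⟯ F

variable {K F}

theorem IsFunctionFieldOne.of_finite {x : F} (hx : Transcendental K x)
    [Module.Finite K⟮x⟯ F] : IsFunctionFieldOne K F :=
  ⟨⟨x, hx, inferInstance⟩⟩

variable [IsFunctionFieldOne K F]

instance (priority := 100) IsFunctionFieldOne.essFiniteType : Algebra.EssFiniteType K F := by
  obtain ⟨x, -, hfin⟩ := IsFunctionFieldOne.exists_transcendental_finite (K := K) (F := F)
  have : Algebra.EssFiniteType K K⟮x⟯ :=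
    IntermediateField.essFiniteType_iff.mpr (fg_adjoin_of_finite (Set.finite_singleton x))
  exact Algebra.EssFiniteType.comp K K⟮x⟯ F

/-- Any transcendental element is a transcendence basis. -/
theorem isTranscendenceBasis_of_transcendental {t : F} (ht : Transcendental K t) :
    IsTranscendenceBasis K (fun _ : Unit => t) := by
  obtain ⟨x, hx, hfin⟩ := IsFunctionFieldOne.exists_transcendental_finite (K := K) (F := F)
  have hxind : AlgebraicIndependent K (fun _ : Unit => x) :=
    algebraicIndependent_unique_type_iff.mpr hx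
  have hxalg : Algebra.IsAlgebraic (Algebra.adjoin K (Set.range fun _ : Unit => x)) F := by
    rw [Set.range_const, ← IntermediateField.isAlgebraic_adjoin_iff_top]
    exact Algebra.IsAlgebraic.of_finite _ _
  have hxB := hxind.isTranscendenceBasis_iff_isAlgebraic.mpr hxalg
  refine (algebraicIndependent_unique_type_iff.mpr ht).isTranscendenceBasis_of_lift_trdeg_le_of_finite ?_
  simpa using (hxB.lift_cardinalMk_eq_trdeg).ge

/-- A function field is finite over `K(t)` for every transcendental `t`. -/
theorem finite_adjoin_of_transcendental {t : F} (ht : Transcendental K t) :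
    Module.Finite K⟮t⟯ F := by
  have halg : Algebra.IsAlgebraic K⟮t⟯ F := by
    have h := (isTranscendenceBasis_of_transcendental ht).isAlgebraic_field
    rwa [Set.range_const] at h
  have : Algebra.EssFiniteType K⟮t⟯ F := Algebra.EssFiniteType.of_comp K _ _
  obtain ⟨s, hs⟩ := IntermediateField.fg_top K⟮t⟯ F
  have : FiniteDimensional K⟮t⟯ (IntermediateField.adjoin K⟮t⟯ (s : Set F)) :=
    IntermediateField.finiteDimensional_adjoin fun y _ => Algebra.IsIntegral.isIntegral y
  rw [hs] at this
  exact Module.Finite.equiv IntermediateField.topEquiv.toLinearEquiv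

theorem finrank_adjoin_pos {t : F} (ht : Transcendental K t) :
    0 < Module.finrank K⟮t⟯ F := by
  have := finite_adjoin_of_transcendental ht
  exact Module.finrank_pos

/-! ### The place `t = 0` of `K(t)` -/

omit [IsFunctionFieldOne K F] in
theorem aeval_mem (v : Place K F) {t : F} (ht : 0 ≤ v.ord t) (p : Polynomial K) :
    Polynomial.aeval t p ∈ v.toValuationSubring := by
  induction p using Polynomial.induction_on' with
  | add p q hp hq => rw [map_add]; exact add_mem hp hq
  | monomial n a =>
    rw [Polynomial.aeval_monomial]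
    exact mul_mem (v.algebraMap_mem' a) (pow_mem (mem_of_ord_nonneg v ht) n)

omit [IsFunctionFieldOne K F] in
theorem ordGE_aeval_sub_coeff_zero (v : Place K F) {t : F} (ht : 0 < v.ord t) (p : Polynomial K) :
    OrdGE v 1 (Polynomial.aeval t p - algebraMap K F (p.coeff 0)) := by
  have h : Polynomial.aeval t p - algebraMap K F (p.coeff 0) = t * Polynomial.aeval t p.divX := by
    have e := congrArg (Polynomial.aeval t) (Polynomial.X_mul_divX_add p)
    simp only [map_add, map_mul, Polynomial.aeval_X, Polynomial.aeval_C] at e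
    rw [← e]
    ring
  rw [h]
  simpa using (OrdGE.of_le (v := v) (n := 1) (f := t) ht).mul
    (ordGE_iff_mem.mpr (aeval_mem v ht.le p.divX))

omit [IsFunctionFieldOne K F] in
theorem ord_aeval_eq_zero (v : Place K F) {t : F} (ht : 0 < v.ord t) {p : Polynomial K}
    (hp : p.coeff 0 ≠ 0) : v.ord (Polynomial.aeval t p) = 0 ∧ Polynomial.aeval t p ≠ 0 := by
  have hc : algebraMap K F (p.coeff 0) ≠ 0 := by simpa using hp
  have h := ordGE_aeval_sub_coeff_zero v ht p
  have hne : Polynomial.aeval t p ≠ 0 := fun h0 => by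
    rw [h0, zero_sub] at h
    rcases h with h | h
    · exact hc (neg_eq_zero.mp h)
    · rw [ord_neg, ord_algebraMap] at h; omega
  refine ⟨?_, hne⟩
  rw [show Polynomial.aeval t p
      = algebraMap K F (p.coeff 0) + (Polynomial.aeval t p - algebraMap K F (p.coeff 0)) by ring,
    ord_add_eq_left v hc fun h0 => by rw [ord_algebraMap]; have := h.le_ord h0; omega,
    ord_algebraMap]

omit [IsFunctionFieldOne K F] in
theorem exists_decomposition {t : F} (ht : Transcendental K t) {φ : K⟮t⟯} (hφ : φ ≠ 0) :
    ∃ (k : ℤ) (p q : Polynomial K), p.coeff 0 ≠ 0 ∧ q.coeff 0 ≠ 0 ∧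
      φ = AdjoinSimple.gen K t ^ k *
        (Polynomial.aeval (AdjoinSimple.gen K t) p / Polynomial.aeval (AdjoinSimple.gen K t) q) := by
  obtain ⟨r, s, hrs⟩ := (mem_adjoin_simple_iff K (φ : F)).mp φ.2
  have hφF : (φ : F) ≠ 0 := by simpa using hφ
  have hr : r ≠ 0 := fun h => hφF (by simp [hrs, h])
  have hs : s ≠ 0 := fun h => hφF (by simp [hrs, h])
  obtain ⟨p, hp, hp0⟩ := Polynomial.exists_eq_pow_rootMultiplicity_mul_and_not_dvd r hr 0
  obtain ⟨q, hq, hq0⟩ := Polynomial.exists_eq_pow_rootMultiplicity_mul_and_not_dvd s hs 0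
  simp only [map_zero, sub_zero, Polynomial.X_dvd_iff] at hp hq hp0 hq0
  refine ⟨(r.rootMultiplicity 0 : ℤ) - s.rootMultiplicity 0, p, q, hp0, hq0, ?_⟩
  have ht0 : t ≠ 0 := fun h => ht (h ▸ isAlgebraic_zero)
  have hgen : AdjoinSimple.gen K t ≠ 0 := fun h => ht0 (by simpa using congrArg Subtype.val h)
  apply Subtype.ext
  have hco : ∀ f : Polynomial K, ((Polynomial.aeval (AdjoinSimple.gen K t) f : K⟮t⟯) : F)
      = Polynomial.aeval t f := fun f =>
    (Polynomial.aeval_algHom_apply (K⟮t⟯).val (AdjoinSimple.gen K t) f).symm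
  rw [zpow_sub₀ hgen, zpow_natCast, zpow_natCast]
  push_cast [AdjoinSimple.coe_gen]
  rw [hco, hco, hrs, div_mul_div_comm]
  congr 1
  · conv_lhs => rw [hp]
    simp
  · conv_lhs => rw [hq]
    simp

omit [IsFunctionFieldOne K F] in
theorem line_place_spec {t : F} (ht : Transcendental K t) (v : Place K K⟮t⟯)
    (hv : 0 < v.ord (AdjoinSimple.gen K t)) :
    v.ord (AdjoinSimple.gen K t) = 1 ∧ v.deg = 1 ∧ Module.Finite K v.ResidueField ∧
      ∀ v' : Place K K⟮t⟯, 0 < v'.ord (AdjoinSimple.gen K t) → v' = v := by
  set g := AdjoinSimple.gen K t with hg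
  have hg0 : g ≠ 0 := fun h => by simp [h] at hv
  have key : ∀ u : Place K K⟮t⟯, 0 < u.ord g → ∀ (k : ℤ) (p q : Polynomial K),
      p.coeff 0 ≠ 0 → q.coeff 0 ≠ 0 →
      u.ord (g ^ k * (Polynomial.aeval g p / Polynomial.aeval g q)) = k * u.ord g := by
    intro u hu k p q hp hq
    obtain ⟨h1, h1'⟩ := ord_aeval_eq_zero u hu hp
    obtain ⟨h2, h2'⟩ := ord_aeval_eq_zero u hu hq
    rw [u.ord_mul (zpow_ne_zero _ hg0) (div_ne_zero h1' h2'), u.ord_zpow, ord_div u h1' h2', h1, h2]
    ring
  have hone : v.ord g = 1 := by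
    obtain ⟨φ, hφ, hφ1⟩ := exists_ord_eq v 1
    obtain ⟨k, p, q, hp, hq, rfl⟩ := exists_decomposition ht hφ
    rw [key v hv k p q hp hq] at hφ1
    exact Int.eq_one_of_dvd_one hv.le ⟨k, by rw [mul_comm]; exact hφ1.symm⟩
  have huniq : ∀ v' : Place K K⟮t⟯, 0 < v'.ord g → v' = v := fun v' hv' => by
    refine place_eq_of_le fun φ hφ => ?_
    rcases eq_or_ne φ 0 with rfl | hφ0
    · exact zero_mem _
    obtain ⟨k, p, q, hp, hq, rfl⟩ := exists_decomposition ht hφ0
    have h := ord_nonneg_of_mem v' hφ
    rw [key v' hv' k p q hp hq] at h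
    refine mem_of_ord_nonneg v ?_
    rw [key v hv k p q hp hq]
    exact mul_nonneg (nonneg_of_mul_nonneg_left h hv') hv.le
  have hsurj : Function.Surjective (algebraMap K v.ResidueField) := by
    intro r
    obtain ⟨⟨φ, hφmem⟩, rfl⟩ := IsLocalRing.residue_surjective r
    suffices h : ∃ c : K, OrdGE v 1 (φ - algebraMap K K⟮t⟯ c) by
      obtain ⟨c, hc⟩ := h
      refine ⟨c, ?_⟩
      have hz := residue_eq_zero_of_ordGE
        (x := ⟨φ, hφmem⟩ - algebraMap K v.toValuationSubring c) (by simpa using hc)
      rw [map_sub, sub_eq_zero] at hz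
      exact hz.symm
    rcases eq_or_ne φ 0 with rfl | hφ0
    · exact ⟨0, by simp [OrdGE]⟩
    obtain ⟨k, p, q, hp, hq, rfl⟩ := exists_decomposition ht hφ0
    have hk := ord_nonneg_of_mem v hφmem
    rw [key v hv k p q hp hq, hone, mul_one] at hk
    rcases hk.lt_or_eq with hk | hk
    · exact ⟨0, Or.inr (by rw [map_zero, sub_zero, key v hv k p q hp hq, hone, mul_one]; omega)⟩
    subst hk
    refine ⟨p.coeff 0 / q.coeff 0, ?_⟩
    obtain ⟨h2, h2'⟩ := ord_aeval_eq_zero v hv hq
    rw [zpow_zero, one_mul, map_div₀]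
    set P := Polynomial.aeval g p
    set Q := Polynomial.aeval g q
    set p₀ := algebraMap K K⟮t⟯ (p.coeff 0)
    set q₀ := algebraMap K K⟮t⟯ (q.coeff 0) with hq₀
    have hq₀0 : q₀ ≠ 0 := by simpa [hq₀] using hq
    rw [show P / Q - p₀ / q₀ = ((P - p₀) * q₀ - p₀ * (Q - q₀)) * (Q * q₀)⁻¹ by field_simp; ring]
    have hinv : OrdGE v 0 (Q * q₀)⁻¹ := OrdGE.of_le (by
      rw [v.ord_inv, v.ord_mul h2' hq₀0, h2, hq₀, ord_algebraMap]; simp)
    have hc : ∀ c : K, OrdGE v 0 (algebraMap K K⟮t⟯ c) := fun c =>
      OrdGE.of_le (ord_algebraMap v c).ge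
    simpa using (((ordGE_aeval_sub_coeff_zero v hv p).mul (hc (q.coeff 0))).sub
      (by simpa using (hc (p.coeff 0)).mul (ordGE_aeval_sub_coeff_zero v hv q))).mul hinv
  have hbij : Function.Bijective (algebraMap K v.ResidueField) :=
    ⟨(algebraMap K v.ResidueField).injective, hsurj⟩
  let e : K ≃ₗ[K] v.ResidueField :=
    (AlgEquiv.ofBijective (Algebra.ofId K v.ResidueField) hbij).toLinearEquiv
  refine ⟨hone, ?_, Module.Finite.equiv e, huniq⟩
  show Module.finrank K v.ResidueField = 1
  rw [← e.finrank_eq, Module.finrank_self]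

omit [IsFunctionFieldOne K F] in
theorem ord_gen_restrict {t : F} [Algebra.IsIntegral K⟮t⟯ F] (w : Place K F) :
    w.ord t = w.ramificationIndex K⟮t⟯ * (w.restrict K⟮t⟯).ord (AdjoinSimple.gen K t) := by
  have h := w.ord_restrict (F := K⟮t⟯) (AdjoinSimple.gen K t)
  rwa [AdjoinSimple.algebraMap_gen] at h

omit [IsFunctionFieldOne K F] in
theorem ord_gen_restrict_pos {t : F} [Algebra.IsIntegral K⟮t⟯ F] {w : Place K F}
    (hw : 0 < w.ord t) : 0 < (w.restrict K⟮t⟯).ord (AdjoinSimple.gen K t) := by
  rw [ord_gen_restrict] at hw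
  exact pos_of_mul_pos_right hw (by positivity)

theorem finite_residueField (v : Place K F) : Module.Finite K v.ResidueField := by
  obtain ⟨t, ht0, ht⟩ := exists_uniformizer v
  have htr : Transcendental K t := transcendental_of_ord_ne_zero v (by omega)
  have := finite_adjoin_of_transcendental htr
  have hfin := (line_place_spec htr _ (ord_gen_restrict_pos (w := v) (by omega))).2.2.1
  have := finite_residueField_restrict (F := K⟮t⟯) v
  exact Module.Finite.trans (v.restrict K⟮t⟯).ResidueField v.ResidueField

theorem deg_pos (v : Place K F) : 0 < v.deg := by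
  have := finite_residueField v
  exact Module.finrank_pos

/-- Zeros of `t`, counted with multiplicity and degree, are at most `[F : K(t)]`. -/
theorem sum_ord_mul_deg_le {t : F} (ht : Transcendental K t) (s : Finset (Place K F))
    (hs : ∀ w ∈ s, 0 < w.ord t) :
    ∑ w ∈ s, w.ord t * (w.deg : ℤ) ≤ Module.finrank K⟮t⟯ F := by
  have := finite_adjoin_of_transcendental ht
  rcases s.eq_empty_or_nonempty with rfl | ⟨w₀, hw₀⟩
  · simp
  obtain ⟨h1, hdeg, -, huniq⟩ := line_place_spec ht _ (ord_gen_restrict_pos (hs w₀ hw₀))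
  have hres : ∀ w ∈ s, w.restrict K⟮t⟯ = w₀.restrict K⟮t⟯ :=
    fun w hw => huniq _ (ord_gen_restrict_pos (hs w hw))
  have h := sum_ramificationIndex_mul_inertiaDeg_le hres
  refine le_trans (le_of_eq ?_) (Int.ofNat_le.mpr h)
  push_cast
  refine Finset.sum_congr rfl fun w hw => ?_
  have hd := w.deg_restrict_mul_inertiaDeg (F := K⟮t⟯)
  rw [hres w hw, hdeg, one_mul] at hd
  rw [ord_gen_restrict w, hres w hw, h1, mul_one, hd]

theorem finite_setOf_ord_pos {t : F} (ht : Transcendental K t) :
    {v : Place K F | 0 < v.ord t}.Finite := by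
  by_contra h
  obtain ⟨s, hs, hcard⟩ := Set.Infinite.exists_subset_card_eq h (Module.finrank K⟮t⟯ F + 1)
  have h1 : ∀ w ∈ s, (1 : ℤ) ≤ w.ord t * (w.deg : ℤ) := fun w hw =>
    one_le_mul_of_one_le_of_one_le (hs hw) (by exact_mod_cast deg_pos w)
  have h2 := (Finset.card_nsmul_le_sum s _ 1 h1).trans
    (sum_ord_mul_deg_le ht s fun w hw => hs hw)
  rw [nsmul_one, hcard] at h2
  push_cast at h2
  omega

omit [IsFunctionFieldOne K F] in
theorem transcendental_inv {f : F} (h : Transcendental K f) : Transcendental K f⁻¹ :=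
  fun h' => h (by simpa using h'.inv)

theorem finite_setOf_ord_ne_zero (f : F) : {v : Place K F | v.ord f ≠ 0}.Finite := by
  by_cases hf : IsAlgebraic K f
  · refine Set.finite_empty.subset fun v hv => ?_
    exact hv (ord_eq_zero_of_isAlgebraic v hf)
  · refine ((finite_setOf_ord_pos hf).union (finite_setOf_ord_pos (transcendental_inv hf))).subset
      fun v (hv : v.ord f ≠ 0) => ?_
    simp only [Set.mem_union, Set.mem_setOf_eq, v.ord_inv]
    omega

variable (K) in
/-- The divisor of a function (zero for the zero function). -/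
def divisorOf (f : F) : Divisor K F :=
  Finsupp.ofSupportFinite (fun v => v.ord f)
    ((finite_setOf_ord_ne_zero (K := K) f).subset fun _ hv => hv)

@[simp]
theorem divisorOf_apply (f : F) (v : Place K F) : divisorOf K f v = v.ord f := rfl

variable (K) in
/-- The divisor of zeros of a function. -/
def zeroDivisor (f : F) : Divisor K F :=
  (divisorOf K f).mapRange (fun n => max n 0) (max_self 0)

@[simp]
theorem zeroDivisor_apply (f : F) (v : Place K F) :
    zeroDivisor K f v = max (v.ord f) 0 := rfl

variable (K) in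
/-- The divisor of poles of a function. -/
def poleDivisor (f : F) : Divisor K F := zeroDivisor K f⁻¹

@[simp]
theorem poleDivisor_apply (f : F) (v : Place K F) :
    poleDivisor K f v = max (-(v.ord f)) 0 := by
  rw [poleDivisor, zeroDivisor_apply, v.ord_inv]

theorem divisorOf_eq_sub (f : F) : divisorOf K f = zeroDivisor K f - poleDivisor K f := by
  ext v
  simp only [Finsupp.sub_apply, divisorOf_apply, zeroDivisor_apply, poleDivisor_apply]
  omega

/-! ### Existence of places -/

/-- A valuation subring of `F` containing the constants and having `t` as a non-unit is a place. -/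
theorem isPrincipalIdealRing_of_mem_nonunits {t : F} (ht : Transcendental K t)
    (V : ValuationSubring F) (hV : ∀ a : K, algebraMap K F a ∈ V) (htV : t ∈ V.nonunits) :
    IsPrincipalIdealRing V := by
  classical
  have hfin := finite_adjoin_of_transcendental ht
  have ht0 : t ≠ 0 := fun h => ht (h ▸ isAlgebraic_zero)
  have hτ1 : V.valuation t < 1 := V.mem_nonunits_iff.mp htV
  have hτ0 : (0 : V.ValueGroup) < V.valuation t :=
    zero_lt_iff.mpr ((Valuation.ne_zero_iff _).mpr ht0)
  -- polynomials in `t` with non-zero constant term are units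
  have hpoly : ∀ p : Polynomial K, p.coeff 0 ≠ 0 → V.valuation (Polynomial.aeval t p) = 1 := by
    intro p hp
    have hmem : ∀ q : Polynomial K, Polynomial.aeval t q ∈ V := fun q => by
      induction q using Polynomial.induction_on' with
      | add p q hp hq => rw [map_add]; exact add_mem hp hq
      | monomial n a =>
        rw [Polynomial.aeval_monomial]
        exact mul_mem (hV a) (pow_mem (ValuationSubring.nonunits_subset htV) n)
    have e := congrArg (Polynomial.aeval t) (Polynomial.X_mul_divX_add p)
    simp only [map_add, map_mul, Polynomial.aeval_X, Polynomial.aeval_C] at e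
    have hc : V.valuation (algebraMap K F (p.coeff 0)) = 1 := by
      refine le_antisymm ((V.valuation_le_one_iff _).mpr (hV _)) ?_
      have h := (V.valuation_le_one_iff _).mpr (hV (p.coeff 0)⁻¹)
      rw [map_inv₀, map_inv₀, inv_le_one₀ (zero_lt_iff.mpr ((Valuation.ne_zero_iff _).mpr
        (by simpa using hp)))] at h
      exact h
    have hlt : V.valuation (t * Polynomial.aeval t p.divX) < V.valuation (algebraMap K F (p.coeff 0)) := by
      rw [hc, map_mul]
      exact (mul_le_of_le_one_right' ((V.valuation_le_one_iff _).mpr (hmem _))).trans_lt hτ1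
    rw [← e, Valuation.map_add_eq_of_lt_right _ hlt, hc]
  have hline : ∀ φ : K⟮t⟯, φ ≠ 0 → ∃ k : ℤ, V.valuation (φ : F) = V.valuation t ^ k := by
    intro φ hφ
    obtain ⟨k, p, q, hp, hq, rfl⟩ := exists_decomposition ht hφ
    refine ⟨k, ?_⟩
    have hco : ∀ f : Polynomial K, ((Polynomial.aeval (AdjoinSimple.gen K t) f : K⟮t⟯) : F)
        = Polynomial.aeval t f := fun f =>
      (Polynomial.aeval_algHom_apply (K⟮t⟯).val (AdjoinSimple.gen K t) f).symm
    rw [← IntermediateField.algebraMap_apply, map_mul (algebraMap K⟮t⟯ F),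
      map_zpow₀ (algebraMap K⟮t⟯ F), map_div₀ (algebraMap K⟮t⟯ F)]
    simp only [IntermediateField.algebraMap_apply, AdjoinSimple.coe_gen, hco]
    rw [map_mul, map_zpow₀, map_div₀, hpoly p hp, hpoly q hq, div_one, mul_one]
  set n := Module.finrank K⟮t⟯ F
  set N := n.factorial
  have hN : N ≠ 0 := Nat.factorial_ne_zero n
  -- every value is torsion modulo the powers of `V.valuation t`
  have hval : ∀ a : F, a ≠ 0 → ∃ m : ℤ, V.valuation a ^ N = V.valuation t ^ m := by
    intro a ha
    suffices h : ∃ d : ℕ, 0 < d ∧ d ≤ n ∧ ∃ k : ℤ, V.valuation a ^ d = V.valuation t ^ k by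
      obtain ⟨d, hd0, hdn, k, hk⟩ := h
      obtain ⟨c, hc⟩ := Nat.dvd_factorial hd0 hdn
      refine ⟨k * c, ?_⟩
      rw [show N = d * c from hc, pow_mul, hk, zpow_mul, zpow_natCast]
    have hnli : ¬ LinearIndependent K⟮t⟯ fun i : Fin (n + 1) => a ^ (i : ℕ) := fun hli => by
      have := hli.fintype_card_le_finrank
      simp [n] at this
    obtain ⟨c, hc, i₀, hi₀⟩ := Fintype.not_linearIndependent_iff.mp hnli
    set y : Fin (n + 1) → F := fun i => (c i : F) * a ^ (i : ℕ)
    set S := Finset.univ.filter fun i => c i ≠ 0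
    have hsum : ∑ i ∈ S, y i = 0 := by
      rw [Finset.sum_filter_of_ne (p := fun i => c i ≠ 0) (f := y)
        fun i _ (h : y i ≠ 0) hci => h (by simp [y, hci]), ← hc]
      exact Finset.sum_congr rfl fun i _ => by
        rw [Algebra.smul_def, IntermediateField.algebraMap_apply]
    obtain ⟨j, hj, hmax⟩ := Finset.exists_max_image S (fun i => V.valuation (y i))
      ⟨i₀, by simp [S, hi₀]⟩
    have hy0 : ∀ i ∈ S, y i ≠ 0 := fun i hi =>
      mul_ne_zero (by simpa [S] using hi) (pow_ne_zero _ ha)
    obtain ⟨i, hi, hij, heq⟩ : ∃ i ∈ S, i ≠ j ∧ V.valuation (y i) = V.valuation (y j) := by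
      by_contra hne
      push Not at hne
      have h := V.valuation.map_sum_eq_of_lt hj (f := y) fun i hi => by
        simp only [Finset.mem_sdiff, Finset.mem_singleton] at hi
        exact lt_of_le_of_ne (hmax i hi.1) (hne i hi.1 hi.2)
      rw [hsum, map_zero] at h
      exact (Valuation.ne_zero_iff _).mpr (hy0 j hj) h.symm
    obtain ⟨ki, hki⟩ := hline (c i) (by simpa [S] using hi)
    obtain ⟨kj, hkj⟩ := hline (c j) (by simpa [S] using hj)
    have ha' : V.valuation a ≠ 0 := (Valuation.ne_zero_iff _).mpr ha
    simp only [y, map_mul, map_pow, hki, hkj] at heq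
    rcases lt_or_gt_of_ne (Fin.val_ne_of_ne hij) with hlt | hlt
    · obtain ⟨d, hd⟩ := Nat.exists_eq_add_of_lt hlt
      refine ⟨d + 1, by omega, by have := j.isLt; omega, ki - kj, ?_⟩
      rw [hd, add_assoc, pow_add, mul_left_comm, mul_comm (V.valuation t ^ ki)] at heq
      rw [zpow_sub₀ hτ0.ne', eq_div_iff (zpow_ne_zero _ hτ0.ne')]
      have := mul_left_cancel₀ (pow_ne_zero _ ha') heq
      rw [this, mul_comm]
    · obtain ⟨d, hd⟩ := Nat.exists_eq_add_of_lt hlt
      refine ⟨d + 1, by omega, by have := i.isLt; omega, kj - ki, ?_⟩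
      rw [hd, add_assoc, pow_add, mul_left_comm, mul_comm (V.valuation t ^ kj)] at heq
      rw [zpow_sub₀ hτ0.ne', eq_div_iff (zpow_ne_zero _ hτ0.ne')]
      have := mul_left_cancel₀ (pow_ne_zero _ ha') heq
      rw [← this, mul_comm]
  choose m hm using hval
  refine ⟨fun I => ?_⟩
  rcases eq_or_ne I ⊥ with rfl | hI
  · exact ⟨⟨0, by simp⟩⟩
  obtain ⟨g₀, hg₀, hg₀0⟩ := Submodule.exists_mem_ne_zero_of_ne_bot hI
  have hP : ∃ k : ℕ, ∃ g : V, g ∈ I ∧ ∃ hg : (g : F) ≠ 0, (m g hg).toNat = k :=
    ⟨_, g₀, hg₀, by simpa [ne_eq, ZeroMemClass.coe_eq_zero] using hg₀0, rfl⟩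
  obtain ⟨g, hg, hgF, hgk⟩ := Nat.find_spec hP
  refine ⟨⟨g, le_antisymm (fun a ha => ?_) (Ideal.span_le.mpr (by simpa using hg))⟩⟩
  rw [Ideal.submodule_span_eq, Ideal.mem_span_singleton]
  rcases eq_or_ne (a : F) 0 with h0 | h0
  · rw [show a = 0 from Subtype.ext h0]
    exact dvd_zero g
  have hnn : ∀ (b : V) (hb : (b : F) ≠ 0), 0 ≤ m b hb := fun b hb => by
    have h := pow_le_one₀ (n := N) zero_le' ((V.valuation_le_one_iff _).mpr b.2)
    rwa [hm _ hb, zpow_le_one_iff_right_of_lt_one₀ hτ0 hτ1] at h
  have hle : m g hgF ≤ m a h0 := by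
    have h1 := Nat.find_min' hP ⟨a, ha, h0, rfl⟩
    have h2 := hnn a h0
    have h3 := hnn g hgF
    omega
  have hv : V.valuation a ≤ V.valuation g := by
    rw [← pow_le_pow_iff_left₀ zero_le' zero_le' hN, hm _ h0, hm _ hgF,
      zpow_le_zpow_iff_right_of_lt_one₀ hτ0 hτ1]
    exact hle
  have hmem : (a : F) / g ∈ V := by
    rw [← V.valuation_le_one_iff, map_div₀]
    exact div_le_one_of_le₀ hv zero_le'
  exact ⟨⟨_, hmem⟩, Subtype.ext (by simp [mul_div_cancel₀ _ hgF])⟩

/-- Every transcendental element has a zero. -/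
theorem exists_place_ord_pos {t : F} (ht : Transcendental K t) :
    ∃ v : Place K F, 0 < v.ord t := by
  set A : Subring F := (Algebra.adjoin K {t}).toSubring
  have htA : t ∈ A := Algebra.self_mem_adjoin_singleton K t
  have hI : Ideal.span {(⟨t, htA⟩ : A)} ≠ ⊤ := by
    rw [ne_eq, Ideal.span_singleton_eq_top, isUnit_iff_exists_inv]
    rintro ⟨⟨b, hb⟩, h⟩
    have h' : t * b = 1 := congrArg Subtype.val h
    obtain ⟨p, rfl⟩ := (AlgHom.mem_range _).mp
      ((Algebra.adjoin_singleton_eq_range_aeval K t).le (hb : b ∈ Algebra.adjoin K {t}))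
    have := transcendental_iff_injective.mp ht
      (show Polynomial.aeval t (Polynomial.X * p) = Polynomial.aeval t 1 by simpa using h')
    exact Polynomial.not_isUnit_X (IsUnit.of_mul_eq_one _ this)
  obtain ⟨V, hAV, hVn⟩ := Ideal.image_subset_nonunits_valuationSubring _ hI
  have htV : t ∈ V.nonunits := hVn ⟨⟨t, htA⟩, Ideal.subset_span rfl, rfl⟩
  have hV : ∀ a : K, algebraMap K F a ∈ V := fun a =>
    hAV (Subalgebra.algebraMap_mem (Algebra.adjoin K {t}) a)
  have ht0 : t ≠ 0 := fun h => ht (h ▸ isAlgebraic_zero)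
  have htinv : t⁻¹ ∉ V := ((V.mem_nonunits_iff_or).mp htV).resolve_left ht0
  let v : Place K F :=
    { toValuationSubring := V
      algebraMap_mem' := hV
      ne_top' := fun h => htinv (h ▸ ValuationSubring.mem_top _)
      isPrincipalIdealRing' := isPrincipalIdealRing_of_mem_nonunits ht V hV htV }
  refine ⟨v, ?_⟩
  by_contra h
  exact htinv (mem_of_ord_nonneg v (f := t⁻¹) (by rw [v.ord_inv]; omega))

/-- A function without poles is algebraic over the constants. -/
theorem isAlgebraic_of_forall_ord_nonneg {f : F} (hf : ∀ v : Place K F, 0 ≤ v.ord f) :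
    IsAlgebraic K f := by
  by_contra h
  obtain ⟨v, hv⟩ := exists_place_ord_pos (transcendental_inv (K := K) h)
  rw [v.ord_inv] at hv
  have := hf v
  omega

/-! ### Finiteness of Riemann–Roch spaces -/

theorem finite_riemannRochSpace_aux (D : Divisor K F) (hD : 0 ≤ D) :
    Module.Finite K (riemannRochSpace D) ∧
      (Module.finrank K (riemannRochSpace D) : ℤ) ≤
        Module.finrank K (riemannRochSpace (0 : Divisor K F)) + Divisor.degree D := by
  classical
  induction D using Finsupp.induction with
  | zero =>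
    refine ⟨?_, by simp⟩
    obtain ⟨x, hx, -⟩ := IsFunctionFieldOne.exists_transcendental_finite (K := K) (F := F)
    obtain ⟨P, -⟩ := exists_place_ord_pos hx
    have hmem : ∀ f : riemannRochSpace (0 : Divisor K F), (f : F) ∈ P.toValuationSubring := fun f =>
      ordGE_iff_mem.mp (by simpa [OrdGE] using mem_riemannRochSpace_iff.mp f.2 P)
    have hzero : ∀ f : riemannRochSpace (0 : Divisor K F), (f : F) ≠ 0 →
        P.ord (f : F) = 0 := fun f hf =>
      ord_eq_zero_of_isAlgebraic P (isAlgebraic_of_forall_ord_nonneg fun v => by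
        simpa [hf] using mem_riemannRochSpace_iff.mp f.2 v)
    let g : riemannRochSpace (0 : Divisor K F) →ₗ[K] P.ResidueField :=
      { toFun := fun f => IsLocalRing.residue P.toValuationSubring ⟨f, hmem f⟩
        map_add' := fun f f' => map_add (IsLocalRing.residue P.toValuationSubring) ⟨f, hmem f⟩ ⟨f', hmem f'⟩
        map_smul' := fun c f => by
          rw [RingHom.id_apply, Algebra.smul_def, IsScalarTower.algebraMap_apply K P.toValuationSubring
            P.ResidueField, IsLocalRing.ResidueField.algebraMap_eq, ← map_mul]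
          exact congrArg _ (Subtype.ext (Algebra.smul_def c (f : F))) }
    have := finite_residueField P
    refine Module.Finite.of_injective g ((injective_iff_map_eq_zero g).mpr fun f hf => ?_)
    by_contra hne
    have hne' : (f : F) ≠ 0 := fun h => hne (Subtype.ext h)
    have h1 := (ordGE_mk_of_residue_eq_zero (x := ⟨(f : F), hmem f⟩) hf).le_ord hne'
    rw [hzero f hne'] at h1
    omega
  | single_add v k D hvD hk ih =>
    have hDv : D v = 0 := Finsupp.notMem_support_iff.mp hvD
    have hk0 : 0 ≤ k := by have := hD v; simpa [hDv] using this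
    have hD' : 0 ≤ D := fun u => by
      rcases eq_or_ne u v with rfl | h
      · simp [hDv]
      · simpa [Finsupp.single_eq_of_ne h] using hD u
    obtain ⟨hfin, hle⟩ := ih hD'
    obtain ⟨j, rfl⟩ := Int.eq_ofNat_of_zero_le hk0
    clear hk hk0 hD
    induction j with
    | zero => rw [Nat.cast_zero, Finsupp.single_zero, zero_add]; exact ⟨hfin, hle⟩
    | succ j ihj =>
      obtain ⟨hfin', hle'⟩ := ihj
      set E := Finsupp.single v (j : ℤ) + D with hE
      set E' := Finsupp.single v ((j + 1 : ℕ) : ℤ) + D with hE'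
      have hEv : E v = (j : ℤ) := by simp [hE, hDv]
      have hE'v : E' v = (j : ℤ) + 1 := by simp [hE', hDv]
      have hEu : ∀ u, u ≠ v → E' u = E u := fun u hu => by
        simp [hE, hE', Finsupp.single_eq_of_ne hu]
      have hmono : riemannRochSpace E ≤ riemannRochSpace E' := fun f hf => by
        rw [mem_riemannRochSpace_iff] at hf ⊢
        intro u
        refine (hf u).imp_right fun h => ?_
        rcases eq_or_ne u v with rfl | hu
        · omega
        · rw [hEu u hu]; exact h
      obtain ⟨p, hp0, hp⟩ := exists_ord_eq v ((j : ℤ) + 1)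
      have hmem : ∀ f : riemannRochSpace E', (f : F) * p ∈ v.toValuationSubring := fun f => by
        rw [← ordGE_iff_mem]
        have h : OrdGE v (-((j : ℤ) + 1)) (f : F) := hE'v ▸ mem_riemannRochSpace_iff.mp f.2 v
        simpa using h.mul (OrdGE.of_le hp.ge)
      let g : riemannRochSpace E' →ₗ[K] v.ResidueField :=
        { toFun := fun f => IsLocalRing.residue _ ⟨(f : F) * p, hmem f⟩
          map_add' := fun f f' => by
            rw [← map_add]; exact congrArg _ (Subtype.ext (add_mul (f : F) f' p))
          map_smul' := fun c f => by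
            rw [RingHom.id_apply, Algebra.smul_def, IsScalarTower.algebraMap_apply K
              v.toValuationSubring v.ResidueField, IsLocalRing.ResidueField.algebraMap_eq, ← map_mul]
            exact congrArg _ (Subtype.ext (by
              show (c • (f : F)) * p = _
              rw [Algebra.smul_def, mul_assoc]; rfl)) }
      have hker : LinearMap.ker g ≤ (riemannRochSpace E).comap (riemannRochSpace E').subtype := by
        intro f hf
        rw [Submodule.mem_comap, Submodule.subtype_apply, mem_riemannRochSpace_iff]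
        intro u
        rcases eq_or_ne u v with rfl | hu
        · rcases ordGE_mk_of_residue_eq_zero (x := ⟨(f : F) * p, hmem f⟩) (LinearMap.mem_ker.mp hf) with h | h
          · exact Or.inl ((mul_eq_zero.mp h).resolve_right hp0)
          · rcases eq_or_ne (f : F) 0 with h0 | h0
            · exact Or.inl h0
            · refine Or.inr ?_
              rw [u.ord_mul h0 hp0, hp] at h
              omega
        · rw [← hEu u hu]; exact mem_riemannRochSpace_iff.mp f.2 u
      have hres := finite_residueField v
      let e := Submodule.comapSubtypeEquivOfLe hmono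
      have := hfin'
      have : Module.Finite K ((riemannRochSpace E).comap (riemannRochSpace E').subtype) :=
        Module.Finite.equiv e.symm
      have hkerfin : Module.Finite K (LinearMap.ker g) := Submodule.finiteDimensional_of_le hker
      have : Module.Finite K (riemannRochSpace E' ⧸ LinearMap.ker g) :=
        Module.Finite.of_injective _ (LinearMap.ker_eq_bot.mp
          (Submodule.ker_liftQ_eq_bot' (LinearMap.ker g) g rfl))
      have hfinE' : Module.Finite K (riemannRochSpace E') :=
        Module.Finite.of_submodule_quotient (LinearMap.ker g)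
      refine ⟨hfinE', ?_⟩
      have h1 := LinearMap.finrank_range_add_finrank_ker g
      have h2 : Module.finrank K (LinearMap.range g) ≤ v.deg := Submodule.finrank_le _
      have h3 := (Submodule.finrank_mono hker).trans e.finrank_eq.le
      rw [map_add, Divisor.degree_single] at hle' ⊢
      push_cast
      rw [add_mul, one_mul]
      omega

theorem finite_riemannRochSpace (D : Divisor K F) : Module.Finite K (riemannRochSpace D) := by
  classical
  set E : Divisor K F := D.mapRange (fun n => max n 0) (max_self 0)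
  have hE : 0 ≤ E := fun v => by simp [E]
  have hle : riemannRochSpace D ≤ riemannRochSpace E := fun f hf => by
    rw [mem_riemannRochSpace_iff] at hf ⊢
    intro v
    refine (hf v).imp_right fun h => ?_
    simp only [E, Finsupp.mapRange_apply]
    omega
  have := (finite_riemannRochSpace_aux E hE).1
  exact Module.Finite.of_injective _ (Submodule.inclusion_injective hle)

theorem finrank_riemannRochSpace_le {D : Divisor K F} (hD : 0 ≤ D) :
    (Module.finrank K (riemannRochSpace D) : ℤ) ≤
      Module.finrank K (riemannRochSpace (0 : Divisor K F)) + Divisor.degree D :=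
  (finite_riemannRochSpace_aux D hD).2

/-! ### The degree of the divisor of a function -/

theorem degree_zeroDivisor_le {t : F} (ht : Transcendental K t) :
    Divisor.degree (zeroDivisor K t) ≤ (Module.finrank K⟮t⟯ F : ℤ) := by
  rw [Divisor.degree, Finsupp.liftAddHom_apply, Finsupp.sum]
  have hpos : ∀ w ∈ (zeroDivisor K t).support, 0 < w.ord t := fun w hw => by
    rw [Finsupp.mem_support_iff, zeroDivisor_apply] at hw
    omega
  refine le_trans (le_of_eq (Finset.sum_congr rfl fun w hw => ?_)) (sum_ord_mul_deg_le ht _ hpos)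
  simp only [AddMonoidHom.coe_mulRight, zeroDivisor_apply]
  rw [max_eq_left (hpos w hw).le]

omit [IsFunctionFieldOne K F] in
theorem adjoin_inv (t : F) : K⟮t⁻¹⟯ = K⟮t⟯ := by
  refine le_antisymm (adjoin_simple_le_iff.mpr (inv_mem (mem_adjoin_simple_self K t)))
    (adjoin_simple_le_iff.mpr ?_)
  simpa using inv_mem (mem_adjoin_simple_self K t⁻¹)

omit [IsFunctionFieldOne K F] in
theorem finrank_adjoin_inv (t : F) :
    Module.finrank K⟮t⁻¹⟯ F = Module.finrank K⟮t⟯ F := by rw [adjoin_inv]

/-- The number of poles of `t`, with multiplicity, is `[F : K(t)]`. -/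
theorem degree_poleDivisor {t : F} (ht : Transcendental K t) :
    Divisor.degree (poleDivisor K t) = (Module.finrank K⟮t⟯ F : ℤ) := by
  classical
  refine le_antisymm ((degree_zeroDivisor_le (transcendental_inv ht)).trans_eq
    (by rw [finrank_adjoin_inv])) ?_
  by_contra hlt
  have := finite_adjoin_of_transcendental ht
  set n := Module.finrank K⟮t⟯ F with hn
  set B := poleDivisor K t with hB
  let b := Module.finBasis K⟮t⟯ F
  set C : Divisor K F := ∑ i, poleDivisor K (b i) with hC
  have hC0 : ∀ v, 0 ≤ C v := fun v => by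
    rw [hC, Finsupp.finsetSum_apply]; exact Finset.sum_nonneg fun i _ => by simp
  have hCb : ∀ i v, -(C v) ≤ v.ord (b i) := fun i v => by
    have : poleDivisor K (b i) v ≤ C v := by
      rw [hC, Finsupp.finsetSum_apply]
      exact Finset.single_le_sum (f := fun i => poleDivisor K (b i) v) (fun i _ => by simp)
        (Finset.mem_univ i)
    rw [poleDivisor_apply] at this
    omega
  set d₀ := Module.finrank K (riemannRochSpace (0 : Divisor K F)) with hd₀
  have hbound : ∀ l : ℕ, (n : ℤ) * (l + 1) ≤
      d₀ + ((l : ℤ) * Divisor.degree B + Divisor.degree C) := by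
    intro l
    set D := (l : ℤ) • B + C with hD
    have hD0 : 0 ≤ D := fun v => by
      simpa [hD, hB] using add_nonneg (mul_nonneg (Int.natCast_nonneg l) (le_max_right _ _)) (hC0 v)
    have hfam : ∀ (j : Fin (l + 1)) (i : Fin n), t ^ (j : ℕ) * b i ∈ riemannRochSpace D := by
      intro j i
      rw [mem_riemannRochSpace_iff]
      intro v
      refine Or.inr ?_
      have ht0 : t ≠ 0 := fun h => ht (h ▸ isAlgebraic_zero)
      rw [v.ord_mul (pow_ne_zero _ ht0) (b.ne_zero i), ord_pow]
      have h1 := hCb i v
      have hjl : ((j : ℕ) : ℤ) ≤ l := by have := j.isLt; omega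
      have h2 : -((l : ℤ) * max (-(v.ord t)) 0) ≤ ((j : ℕ) : ℤ) * v.ord t := by
        rcases le_or_gt 0 (v.ord t) with h | h
        · exact le_trans (neg_nonpos.mpr (mul_nonneg (Int.natCast_nonneg l) (le_max_right _ _)))
            (mul_nonneg (Int.natCast_nonneg _) h)
        · rw [max_eq_left (by omega), mul_neg, neg_neg]
          exact mul_le_mul_of_nonpos_right hjl h.le
      simp only [hD, hB, Finsupp.add_apply, Finsupp.smul_apply, smul_eq_mul, poleDivisor_apply]
      linarith
    have hpow : LinearIndependent K fun j : Fin (l + 1) =>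
        AdjoinSimple.gen K t ^ (j : ℕ) := by
      have hinj : Function.Injective
          (Polynomial.aeval (AdjoinSimple.gen K t) : Polynomial K →ₐ[K] K⟮t⟯) := by
        refine Function.Injective.of_comp (f := (K⟮t⟯).val) ?_
        have := transcendental_iff_injective.mp ht
        convert this using 1
        funext f
        exact (Polynomial.aeval_algHom_apply (K⟮t⟯).val (AdjoinSimple.gen K t) f).symm
      have h := ((Polynomial.basisMonomials K).linearIndependent.comp (fun j : Fin (l + 1) => (j : ℕ))
        Fin.val_injective).map' (Polynomial.aeval (AdjoinSimple.gen K t)).toLinearMap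
          (LinearMap.ker_eq_bot.mpr hinj)
      simpa [Function.comp_def, Polynomial.coe_basisMonomials] using h
    have hli : LinearIndependent K fun p : Fin (l + 1) × Fin n => t ^ (p.1 : ℕ) * b p.2 := by
      have h := linearIndependent_smul hpow b.linearIndependent
      convert h using 1
      funext p
      rw [Algebra.smul_def]
      simp
    have := finite_riemannRochSpace D
    have hcard := (LinearIndependent.of_comp (riemannRochSpace D).subtype
      (v := fun p : Fin (l + 1) × Fin n => (⟨_, hfam p.1 p.2⟩ : riemannRochSpace D))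
      hli).fintype_card_le_finrank
    rw [Fintype.card_prod, Fintype.card_fin, Fintype.card_fin] at hcard
    have h3 := finrank_riemannRochSpace_le hD0
    rw [hD, map_add, map_zsmul, smul_eq_mul] at h3
    have h4 : ((l + 1) * n : ℕ) ≤ (Module.finrank K (riemannRochSpace D) : ℤ) := by exact_mod_cast hcard
    push_cast at h4
    linarith
  push Not at hlt
  obtain ⟨L, hL⟩ : ∃ L : ℕ, (d₀ : ℤ) + Divisor.degree C < L :=
    ⟨((d₀ : ℤ) + Divisor.degree C).toNat + 1, by omega⟩
  have h := hbound L
  have h' : (L : ℤ) * Divisor.degree B ≤ (L : ℤ) * ((n : ℤ) - 1) :=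
    mul_le_mul_of_nonneg_left (by omega) (Int.natCast_nonneg L)
  have hn0 : (0 : ℤ) ≤ n := Int.natCast_nonneg n
  nlinarith

/-- The number of zeros of `t`, with multiplicity, is `[F : K(t)]`. -/
theorem degree_zeroDivisor {t : F} (ht : Transcendental K t) :
    Divisor.degree (zeroDivisor K t) = (Module.finrank K⟮t⟯ F : ℤ) := by
  have h := degree_poleDivisor (transcendental_inv ht)
  rwa [poleDivisor, inv_inv, finrank_adjoin_inv] at h

theorem degree_divisorOf (f : F) : Divisor.degree (divisorOf K f) = 0 := by
  by_cases hf : IsAlgebraic K f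
  · rw [show divisorOf K f = 0 from Finsupp.ext fun v => by simp [ord_eq_zero_of_isAlgebraic v hf],
      map_zero]
  · rw [divisorOf_eq_sub, map_sub, degree_zeroDivisor hf, degree_poleDivisor hf, sub_self]

instance (priority := 100) IsFunctionFieldOne.hasPrincipalDivisors : HasPrincipalDivisors K F :=
  ⟨fun f _ => ⟨divisorOf K f, divisorOf_apply f, degree_divisorOf f⟩⟩

end Fermat.Agent.Curve

end
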