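/-
`IsCurveOver` for function fields of one variable: Kähler differentials and separating elements.
-/
import Fermat.Agent.Curve.BasicFunctionField
import Fermat.Prelude.Def_AlgebraicCurve_IsCurveOver
import Mathlib.FieldTheory.Perfect
import Mathlib.FieldTheory.SeparablyGenerated
import Mathlib.RingTheory.Etale.Field
import Mathlib.RingTheory.Etale.Kaehler
import Mathlib.RingTheory.Kaehler.Polynomial
import Mathlib.LinearAlgebra.TensorProduct.Basis

set_option autoImplicit false

noncomputable section

namespace Fermat.Agent.Curve

open AlgebraicCurve IntermediateField KaehlerDifferential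
open scoped TensorProduct

variable {K F : Type*} [Field K] [Field F] [Algebra K F]

open scoped IntermediateField.algebraAdjoinAdjoin in
/-- The differentials of a separating transcendence basis form a basis. -/
theorem exists_basis_D_of_isSeparable {ι : Type} {v : ι → F} (hv : AlgebraicIndependent K v)
    [Algebra.IsSeparable (IntermediateField.adjoin K (Set.range v)) F] :
    ∃ b : Module.Basis ι F Ω[F⁄K], ∀ i, b i = KaehlerDifferential.D K F (v i) := by
  let P := MvPolynomial ι K
  let A := Algebra.adjoin K (Set.range v)
  letI : Algebra P A := hv.aevalEquiv.toAlgHom.toRingHom.toAlgebra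
  letI : Algebra P F := (MvPolynomial.aeval v).toRingHom.toAlgebra
  haveI : IsScalarTower K P F := IsScalarTower.of_algebraMap_eq fun c =>
    ((MvPolynomial.aeval v).commutes c).symm
  haveI : IsScalarTower P A F := IsScalarTower.of_algebraMap_eq fun p => rfl
  haveI : Algebra.FormallyEtale P A :=
    Algebra.FormallyEtale.of_equiv (AlgEquiv.ofBijective (Algebra.ofId P A) hv.aevalEquiv.bijective)
  haveI : Algebra.FormallyEtale A (IntermediateField.adjoin K (Set.range v)) :=
    Algebra.FormallyEtale.of_isLocalization (nonZeroDivisors _)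
  haveI : Algebra.FormallyEtale (IntermediateField.adjoin K (Set.range v)) F :=
    Algebra.FormallyEtale.of_isSeparable _ F
  haveI : Algebra.FormallyEtale A F :=
    Algebra.FormallyEtale.comp A (IntermediateField.adjoin K (Set.range v)) F
  haveI : Algebra.FormallyEtale P F := Algebra.FormallyEtale.comp P A F
  refine ⟨((KaehlerDifferential.mvPolynomialBasis K ι).baseChange F).map
    (KaehlerDifferential.tensorKaehlerEquivOfFormallyEtale K P F), fun i => ?_⟩
  rw [Module.Basis.map_apply, Module.Basis.baseChange_apply,
    KaehlerDifferential.mvPolynomialBasis_apply, tensorKaehlerEquivOfFormallyEtale_apply,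
    KaehlerDifferential.mapBaseChange_tmul, one_smul, KaehlerDifferential.map_D]
  exact congrArg _ (MvPolynomial.aeval_X v i)

theorem exists_basis_D_of_separating {x : F} (hx : Transcendental K x)
    [Algebra.IsSeparable K⟮x⟯ F] :
    ∃ b : Module.Basis Unit F Ω[F⁄K], b () = KaehlerDifferential.D K F x := by
  have : Algebra.IsSeparable (IntermediateField.adjoin K (Set.range fun _ : Unit => x)) F := by
    rw [Set.range_const]; infer_instance
  obtain ⟨b, hb⟩ := exists_basis_D_of_isSeparable (v := fun _ : Unit => x)
    (algebraicIndependent_unique_type_iff.mpr hx)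
  exact ⟨b, hb ()⟩

/-- For a separating element `x`, `D x` is a basis of the Kähler differentials. -/
theorem D_ne_zero_of_isSeparable {x : F} (hx : Transcendental K x)
    [Algebra.IsSeparable K⟮x⟯ F] : KaehlerDifferential.D K F x ≠ 0 := by
  obtain ⟨b, hb⟩ := exists_basis_D_of_separating hx
  exact hb ▸ b.ne_zero ()

theorem kaehler_free_rank_one_of_isSeparable {x : F} (hx : Transcendental K x)
    [Algebra.IsSeparable K⟮x⟯ F] :
    Module.Free F Ω[F⁄K] ∧ Module.finrank F Ω[F⁄K] = 1 := by
  obtain ⟨b, -⟩ := exists_basis_D_of_separating hx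
  exact ⟨Module.Free.of_basis b, by rw [Module.finrank_eq_card_basis b, Fintype.card_unit]⟩

theorem exists_separating [PerfectField K] [IsFunctionFieldOne K F] :
    ∃ x : F, Transcendental K x ∧ Module.Finite K⟮x⟯ F ∧ Algebra.IsSeparable K⟮x⟯ F := by
  obtain ⟨s, hs, hsep⟩ := exists_isTranscendenceBasis_and_isSeparable_of_perfectField K F
  obtain ⟨t, ht, -⟩ := IsFunctionFieldOne.exists_transcendental_finite (K := K) (F := F)
  have hcard := hs.lift_cardinalMk_eq (isTranscendenceBasis_of_transcendental ht)
  simp only [Cardinal.mk_fintype, Fintype.card_coe, Fintype.card_unit, Cardinal.lift_natCast,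
    Nat.cast_inj] at hcard
  obtain ⟨x, rfl⟩ := Finset.card_eq_one.mp hcard
  have hx : Transcendental K x := by
    have := (hs.1).transcendental ⟨x, Finset.mem_singleton_self x⟩
    simpa using this
  rw [Finset.coe_singleton] at hsep
  exact ⟨x, hx, finite_adjoin_of_transcendental hx, hsep⟩

theorem isCurveOver_of_isSeparable {x : F} (hx : Transcendental K x) [Module.Finite K⟮x⟯ F]
    [Algebra.IsSeparable K⟮x⟯ F] : IsCurveOver K F :=
  haveI := IsFunctionFieldOne.of_finite hx
  { finiteResidue := finite_residueField
    kaehler_free_rank_one := kaehler_free_rank_one_of_isSeparable hx }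

instance (priority := 100) IsFunctionFieldOne.isCurveOver [PerfectField K]
    [IsFunctionFieldOne K F] : IsCurveOver K F :=
  let ⟨_, hx, hfin, hsep⟩ := exists_separating (K := K) (F := F)
  haveI := hfin
  haveI := hsep
  isCurveOver_of_isSeparable hx

theorem isFunctionFieldOne_of_isCurveOver [PerfectField K] [IsCurveOver K F]
    [Algebra.EssFiniteType K F] : IsFunctionFieldOne K F := by
  obtain ⟨s, hs, hsep⟩ := exists_isTranscendenceBasis_and_isSeparable_of_perfectField K F
  let e : Fin s.card ≃ s := s.equivFin.symm
  have hr : Set.range (fun i => (e i : F)) = (s : Set F) := by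
    rw [show (fun i => (e i : F)) = Subtype.val ∘ e from rfl, Set.range_comp, e.range_eq_univ,
      Set.image_univ]
    exact Subtype.range_val
  have : Algebra.IsSeparable (IntermediateField.adjoin K (Set.range fun i => (e i : F))) F := by
    rw [hr]; exact hsep
  obtain ⟨b, -⟩ := exists_basis_D_of_isSeparable (v := fun i => (e i : F)) (hs.1.comp e e.injective)
  have hcard : s.card = 1 := by
    have := Module.finrank_eq_card_basis b
    rw [IsCurveOver.finrank_kaehler, Fintype.card_fin] at this
    exact this.symm
  obtain ⟨x, rfl⟩ := Finset.card_eq_one.mp hcard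
  have hx : Transcendental K x := by
    simpa using hs.1.transcendental ⟨x, Finset.mem_singleton_self x⟩
  rw [Finset.coe_singleton] at hsep
  have : Algebra.IsAlgebraic K⟮x⟯ F := inferInstance
  have : Algebra.EssFiniteType K⟮x⟯ F := Algebra.EssFiniteType.of_comp K _ _
  obtain ⟨g, hg⟩ := IntermediateField.fg_top K⟮x⟯ F
  have : FiniteDimensional K⟮x⟯ (IntermediateField.adjoin K⟮x⟯ (g : Set F)) :=
    IntermediateField.finiteDimensional_adjoin fun y _ => Algebra.IsIntegral.isIntegral y
  rw [hg] at this
  exact ⟨⟨x, hx, Module.Finite.equiv IntermediateField.topEquiv.toLinearEquiv⟩⟩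

end Fermat.Agent.Curve

end
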