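/-
Riemann-Roch spaces of a function field: comparison lemmas, finiteness, principal shifts.
-/
import Fermat.Agent.Curve.BasicFunctionField
import Fermat.Prelude.Def_AlgebraicCurve_Repartitions
import Mathlib.Data.Finsupp.Order
import Mathlib.FieldTheory.IsAlgClosed.Basic
import Mathlib.LinearAlgebra.Dimension.RankNullity
import Mathlib.LinearAlgebra.FiniteDimensional.Basic

set_option autoImplicit false

noncomputable section

open AlgebraicCurve IntermediateField WithZero

namespace Fermat.Agent.Curve

variable {K F : Type*} [Field K] [Field F] [Algebra K F]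

/-- `l(D) = dim L(D)`. -/
abbrev ellDim (D : Divisor K F) : ℕ := Module.finrank K ↥(riemannRochSpace D)

/-- `i(D) = dim H¹(D)`. -/
abbrev h1Dim (D : Divisor K F) : ℕ := Module.finrank K (H1 D)

theorem genusFF_eq_h1Dim : genusFF K F = h1Dim (0 : Divisor K F) := rfl

variable (K F) in
/-- The constant field is the full field of constants: `L(0) = K`. -/
class HasFullConstantField : Prop where
  ellDim_zero : ellDim (0 : Divisor K F) = 1

theorem mem_riemannRochSpace_iff' {D : Divisor K F} {f : F} :
    f ∈ riemannRochSpace D ↔ f = 0 ∨ ∀ v : Place K F, -D v ≤ v.ord f := by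
  rw [mem_riemannRochSpace_iff, forall_or_left]

theorem riemannRochSpace_mono {D D' : Divisor K F} (h : D ≤ D') :
    riemannRochSpace D ≤ riemannRochSpace D' := fun _ hf v =>
  (hf v).trans (exp_le_exp.mpr (Finsupp.le_def.mp h v))

theorem one_mem_riemannRochSpace {D : Divisor K F} (h : 0 ≤ D) :
    (1 : F) ∈ riemannRochSpace D :=
  mem_riemannRochSpace_iff'.mpr (Or.inr fun v => by
    have := Finsupp.le_def.mp h v
    simp at this ⊢
    omega)

/-- Evaluation of the leading coefficient at `v`: multiplication by an element of order `n`,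
followed by reduction. -/
def leadingCoeff (v : Place K F) (t : F) (M : Submodule K F)
    (h : ∀ f ∈ M, f * t ∈ v.toValuationSubring) : ↥M →ₗ[K] v.ResidueField where
  toFun f := IsLocalRing.residue _ ⟨(f : F) * t, h f f.2⟩
  map_add' f g := by
    rw [← map_add]
    exact congrArg _ (Subtype.ext (add_mul _ _ _))
  map_smul' c f := by
    rw [RingHom.id_apply, Algebra.smul_def,
      show algebraMap K v.ResidueField c =
        IsLocalRing.residue _ (algebraMap K v.toValuationSubring c) from rfl, ← map_mul]
    refine congrArg _ (Subtype.ext ?_)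
    simp [Algebra.smul_def, mul_assoc]

theorem residue_eq_zero_iff (v : Place K F) (a : v.toValuationSubring) :
    IsLocalRing.residue _ a = 0 ↔ (a : F) = 0 ∨ 0 < v.ord (a : F) := by
  rw [IsLocalRing.residue_eq_zero_iff, IsLocalRing.mem_maximalIdeal, mem_nonunits_iff,
    ← v.adicValuation_coe_eq_one_iff]
  rcases eq_or_ne (a : F) 0 with h | h
  · simp [h]
  · have := ord_nonneg_of_mem v a.2
    rw [v.adicValuation_eq_exp_neg_ord h, or_iff_right h, ← exp_zero, exp_inj]
    omega

theorem leadingCoeff_eq_zero_iff (v : Place K F) {t : F} (ht : t ≠ 0) (M : Submodule K F)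
    (h : ∀ f ∈ M, f * t ∈ v.toValuationSubring) (f : ↥M) :
    leadingCoeff v t M h f = 0 ↔ (f : F) = 0 ∨ -v.ord t < v.ord (f : F) := by
  refine (residue_eq_zero_iff v _).trans ?_
  rcases eq_or_ne (f : F) 0 with hf | hf
  · simp [hf]
  · simp only [mul_eq_zero, hf, ht, or_self, false_or, v.ord_mul hf ht]
    omega

theorem mul_mem_of_mem_riemannRochSpace (v : Place K F) {D : Divisor K F} {t : F}
    (ht : v.ord t = D v) {f : F} (hf : f ∈ riemannRochSpace D) :
    f * t ∈ v.toValuationSubring := by
  rcases eq_or_ne f 0 with rfl | hf0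
  · simp
  rcases eq_or_ne t 0 with rfl | ht0
  · simp
  refine mem_of_ord_nonneg v ?_
  have h := (mem_riemannRochSpace_iff.mp hf v).resolve_left hf0
  rw [v.ord_mul hf0 ht0]
  omega

/-- The leading coefficient map on `L(D + v)`, with kernel `L(D)`. -/
theorem exists_leadingCoeff (D : Divisor K F) (v : Place K F) :
    ∃ ρ : ↥(riemannRochSpace (D + Finsupp.single v 1)) →ₗ[K] v.ResidueField,
      ∀ f, ρ f = 0 ↔ (f : F) ∈ riemannRochSpace D := by
  classical
  obtain ⟨t, ht0, ht⟩ := exists_ord_eq v (D v + 1)
  refine ⟨leadingCoeff v t _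
    (fun f hf => mul_mem_of_mem_riemannRochSpace v (by simp [ht]) hf), fun f => ?_⟩
  rw [leadingCoeff_eq_zero_iff v ht0, ht, mem_riemannRochSpace_iff]
  constructor
  · intro h w
    rcases eq_or_ne w v with rfl | hw
    · exact h.imp_right fun h => by omega
    · simpa [Finsupp.single_eq_of_ne hw] using mem_riemannRochSpace_iff.mp f.2 w
  · intro h
    exact (h v).imp_right fun h => by omega

theorem le_add_single (D : Divisor K F) (v : Place K F) {n : ℤ} (hn : 0 ≤ n) :
    D ≤ D + Finsupp.single v n :=
  le_add_of_nonneg_right (Finsupp.single_nonneg.mpr hn)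

variable [IsFunctionFieldOne K F]

theorem exists_place : ∃ _v : Place K F, True := by
  obtain ⟨x, hx, _⟩ := IsFunctionFieldOne.exists_transcendental_finite (K := K) (F := F)
  exact ⟨(exists_place_ord_pos hx).choose, trivial⟩

theorem exists_leadingCoeff_zero :
    ∃ v : Place K F, ∃ ρ : ↥(riemannRochSpace (0 : Divisor K F)) →ₗ[K] v.ResidueField,
      Function.Injective ρ := by
  obtain ⟨v, -⟩ := exists_place (K := K) (F := F)
  refine ⟨v, leadingCoeff v 1 _
    (fun f hf => mul_mem_of_mem_riemannRochSpace v (D := 0) (by simp) hf), ?_⟩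
  rw [injective_iff_map_eq_zero]
  intro f hf
  rw [leadingCoeff_eq_zero_iff v one_ne_zero, v.ord_one, neg_zero] at hf
  refine Subtype.ext (hf.resolve_right fun h => ?_)
  have halg : IsAlgebraic K (f : F) := isAlgebraic_of_forall_ord_nonneg fun w => by
    rcases mem_riemannRochSpace_iff.mp f.2 w with h0 | h0
    · rw [h0, w.ord_zero]
    · simpa using h0
  rw [ord_eq_zero_of_isAlgebraic v halg] at h
  exact lt_irrefl _ h

instance finite_riemannRochSpace_zero :
    Module.Finite K ↥(riemannRochSpace (0 : Divisor K F)) := by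
  obtain ⟨v, ρ, hρ⟩ := exists_leadingCoeff_zero (K := K) (F := F)
  have := finite_residueField v
  exact Module.Finite.of_injective ρ hρ

theorem finite_and_ellDim_add_single_le (D : Divisor K F) (v : Place K F)
    [Module.Finite K ↥(riemannRochSpace D)] :
    Module.Finite K ↥(riemannRochSpace (D + Finsupp.single v 1)) ∧
      ellDim (D + Finsupp.single v 1) ≤ ellDim D + v.deg := by
  obtain ⟨ρ, hρ⟩ := exists_leadingCoeff D v
  have := finite_residueField v
  let i : ↥(LinearMap.ker ρ) →ₗ[K] ↥(riemannRochSpace D) :=
    { toFun := fun f => ⟨(f : ↥(riemannRochSpace (D + Finsupp.single v 1))).1, (hρ f).mp f.2⟩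
      map_add' := fun _ _ => rfl
      map_smul' := fun _ _ => rfl }
  have hi : Function.Injective i := fun a b h =>
    Subtype.ext (Subtype.ext (congrArg (fun x : ↥(riemannRochSpace D) => (x : F)) h))
  have hker : Module.Finite K ↥(LinearMap.ker ρ) := Module.Finite.of_injective i hi
  have : Module.Finite K (↥(riemannRochSpace (D + Finsupp.single v 1)) ⧸ LinearMap.ker ρ) :=
    Module.Finite.equiv ρ.quotKerEquivRange.symm
  have hfin := Module.Finite.of_submodule_quotient (LinearMap.ker ρ)
  refine ⟨hfin, ?_⟩
  have h1 := ρ.finrank_range_add_finrank_ker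
  have h2 := LinearMap.finrank_le_finrank_of_injective hi
  have h3 := Submodule.finrank_le (LinearMap.range ρ)
  simp only [ellDim, Place.deg]
  omega

theorem finite_and_ellDim_add_single_nat_le (D : Divisor K F) (v : Place K F)
    [Module.Finite K ↥(riemannRochSpace D)] (n : ℕ) :
    Module.Finite K ↥(riemannRochSpace (D + Finsupp.single v (n : ℤ))) ∧
      ellDim (D + Finsupp.single v (n : ℤ)) ≤ ellDim D + n * v.deg := by
  induction n with
  | zero =>
    rw [Nat.cast_zero, Finsupp.single_zero, add_zero]
    exact ⟨‹_›, by simp⟩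
  | succ n ih =>
    obtain ⟨hfin, hle⟩ := ih
    have h := finite_and_ellDim_add_single_le (D + Finsupp.single v (n : ℤ)) v
    rw [add_assoc, ← Finsupp.single_add] at h
    push_cast
    exact ⟨h.1, h.2.trans (by rw [add_mul]; omega)⟩

theorem finite_and_ellDim_le (D : Divisor K F) :
    Module.Finite K ↥(riemannRochSpace D) ∧
      (0 ≤ D → (ellDim D : ℤ) ≤ ellDim (0 : Divisor K F) + Divisor.degree D) := by
  classical
  induction D using Finsupp.induction with
  | zero => exact ⟨inferInstance, fun _ => by simp⟩
  | single_add v n D hv hn ih =>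
    obtain ⟨hfin, hle⟩ := ih
    obtain ⟨hfin', hle'⟩ := finite_and_ellDim_add_single_nat_le D v n.toNat
    have hmono : Finsupp.single v n + D ≤ D + Finsupp.single v (n.toNat : ℤ) := by
      rw [add_comm]
      exact add_le_add_right (Finsupp.single_le_single.mpr (Int.self_le_toNat n)) D
    refine ⟨Submodule.finiteDimensional_of_le (riemannRochSpace_mono hmono), fun h0 => ?_⟩
    have hn0 : 0 ≤ n := by
      have := Finsupp.le_def.mp h0 v
      simpa [Finsupp.notMem_support_iff.mp hv] using this
    have hD0 : 0 ≤ D := Finsupp.le_def.mpr fun w => by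
      rcases eq_or_ne w v with rfl | hw
      · simp [Finsupp.notMem_support_iff.mp hv]
      · simpa [Finsupp.single_eq_of_ne hw] using Finsupp.le_def.mp h0 w
    rw [Int.toNat_of_nonneg hn0, add_comm] at hle'
    have := hle hD0
    rw [map_add, Divisor.degree_single]
    have : (ellDim (Finsupp.single v n + D) : ℤ) ≤ ellDim D + (n.toNat : ℤ) * v.deg := by
      exact_mod_cast hle'
    rw [Int.toNat_of_nonneg hn0] at this
    linarith

instance instFiniteRiemannRochSpace (D : Divisor K F) : Module.Finite K ↥(riemannRochSpace D) :=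
  (finite_and_ellDim_le D).1

theorem ellDim_le_of_nonneg {D : Divisor K F} (h : 0 ≤ D) :
    (ellDim D : ℤ) ≤ ellDim (0 : Divisor K F) + Divisor.degree D :=
  (finite_and_ellDim_le D).2 h

theorem ellDim_mono {D D' : Divisor K F} (h : D ≤ D') : ellDim D ≤ ellDim D' :=
  Submodule.finrank_mono (riemannRochSpace_mono h)

theorem ellDim_zero_pos : 0 < ellDim (0 : Divisor K F) := by
  have : Nontrivial ↥(riemannRochSpace (0 : Divisor K F)) :=
    ⟨⟨⟨1, one_mem_riemannRochSpace le_rfl⟩, 0, fun h => one_ne_zero (congrArg Subtype.val h)⟩⟩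
  exact Module.finrank_pos

omit [IsFunctionFieldOne K F] in
theorem degree_nonneg {D : Divisor K F} (h : 0 ≤ D) : 0 ≤ Divisor.degree D := by
  rw [show Divisor.degree D = D.sum (fun v n => n * (v.deg : ℤ)) by
    simp [Divisor.degree, Finsupp.liftAddHom_apply]]
  exact Finsupp.sum_nonneg fun v _ => mul_nonneg (Finsupp.le_def.mp h v) (Int.natCast_nonneg _)

omit [IsFunctionFieldOne K F] in
theorem degree_mono {D D' : Divisor K F} (h : D ≤ D') :
    Divisor.degree D ≤ Divisor.degree D' := by
  have := degree_nonneg (sub_nonneg.mpr h)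
  rw [map_sub] at this
  omega

theorem eq_of_le_of_degree_le {D D' : Divisor K F} (h : D ≤ D')
    (hd : Divisor.degree D' ≤ Divisor.degree D) : D = D' := by
  refine le_antisymm h ?_
  refine Finsupp.le_def.mpr fun v => ?_
  by_contra hv
  have hlt : D + Finsupp.single v 1 ≤ D' := Finsupp.le_def.mpr fun w => by
    rcases eq_or_ne w v with rfl | hw
    · simp; omega
    · simpa [Finsupp.single_eq_of_ne hw] using Finsupp.le_def.mp h w
  have h1 := degree_mono hlt
  rw [map_add, Divisor.degree_single] at h1
  have h2 := deg_pos v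
  omega

/-- Multiplication by `g` identifies `L(D + (g))` with `L(D)`. -/
def riemannRochShift (D : Divisor K F) {g : F} (hg : g ≠ 0) :
    ↥(riemannRochSpace (D + divisorOf K g)) ≃ₗ[K] ↥(riemannRochSpace D) where
  toFun f := ⟨(f : F) * g, mem_riemannRochSpace_iff.mpr fun v => by
    rcases mem_riemannRochSpace_iff.mp f.2 v with h | h
    · exact Or.inl (by rw [h, zero_mul])
    · rcases eq_or_ne (f : F) 0 with hf | hf
      · exact Or.inl (by rw [hf, zero_mul])
      · refine Or.inr ?_
        rw [v.ord_mul hf hg]
        simp at h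
        omega⟩
  invFun f := ⟨(f : F) * g⁻¹, mem_riemannRochSpace_iff.mpr fun v => by
    rcases mem_riemannRochSpace_iff.mp f.2 v with h | h
    · exact Or.inl (by rw [h, zero_mul])
    · rcases eq_or_ne (f : F) 0 with hf | hf
      · exact Or.inl (by rw [hf, zero_mul])
      · refine Or.inr ?_
        rw [v.ord_mul hf (inv_ne_zero hg), v.ord_inv]
        simp
        omega⟩
  left_inv f := Subtype.ext (by simp [hg])
  right_inv f := Subtype.ext (by simp [hg])
  map_add' f f' := Subtype.ext (by simp [add_mul])
  map_smul' c f := Subtype.ext (by simp)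

theorem ellDim_add_divisorOf (D : Divisor K F) {g : F} (hg : g ≠ 0) :
    ellDim (D + divisorOf K g) = ellDim D :=
  (riemannRochShift D hg).finrank_eq

theorem nonneg_of_mem_riemannRochSpace {D : Divisor K F} {f : F} (hf : f ∈ riemannRochSpace D)
    (hf0 : f ≠ 0) : 0 ≤ D + divisorOf K f :=
  Finsupp.le_def.mpr fun v => by
    have := (mem_riemannRochSpace_iff.mp hf v).resolve_left hf0
    simp
    omega

theorem exists_ne_zero_of_ellDim_pos {D : Divisor K F} (h : 0 < ellDim D) :
    ∃ f ∈ riemannRochSpace D, f ≠ 0 := by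
  obtain ⟨a, ha⟩ := Module.finrank_pos_iff_exists_ne_zero.mp h
  exact ⟨a, a.2, fun h0 => ha (Subtype.ext h0)⟩

theorem riemannRochSpace_eq_bot_of_degree_neg {D : Divisor K F} (h : Divisor.degree D < 0) :
    riemannRochSpace D = ⊥ := by
  rw [Submodule.eq_bot_iff]
  intro f hf
  by_contra hf0
  have := degree_nonneg (nonneg_of_mem_riemannRochSpace hf hf0)
  rw [map_add, degree_divisorOf, add_zero] at this
  omega

theorem ellDim_eq_zero_of_degree_neg {D : Divisor K F} (h : Divisor.degree D < 0) :
    ellDim D = 0 := by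
  rw [ellDim, riemannRochSpace_eq_bot_of_degree_neg h, finrank_bot]

/-- A divisor of degree zero with a non-zero section is principal. -/
theorem mem_principal_of_degree_eq_zero {D : Divisor K F} (hd : Divisor.degree D = 0)
    (h : 0 < ellDim D) : D ∈ Divisor.principal (K := K) (F := F) := by
  obtain ⟨f, hf, hf0⟩ := exists_ne_zero_of_ellDim_pos h
  have h0 := eq_of_le_of_degree_le (nonneg_of_mem_riemannRochSpace hf hf0)
    (by rw [map_add, degree_divisorOf, hd]; simp)
  refine ⟨f⁻¹, inv_ne_zero hf0, fun v => ?_⟩
  have := congrArg (fun E : Divisor K F => E v) h0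
  simp at this
  rw [v.ord_inv]
  omega

/-- Over an algebraically closed field, functions without poles are constant. -/
theorem exists_eq_algebraMap_of_mem_riemannRochSpace_zero [IsAlgClosed K] {f : F}
    (hf : f ∈ riemannRochSpace (0 : Divisor K F)) : ∃ c : K, algebraMap K F c = f := by
  have halg : IsAlgebraic K f := isAlgebraic_of_forall_ord_nonneg fun w => by
    rcases mem_riemannRochSpace_iff.mp hf w with h0 | h0
    · rw [h0, w.ord_zero]
    · simpa using h0
  have hdeg : (minpoly K f).degree = 1 :=
    IsAlgClosed.degree_eq_one_of_irreducible K (minpoly.irreducible halg.isIntegral)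
  exact minpoly.mem_range_of_degree_eq_one K f hdeg

instance (priority := 100) hasFullConstantField_of_isAlgClosed [IsAlgClosed K] :
    HasFullConstantField K F := by
  refine ⟨?_⟩
  let e : K →ₗ[K] ↥(riemannRochSpace (0 : Divisor K F)) :=
    (Algebra.linearMap K F).codRestrict _ fun c => mem_riemannRochSpace_iff'.mpr
      (Or.inr fun v => by simp [ord_algebraMap v c])
  have he : Function.Bijective e := by
    refine ⟨fun a b h => (algebraMap K F).injective (congrArg Subtype.val h), fun f => ?_⟩
    obtain ⟨c, hc⟩ := exists_eq_algebraMap_of_mem_riemannRochSpace_zero f.2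
    exact ⟨c, Subtype.ext hc⟩
  show Module.finrank K _ = 1
  rw [← (LinearEquiv.ofBijective e he).finrank_eq, Module.finrank_self]

omit [IsFunctionFieldOne K F] in
theorem ellDim_zero [HasFullConstantField K F] : ellDim (0 : Divisor K F) = 1 :=
  HasFullConstantField.ellDim_zero

end Fermat.Agent.Curve

end
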