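/-
Repartitions: the boundedness criterion, local description of `A(D + v) / A(D)`, and
multiplication by functions.
-/
import Fermat.Agent.Curve.RiemannRochSpace

set_option autoImplicit false

noncomputable section

open AlgebraicCurve IntermediateField WithZero

namespace Fermat.Agent.Curve

variable {K F : Type*} [Field K] [Field F] [Algebra K F]

variable [IsFunctionFieldOne K F]

theorem finite_setOf_not_le_one {α : Place K F → F} (hα : α ∈ repartitions K F) :
    {v : Place K F | ¬v.adicValuation (α v) ≤ 1}.Finite := by
  refine Algebra.adjoin_induction (fun β hβ => hβ) (fun f => ?_) (fun β γ _ _ hβ hγ => ?_)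
    (fun β γ _ _ hβ hγ => ?_) hα
  · refine (finite_setOf_ord_ne_zero (K := K) f).subset fun v hv => ?_
    simp only [Set.mem_ofPred_eq, Pi.algebraMap_apply, Algebra.algebraMap_self, RingHom.id_apply,
      v.not_adicValuation_le_one_iff] at hv ⊢
    omega
  · refine (hβ.union hγ).subset fun v hv => ?_
    by_contra h
    simp only [Set.mem_union, Set.mem_ofPred_eq, not_or, not_not] at h
    exact hv ((Valuation.map_add _ _ _).trans (max_le h.1 h.2))
  · refine (hβ.union hγ).subset fun v hv => ?_
    by_contra h
    simp only [Set.mem_union, Set.mem_ofPred_eq, not_or, not_not] at h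
    exact hv (by rw [Pi.mul_apply, map_mul]; exact mul_le_one' h.1 h.2)

/-- Every repartition lies in some `A(D')` with `D'` above a given divisor. -/
theorem exists_ge_mem_repartitionsOf (D : Divisor K F) (α : ↥(repartitions K F)) :
    ∃ D', D ≤ D' ∧ α ∈ repartitionsOf D' := by
  classical
  have hs : {v : Place K F | max (D v) (-(v.ord ((α : Place K F → F) v))) ≠ 0}.Finite := by
    refine ((finite_setOf_not_le_one α.2).union D.hasFiniteSupport).subset fun v hv => ?_
    by_contra h
    simp only [Set.mem_union, Set.mem_ofPred_eq, v.not_adicValuation_le_one_iff,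
      Finsupp.fun_support_eq, Finset.mem_coe, Finsupp.mem_support_iff, not_or, not_not] at h
    simp only [Set.mem_ofPred_eq] at hv
    omega
  refine ⟨Finsupp.ofSupportFinite (fun v => max (D v) (-(v.ord ((α : Place K F → F) v))))
    (hs.subset fun v hv => hv), Finsupp.le_def.mpr fun v => le_max_left _ _,
    mem_repartitionsOf_iff.mpr fun v => Or.inr ?_⟩
  simp only [Finsupp.ofSupportFinite_coe]
  omega

omit [IsFunctionFieldOne K F] in
theorem principal_mem_repartitionsOf_iff {D : Divisor K F} {f : F} :
    algebraMap F ↥(repartitions K F) f ∈ repartitionsOf D ↔ f ∈ riemannRochSpace D :=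
  Iff.rfl

omit [IsFunctionFieldOne K F] in
theorem algebraMap_mem_principalRepartitions (f : F) :
    algebraMap F ↥(repartitions K F) f ∈ principalRepartitions K F :=
  mem_principalRepartitions_iff.mpr ⟨f, rfl⟩

omit [IsFunctionFieldOne K F] in
theorem mem_principalRepartitions_iff' {α : ↥(repartitions K F)} :
    α ∈ principalRepartitions K F ↔ ∃ f : F, algebraMap F ↥(repartitions K F) f = α := by
  rw [mem_principalRepartitions_iff]
  exact ⟨fun ⟨f, hf⟩ => ⟨f, Subtype.ext hf.symm⟩, fun ⟨f, hf⟩ => ⟨f, hf ▸ rfl⟩⟩

/-- The leading coefficient at `v` of repartitions in `A(D + v)`. -/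
theorem exists_leadingCoeff_repartitions (D : Divisor K F) (v : Place K F) :
    ∃ (ρ : ↥(repartitionsOf (D + Finsupp.single v 1)) →ₗ[K] v.ResidueField),
      Function.Surjective ρ ∧ ∀ α, ρ α = 0 ↔ (α : ↥(repartitions K F)) ∈ repartitionsOf D := by
  classical
  obtain ⟨t, ht0, ht⟩ := exists_ord_eq v (D v + 1)
  let M : Submodule K F :=
    { carrier := {f | f * t ∈ v.toValuationSubring}
      zero_mem' := by simp
      add_mem' := fun {a b} ha hb => by
        simp only [Set.mem_ofPred_eq, add_mul] at *; exact add_mem ha hb
      smul_mem' := fun c a ha => by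
        simp only [Set.mem_ofPred_eq, Algebra.smul_def, mul_assoc] at *
        exact mul_mem (v.algebraMap_mem' c) ha }
  let π : ↥(repartitionsOf (D + Finsupp.single v 1)) →ₗ[K] ↥M :=
    { toFun := fun α => ⟨((α : ↥(repartitions K F)) : Place K F → F) v, by
        rcases mem_repartitionsOf_iff.mp α.2 v with h | h
        · show _ * t ∈ v.toValuationSubring
          simp [h]
        · show _ * t ∈ v.toValuationSubring
          rcases eq_or_ne (((α : ↥(repartitions K F)) : Place K F → F) v) 0 with h0 | h0
          · simp [h0]
          refine mem_of_ord_nonneg v ?_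
          rw [v.ord_mul h0 ht0]
          simp at h
          omega⟩
      map_add' := fun _ _ => rfl
      map_smul' := fun _ _ => rfl }
  refine ⟨(leadingCoeff v t M fun f hf => hf).comp π, fun c => ?_, fun α => ?_⟩
  · obtain ⟨⟨a, ha⟩, rfl⟩ := IsLocalRing.residue_surjective c
    let β : Place K F → F := Function.update 0 v (a * t⁻¹)
    have hβ : ∀ w : Place K F, w.adicValuation (β w) ≤
        exp ((D + Finsupp.single v (1 : ℤ) : Divisor K F) w) := by
      intro w
      rw [w.adicValuation_le_exp_iff]
      rcases eq_or_ne w v with rfl | hw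
      · simp only [β, Function.update_self]
        rcases eq_or_ne a 0 with ha0 | ha0
        · simp [ha0]
        refine Or.inr ?_
        have := ord_nonneg_of_mem w ha
        rw [w.ord_mul ha0 (inv_ne_zero ht0), w.ord_inv]
        simp
        omega
      · simp [β, Function.update_of_ne hw]
    refine ⟨⟨⟨β, mem_repartitions_of_forall_le_exp _ β hβ⟩, hβ⟩, ?_⟩
    refine congrArg (IsLocalRing.residue _) (Subtype.ext ?_)
    simp [π, β, ht0]
  · refine (leadingCoeff_eq_zero_iff v ht0 M (fun f hf => hf) (π α)).trans ?_
    rw [mem_repartitionsOf_iff, ht]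
    constructor
    · intro h w
      rcases eq_or_ne w v with rfl | hw
      · exact h.imp_right fun (h : _ < w.ord (((α : ↥(repartitions K F)) : Place K F → F) w)) => by
          omega
      · simpa [Finsupp.single_eq_of_ne hw] using mem_repartitionsOf_iff.mp α.2 w
    · intro h
      exact (h v).imp_right fun h => by
        show _ < v.ord (((α : ↥(repartitions K F)) : Place K F → F) v)
        omega

/-- Multiplication by a function on repartitions. -/
def repartitionMul (f : F) : ↥(repartitions K F) →ₗ[K] ↥(repartitions K F) :=
  (LinearMap.lsmul F ↥(repartitions K F) f).restrictScalars K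

omit [IsFunctionFieldOne K F] in
@[simp]
theorem repartitionMul_apply (f : F) (α : ↥(repartitions K F)) :
    repartitionMul f α = f • α := rfl

omit [IsFunctionFieldOne K F] in
theorem smul_mem_repartitionsOf {D E : Divisor K F} {f : F} (hf : f ∈ riemannRochSpace E)
    {α : ↥(repartitions K F)} (hα : α ∈ repartitionsOf D) :
    f • α ∈ repartitionsOf (D + E) := fun v => by
  show v.adicValuation (f * (α : Place K F → F) v) ≤ exp ((D + E) v)
  rw [map_mul, Finsupp.add_apply, add_comm, exp_add]
  exact mul_le_mul' (hf v) (hα v)

omit [IsFunctionFieldOne K F] in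
theorem smul_mem_principalRepartitions (f : F) {α : ↥(repartitions K F)}
    (hα : α ∈ principalRepartitions K F) : f • α ∈ principalRepartitions K F := by
  obtain ⟨g, hg⟩ := mem_principalRepartitions_iff.mp hα
  refine mem_principalRepartitions_iff.mpr ⟨f * g, ?_⟩
  funext v
  show f * (α : Place K F → F) v = f * g
  rw [hg]

omit [IsFunctionFieldOne K F] in
theorem repartitionsOf_sup_le [DecidableEq (Place K F)] (D D' : Divisor K F) :
    repartitionsOf (D ⊔ D') ≤ repartitionsOf D ⊔ repartitionsOf D' := by
  intro α hα
  let β : Place K F → F := fun v => if D' v ≤ D v then (α : Place K F → F) v else 0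
  let γ : Place K F → F := fun v => if D' v ≤ D v then 0 else (α : Place K F → F) v
  have hβ : ∀ v, v.adicValuation (β v) ≤ exp (D v) := fun v => by
    simp only [β]
    split_ifs with h
    · refine (hα v).trans (exp_le_exp.mpr ?_)
      simp [Finsupp.sup_apply, h]
    · simp
  have hγ : ∀ v, v.adicValuation (γ v) ≤ exp (D' v) := fun v => by
    simp only [γ]
    split_ifs with h
    · simp
    · refine (hα v).trans (exp_le_exp.mpr ?_)
      simp [Finsupp.sup_apply, le_of_not_ge h]
  refine Submodule.mem_sup.mpr ⟨⟨β, mem_repartitions_of_forall_le_exp _ β hβ⟩, hβ,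
    ⟨γ, mem_repartitions_of_forall_le_exp _ γ hγ⟩, hγ, ?_⟩
  refine Subtype.ext (funext fun v => ?_)
  show β v + γ v = _
  simp only [β, γ]
  split_ifs <;> simp

end Fermat.Agent.Curve

end
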