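/-
The Riemann-Roch theorem for function fields in terms of repartitions:
finiteness of `H¹`, `l(D) - i(D) = deg D + l(0) - g`, vanishing for large degree,
and Serre duality `i(D) = l(W - D)`.
-/
import Fermat.Agent.Curve.RiemannRochRepartition
import Mathlib.Algebra.Polynomial.Basis
import Mathlib.LinearAlgebra.Dual.Lemmas

set_option autoImplicit false

noncomputable section

open AlgebraicCurve IntermediateField WithZero

namespace Fermat.Agent.Curve

variable {K F : Type*} [Field K] [Field F] [Algebra K F] [IsFunctionFieldOne K F]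

/-! ### the defect `deg D - l(D)` -/

/-- `deg D - l(D)`. -/
def rrDefect (D : Divisor K F) : ℤ := Divisor.degree D - ellDim D

theorem rrDefect_add_single_nat_le (D : Divisor K F) (v : Place K F) (n : ℕ) :
    rrDefect D ≤ rrDefect (D + Finsupp.single v (n : ℤ)) := by
  have h := (finite_and_ellDim_add_single_nat_le D v n).2
  rw [rrDefect, rrDefect, map_add, Divisor.degree_single]
  have : (ellDim (D + Finsupp.single v (n : ℤ)) : ℤ) ≤ ellDim D + (n : ℤ) * v.deg := by
    exact_mod_cast h
  omega

theorem rrDefect_mono {D D' : Divisor K F} (h : D ≤ D') : rrDefect D ≤ rrDefect D' := by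
  classical
  suffices ∀ E : Divisor K F, 0 ≤ E → ∀ A : Divisor K F, rrDefect A ≤ rrDefect (A + E) by
    simpa using this (D' - D) (sub_nonneg.mpr h) D
  intro E
  induction E using Finsupp.induction with
  | zero => simp
  | single_add v n E hv hn ih =>
    intro h0 A
    have hn0 : 0 ≤ n := by
      have := Finsupp.le_def.mp h0 v
      simpa [Finsupp.notMem_support_iff.mp hv] using this
    have hE0 : 0 ≤ E := Finsupp.le_def.mpr fun w => by
      rcases eq_or_ne w v with rfl | hw
      · simp [Finsupp.notMem_support_iff.mp hv]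
      · simpa [Finsupp.single_eq_of_ne hw] using Finsupp.le_def.mp h0 w
    obtain ⟨k, rfl⟩ := Int.eq_ofNat_of_zero_le hn0
    rw [← add_assoc]
    exact (rrDefect_add_single_nat_le A v k).trans (ih hE0 _)

theorem rrDefect_add_divisorOf (D : Divisor K F) {g : F} (hg : g ≠ 0) :
    rrDefect (D + divisorOf K g) = rrDefect D := by
  rw [rrDefect, rrDefect, ellDim_add_divisorOf D hg, map_add, degree_divisorOf, add_zero]

/-- Riemann's inequality, first form. -/
theorem exists_rrDefect_le : ∃ C : ℤ, ∀ D : Divisor K F, rrDefect D ≤ C := by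
  classical
  obtain ⟨x, hx, hfin⟩ := IsFunctionFieldOne.exists_transcendental_finite (K := K) (F := F)
  set n := Module.finrank K⟮x⟯ F with hn
  set X := poleDivisor K x with hX
  have hdegX : Divisor.degree X = (n : ℤ) := degree_poleDivisor hx
  have hn0 : 0 < n := Module.finrank_pos
  let b := Module.finBasis K⟮x⟯ F
  set D₀ : Divisor K F := ∑ i, poleDivisor K (b i) with hD₀
  have hpole : ∀ (f : F) (v : Place K F), 0 ≤ poleDivisor K f v := fun f v => by simp
  have hD₀v : ∀ v : Place K F, D₀ v = ∑ i, poleDivisor K (b i) v := fun v => by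
    rw [hD₀, Finsupp.finsetSum_apply]
  have hlow : ∀ m : ℕ, n * (m + 1) ≤ ellDim (D₀ + m • X) := by
    intro m
    let w : Fin (m + 1) × Fin n → F := fun p => x ^ (p.1 : ℕ) • b p.2
    have hmem : ∀ p, w p ∈ riemannRochSpace (D₀ + m • X) := fun p => by
      refine mem_riemannRochSpace_iff'.mpr (Or.inr fun v => ?_)
      have hb : b p.2 ≠ 0 := b.ne_zero _
      have hx0 : x ≠ 0 := fun h => hx (h ▸ isAlgebraic_zero)
      simp only [w, smul_eq_mul]
      rw [v.ord_mul (pow_ne_zero _ hx0) hb, ord_pow, Finsupp.add_apply, Finsupp.smul_apply, hD₀v]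
      have h1 : poleDivisor K (b p.2) v ≤ ∑ i, poleDivisor K (b i) v :=
        Finset.single_le_sum (f := fun i => poleDivisor K (b i) v) (fun i _ => hpole _ v)
          (Finset.mem_univ _)
      have h2 : ((p.1 : ℕ) : ℤ) * (-(v.ord x)) ≤ (m : ℤ) * X v := by
        rw [hX, poleDivisor_apply]
        have hp : ((p.1 : ℕ) : ℤ) ≤ (m : ℤ) := by
          have := p.1.isLt
          omega
        rcases le_total (-(v.ord x)) 0 with h | h
        · rw [max_eq_right h, mul_zero]
          exact mul_nonpos_of_nonneg_of_nonpos (by positivity) h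
        · rw [max_eq_left h]
          exact mul_le_mul_of_nonneg_right hp h
      rw [poleDivisor_apply] at h1
      have h3 := le_max_left (-(v.ord (b p.2))) 0
      have h4 : m • X v = (m : ℤ) * X v := nsmul_eq_mul _ _
      rw [h4]
      linarith
    have hli : LinearIndependent K w := by
      let y : K⟮x⟯ := AdjoinSimple.gen K x
      have hy : Transcendental K y := by
        intro h
        exact hx (h.algebraMap (A := F))
      have hpow : LinearIndependent K (fun j : Fin (m + 1) => y ^ (j : ℕ)) :=
        ((Polynomial.basisMonomials K).linearIndependent.map'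
          (Polynomial.aeval (R := K) y).toLinearMap
          (LinearMap.ker_eq_bot.mpr (transcendental_iff_injective.mp hy))).comp _
            Fin.val_injective |> fun h => by simpa [Function.comp_def] using h
      exact linearIndependent_smul (A := F) hpow b.linearIndependent
    let w' : Fin (m + 1) × Fin n → ↥(riemannRochSpace (D₀ + m • X)) := fun p => ⟨w p, hmem p⟩
    have hli' : LinearIndependent K w' := LinearIndependent.of_comp (Submodule.subtype _) hli
    have := hli'.fintype_card_le_finrank
    simp only [Fintype.card_prod, Fintype.card_fin] at this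
    linarith
  have hC : ∀ m : ℕ, rrDefect (D₀ + m • X) ≤ Divisor.degree D₀ - n := by
    intro m
    have h : ((n * (m + 1) : ℕ) : ℤ) ≤ ellDim (D₀ + m • X) := by exact_mod_cast hlow m
    rw [rrDefect, map_add, map_nsmul, hdegX, nsmul_eq_mul]
    push_cast at h ⊢
    linarith
  refine ⟨Divisor.degree D₀ - n, fun D => ?_⟩
  set Dp : Divisor K F := D ⊔ 0 with hDp
  refine (rrDefect_mono (le_sup_left : D ≤ Dp)).trans ?_
  obtain ⟨m, hm⟩ : ∃ m : ℕ, Divisor.degree Dp < (m : ℤ) + n := ⟨(Divisor.degree Dp).toNat + 1, by omega⟩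
  have hE : rrDefect (D₀ + m • X - Dp) ≤ Divisor.degree D₀ - n :=
    (rrDefect_mono (sub_le_self _ le_sup_right)).trans (hC m)
  rw [rrDefect, map_sub, map_add, map_nsmul, hdegX, nsmul_eq_mul] at hE
  have hpos : 0 < ellDim (D₀ + m • X - Dp) := by
    have : (m : ℤ) ≤ (m : ℤ) * n := le_mul_of_one_le_right (by positivity) (by omega)
    omega
  obtain ⟨f, hf, hf0⟩ := exists_ne_zero_of_ellDim_pos hpos
  have h1 := nonneg_of_mem_riemannRochSpace hf hf0
  have h2 : Dp + divisorOf K f⁻¹ ≤ D₀ + m • X := Finsupp.le_def.mpr fun v => by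
    have := Finsupp.le_def.mp h1 v
    simp only [Finsupp.zero_apply, Finsupp.add_apply, Finsupp.sub_apply, divisorOf_apply,
      v.ord_inv] at this ⊢
    omega
  rw [← rrDefect_add_divisorOf Dp (inv_ne_zero hf0)]
  exact (rrDefect_mono h2).trans (hC m)

/-! ### finiteness of `H¹` -/

/-- The natural map `H¹(D) → H¹(D')`. -/
def h1Map {D D' : Divisor K F} (h : D ≤ D') : H1 D →ₗ[K] H1 D' :=
  Submodule.factor (sup_le_sup_right (repartitionsOf_mono h) _)

omit [IsFunctionFieldOne K F] in
theorem h1Map_surjective {D D' : Divisor K F} (h : D ≤ D') :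
    Function.Surjective (h1Map h) :=
  Submodule.factor_surjective (sup_le_sup_right (repartitionsOf_mono h) _)

omit [IsFunctionFieldOne K F] in
theorem h1Map_mk {D D' : Divisor K F} (h : D ≤ D') (α : ↥(repartitions K F)) :
    h1Map h (Submodule.Quotient.mk α) = Submodule.Quotient.mk α := rfl

theorem h1Map_ker_add_single (D : Divisor K F) (v : Place K F) :
    FiniteDimensional K ↥(LinearMap.ker (h1Map (le_add_single D v zero_le_one))) ∧
      (Module.finrank K ↥(LinearMap.ker (h1Map (le_add_single D v zero_le_one))) : ℤ) =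
        rrDefect (D + Finsupp.single v 1) - rrDefect D := by
  classical
  obtain ⟨ρ, hρs, hρ⟩ := exists_leadingCoeff_repartitions D v
  obtain ⟨s, hs⟩ := ρ.exists_rightInverse_of_surjective (LinearMap.range_eq_top.mpr hρs)
  have hs' : ∀ c, ρ (s c) = c := fun c => LinearMap.congr_fun hs c
  have := finite_residueField v
  let g : ↥(repartitionsOf (D + Finsupp.single v 1)) →ₗ[K] H1 D :=
    (Submodule.mkQ _).comp (Submodule.subtype _)
  have hg : ∀ a, g a = g (s (ρ a)) := fun a => by
    refine (Submodule.Quotient.eq _).mpr (Submodule.mem_sup_left ?_)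
    exact (hρ (a - s (ρ a))).mp ((LinearMap.map_sub ρ a _).trans (sub_eq_zero.mpr (hs' _).symm))
  have hker : LinearMap.ker (h1Map (le_add_single D v zero_le_one)) =
      LinearMap.range (g.comp s) := by
    apply le_antisymm
    · intro q hq
      obtain ⟨α, rfl⟩ := Submodule.mkQ_surjective _ q
      rw [LinearMap.mem_ker, Submodule.mkQ_apply, h1Map_mk, Submodule.Quotient.mk_eq_zero] at hq
      obtain ⟨a, ha, p, hp, rfl⟩ := Submodule.mem_sup.mp hq
      refine ⟨ρ ⟨a, ha⟩, ?_⟩
      rw [LinearMap.comp_apply, ← hg]
      refine (Submodule.Quotient.eq _).mpr (Submodule.mem_sup_right ?_)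
      simpa [g] using (principalRepartitions K F).neg_mem hp
    · rintro _ ⟨c, rfl⟩
      rw [LinearMap.mem_ker, LinearMap.comp_apply]
      exact (h1Map_mk _ _).trans ((Submodule.Quotient.mk_eq_zero _).mpr
        (Submodule.mem_sup_left (s c).2))
  obtain ⟨ρ₀, hρ₀⟩ : ∃ ρ₀ : ↥(riemannRochSpace (D + Finsupp.single v 1)) →ₗ[K] v.ResidueField,
      ∀ f : ↥(riemannRochSpace (D + Finsupp.single v 1)), ρ₀ f = ρ ⟨algebraMap F ↥(repartitions K F) (f.1),
        principal_mem_repartitionsOf_iff.mpr f.2⟩ := by
    let ι : ↥(riemannRochSpace (D + Finsupp.single v 1)) →ₗ[K]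
        ↥(repartitionsOf (D + Finsupp.single v 1)) :=
      { toFun := fun f => ⟨algebraMap F ↥(repartitions K F) (f.1),
          principal_mem_repartitionsOf_iff.mpr f.2⟩
        map_add' := fun f f' => Subtype.ext (map_add _ _ _)
        map_smul' := fun c f => Subtype.ext (Subtype.ext (funext fun w => rfl)) }
    exact ⟨ρ.comp ι, fun f => rfl⟩
  have hker₀ : Module.finrank K ↥(LinearMap.ker ρ₀) = ellDim D := by
    refine LinearEquiv.finrank_eq
      { toFun := fun f => ⟨((f : ↥(riemannRochSpace (D + Finsupp.single v 1))) : F), ?_⟩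
        invFun := fun f => ⟨⟨(f : F), riemannRochSpace_mono (le_add_single D v zero_le_one) f.2⟩, ?_⟩
        map_add' := fun _ _ => rfl
        map_smul' := fun _ _ => rfl
        left_inv := fun _ => rfl
        right_inv := fun _ => rfl }
    · have h := f.2
      rw [LinearMap.mem_ker, hρ₀, hρ] at h
      exact principal_mem_repartitionsOf_iff.mp h
    · rw [LinearMap.mem_ker, hρ₀, hρ]
      exact principal_mem_repartitionsOf_iff.mpr f.2
  have hkg : LinearMap.ker (g.comp s) = LinearMap.range ρ₀ := by
    ext c
    rw [LinearMap.mem_ker, LinearMap.comp_apply, LinearMap.mem_range]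
    constructor
    · intro h
      obtain ⟨a, ha, p, hp, hap⟩ := Submodule.mem_sup.mp ((Submodule.Quotient.mk_eq_zero _).mp h)
      obtain ⟨f, rfl⟩ := mem_principalRepartitions_iff'.mp hp
      have hf : algebraMap F ↥(repartitions K F) f ∈ repartitionsOf (D + Finsupp.single v 1) := by
        rw [eq_sub_of_add_eq' hap]
        exact Submodule.sub_mem _ (s c).2 (repartitionsOf_mono (le_add_single D v zero_le_one) ha)
      refine ⟨⟨f, principal_mem_repartitionsOf_iff.mp hf⟩, ?_⟩
      rw [hρ₀]
      have hd : ρ (s c - ⟨_, hf⟩) = 0 := by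
        rw [hρ]
        have h2 := eq_sub_of_add_eq hap
        simp only [AddSubgroupClass.coe_sub, Submodule.subtype_apply] at h2 ⊢
        rw [← h2]
        exact ha
      rw [LinearMap.map_sub ρ (s c) _, hs', sub_eq_zero] at hd
      exact hd.symm
    · rintro ⟨f, rfl⟩
      rw [hρ₀, ← hg]
      exact (Submodule.Quotient.mk_eq_zero _).mpr
        (Submodule.mem_sup_right (algebraMap_mem_principalRepartitions _))
  rw [hker]
  refine ⟨inferInstance, ?_⟩
  have h1 := (g.comp s).finrank_range_add_finrank_ker
  have h2 := ρ₀.finrank_range_add_finrank_ker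
  rw [hkg] at h1
  rw [hker₀] at h2
  simp only [rrDefect, map_add, Divisor.degree_single, one_mul, Place.deg]
  simp only [ellDim] at h2 ⊢
  omega

theorem finite_and_h1Dim_add_single_iff (C : ℤ) (D : Divisor K F) (v : Place K F) :
    (FiniteDimensional K (H1 D) ∧ (h1Dim D : ℤ) + rrDefect D = C) ↔
      (FiniteDimensional K (H1 (D + Finsupp.single v 1)) ∧
        (h1Dim (D + Finsupp.single v 1) : ℤ) + rrDefect (D + Finsupp.single v 1) = C) := by
  obtain ⟨hk, hkd⟩ := h1Map_ker_add_single D v
  set ψ := h1Map (le_add_single D v zero_le_one) with hψ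
  have hψs : Function.Surjective ψ := h1Map_surjective _
  let e := ψ.quotKerEquivOfSurjective hψs
  have key : ∀ _ : FiniteDimensional K (H1 D),
      (h1Dim D : ℤ) + rrDefect D =
        (h1Dim (D + Finsupp.single v 1) : ℤ) + rrDefect (D + Finsupp.single v 1) := fun _ => by
    have h := ψ.finrank_range_add_finrank_ker
    rw [LinearMap.range_eq_top.mpr hψs, finrank_top] at h
    simp only [h1Dim]
    omega
  constructor
  · rintro ⟨hfin, h⟩
    exact ⟨Module.Finite.of_surjective ψ hψs, (key hfin).symm.trans h⟩
  · rintro ⟨hfin, h⟩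
    have : Module.Finite K (H1 D ⧸ LinearMap.ker ψ) := Module.Finite.equiv e.symm
    have hfin' := Module.Finite.of_submodule_quotient (LinearMap.ker ψ)
    exact ⟨hfin', (key hfin').trans h⟩

theorem finite_H1_and_riemann_roch (D : Divisor K F) :
    FiniteDimensional K (H1 D) ∧
      (ellDim D : ℤ) - h1Dim D =
        Divisor.degree D + ellDim (0 : Divisor K F) - genusFF K F := by
  classical
  obtain ⟨C, hC⟩ := exists_rrDefect_le (K := K) (F := F)
  obtain ⟨m, ⟨D₁, hD₁⟩, hmax⟩ := Int.exists_greatest_of_bdd
    (P := fun z => ∃ E : Divisor K F, rrDefect E = z) ⟨C, fun _ ⟨E, hE⟩ => hE ▸ hC E⟩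
    ⟨_, 0, rfl⟩
  have hstep : ∀ E : Divisor K F, m ≤ rrDefect E → ∀ v : Place K F,
      LinearMap.ker (h1Map (le_add_single E v zero_le_one)) = ⊥ := by
    intro E hE v
    obtain ⟨hk, hkd⟩ := h1Map_ker_add_single E v
    have h1 := hmax _ ⟨_, (rfl : rrDefect (E + Finsupp.single v 1) = _)⟩
    rw [← Submodule.finrank_eq_zero (R := K)]
    omega
  have hsub : ∀ E : Divisor K F, 0 ≤ E → ∀ A : Divisor K F, m ≤ rrDefect A →
      repartitionsOf (A + E) ≤ repartitionsOf A ⊔ principalRepartitions K F := by
    intro E
    induction E using Finsupp.induction with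
    | zero => intro _ A _; simp
    | single_add v n E hv hn ih =>
      intro h0 A hA
      have hn0 : 0 ≤ n := by
        have := Finsupp.le_def.mp h0 v
        simpa [Finsupp.notMem_support_iff.mp hv] using this
      have hE0 : 0 ≤ E := Finsupp.le_def.mpr fun w => by
        rcases eq_or_ne w v with rfl | hw
        · simp [Finsupp.notMem_support_iff.mp hv]
        · simpa [Finsupp.single_eq_of_ne hw] using Finsupp.le_def.mp h0 w
      obtain ⟨k, rfl⟩ := Int.eq_ofNat_of_zero_le hn0
      rw [← add_assoc]
      refine (ih hE0 _ (hA.trans (rrDefect_add_single_nat_le A v k))).trans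
        (sup_le ?_ le_sup_right)
      clear ih hv hn h0 hn0
      induction k with
      | zero => simp
      | succ k ihk =>
        intro α hα
        have hm : m ≤ rrDefect (A + Finsupp.single v (k : ℤ)) :=
          hA.trans (rrDefect_add_single_nat_le A v k)
        rw [Nat.cast_succ, Finsupp.single_add, ← add_assoc] at hα
        have h0 : Submodule.Quotient.mk (p := repartitionsOf (A + Finsupp.single v (k : ℤ)) ⊔
            principalRepartitions K F) α = 0 := by
          rw [← Submodule.mem_bot K, ← hstep _ hm v, LinearMap.mem_ker, h1Map_mk]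
          exact (Submodule.Quotient.mk_eq_zero _).mpr (Submodule.mem_sup_left hα)
        exact sup_le ihk le_sup_right ((Submodule.Quotient.mk_eq_zero _).mp h0)
  have hD₁top : Subsingleton (H1 D₁) := by
    rw [Submodule.Quotient.subsingleton_iff, eq_top_iff]
    intro α _
    obtain ⟨D', hD', hα⟩ := exists_ge_mem_repartitionsOf D₁ α
    have := hsub (D' - D₁) (sub_nonneg.mpr hD') D₁ hD₁.ge
    rw [add_sub_cancel] at this
    exact this hα
  let P : Divisor K F → Prop := fun E =>
    FiniteDimensional K (H1 E) ∧ (h1Dim E : ℤ) + rrDefect E = m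
  have hbase : P D₁ := ⟨inferInstance, by
    rw [h1Dim, Module.finrank_zero_of_subsingleton]
    simpa using hD₁⟩
  have hsingle : ∀ (E : Divisor K F) (v : Place K F) (n : ℤ), P E ↔ P (E + Finsupp.single v n) := by
    intro E v n
    induction n using Int.induction_on with
    | zero => simp
    | succ k ih =>
      rw [Finsupp.single_add, ← add_assoc]
      exact ih.trans (finite_and_h1Dim_add_single_iff m _ v)
    | pred k ih =>
      refine ih.trans ?_
      have h := finite_and_h1Dim_add_single_iff m (E + Finsupp.single v (-(k : ℤ) - 1)) v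
      rw [add_assoc, ← Finsupp.single_add, sub_add_cancel] at h
      exact h.symm
  have hall : ∀ E A : Divisor K F, P A → P (A + E) := by
    intro E
    induction E using Finsupp.induction with
    | zero => intro A h; simpa using h
    | single_add v n E hv hn ih =>
      intro A h
      rw [← add_assoc]
      exact ih _ ((hsingle A v n).mp h)
  have hD : P D := by simpa using hall (D - D₁) D₁ hbase
  have h0 : P 0 := by simpa using hall (0 - D₁) D₁ hbase
  refine ⟨hD.1, ?_⟩
  have h1 := hD.2
  have h2 := h0.2
  simp only [rrDefect, map_zero] at h1 h2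
  rw [genusFF_eq_h1Dim]
  omega

instance finite_H1 (D : Divisor K F) : FiniteDimensional K (H1 D) :=
  (finite_H1_and_riemann_roch D).1

/-- The Riemann-Roch theorem, without any assumption on the constant field. -/
theorem riemann_roch (D : Divisor K F) :
    (ellDim D : ℤ) - h1Dim D = Divisor.degree D + ellDim (0 : Divisor K F) - genusFF K F :=
  (finite_H1_and_riemann_roch D).2

end Fermat.Agent.Curve

end
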