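/-
Riemann-Roch with full constant field: vanishing of `H¹` in large degree, Serre duality.
-/
import Fermat.Agent.Curve.RiemannRoch

set_option autoImplicit false

noncomputable section

open AlgebraicCurve IntermediateField WithZero

namespace Fermat.Agent.Curve

variable {K F : Type*} [Field K] [Field F] [Algebra K F] [IsFunctionFieldOne K F]

/-- The space of Weil differentials of type `D`. -/
def weilDifferentials (D : Divisor K F) : Submodule K (Module.Dual K ↥(repartitions K F)) :=
  (repartitionsOf D ⊔ principalRepartitions K F).dualAnnihilator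

omit [IsFunctionFieldOne K F] in
theorem mem_weilDifferentials_iff {D : Divisor K F} {ω : Module.Dual K ↥(repartitions K F)} :
    ω ∈ weilDifferentials D ↔
      (∀ α ∈ repartitionsOf D, ω α = 0) ∧ ∀ α ∈ principalRepartitions K F, ω α = 0 := by
  rw [weilDifferentials, Submodule.mem_dualAnnihilator]
  refine ⟨fun h => ⟨fun α hα => h α (Submodule.mem_sup_left hα),
    fun α hα => h α (Submodule.mem_sup_right hα)⟩, fun h α hα => ?_⟩
  obtain ⟨a, ha, b, hb, rfl⟩ := Submodule.mem_sup.mp hα
  rw [map_add, h.1 a ha, h.2 b hb, add_zero]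

instance finite_weilDifferentials (D : Divisor K F) :
    FiniteDimensional K ↥(weilDifferentials D) :=
  (Submodule.dualQuotEquivDualAnnihilator _).finiteDimensional

omit [IsFunctionFieldOne K F] in
theorem finrank_weilDifferentials (D : Divisor K F) :
    Module.finrank K ↥(weilDifferentials D) = h1Dim D := by
  rw [weilDifferentials, ← (Submodule.dualQuotEquivDualAnnihilator _).finrank_eq,
    Subspace.dual_finrank_eq]

omit [IsFunctionFieldOne K F] in
/-- The multiplication pairing `L(E) × Ω(D) → Ω(D - E)`. -/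
theorem comp_mul_mem_weilDifferentials {D E : Divisor K F} {f : F} (hf : f ∈ riemannRochSpace E)
    {ω : Module.Dual K ↥(repartitions K F)} (hω : ω ∈ weilDifferentials D) :
    ω ∘ₗ repartitionMul f ∈ weilDifferentials (D - E) := by
  rw [mem_weilDifferentials_iff] at hω ⊢
  refine ⟨fun α hα => hω.1 _ ?_, fun α hα => hω.2 _ (smul_mem_principalRepartitions f hα)⟩
  have := smul_mem_repartitionsOf hf hα
  rwa [sub_add_cancel] at this

omit [IsFunctionFieldOne K F] in
theorem eq_zero_of_comp_mul_eq_zero {f : F} (hf : f ≠ 0)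
    {ω : Module.Dual K ↥(repartitions K F)} (h : ω ∘ₗ repartitionMul f = 0) : ω = 0 := by
  refine LinearMap.ext fun α => ?_
  have := LinearMap.congr_fun h (f⁻¹ • α)
  simpa [smul_smul, hf] using this

/-- `f ↦ f ω` as a linear map `L(E) → Ω(D - E)`. -/
def differentialMul {D : Divisor K F} (ω : ↥(weilDifferentials D)) (E : Divisor K F) :
    ↥(riemannRochSpace E) →ₗ[K] ↥(weilDifferentials (D - E)) where
  toFun f := ⟨(ω : Module.Dual K ↥(repartitions K F)) ∘ₗ repartitionMul (f : F),
    comp_mul_mem_weilDifferentials f.2 ω.2⟩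
  map_add' f g := Subtype.ext (LinearMap.ext fun α => by simp [add_smul])
  map_smul' c f := Subtype.ext (LinearMap.ext fun α => by simp [smul_assoc])

omit [IsFunctionFieldOne K F] in
theorem differentialMul_apply {D : Divisor K F} (ω : ↥(weilDifferentials D)) (E : Divisor K F)
    (f : ↥(riemannRochSpace E)) :
    (differentialMul ω E f : Module.Dual K ↥(repartitions K F)) =
      (ω : Module.Dual K ↥(repartitions K F)) ∘ₗ repartitionMul (f : F) :=
  rfl

omit [IsFunctionFieldOne K F] in
theorem differentialMul_injective {D : Divisor K F} {ω : ↥(weilDifferentials D)} (hω : ω ≠ 0)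
    (E : Divisor K F) : Function.Injective (differentialMul ω E) := by
  rw [injective_iff_map_eq_zero]
  intro f hf
  by_contra hf0
  exact hω (Subtype.ext (eq_zero_of_comp_mul_eq_zero (fun h => hf0 (Subtype.ext h))
    (congrArg Subtype.val hf)))

omit [IsFunctionFieldOne K F] in
theorem exists_weilDifferential_ne_zero {D : Divisor K F} (h : 0 < h1Dim D) :
    ∃ ω : ↥(weilDifferentials D), ω ≠ 0 := by
  rw [← finrank_weilDifferentials] at h
  by_contra hne
  push Not at hne
  have : Subsingleton ↥(weilDifferentials D) := ⟨fun a b => (hne a).trans (hne b).symm⟩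
  rw [Module.finrank_zero_of_subsingleton] at h
  exact lt_irrefl _ h

variable [HasFullConstantField K F]

/-- Riemann-Roch, for a full constant field. -/
theorem riemann_roch_one (D : Divisor K F) :
    (ellDim D : ℤ) - h1Dim D = Divisor.degree D + 1 - genusFF K F := by
  rw [riemann_roch, ellDim_zero]
  rfl

/-- Riemann's inequality. -/
theorem riemann_inequality (D : Divisor K F) :
    Divisor.degree D + 1 - genusFF K F ≤ ellDim D := by
  have := riemann_roch_one D
  omega

theorem ellDim_pos_of_degree_ge {D : Divisor K F} (h : (genusFF K F : ℤ) ≤ Divisor.degree D) :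
    0 < ellDim D := by
  have := riemann_inequality D
  omega

/-- `H¹(D) = 0` for `deg D ≥ 2g - 1`. -/
theorem h1Dim_eq_zero_of_degree_ge {D : Divisor K F}
    (h : 2 * (genusFF K F : ℤ) - 1 ≤ Divisor.degree D) : h1Dim D = 0 := by
  by_contra hne
  obtain ⟨ω, hω⟩ := exists_weilDifferential_ne_zero (Nat.pos_of_ne_zero hne)
  have h1 := LinearMap.finrank_le_finrank_of_injective (differentialMul_injective hω D)
  rw [finrank_weilDifferentials, sub_self, ← genusFF_eq_h1Dim] at h1
  have h2 := riemann_roch_one D
  simp only [ellDim] at h2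
  omega

theorem subsingleton_H1_of_degree_ge {D : Divisor K F}
    (h : 2 * (genusFF K F : ℤ) - 1 ≤ Divisor.degree D) : Subsingleton (H1 D) :=
  Module.finrank_zero_iff.mp (h1Dim_eq_zero_of_degree_ge h)

theorem repartitionsOf_sup_principal_eq_top {D : Divisor K F}
    (h : 2 * (genusFF K F : ℤ) - 1 ≤ Divisor.degree D) :
    repartitionsOf D ⊔ principalRepartitions K F = ⊤ :=
  Submodule.Quotient.subsingleton_iff.mp (subsingleton_H1_of_degree_ge h)

/-- `l(D) = deg D + 1 - g` for `deg D ≥ 2g - 1`. -/
theorem ellDim_eq_of_degree_ge {D : Divisor K F}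
    (h : 2 * (genusFF K F : ℤ) - 1 ≤ Divisor.degree D) :
    (ellDim D : ℤ) = Divisor.degree D + 1 - genusFF K F := by
  have := riemann_roch_one D
  have := h1Dim_eq_zero_of_degree_ge h
  omega

omit [HasFullConstantField K F] in
theorem exists_degree_ge (N : ℤ) : ∃ E : Divisor K F, 0 ≤ E ∧ N ≤ Divisor.degree E := by
  obtain ⟨v, -⟩ := exists_place (K := K) (F := F)
  refine ⟨Finsupp.single v (N.toNat : ℤ), Finsupp.single_nonneg.mpr (Int.natCast_nonneg _), ?_⟩
  rw [Divisor.degree_single]
  have := deg_pos v
  have h : (N.toNat : ℤ) ≤ N.toNat * (v.deg : ℤ) :=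
    le_mul_of_one_le_right (Int.natCast_nonneg _) (by omega)
  omega

/-- Any two Weil differentials are proportional. -/
theorem exists_eq_comp_mul {D₀ D : Divisor K F} {ω₀ : ↥(weilDifferentials D₀)} (hω₀ : ω₀ ≠ 0)
    (ω : ↥(weilDifferentials D)) :
    ∃ f : F, (ω : Module.Dual K ↥(repartitions K F)) =
      (ω₀ : Module.Dual K ↥(repartitions K F)) ∘ₗ repartitionMul f := by
  classical
  by_contra hne
  push Not at hne
  set D₁ := D ⊓ D₀
  have hmono : ∀ {A B : Divisor K F}, A ≤ B → weilDifferentials B ≤ weilDifferentials A :=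
    fun h => Submodule.dualAnnihilator_anti (sup_le_sup_right (repartitionsOf_mono h) _)
  obtain ⟨E, hE0, hE⟩ := exists_degree_ge (K := K) (F := F)
    (max (Divisor.degree D₁ + 1) (3 * (genusFF K F : ℤ) - Divisor.degree D₁ - 2))
  let a : ↥(weilDifferentials D₁) := ⟨ω₀, hmono inf_le_right ω₀.2⟩
  let b : ↥(weilDifferentials D₁) := ⟨ω, hmono inf_le_left ω.2⟩
  let φ := (differentialMul a E).coprod (differentialMul b E)
  have hφ : Function.Injective φ := by
    rw [injective_iff_map_eq_zero]
    rintro ⟨f, g⟩ h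
    rw [show φ (f, g) = differentialMul a E f + differentialMul b E g from
      LinearMap.coprod_apply _ _ _] at h
    have h' : ∀ α : ↥(repartitions K F),
        (ω₀ : Module.Dual K ↥(repartitions K F)) ((f : F) • α) +
          (ω : Module.Dual K ↥(repartitions K F)) ((g : F) • α) = 0 := fun α => by
      have h1 : ((differentialMul a E f : Module.Dual K ↥(repartitions K F)) +
          (differentialMul b E g : Module.Dual K ↥(repartitions K F))) α = 0 := by
        rw [← Submodule.coe_add, h, Submodule.coe_zero, LinearMap.zero_apply]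
      rw [LinearMap.add_apply, differentialMul_apply, differentialMul_apply, LinearMap.comp_apply,
        LinearMap.comp_apply, repartitionMul_apply, repartitionMul_apply] at h1
      exact h1
    have hg : g = 0 := by
      by_contra hg0
      have hg0' : (g : F) ≠ 0 := fun h0 => hg0 (Subtype.ext h0)
      refine hne (-((f : F) * (g : F)⁻¹)) (LinearMap.ext fun α => ?_)
      have := h' ((g : F)⁻¹ • α)
      rw [smul_smul, smul_smul, mul_inv_cancel₀ hg0', one_smul] at this
      simp only [LinearMap.comp_apply, repartitionMul_apply, neg_smul, map_neg]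
      exact eq_neg_of_add_eq_zero_right this
    subst hg
    have ha : a ≠ 0 := fun h0 => hω₀ (Subtype.ext (show (a : Module.Dual K ↥(repartitions K F)) = 0 by rw [h0]; rfl))
    have hf : f = 0 := differentialMul_injective ha E
      (by simpa only [map_zero, add_zero] using h)
    simp [hf]
  have h1 := LinearMap.finrank_le_finrank_of_injective hφ
  rw [Module.finrank_prod, finrank_weilDifferentials] at h1
  have h2 := riemann_roch_one (D₁ - E)
  have h3 : ellDim (D₁ - E) = 0 := ellDim_eq_zero_of_degree_neg (by rw [map_sub]; omega)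
  have h4 := riemann_inequality E
  simp only [ellDim, map_sub] at h2 h3 h4
  omega

theorem degree_le_of_mem_weilDifferentials {D : Divisor K F}
    {ω : Module.Dual K ↥(repartitions K F)} (hω : ω ≠ 0) (hD : ω ∈ weilDifferentials D) :
    Divisor.degree D ≤ 2 * (genusFF K F : ℤ) - 2 := by
  by_contra hlt
  have h0 := repartitionsOf_sup_principal_eq_top (D := D) (by omega)
  rw [weilDifferentials, h0, Submodule.dualAnnihilator_top, Submodule.mem_bot] at hD
  exact hω hD

/-- A nonzero Weil differential has a largest divisor. -/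
theorem exists_divisor_weilDifferential {D₀ : Divisor K F}
    {ω : Module.Dual K ↥(repartitions K F)} (hω : ω ≠ 0) (hD₀ : ω ∈ weilDifferentials D₀) :
    ∃ W, ω ∈ weilDifferentials W ∧ ∀ D, ω ∈ weilDifferentials D → D ≤ W := by
  classical
  obtain ⟨m, ⟨W, hW, hWm⟩, hmax⟩ := Int.exists_greatest_of_bdd
    (P := fun z => ∃ D, ω ∈ weilDifferentials D ∧ Divisor.degree D = z)
    ⟨_, fun _ ⟨D, hD, hz⟩ => hz ▸ degree_le_of_mem_weilDifferentials hω hD⟩ ⟨_, D₀, hD₀, rfl⟩
  refine ⟨W, hW, fun D hD => ?_⟩
  have hsup : ω ∈ weilDifferentials (D ⊔ W) := by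
    obtain ⟨h1, h2⟩ := mem_weilDifferentials_iff.mp hD
    obtain ⟨h3, h4⟩ := mem_weilDifferentials_iff.mp hW
    refine mem_weilDifferentials_iff.mpr ⟨fun α hα => ?_, h2⟩
    obtain ⟨x, hx, y, hy, rfl⟩ := Submodule.mem_sup.mp (repartitionsOf_sup_le D W hα)
    rw [map_add, h1 x hx, h3 y hy, add_zero]
  have hmax' := hmax _ ⟨_, hsup, rfl⟩
  have := eq_of_le_of_degree_le (le_sup_right : W ≤ D ⊔ W) (hmax'.trans hWm.ge)
  exact le_sup_left.trans this.symm.le

theorem h1Dim_eq_ellDim_sub {W : Divisor K F} {ω₀ : Module.Dual K ↥(repartitions K F)}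
    (hω₀ : ω₀ ≠ 0) (hW : ω₀ ∈ weilDifferentials W)
    (hle : ∀ D, ω₀ ∈ weilDifferentials D → D ≤ W) (D : Divisor K F) :
    h1Dim D = ellDim (W - D) := by
  let w : ↥(weilDifferentials W) := ⟨ω₀, hW⟩
  have hw : w ≠ 0 := fun h => hω₀ (Subtype.mk.inj (h : (⟨ω₀, hW⟩ : ↥(weilDifferentials W)) = 0))
  let φ : ↥(riemannRochSpace (W - D)) →ₗ[K] ↥(weilDifferentials D) :=
    LinearMap.codRestrict _ ((Submodule.subtype _).comp (differentialMul w (W - D))) fun f => by
      have h := comp_mul_mem_weilDifferentials f.2 hW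
      rw [sub_sub_cancel] at h
      exact h
  have hφ : ∀ f, (φ f).1 = ω₀ ∘ₗ repartitionMul f.1 := fun f => rfl
  have hinj : Function.Injective φ := by
    intro x y h
    have h1 := congrArg Subtype.val h
    rw [hφ, hφ] at h1
    refine differentialMul_injective hw _ (Subtype.ext ?_)
    rw [differentialMul_apply, differentialMul_apply]
    exact h1
  have hsurj : Function.Surjective φ := by
    intro ω
    obtain ⟨f, hf⟩ := exists_eq_comp_mul hw ω
    change ω.1 = ω₀ ∘ₗ repartitionMul f at hf
    by_cases hf0 : f = 0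
    · subst hf0
      refine ⟨0, Subtype.ext ?_⟩
      rw [hφ, hf, Submodule.coe_zero]
    have hmem : f⁻¹ ∈ riemannRochSpace (divisorOf K f) :=
      mem_riemannRochSpace_iff'.mpr (Or.inr fun v => by
        rw [v.ord_inv, divisorOf_apply])
    have hT : ω₀ ∈ weilDifferentials (D - divisorOf K f) := by
      have h := comp_mul_mem_weilDifferentials hmem ω.2
      have he : ω.1 ∘ₗ repartitionMul f⁻¹ = ω₀ := by
        refine LinearMap.ext fun α => ?_
        rw [hf, LinearMap.comp_apply, LinearMap.comp_apply, repartitionMul_apply,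
          repartitionMul_apply, smul_smul, mul_inv_cancel₀ hf0, one_smul]
      rw [he] at h
      exact h
    refine ⟨⟨f, mem_riemannRochSpace_iff'.mpr (Or.inr fun v => ?_)⟩, Subtype.ext ?_⟩
    · have := Finsupp.le_def.mp (hle _ hT) v
      rw [Finsupp.sub_apply, divisorOf_apply] at this
      rw [Finsupp.sub_apply]
      omega
    · rw [hφ]; exact hf.symm
  rw [← finrank_weilDifferentials]
  exact (LinearEquiv.ofBijective φ ⟨hinj, hsurj⟩).finrank_eq.symm

variable (K F) in
/-- Serre duality: there is a canonical divisor `W`. -/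
theorem exists_canonical_divisor :
    ∃ W : Divisor K F, Divisor.degree W = 2 * (genusFF K F : ℤ) - 2 ∧
      ellDim W = genusFF K F ∧ ∀ D : Divisor K F, h1Dim D = ellDim (W - D) := by
  obtain ⟨E, _, hE⟩ := exists_degree_ge (K := K) (F := F) 2
  obtain ⟨D₀, hD₀⟩ : ∃ D₀ : Divisor K F, 0 < h1Dim D₀ := ⟨-E, by
    have h := riemann_roch_one (-E)
    have h' : ellDim (-E) = 0 := ellDim_eq_zero_of_degree_neg (by rw [map_neg]; omega)
    rw [map_neg] at h
    omega⟩
  obtain ⟨ω₀, hω₀⟩ := exists_weilDifferential_ne_zero hD₀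
  have hne₀ : ω₀.1 ≠ 0 := fun h => hω₀ (Subtype.ext h)
  obtain ⟨W, hW, hle⟩ := exists_divisor_weilDifferential hne₀ ω₀.2
  have hdual := h1Dim_eq_ellDim_sub hne₀ hW hle
  have hg : ellDim W = genusFF K F := by
    rw [genusFF_eq_h1Dim, hdual 0, sub_zero]
  refine ⟨W, ?_, hg, hdual⟩
  have h := riemann_roch_one W
  rw [hdual W, sub_self, ellDim_zero, hg] at h
  omega

variable (K F) in
/-- A canonical divisor, with the value of `l(D)` in degree `2g - 2` away from its class. -/
theorem exists_canonical_divisor_and_eq_of_not_principal :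
    ∃ W : Divisor K F, Divisor.degree W = 2 * (genusFF K F : ℤ) - 2 ∧
      ellDim W = genusFF K F ∧ ∀ D : Divisor K F, Divisor.degree D = 2 * (genusFF K F : ℤ) - 2 →
        D - W ∉ Divisor.principal (K := K) (F := F) →
          (ellDim D : ℤ) = (genusFF K F : ℤ) - 1 := by
  obtain ⟨W, hW, hg, hdual⟩ := exists_canonical_divisor K F
  refine ⟨W, hW, hg, fun D hD hne => ?_⟩
  have h0 : ellDim (W - D) = 0 := by
    by_contra h
    have h2 := mem_principal_of_degree_eq_zero (D := W - D) (by rw [map_sub]; omega)
      (Nat.pos_of_ne_zero h)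
    apply hne
    rw [← neg_sub]
    exact neg_mem h2
  have h1 := riemann_roch_one D
  rw [hdual, h0] at h1
  omega

end Fermat.Agent.Curve

end
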