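/-
Auxiliary facts on divisors and Riemann-Roch spaces used by the reduction map.
-/
import Fermat.Agent.Curve.BasicPlace
import Fermat.Agent.Curve.BasicFunctionField
import Fermat.Agent.Curve.BasicInstances
import Fermat.Agent.Curve.RiemannRochDuality
import Fermat.Prelude.Def_AlgebraicCurve_Repartitions
import Mathlib.FieldTheory.IsAlgClosed.Basic

set_option autoImplicit false

noncomputable section

namespace Fermat.Agent.Curve.RedAux

open AlgebraicCurve

variable {K F : Type*} [Field K] [Field F] [Algebra K F]

theorem mem_L_iff {D : Divisor K F} {f : F} (hf : f ≠ 0) :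
    f ∈ riemannRochSpace D ↔ ∀ v : Place K F, -D v ≤ v.ord f := by
  simp [mem_riemannRochSpace_iff, hf]

theorem L_mono {D D' : Divisor K F} (h : D ≤ D') :
    riemannRochSpace D ≤ riemannRochSpace D' := by
  intro f hf v
  exact (hf v).trans (WithZero.exp_le_exp.mpr (Finsupp.le_def.mp h v))

theorem mul_mem_L {D D' : Divisor K F} {f g : F} (hf : f ∈ riemannRochSpace D)
    (hg : g ∈ riemannRochSpace D') : f * g ∈ riemannRochSpace (D + D') := by
  intro v
  rw [map_mul, Finsupp.add_apply, WithZero.exp_add]
  exact mul_le_mul' (hf v) (hg v)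

theorem one_mem_L {D : Divisor K F} (hD : 0 ≤ D) : (1 : F) ∈ riemannRochSpace D := by
  rw [mem_L_iff one_ne_zero]
  intro v
  have := Finsupp.le_def.mp hD v
  simp at this ⊢
  omega

theorem ord_const_smul (v : Place K F) {a : K} (ha : a ≠ 0) (f : F) :
    v.ord (a • f) = v.ord f := by
  rcases eq_or_ne f 0 with rfl | hf
  · simp
  · rw [Algebra.smul_def, v.ord_mul (by simpa using ha) hf, ord_algebraMap, zero_add]

section AlgClosed

variable [IsAlgClosed K] [IsFunctionFieldOne K F]

theorem deg_one (v : Place K F) : v.deg = 1 :=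
  haveI := finite_residueField v
  v.deg_eq_one_of_isAlgClosed_of_finite

theorem degree_eq_sum (D : Divisor K F) : Divisor.degree D = D.sum fun _ n => n := by
  induction D using Finsupp.induction with
  | zero => simp
  | single_add v n D hv hn ih =>
    rw [map_add, ih, Finsupp.sum_add_index' (fun _ => rfl) (fun _ _ _ => rfl),
      Divisor.degree_single, deg_one, Finsupp.sum_single_index rfl]
    simp

theorem degree_nonneg {D : Divisor K F} (hD : 0 ≤ D) : 0 ≤ Divisor.degree D := by
  rw [degree_eq_sum]
  exact Finset.sum_nonneg fun v _ => by simpa using Finsupp.le_def.mp hD v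

theorem apply_le_degree {D : Divisor K F} (hD : 0 ≤ D) (v : Place K F) :
    D v ≤ Divisor.degree D := by
  classical
  have h : 0 ≤ D - Finsupp.single v (D v) := Finsupp.le_def.2 fun w => by
    by_cases hw : w = v
    · subst hw; simp
    · simpa [hw] using Finsupp.le_def.mp hD w
  have := degree_nonneg h
  rw [map_sub, Divisor.degree_single, deg_one] at this
  omega

theorem degree_mono {D D' : Divisor K F} (h : D ≤ D') :
    Divisor.degree D ≤ Divisor.degree D' := by
  have := degree_nonneg (sub_nonneg.2 h)
  rw [map_sub] at this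
  omega

theorem eq_of_le_of_degree_le {D D' : Divisor K F} (h : D ≤ D')
    (hdeg : Divisor.degree D' ≤ Divisor.degree D) : D = D' := by
  ext v
  have h1 := apply_le_degree (sub_nonneg.2 h) v
  have h2 := Finsupp.le_def.mp h v
  rw [map_sub] at h1
  simp only [Finsupp.sub_apply] at h1
  omega

theorem eq_single_of_degree_eq_one {D : Divisor K F} (hD : 0 ≤ D)
    (hdeg : Divisor.degree D = 1) : ∃ v, D = Finsupp.single v 1 := by
  obtain ⟨v, hv⟩ : ∃ v, D v ≠ 0 := by
    by_contra h
    push Not at h
    rw [show D = 0 from Finsupp.ext h] at hdeg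
    simp at hdeg
  have h0 := Finsupp.le_def.mp hD
  refine ⟨v, (eq_of_le_of_degree_le (Finsupp.le_def.2 fun w => ?_) ?_).symm⟩
  · by_cases hw : w = v
    · subst hw
      rw [Finsupp.single_eq_same]
      have := h0 w
      simp at this
      omega
    · simpa [hw] using h0 w
  · simp [hdeg, deg_one]

omit [IsAlgClosed K] in
theorem poleDivisor_nonneg (f : F) : 0 ≤ poleDivisor K f :=
  Finsupp.le_def.2 fun v => by simp

omit [IsAlgClosed K] in
theorem poleDivisor_le_iff {D : Divisor K F} (hD : 0 ≤ D) {f : F} :
    poleDivisor K f ≤ D ↔ f ∈ riemannRochSpace D := by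
  rcases eq_or_ne f 0 with rfl | hf
  · refine iff_of_true ?_ (zero_mem _)
    exact Finsupp.le_def.2 fun v => by simpa using Finsupp.le_def.mp hD v
  rw [mem_L_iff hf, Finsupp.le_def]
  refine forall_congr' fun v => ?_
  have := Finsupp.le_def.mp hD v
  simp only [Finsupp.zero_apply, poleDivisor_apply] at this ⊢
  omega

omit [IsAlgClosed K] in
theorem mem_L_poleDivisor (f : F) : f ∈ riemannRochSpace (poleDivisor K f) :=
  (poleDivisor_le_iff (poleDivisor_nonneg f)).1 le_rfl

omit [IsAlgClosed K] [IsFunctionFieldOne K F] in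
/-- at most one translate of `f` along `g` has order above the minimum -/
theorem subsingleton_cancel (v : Place K F) {f g : F} (hf : f ≠ 0) (hg : g ≠ 0) :
    {t : K | t ≠ 0 ∧ f + t • g ≠ 0 ∧ min (v.ord f) (v.ord g) < v.ord (f + t • g)}.Subsingleton := by
  rintro t ⟨ht0, ht, ht'⟩ u ⟨hu0, hu, hu'⟩
  by_contra htu
  have e : (t - u) • g = (f + t • g) + -(f + u • g) := by rw [sub_smul]; abel
  have hne : (f + t • g) + -(f + u • g) ≠ 0 := e ▸ smul_ne_zero (sub_ne_zero.2 htu) hg
  have h1 : min (v.ord f) (v.ord g) + 1 ≤ v.ord ((f + t • g) + -(f + u • g)) :=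
    le_ord_add v _ hne (fun _ => by omega) (fun _ => by rw [ord_neg]; omega)
  rw [← e, ord_const_smul v (sub_ne_zero.2 htu)] at h1
  have hmin : v.ord (t • g) = v.ord g := ord_const_smul v ht0 g
  have hgt : v.ord f < v.ord g := by omega
  rw [ord_add_eq_left v hf (fun _ => by omega)] at ht'
  omega

/-- generic translate: finitely many places, no cancellation -/
theorem exists_generic (f g : F) (hg : g ≠ 0) (S : Finset (Place K F)) :
    ∃ t : K, t ≠ 0 ∧ f + t • g ≠ 0 ∧
      ∀ v ∈ S, (f = 0 → v.ord (f + t • g) = v.ord g) ∧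
        (f ≠ 0 → v.ord (f + t • g) = min (v.ord f) (v.ord g)) := by
  classical
  rcases eq_or_ne f 0 with rfl | hf
  · exact ⟨1, one_ne_zero, by simp [hg], fun v _ => ⟨fun _ => by simp, fun h => absurd rfl h⟩⟩
  have hz : {t : K | f + t • g = 0}.Subsingleton := fun t ht u hu =>
    smul_left_injective K hg (add_left_cancel ((ht : f + t • g = 0).trans (hu : f + u • g = 0).symm))
  have hfin : (({0} : Set K) ∪ {t : K | f + t • g = 0} ∪
      ⋃ v ∈ S, {t : K | t ≠ 0 ∧ f + t • g ≠ 0 ∧
        min (v.ord f) (v.ord g) < v.ord (f + t • g)}).Finite :=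
    ((Set.finite_singleton 0).union hz.finite).union
      (S.finite_toSet.biUnion fun v _ => (subsingleton_cancel v hf hg).finite)
  obtain ⟨t, ht⟩ := hfin.exists_notMem
  simp only [Set.mem_union, Set.mem_singleton_iff, Set.mem_setOf_eq, Set.mem_iUnion,
    not_or, not_exists, not_and] at ht
  refine ⟨t, ht.1.1, ht.1.2, fun v hv => ⟨fun h => absurd h hf, fun _ => ?_⟩⟩
  have hle : min (v.ord f) (v.ord g) ≤ v.ord (f + t • g) :=
    le_ord_add v _ ht.1.2 (fun _ => min_le_left _ _)
      (fun _ => by rw [ord_const_smul v ht.1.1]; exact min_le_right _ _)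
  have := ht.2 v hv ht.1.1 ht.1.2
  omega

/-- the largest pole divisor in a space of functions containing the constants, attained with
exact orders at given places -/
theorem exists_max_pole (W : Submodule K F) (h1 : (1 : F) ∈ W) (m : ℤ)
    (hm : ∀ f ∈ W, Divisor.degree (poleDivisor K f) ≤ m) (S : Finset (Place K F)) :
    ∃ y ∈ W, y ≠ 0 ∧ W ≤ riemannRochSpace (poleDivisor K y) ∧
      ∀ v ∈ S, v.ord y = -(poleDivisor K y v) := by
  classical
  obtain ⟨n, ⟨y, hyW, hy0, rfl⟩, hmax⟩ := Int.exists_greatest_of_bdd
    (P := fun z => ∃ f ∈ W, f ≠ 0 ∧ Divisor.degree (poleDivisor K f) = z)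
    ⟨m, by rintro z ⟨f, hf, _, rfl⟩; exact hm f hf⟩ ⟨_, 1, h1, one_ne_zero, rfl⟩
  have hW : W ≤ riemannRochSpace (poleDivisor K y) := by
    intro g hgW
    rcases eq_or_ne g 0 with rfl | hg
    · exact zero_mem _
    rw [← poleDivisor_le_iff (poleDivisor_nonneg y)]
    by_contra hle
    obtain ⟨t, ht0, htne, ht⟩ := exists_generic y g hg
      ((poleDivisor K y).support ∪ (poleDivisor K g).support)
    have hbig : poleDivisor K y ≤ poleDivisor K (y + t • g) ∧
        poleDivisor K g ≤ poleDivisor K (y + t • g) := by
      constructor <;>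
      · refine Finsupp.le_def.2 fun v => ?_
        by_cases hv : v ∈ (poleDivisor K y).support ∪ (poleDivisor K g).support
        · have := (ht v hv).2 hy0
          simp only [poleDivisor_apply]
          omega
        · simp only [Finset.mem_union, Finsupp.mem_support_iff, not_or, not_not] at hv
          rw [poleDivisor_apply, poleDivisor_apply] at hv
          simp only [poleDivisor_apply]
          omega
    have heq := eq_of_le_of_degree_le hbig.1
      (hmax _ ⟨_, W.add_mem hyW (W.smul_mem t hgW), htne, rfl⟩)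
    exact hle (heq ▸ hbig.2)
  obtain ⟨t, ht0, htne, ht⟩ := exists_generic y (1 : F) one_ne_zero
    ((poleDivisor K y).support ∪ S)
  refine ⟨y + t • 1, W.add_mem hyW (W.smul_mem t h1), htne, ?_, fun v hv => ?_⟩
  · have hle : poleDivisor K y ≤ poleDivisor K (y + t • 1) := Finsupp.le_def.2 fun v => by
      by_cases hv : v ∈ (poleDivisor K y).support ∪ S
      · have := (ht v hv).2 hy0
        rw [Place.ord_one] at this
        simp only [poleDivisor_apply]
        omega
      · simp only [Finset.mem_union, Finsupp.mem_support_iff, not_or, not_not] at hv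
        rw [poleDivisor_apply] at hv
        simp only [poleDivisor_apply]
        omega
    exact hW.trans (L_mono hle)
  · have := (ht v (Finset.mem_union_right _ hv)).2 hy0
    rw [Place.ord_one] at this
    simp only [poleDivisor_apply]
    omega

end AlgClosed

section RiemannRoch

variable [IsAlgClosed K] [IsFunctionFieldOne K F]

theorem finite_L (D : Divisor K F) : FiniteDimensional K (riemannRochSpace D) := by
  infer_instance

theorem le_finrank_L (D : Divisor K F) :
    Divisor.degree D + 1 - (genusFF K F : ℤ) ≤ (Module.finrank K (riemannRochSpace D) : ℤ) :=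
  riemann_inequality D

theorem exists_finrank_L_eq : ∃ c : ℤ, ∀ D : Divisor K F, c ≤ Divisor.degree D →
    (Module.finrank K (riemannRochSpace D) : ℤ) = Divisor.degree D + 1 - (genusFF K F : ℤ) :=
  ⟨2 * (genusFF K F : ℤ) - 1, fun _ h => ellDim_eq_of_degree_ge h⟩

theorem nonempty_place : Nonempty (Place K F) := by
  obtain ⟨x, hx, -⟩ := IsFunctionFieldOne.exists_transcendental_finite (K := K) (F := F)
  obtain ⟨v, -⟩ := exists_place_ord_pos hx
  exact ⟨v⟩

/-- an effective divisor with a large space of functions has large degree -/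
theorem exists_degree_le_of_finrank : ∃ c : ℤ, 0 < c ∧ ∀ (E : Divisor K F) (d : ℤ), c ≤ d →
    d + 1 - (genusFF K F : ℤ) ≤ (Module.finrank K (riemannRochSpace E) : ℤ) →
      d ≤ Divisor.degree E := by
  obtain ⟨c, hc⟩ := exists_finrank_L_eq (K := K) (F := F)
  refine ⟨max (c + 1) 1, by omega, fun E d hd hle => ?_⟩
  obtain ⟨P⟩ := nonempty_place (K := K) (F := F)
  by_cases hE : c ≤ Divisor.degree E
  · have := hc E hE; omega
  · exfalso
    set E' := E + Finsupp.single P (c - Divisor.degree E) with hE'
    have hle' : E ≤ E' := by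
      rw [hE']
      exact le_add_of_nonneg_right (Finsupp.le_def.2 fun v => by
        classical
        rw [Finsupp.zero_apply, Finsupp.single_apply]
        split_ifs <;> omega)
    have hdeg : Divisor.degree E' = c := by
      rw [hE', map_add, Divisor.degree_single, deg_one]; push_cast; ring
    haveI := finite_L E'
    have h1 := Submodule.finrank_mono (L_mono hle')
    have h2 := hc E' hdeg.ge
    omega

end RiemannRoch

end Fermat.Agent.Curve.RedAux

end
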