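/-
Constant field extension of a function field: `F/K`, `E/Ω` with `E` the fraction field of
`Ω ⊗[K] F`.  The unique extension `placeExt v` of a place `v` of `F` to `E`, and the induced maps
on divisors and on divisor classes.
-/
import Fermat.Prelude.Def_AlgebraicCurve_IsCurveOver
import Fermat.Prelude.Def_AlgebraicCurve_Repartitions
import Mathlib.RingTheory.TensorProduct.Maps
import Mathlib.RingTheory.Flat.Basic
import Mathlib.LinearAlgebra.TensorProduct.Basis
import Mathlib.LinearAlgebra.TensorProduct.Finiteness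

set_option autoImplicit false

noncomputable section

namespace Fermat.Agent.Curve

open AlgebraicCurve TensorProduct IsLocalRing

universe uK uF uΩ uE

section

variable (K : Type uK) (F : Type uF) (Ω : Type uΩ) (E : Type uE)
  [Field K] [Field F] [Field Ω] [Field E]
  [Algebra K F] [Algebra K Ω] [Algebra K E] [Algebra F E] [Algebra Ω E]
  [IsScalarTower K F E] [IsScalarTower K Ω E]

/-- The natural map `Ω ⊗[K] F → E`. -/
def extConstMap : Ω ⊗[K] F →ₐ[Ω] E :=
  Algebra.TensorProduct.lift (Algebra.ofId Ω E) (IsScalarTower.toAlgHom K F E)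
    (fun _ _ => Commute.all _ _)

theorem extConstMap_tmul (c : Ω) (f : F) :
    extConstMap K F Ω E (c ⊗ₜ f) = algebraMap Ω E c * algebraMap F E f := by
  simp [extConstMap, Algebra.ofId_apply]

/-- `E` is the constant field extension of `F/K` to `Ω`: `F` and `Ω` are linearly disjoint over
`K` inside `E` and generate it as a field. -/
class IsConstExt : Prop where
  injective : Function.Injective (extConstMap K F Ω E)
  exists_eq_div : ∀ e : E, ∃ a b : Ω ⊗[K] F,
    extConstMap K F Ω E b ≠ 0 ∧ e * extConstMap K F Ω E b = extConstMap K F Ω E a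

end

variable {K : Type uK} {F : Type uF} {Ω : Type uΩ} {E : Type uE}
  [Field K] [Field F] [Field Ω] [Field E]
  [Algebra K F] [Algebra K Ω] [Algebra K E] [Algebra F E] [Algebra Ω E]
  [IsScalarTower K F E] [IsScalarTower K Ω E]

/-! ### residues at a place with rational residue field -/

section Residue

variable [IsAlgClosed K] [IsCurveOver K F] (v : Place K F)

theorem algebraMap_residueField_bijective :
    Function.Bijective (algebraMap K v.ResidueField) := by
  have : Module.Finite K v.ResidueField := IsCurveOver.finiteResidue v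
  have : Algebra.IsIntegral K v.ResidueField := Algebra.IsIntegral.of_finite K v.ResidueField
  exact IsAlgClosed.algebraMap_bijective_of_isIntegral

/-- The residue at `v`, with values in the constant field. -/
def constResidue : v.toValuationSubring →ₐ[K] K :=
  (AlgEquiv.ofBijective (Algebra.ofId K v.ResidueField)
    (algebraMap_residueField_bijective v)).symm.toAlgHom.comp
    { (IsLocalRing.residue v.toValuationSubring : v.toValuationSubring →+* v.ResidueField) with
      commutes' := fun _ => rfl }

theorem constResidue_eq_zero_iff (f : v.toValuationSubring) :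
    constResidue v f = 0 ↔ f ∈ maximalIdeal v.toValuationSubring := by
  rw [← IsLocalRing.residue_eq_zero_iff]
  show (AlgEquiv.ofBijective (Algebra.ofId K v.ResidueField)
    (algebraMap_residueField_bijective v)).symm (IsLocalRing.residue _ f) = 0 ↔ _
  exact map_eq_zero_iff _ (AlgEquiv.injective _)

theorem constResidue_algebraMap (a : K) :
    constResidue v (algebraMap K v.toValuationSubring a) = a :=
  (constResidue v).commutes a

theorem constResidue_ne_zero_iff (f : v.toValuationSubring) :
    constResidue v f ≠ 0 ↔ IsUnit f := by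
  rw [ne_eq, constResidue_eq_zero_iff, IsLocalRing.mem_maximalIdeal, mem_nonunits_iff, not_not]

variable (Ω)

/-- The residue map on `Ω ⊗[K] O_v`. -/
def extResidue : Ω ⊗[K] v.toValuationSubring →ₐ[Ω] Ω :=
  Algebra.TensorProduct.lift (AlgHom.id Ω Ω) ((Algebra.ofId K Ω).comp (constResidue v))
    (fun _ _ => Commute.all _ _)

theorem extResidue_tmul (c : Ω) (f : v.toValuationSubring) :
    extResidue Ω v (c ⊗ₜ f) = c * algebraMap K Ω (constResidue v f) := by
  simp [extResidue, Algebra.ofId_apply]

variable (E)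

/-- The natural map `Ω ⊗[K] O_v → E`. -/
def extLocalMap : Ω ⊗[K] v.toValuationSubring →ₐ[Ω] E :=
  (extConstMap K F Ω E).comp
    (Algebra.TensorProduct.map (AlgHom.id Ω Ω)
      (IsScalarTower.toAlgHom K v.toValuationSubring F))

omit [IsAlgClosed K] [IsCurveOver K F] in
theorem extLocalMap_tmul (c : Ω) (f : v.toValuationSubring) :
    extLocalMap Ω E v (c ⊗ₜ f) = algebraMap Ω E c * algebraMap F E (f : F) := by
  simp [extLocalMap, extConstMap_tmul]

omit [IsAlgClosed K] [IsCurveOver K F] in
theorem extLocalMap_one_tmul (f : v.toValuationSubring) :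
    extLocalMap Ω E v (1 ⊗ₜ f) = algebraMap F E (f : F) := by
  rw [extLocalMap_tmul, map_one, one_mul]

variable [IsConstExt K F Ω E]

omit [IsAlgClosed K] [IsCurveOver K F] in
theorem extLocalMap_injective : Function.Injective (extLocalMap Ω E v) := by
  refine (IsConstExt.injective (K := K) (F := F) (Ω := Ω) (E := E)).comp ?_
  exact Module.Flat.lTensor_preserves_injective_linearMap (M := Ω)
    (IsScalarTower.toAlgHom K v.toValuationSubring F).toLinearMap Subtype.val_injective

variable {Ω E}

theorem extLocalMap_ne_zero {b : Ω ⊗[K] v.toValuationSubring} (hb : extResidue Ω v b ≠ 0) :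
    extLocalMap Ω E v b ≠ 0 := by
  rw [map_ne_zero_iff _ (extLocalMap_injective Ω E v)]
  rintro rfl
  exact hb (map_zero _)

omit [IsConstExt K F Ω E] in
private theorem extConst_factor_sum (n : ℕ) :
    ∀ {ι : Type (max uΩ uF)} (s : Finset ι) (c : ι → Ω) (f : ι → F), s.card ≤ n →
      extConstMap K F Ω E (∑ i ∈ s, c i ⊗ₜ f i) ≠ 0 →
      ∃ (g : F) (b : Ω ⊗[K] v.toValuationSubring), g ≠ 0 ∧ extResidue Ω v b ≠ 0 ∧
        extConstMap K F Ω E (∑ i ∈ s, c i ⊗ₜ f i) = algebraMap F E g * extLocalMap Ω E v b := by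
  classical
  induction n with
  | zero =>
    intro ι s c f hs hne
    rw [Nat.le_zero, Finset.card_eq_zero] at hs
    simp [hs] at hne
  | succ n ih =>
    intro ι s c f hs hne
    by_cases hzero : ∃ i ∈ s, f i = 0
    · obtain ⟨i, hi, hfi⟩ := hzero
      have he : ∑ j ∈ s, c j ⊗ₜ[K] f j = ∑ j ∈ s.erase i, c j ⊗ₜ[K] f j := by
        rw [← Finset.add_sum_erase _ _ hi, hfi, TensorProduct.tmul_zero, zero_add]
      rw [he] at hne ⊢
      exact ih _ c f (by rw [Finset.card_erase_of_mem hi]; omega) hne
    push Not at hzero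
    have hsne : s.Nonempty := by
      rw [Finset.nonempty_iff_ne_empty]; rintro rfl; simp at hne
    obtain ⟨i₀, hi₀, hmin⟩ := s.exists_min_image (fun i => v.ord (f i)) hsne
    have hg : f i₀ ≠ 0 := hzero i₀ hi₀
    have hmem : ∀ i ∈ s, f i / f i₀ ∈ v.toValuationSubring := by
      intro i hi
      have h : 0 ≤ v.ord (f i / f i₀) := by
        rw [div_eq_mul_inv, v.ord_mul (hzero i hi) (inv_ne_zero hg), v.ord_inv]
        have := hmin i hi
        omega
      by_contra hnot
      have h' : (f i / f i₀)⁻¹ ∈ v.toValuationSubring :=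
        (v.toValuationSubring.mem_or_inv_mem _).resolve_left hnot
      have hunit : IsUnit (⟨_, h'⟩ : v.toValuationSubring) := by
        rw [← v.adicValuation_coe_eq_one_iff]
        refine le_antisymm (v.adicValuation_le_one_of_mem h') ?_
        rw [map_inv₀]
        exact (one_le_inv₀ (zero_lt_iff.mpr (v.adicValuation_ne_zero
          (div_ne_zero (hzero i hi) hg)))).mpr (v.adicValuation_le_one_iff.mpr (Or.inr h))
      obtain ⟨u, hu⟩ := hunit
      apply hnot
      have h1 : ((u⁻¹ : v.toValuationSubringˣ) : v.toValuationSubring).1 = f i / f i₀ := by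
        have h2 : ((u⁻¹ : v.toValuationSubringˣ) : v.toValuationSubring).1 *
            (f i / f i₀)⁻¹ = 1 := by
          have h3 := congrArg Subtype.val u.inv_mul
          rw [hu] at h3
          exact h3
        exact eq_of_sub_eq_zero (by
          field_simp [hzero i hi, hg] at h2 ⊢
          linear_combination h2)
      exact h1 ▸ Subtype.mem _
    let q : ι → v.toValuationSubring := fun i => if h : i ∈ s then ⟨_, hmem i h⟩ else 0
    have hq : ∀ i ∈ s, (q i : F) = f i / f i₀ := fun i hi => by simp [q, hi]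
    set b : Ω ⊗[K] v.toValuationSubring := ∑ i ∈ s, c i ⊗ₜ q i with hb
    have hdec : extConstMap K F Ω E (∑ i ∈ s, c i ⊗ₜ f i)
        = algebraMap F E (f i₀) * extLocalMap Ω E v b := by
      simp only [hb, map_sum, Finset.mul_sum, extConstMap_tmul, extLocalMap_tmul]
      refine Finset.sum_congr rfl fun i hi => ?_
      rw [mul_left_comm, ← map_mul, hq i hi, mul_div_cancel₀ _ hg]
    by_cases hres : extResidue Ω v b ≠ 0
    · exact ⟨f i₀, b, hg, hres, hdec⟩
    push Not at hres
    -- eliminate the term `i₀`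
    have hq0 : q i₀ = 1 := Subtype.ext (by rw [hq i₀ hi₀, div_self hg]; rfl)
    let a : ι → K := fun i => constResidue v (q i)
    have hrel : c i₀ + ∑ i ∈ s.erase i₀, c i * algebraMap K Ω (a i) = 0 := by
      rw [hb, map_sum, ← Finset.add_sum_erase _ _ hi₀] at hres
      simpa [extResidue_tmul, hq0, a] using hres
    let f' : ι → F := fun i => f i - a i • f i₀
    have heq : ∑ i ∈ s, c i ⊗ₜ[K] f i = ∑ i ∈ s.erase i₀, c i ⊗ₜ[K] f' i := by
      rw [← Finset.add_sum_erase _ _ hi₀, eq_neg_of_add_eq_zero_left hrel,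
        TensorProduct.neg_tmul, TensorProduct.sum_tmul]
      simp only [f', TensorProduct.tmul_sub, Finset.sum_sub_distrib]
      rw [sub_eq_neg_add]
      congr 2
      refine Finset.sum_congr rfl fun i _ => ?_
      rw [TensorProduct.tmul_smul, TensorProduct.smul_tmul', Algebra.smul_def, mul_comm]
    rw [heq] at hne ⊢
    exact ih _ c f' (by rw [Finset.card_erase_of_mem hi₀]; omega) hne

/-- Every non-zero element of `E` is a function of `F` times a unit at `v`. -/
theorem exists_eq_mul_unit {e : E} (he : e ≠ 0) :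
    ∃ (g : F) (a b : Ω ⊗[K] v.toValuationSubring), g ≠ 0 ∧ extResidue Ω v a ≠ 0 ∧
      extResidue Ω v b ≠ 0 ∧ e * extLocalMap Ω E v b = algebraMap F E g * extLocalMap Ω E v a := by
  obtain ⟨a, b, hb, hab⟩ := IsConstExt.exists_eq_div (K := K) (F := F) (Ω := Ω) e
  have key : ∀ h : Ω ⊗[K] F, extConstMap K F Ω E h ≠ 0 →
      ∃ (g : F) (b : Ω ⊗[K] v.toValuationSubring), g ≠ 0 ∧ extResidue Ω v b ≠ 0 ∧
        extConstMap K F Ω E h = algebraMap F E g * extLocalMap Ω E v b := by
    intro h hh
    obtain ⟨S, rfl⟩ := TensorProduct.exists_finset h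
    obtain ⟨g, b, hg⟩ := extConst_factor_sum (E := E) v S.card
      (ι := ULift.{max uΩ uF} (Ω × F)) (S.map Equiv.ulift.symm.toEmbedding)
      (fun i => i.down.1) (fun i => i.down.2) (by simp) (by simpa using hh)
    exact ⟨g, b, by simpa using hg⟩
  obtain ⟨g₂, b', hg₂, hb', hbb⟩ := key b hb
  obtain ⟨g₁, a', hg₁, ha', haa⟩ := key a (by rw [← hab]; exact mul_ne_zero he hb)
  refine ⟨g₁ / g₂, a', b', div_ne_zero hg₁ hg₂, ha', hb', ?_⟩
  rw [hbb, haa] at hab
  rw [map_div₀]
  field_simp [(map_ne_zero (algebraMap F E)).mpr hg₂]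
  linear_combination hab

end Residue

/-! ### the extended place -/

section ExtPlace

variable [IsAlgClosed K] [IsCurveOver K F] [IsConstExt K F Ω E] (v : Place K F)



variable (Ω E)

/-- The valuation ring of the extension of `v`. -/
def extSubring : Subring E where
  carrier := {e | ∃ a b, extResidue Ω v b ≠ 0 ∧ e * extLocalMap Ω E v b = extLocalMap Ω E v a}
  one_mem' := ⟨1, 1, by simp, by simp⟩
  zero_mem' := ⟨0, 1, by simp, by simp⟩
  mul_mem' := by
    rintro x y ⟨a, b, hb, h⟩ ⟨a', b', hb', h'⟩
    refine ⟨a * a', b * b', by simp [hb, hb'], ?_⟩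
    rw [map_mul, map_mul, ← h, ← h']; ring
  add_mem' := by
    rintro x y ⟨a, b, hb, h⟩ ⟨a', b', hb', h'⟩
    refine ⟨a * b' + a' * b, b * b', by simp [hb, hb'], ?_⟩
    rw [map_mul, map_add, map_mul, map_mul, ← h, ← h']; ring
  neg_mem' := by
    rintro x ⟨a, b, hb, h⟩
    exact ⟨-a, b, hb, by rw [map_neg, ← h, neg_mul]⟩

variable {Ω E}

omit [IsConstExt K F Ω E] in
theorem algebraMap_mem_extSubring {f : F} (hf : f ∈ v.toValuationSubring) :
    algebraMap F E f ∈ extSubring Ω E v :=
  ⟨1 ⊗ₜ ⟨f, hf⟩, 1, by simp, by simp [extLocalMap_one_tmul]⟩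

theorem div_mem_extSubring (a : Ω ⊗[K] v.toValuationSubring) {b : Ω ⊗[K] v.toValuationSubring}
    (hb : extResidue Ω v b ≠ 0) : extLocalMap Ω E v a / extLocalMap Ω E v b ∈ extSubring Ω E v :=
  ⟨a, b, hb, div_mul_cancel₀ _ (extLocalMap_ne_zero v hb)⟩

theorem algebraMap_mem_extSubring_iff {f : F} :
    algebraMap F E f ∈ extSubring Ω E v ↔ f ∈ v.toValuationSubring := by
  refine ⟨?_, algebraMap_mem_extSubring v⟩
  rintro ⟨a, b, hb, h⟩
  by_contra hf
  have hf0 : f ≠ 0 := fun h0 => hf (h0 ▸ zero_mem _)
  have hi : f⁻¹ ∈ v.toValuationSubring := (v.toValuationSubring.mem_or_inv_mem _).resolve_left hf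
  have heq : b = (1 ⊗ₜ ⟨f⁻¹, hi⟩) * a := by
    apply extLocalMap_injective Ω E v
    rw [map_mul, extLocalMap_one_tmul, ← h, ← mul_assoc, ← map_mul, inv_mul_cancel₀ hf0, map_one,
      one_mul]
  have h0 : constResidue v ⟨f⁻¹, hi⟩ = 0 := by
    by_contra hne
    obtain ⟨u, hu⟩ := (constResidue_ne_zero_iff v _).mp hne
    apply hf
    have h3 := congrArg Subtype.val u.inv_mul
    rw [hu] at h3
    have h4 : ((u⁻¹ : v.toValuationSubringˣ) : v.toValuationSubring).1 = f := by
      have h3' : ((u⁻¹ : v.toValuationSubringˣ) : v.toValuationSubring).1 * f⁻¹ = 1 := h3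
      rw [mul_inv_eq_one₀ hf0] at h3'
      exact h3'
    exact h4 ▸ Subtype.mem _
  exact hb (by rw [heq, map_mul, extResidue_tmul, h0, map_zero, mul_zero, zero_mul])

variable (Ω E) in
/-- The valuation ring of the extension of `v`, as a valuation subring. -/
def extValuationSubring : ValuationSubring E where
  __ := extSubring Ω E v
  mem_or_inv_mem' e := by
    rcases eq_or_ne e 0 with rfl | he
    · exact Or.inl (zero_mem (extSubring Ω E v))
    obtain ⟨g, a, b, hg, ha, hb, h⟩ := exists_eq_mul_unit (Ω := Ω) v he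
    rcases v.toValuationSubring.mem_or_inv_mem g with hmem | hmem
    · refine Or.inl ⟨(1 ⊗ₜ ⟨g, hmem⟩) * a, b, hb, ?_⟩
      rw [h, map_mul, extLocalMap_one_tmul]
    · refine Or.inr ⟨(1 ⊗ₜ ⟨g⁻¹, hmem⟩) * b, a, ha, ?_⟩
      have hgE : algebraMap F E g ≠ 0 := (map_ne_zero (algebraMap F E)).mpr hg
      rw [map_mul, extLocalMap_one_tmul, map_inv₀]
      field_simp
      linear_combination -h

theorem mem_extValuationSubring {e : E} :
    e ∈ extValuationSubring Ω E v ↔
      ∃ a b, extResidue Ω v b ≠ 0 ∧ e * extLocalMap Ω E v b = extLocalMap Ω E v a := Iff.rfl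

/-- Every non-zero element of the extended valuation ring is a power of a uniformiser of `v`
times a unit. -/
theorem exists_eq_pow_mul_unit {π : v.toValuationSubring} (hπ : Irreducible π)
    {x : extValuationSubring Ω E v} (hx : x ≠ 0) :
    ∃ (n : ℕ) (u : (extValuationSubring Ω E v)ˣ),
      x = ⟨algebraMap F E π, algebraMap_mem_extSubring v π.2⟩ ^ n * u := by
  have hx' : (x : E) ≠ 0 := fun h0 => hx (Subtype.ext h0)
  obtain ⟨g, a, b, hg, ha, hb, h⟩ := exists_eq_mul_unit (Ω := Ω) v hx'
  obtain ⟨w, hw⟩ := v.exists_unit_mul_zpow hg hπ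
  -- the unit
  let t : E := algebraMap F E ((w : v.toValuationSubring) : F) *
    (extLocalMap Ω E v a / extLocalMap Ω E v b)
  let t' : E := algebraMap F E (((w⁻¹ : v.toValuationSubringˣ) : v.toValuationSubring) : F) *
    (extLocalMap Ω E v b / extLocalMap Ω E v a)
  have ht : t ∈ extSubring Ω E v :=
    mul_mem (algebraMap_mem_extSubring v (Subtype.mem _)) (div_mem_extSubring v a hb)
  have ht' : t' ∈ extSubring Ω E v :=
    mul_mem (algebraMap_mem_extSubring v (Subtype.mem _)) (div_mem_extSubring v b ha)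
  have htt : t * t' = 1 := by
    have hw1 : algebraMap F E ((w : v.toValuationSubring) : F) *
        algebraMap F E (((w⁻¹ : v.toValuationSubringˣ) : v.toValuationSubring) : F) = 1 := by
      rw [← map_mul, ← map_one (algebraMap F E)]
      exact congrArg _ (congrArg Subtype.val w.mul_inv)
    have h1 := extLocalMap_ne_zero (E := E) v ha
    have h2 := extLocalMap_ne_zero (E := E) v hb
    calc t * t' = (algebraMap F E ((w : v.toValuationSubring) : F) *
        algebraMap F E (((w⁻¹ : v.toValuationSubringˣ) : v.toValuationSubring) : F)) *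
        ((extLocalMap Ω E v a / extLocalMap Ω E v b) * (extLocalMap Ω E v b / extLocalMap Ω E v a)) := by
          simp only [t, t']; ring
      _ = 1 := by rw [hw1]; field_simp
  have hxt : (x : E) = algebraMap F E (π : F) ^ (v.ord g) * t := by
    have h2 := extLocalMap_ne_zero (E := E) v hb
    have h3 : (x : E) = algebraMap F E g * (extLocalMap Ω E v a / extLocalMap Ω E v b) := by
      field_simp
      linear_combination h
    calc (x : E) = algebraMap F E g * (extLocalMap Ω E v a / extLocalMap Ω E v b) := h3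
      _ = algebraMap F E (((w : v.toValuationSubring) : F) * (π : F) ^ v.ord g) *
          (extLocalMap Ω E v a / extLocalMap Ω E v b) := by rw [← hw]
      _ = _ := by rw [map_mul, map_zpow₀]; simp only [t]; ring
  have hn : 0 ≤ v.ord g := by
    by_contra hneg
    have hmem : algebraMap F E ((π : F) ^ v.ord g) ∈ extSubring Ω E v := by
      have : algebraMap F E ((π : F) ^ v.ord g) = (x : E) * t' := by
        rw [hxt, mul_assoc, htt, mul_one, map_zpow₀]
      rw [this]
      exact mul_mem x.2 ht'
    have h0 : 0 ≤ v.ord ((π : F) ^ v.ord g) := by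
      rcases v.adicValuation_le_one_iff.mp (v.adicValuation_le_one_of_mem
        ((algebraMap_mem_extSubring_iff v).mp hmem)) with h0 | h0
      · exact absurd h0 (zpow_ne_zero _ fun h1 => hπ.ne_zero (Subtype.ext h1))
      · exact h0
    rw [v.ord_zpow, v.ord_coe_irreducible hπ] at h0
    omega
  refine ⟨(v.ord g).toNat, ⟨⟨t, ht⟩, ⟨t', ht'⟩, Subtype.ext htt,
    Subtype.ext (by rw [mul_comm] at htt; exact htt)⟩, Subtype.ext ?_⟩
  rw [hxt]
  push_cast
  congr 1
  rw [← zpow_natCast, Int.toNat_of_nonneg hn]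

variable (Ω E)

/-- The unique place of `E` over the place `v` of `F`. -/
def placeExt : Place Ω E where
  toValuationSubring := extValuationSubring Ω E v
  algebraMap_mem' c := ⟨c ⊗ₜ 1, 1, by simp, by simp [extLocalMap_tmul]⟩
  ne_top' h := v.ne_top' <| SetLike.ext fun f => ⟨fun _ => ValuationSubring.mem_top f, fun _ =>
    (algebraMap_mem_extSubring_iff (Ω := Ω) (E := E) v).mp
      ((SetLike.ext_iff.mp h (algebraMap F E f)).mpr (ValuationSubring.mem_top _))⟩
  isPrincipalIdealRing' := by
    classical
    obtain ⟨π, hπ⟩ := IsDiscreteValuationRing.exists_irreducible v.toValuationSubring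
    constructor
    intro I
    rcases eq_or_ne I ⊥ with rfl | hI
    · exact ⟨⟨0, by simp⟩⟩
    set p : extValuationSubring Ω E v :=
      ⟨algebraMap F E π, algebraMap_mem_extSubring v π.2⟩
    have hex : ∃ n, p ^ n ∈ I := by
      obtain ⟨x, hxI, hx0⟩ := Submodule.exists_mem_ne_zero_of_ne_bot hI
      obtain ⟨n, u, hu⟩ := exists_eq_pow_mul_unit v hπ hx0
      refine ⟨n, ?_⟩
      have := I.mul_mem_right ((u⁻¹ : _ˣ) : extValuationSubring Ω E v) hxI
      rwa [hu, mul_assoc, Units.mul_inv, mul_one] at this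
    refine ⟨⟨p ^ Nat.find hex, le_antisymm (fun x hx => ?_) ?_⟩⟩
    · rw [Submodule.mem_span_singleton]
      rcases eq_or_ne x 0 with rfl | hx0
      · exact ⟨0, by simp⟩
      obtain ⟨n, u, hu⟩ := exists_eq_pow_mul_unit v hπ hx0
      have hn : Nat.find hex ≤ n := Nat.find_min' hex (by
        have := I.mul_mem_right ((u⁻¹ : _ˣ) : extValuationSubring Ω E v) hx
        rwa [hu, mul_assoc, Units.mul_inv, mul_one] at this)
      refine ⟨p ^ (n - Nat.find hex) * u, ?_⟩
      rw [hu, smul_eq_mul, mul_right_comm, ← pow_add, Nat.sub_add_cancel hn]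
    · rw [Submodule.span_singleton_le_iff_mem]
      exact Nat.find_spec hex

variable {Ω E}

theorem placeExt_exists_eq_pow_mul_unit {π : v.toValuationSubring} (hπ : Irreducible π)
    {x : (placeExt Ω E v).toValuationSubring} (hx : x ≠ 0) :
    ∃ (n : ℕ) (u : (placeExt Ω E v).toValuationSubringˣ),
      x = ⟨algebraMap F E π, algebraMap_mem_extSubring v π.2⟩ ^ n * u :=
  exists_eq_pow_mul_unit v hπ hx

theorem algebraMap_mem_placeExt {f : F} :
    algebraMap F E f ∈ (placeExt Ω E v).toValuationSubring ↔ f ∈ v.toValuationSubring :=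
  algebraMap_mem_extSubring_iff v

end ExtPlace

end Fermat.Agent.Curve
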