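/-
Constant field extension: uniqueness of the extended place, classification of the places of `E`,
and the induced maps `divExt` on divisors and `picExt` on divisor classes of degree zero.
-/
import Fermat.Agent.Curve.ConstExtBasic
import Fermat.Agent.Curve.BasicPlace

set_option autoImplicit false

noncomputable section

namespace Fermat.Agent.Curve

open AlgebraicCurve TensorProduct IsLocalRing

universe uK uF uΩ uE

variable {K : Type uK} {F : Type uF} {Ω : Type uΩ} {E : Type uE}
  [Field K] [Field F] [Field Ω] [Field E]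
  [Algebra K F] [Algebra K Ω] [Algebra K E] [Algebra F E] [Algebra Ω E]
  [IsScalarTower K F E] [IsScalarTower K Ω E]

private theorem mem_place_iff {K₁ F₁ : Type*} [Field K₁] [Field F₁] [Algebra K₁ F₁]
    (v : Place K₁ F₁) {f : F₁} (_ : f ≠ 0) : f ∈ v.toValuationSubring ↔ 0 ≤ v.ord f :=
  mem_iff_ord_nonneg v

theorem mem_maximalIdeal_iff_ord {K₁ F₁ : Type*} [Field K₁] [Field F₁] [Algebra K₁ F₁]
    (v : Place K₁ F₁) (f : v.toValuationSubring) :
    f ∈ maximalIdeal v.toValuationSubring ↔ (f : F₁) = 0 ∨ 0 < v.ord (f : F₁) := by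
  rcases eq_or_ne f 0 with rfl | hf
  · simp
  have hf' : (f : F₁) ≠ 0 := fun h => hf (Subtype.ext h)
  rw [IsLocalRing.mem_maximalIdeal, mem_nonunits_iff, or_iff_right hf']
  have h0 := (mem_place_iff v hf').mp f.2
  constructor
  · intro hu
    by_contra hle
    refine hu ?_
    rw [← v.adicValuation_coe_eq_one_iff, v.adicValuation_eq_exp_neg_ord hf',
      show v.ord (f : F₁) = 0 by omega]
    simp
  · intro hpos hu
    have h1 := v.ord_coe_unit hu.unit
    rw [IsUnit.unit_spec] at h1
    omega

theorem ord_le_add_or {K₁ F₁ : Type*} [Field K₁] [Field F₁] [Algebra K₁ F₁] (w : Place K₁ F₁)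
    {n : ℤ} {f g : F₁} (hf : f = 0 ∨ n ≤ w.ord f) (hg : g = 0 ∨ n ≤ w.ord g) :
    f + g = 0 ∨ n ≤ w.ord (f + g) := by
  have h : ∀ x : F₁, (x = 0 ∨ n ≤ w.ord x) ↔ w.adicValuation x ≤ WithZero.exp (-n) := fun x => by
    rw [w.adicValuation_le_exp_iff, neg_neg]
  rw [h] at *
  exact (Valuation.map_add _ _ _).trans (max_le hf hg)

section

variable [IsAlgClosed K] [IsCurveOver K F] [IsConstExt K F Ω E] (v : Place K F)

/-- The order at the extended place of a function of `F`. -/
theorem ord_placeExt (f : F) : (placeExt Ω E v).ord (algebraMap F E f) = v.ord f := by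
  rcases eq_or_ne f 0 with rfl | hf
  · simp
  obtain ⟨π, hπ⟩ := IsDiscreteValuationRing.exists_irreducible v.toValuationSubring
  obtain ⟨u, hu⟩ := v.exists_unit_mul_zpow hf hπ
  -- a uniformiser of `v` is a uniformiser of the extension
  set p : (placeExt Ω E v).toValuationSubring :=
    ⟨algebraMap F E π, (algebraMap_mem_placeExt v).mpr π.2⟩
  have hp0 : p ≠ 0 := fun h => hπ.ne_zero <| Subtype.ext <| by
    have h' : algebraMap F E (π : F) = 0 := congrArg Subtype.val h
    exact (map_eq_zero _).mp h'
  have hpu : ¬ IsUnit p := by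
    intro hu'
    obtain ⟨q, hq⟩ := isUnit_iff_exists_inv.mp hu'
    have hq' : algebraMap F E (π : F) * (q : E) = 1 := congrArg Subtype.val hq
    have hmem : algebraMap F E (π : F)⁻¹ ∈ (placeExt Ω E v).toValuationSubring := by
      rw [map_inv₀, inv_eq_of_mul_eq_one_right hq']
      exact q.2
    have h1 := (mem_place_iff v (inv_ne_zero fun h => hπ.ne_zero (Subtype.ext h))).mp
      ((algebraMap_mem_placeExt v).mp hmem)
    rw [v.ord_inv, v.ord_coe_irreducible hπ] at h1
    omega
  have hp : Irreducible p := by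
    refine ⟨hpu, fun a b hab => ?_⟩
    have ha0 : a ≠ 0 := fun h => hp0 (by rw [hab, h, zero_mul])
    have hb0 : b ≠ 0 := fun h => hp0 (by rw [hab, h, mul_zero])
    obtain ⟨n, ua, hua⟩ := placeExt_exists_eq_pow_mul_unit v hπ (x := a) ha0
    obtain ⟨m, ub, hub⟩ := placeExt_exists_eq_pow_mul_unit v hπ (x := b) hb0
    change a = p ^ n * _ at hua
    change b = p ^ m * _ at hub
    rcases n with _ | n
    · left
      rw [hua, pow_zero, one_mul]
      exact Units.isUnit ua
    rcases m with _ | m
    · right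
      rw [hub, pow_zero, one_mul]
      exact Units.isUnit ub
    exfalso
    apply hpu
    rw [hua, hub] at hab
    refine isUnit_iff_exists_inv.mpr ⟨p ^ n * p ^ m *
      ((ua : (placeExt Ω E v).toValuationSubring) * ub), ?_⟩
    apply mul_left_cancel₀ hp0
    rw [mul_one]
    calc p * (p * (p ^ n * p ^ m * ((ua : (placeExt Ω E v).toValuationSubring) * ub)))
        = p ^ (n + 1) * ua * (p ^ (m + 1) * ub) := by ring
      _ = p := hab.symm
  have hunit : IsUnit (⟨algebraMap F E ((u : v.toValuationSubring) : F),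
      (algebraMap_mem_placeExt v).mpr (Subtype.mem _)⟩ :
      (placeExt Ω E v).toValuationSubring) := by
    refine isUnit_iff_exists_inv.mpr
      ⟨⟨algebraMap F E (((u⁻¹ : v.toValuationSubringˣ) : v.toValuationSubring) : F),
        (algebraMap_mem_placeExt v).mpr (Subtype.mem _)⟩, Subtype.ext ?_⟩
    show algebraMap F E _ * algebraMap F E _ = 1
    rw [← map_mul, ← map_one (algebraMap F E)]
    exact congrArg _ (congrArg Subtype.val u.mul_inv)
  conv_lhs => rw [hu, map_mul, map_zpow₀]
  exact (placeExt Ω E v).ord_unit_smul_zpow hunit.unit hp (v.ord f)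

/-- A place of `E` inducing `v` on `F` is the extension of `v`. -/
theorem eq_placeExt {w : Place Ω E}
    (hw : ∀ f : F, f ∈ v.toValuationSubring → algebraMap F E f ∈ w.toValuationSubring)
    (hne : ∃ f : F, algebraMap F E f ∉ w.toValuationSubring) : w = placeExt Ω E v := by
  classical
  obtain ⟨π, hπ⟩ := IsDiscreteValuationRing.exists_irreducible v.toValuationSubring
  have hπ0 : (π : F) ≠ 0 := fun h => hπ.ne_zero (Subtype.ext h)
  have hπE : algebraMap F E (π : F) ≠ 0 := (map_ne_zero (algebraMap F E)).mpr hπ0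
  -- the uniformiser of `v` is not a unit at `w`
  have hπpos : 0 < w.ord (algebraMap F E (π : F)) := by
    by_contra hle
    have h0 := (mem_place_iff w hπE).mp (hw _ π.2)
    obtain ⟨f, hf⟩ := hne
    have hf0 : f ≠ 0 := fun h => hf (by rw [h, map_zero]; exact zero_mem _)
    obtain ⟨u, hu⟩ := v.exists_unit_mul_zpow hf0 hπ
    apply hf
    rw [hu, map_mul, map_zpow₀]
    refine mul_mem (hw _ (Subtype.mem _)) ?_
    rw [mem_place_iff w (zpow_ne_zero _ hπE), w.ord_zpow, show w.ord (algebraMap F E (π : F)) = 0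
      by omega, mul_zero]
  -- elements of the tensor product are congruent to their residue
  have hloc : ∀ b : Ω ⊗[K] v.toValuationSubring,
      extLocalMap Ω E v b ∈ w.toValuationSubring ∧
      (extLocalMap Ω E v b - algebraMap Ω E (extResidue Ω v b) = 0 ∨
        1 ≤ w.ord (extLocalMap Ω E v b - algebraMap Ω E (extResidue Ω v b))) := by
    intro b
    induction b using TensorProduct.induction_on with
    | zero => exact ⟨by simp, Or.inl (by simp)⟩
    | tmul c f =>
      refine ⟨by rw [extLocalMap_tmul]; exact mul_mem (w.algebraMap_mem' c) (hw _ f.2), ?_⟩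
      set r := constResidue v f
      set d : v.toValuationSubring := f - algebraMap K v.toValuationSubring r
      have hd : d ∈ maximalIdeal v.toValuationSubring := by
        rw [← constResidue_eq_zero_iff, map_sub, constResidue_algebraMap, sub_self]
      have hfd : extLocalMap Ω E v (c ⊗ₜ f) - algebraMap Ω E (extResidue Ω v (c ⊗ₜ f))
          = algebraMap Ω E c * algebraMap F E (d : F) := by
        rw [extLocalMap_tmul, extResidue_tmul, map_mul,
          ← IsScalarTower.algebraMap_apply K Ω E]
        simp only [d, map_sub, AddSubgroupClass.coe_sub, Place.coe_algebraMap,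
          ← IsScalarTower.algebraMap_apply K F E, r]
        ring
      rw [hfd]
      rcases eq_or_ne c 0 with rfl | hc
      · left; simp
      rcases eq_or_ne (d : F) 0 with hd0 | hd0
      · left; simp [hd0]
      right
      have hvd : 0 < v.ord (d : F) := ((mem_maximalIdeal_iff_ord v d).mp hd).resolve_left hd0
      obtain ⟨u, hu⟩ := v.exists_unit_mul_zpow hd0 hπ
      have hcE : algebraMap Ω E c ≠ 0 := (map_ne_zero (algebraMap Ω E)).mpr hc
      have huE : algebraMap F E ((u : v.toValuationSubring) : F) ≠ 0 :=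
        (map_ne_zero (algebraMap F E)).mpr fun h => u.ne_zero (Subtype.ext h)
      have hc0 : 0 ≤ w.ord (algebraMap Ω E c) := (mem_place_iff w hcE).mp (w.algebraMap_mem' c)
      have hu0 : 0 ≤ w.ord (algebraMap F E ((u : v.toValuationSubring) : F)) :=
        (mem_place_iff w huE).mp (hw _ (Subtype.mem _))
      rw [hu, map_mul, map_zpow₀, w.ord_mul hcE (mul_ne_zero huE (zpow_ne_zero _ hπE)),
        w.ord_mul huE (zpow_ne_zero _ hπE), w.ord_zpow]
      have : 1 ≤ v.ord (d : F) * w.ord (algebraMap F E (π : F)) :=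
        mul_pos hvd hπpos
      omega
    | add x y hx hy =>
      refine ⟨by rw [map_add]; exact add_mem hx.1 hy.1, ?_⟩
      rw [map_add, map_add, map_add, add_sub_add_comm]
      exact ord_le_add_or w hx.2 hy.2
  -- units
  have hunit : ∀ b : Ω ⊗[K] v.toValuationSubring, extResidue Ω v b ≠ 0 →
      (extLocalMap Ω E v b)⁻¹ ∈ w.toValuationSubring := by
    intro b hb
    have hbne := extLocalMap_ne_zero (E := E) v hb
    have hrE : algebraMap Ω E (extResidue Ω v b) ≠ 0 := (map_ne_zero (algebraMap Ω E)).mpr hb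
    have hr0 : w.ord (algebraMap Ω E (extResidue Ω v b)) = 0 := by
      have h1 := (mem_place_iff w hrE).mp (w.algebraMap_mem' _)
      have h2 := (mem_place_iff w ((map_ne_zero (algebraMap Ω E)).mpr (inv_ne_zero hb))).mp
        (w.algebraMap_mem' _)
      rw [map_inv₀, w.ord_inv] at h2
      omega
    rw [mem_place_iff w (inv_ne_zero hbne), w.ord_inv, neg_nonneg]
    by_contra hpos
    have h1 : (extLocalMap Ω E v b = 0 ∨ 1 ≤ w.ord (extLocalMap Ω E v b)) := Or.inr (by omega)
    have h2 : -(extLocalMap Ω E v b - algebraMap Ω E (extResidue Ω v b)) = 0 ∨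
        1 ≤ w.ord (-(extLocalMap Ω E v b - algebraMap Ω E (extResidue Ω v b))) := by
      rcases (hloc b).2 with h | h
      · left; simp [h]
      · right
        rwa [show w.ord (-(extLocalMap Ω E v b - algebraMap Ω E (extResidue Ω v b))) =
          w.ord (extLocalMap Ω E v b - algebraMap Ω E (extResidue Ω v b)) by
            simp only [Place.ord, Valuation.map_neg]]
    have h3 := ord_le_add_or w h1 h2
    rw [show extLocalMap Ω E v b + -(extLocalMap Ω E v b - algebraMap Ω E (extResidue Ω v b))
      = algebraMap Ω E (extResidue Ω v b) by ring, or_iff_right hrE, hr0] at h3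
    omega
  have hle : ∀ e : E, e ∈ (placeExt Ω E v).toValuationSubring → e ∈ w.toValuationSubring := by
    rintro e ⟨a, b, hb, h⟩
    rw [eq_div_of_mul_eq (extLocalMap_ne_zero (E := E) v hb) h, div_eq_mul_inv]
    exact mul_mem (hloc a).1 (hunit b hb)
  refine Place.ext (SetLike.ext fun e => ⟨fun he => ?_, hle e⟩)
  by_contra hnot
  have he0 : e ≠ 0 := fun h => hnot (h ▸ zero_mem _)
  have hi : e⁻¹ ∈ (placeExt Ω E v).toValuationSubring :=
    ((placeExt Ω E v).toValuationSubring.mem_or_inv_mem e).resolve_left hnot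
  obtain ⟨n, u, hu⟩ := placeExt_exists_eq_pow_mul_unit v hπ
    (x := ⟨e⁻¹, hi⟩) fun h => inv_ne_zero he0 (congrArg Subtype.val h)
  rcases n with _ | n
  · apply hnot
    have hu' : e⁻¹ = ((u : (placeExt Ω E v).toValuationSubring) : E) := by
      have := congrArg Subtype.val hu
      simp only [pow_zero, one_mul] at this
      exact this
    have h1 : ((u : (placeExt Ω E v).toValuationSubring) : E) *
        ((u⁻¹ : _ˣ) : (placeExt Ω E v).toValuationSubring).1 = 1 := congrArg Subtype.val u.mul_inv
    have h2 : e = ((u⁻¹ : _ˣ) : (placeExt Ω E v).toValuationSubring).1 := by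
      rw [← inv_inv e, hu', inv_eq_of_mul_eq_one_right h1]
    rw [h2]
    exact Subtype.mem _
  · have hu' : e⁻¹ = algebraMap F E (π : F) ^ (n + 1) *
        ((u : (placeExt Ω E v).toValuationSubring) : E) := congrArg Subtype.val hu
    have h1 : ((algebraMap F E (π : F))⁻¹ : E) = e * (algebraMap F E (π : F) ^ n *
        ((u : (placeExt Ω E v).toValuationSubring) : E)) := by
      refine inv_eq_of_mul_eq_one_right ?_
      calc algebraMap F E (π : F) * (e * (algebraMap F E (π : F) ^ n *
          ((u : (placeExt Ω E v).toValuationSubring) : E)))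
          = e * e⁻¹ := by rw [hu']; ring
        _ = 1 := mul_inv_cancel₀ he0
    have h2 := (mem_place_iff w (inv_ne_zero hπE)).mp
      (h1 ▸ mul_mem he (mul_mem (pow_mem (hw _ π.2) n) (hle _ (Subtype.mem _))))
    rw [w.ord_inv] at h2
    omega

theorem placeExt_injective : Function.Injective (placeExt Ω E : Place K F → Place Ω E) := by
  intro v v' h
  refine Place.ext (SetLike.ext fun f => ?_)
  rw [← algebraMap_mem_placeExt (Ω := Ω) (E := E) v, h, algebraMap_mem_placeExt]

omit v

/-- A place of `E` is either the extension of a place of `F`, or contains `F`. -/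
theorem exists_eq_placeExt_or (w : Place Ω E) :
    (∃ v : Place K F, w = placeExt Ω E v) ∨
      (∀ f : F, algebraMap F E f ∈ w.toValuationSubring) := by
  classical
  by_cases h : ∀ f : F, algebraMap F E f ∈ w.toValuationSubring
  · exact Or.inr h
  push Not at h
  obtain ⟨f₀, hf₀⟩ := h
  set A : ValuationSubring F := w.toValuationSubring.comap (algebraMap F E)
  have hA : ∀ f : F, f ∈ A ↔ algebraMap F E f ∈ w.toValuationSubring :=
    fun f => ValuationSubring.mem_comap
  refine Or.inl ⟨⟨A, fun a => ?_, fun htop => hf₀ ((hA f₀).mp (htop ▸ ValuationSubring.mem_top _)),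
    ⟨fun I => ?_⟩⟩, eq_placeExt _ (fun f hf => (hA f).mp hf) ⟨f₀, hf₀⟩⟩
  · rw [hA, ← IsScalarTower.algebraMap_apply K F E, IsScalarTower.algebraMap_apply K Ω E]
    exact w.algebraMap_mem' _
  rcases eq_or_ne I ⊥ with rfl | hI
  · exact ⟨⟨0, by simp⟩⟩
  obtain ⟨x, hxI, hx0⟩ := Submodule.exists_mem_ne_zero_of_ne_bot hI
  have hex : ∃ n : ℕ, ∃ y : A, y ∈ I ∧ y ≠ 0 ∧ (w.ord (algebraMap F E (y : F))).toNat = n :=
    ⟨_, x, hxI, hx0, rfl⟩
  obtain ⟨y, hyI, hy0, hy⟩ := Nat.find_spec hex
  refine ⟨⟨y, le_antisymm (fun z hz => ?_) (by rwa [Submodule.span_singleton_le_iff_mem])⟩⟩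
  rw [Submodule.mem_span_singleton]
  rcases eq_or_ne z 0 with rfl | hz0
  · exact ⟨0, by simp⟩
  have hyF : (y : F) ≠ 0 := fun h => hy0 (Subtype.ext h)
  have hzF : (z : F) ≠ 0 := fun h => hz0 (Subtype.ext h)
  have hyE : algebraMap F E (y : F) ≠ 0 := (map_ne_zero (algebraMap F E)).mpr hyF
  have hzE : algebraMap F E (z : F) ≠ 0 := (map_ne_zero (algebraMap F E)).mpr hzF
  have h1 : Nat.find hex ≤ (w.ord (algebraMap F E (z : F))).toNat :=
    Nat.find_min' hex ⟨z, hz, hz0, rfl⟩
  have h2 := (mem_place_iff w hyE).mp ((hA _).mp y.2)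
  have h3 := (mem_place_iff w hzE).mp ((hA _).mp z.2)
  refine ⟨⟨(z : F) / y, (hA _).mpr ?_⟩, Subtype.ext ?_⟩
  · rw [map_div₀, mem_place_iff w (div_ne_zero hzE hyE), div_eq_mul_inv,
      w.ord_mul hzE (inv_ne_zero hyE), w.ord_inv]
    omega
  · exact div_mul_cancel₀ _ hyF

/-- At a place containing `F` the non-zero functions of `F` have order zero. -/
theorem ord_algebraMap_eq_zero_of_forall_mem {w : Place Ω E}
    (hw : ∀ f : F, algebraMap F E f ∈ w.toValuationSubring) (f : F) :
    w.ord (algebraMap F E f) = 0 := by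
  rcases eq_or_ne f 0 with rfl | hf
  · simp
  have h1 := (mem_place_iff w ((map_ne_zero (algebraMap F E)).mpr hf)).mp (hw f)
  have h2 := (mem_place_iff w ((map_ne_zero (algebraMap F E)).mpr (inv_ne_zero hf))).mp (hw f⁻¹)
  rw [map_inv₀, w.ord_inv] at h2
  omega

variable (Ω E)

/-- The map on divisors. -/
def divExt : Divisor K F →+ Divisor Ω E :=
  Finsupp.mapDomain.addMonoidHom (placeExt Ω E)

variable {Ω E}

theorem divExt_single (v : Place K F) (n : ℤ) :
    divExt Ω E (Finsupp.single v n) = Finsupp.single (placeExt Ω E v) n :=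
  Finsupp.mapDomain_single

theorem divExt_apply_placeExt (D : Divisor K F) (v : Place K F) :
    divExt Ω E D (placeExt Ω E v) = D v :=
  Finsupp.mapDomain_apply placeExt_injective D v

theorem divExt_apply_of_forall_mem (D : Divisor K F) {w : Place Ω E}
    (hw : ∀ f : F, algebraMap F E f ∈ w.toValuationSubring) : divExt Ω E D w = 0 := by
  refine Finsupp.mapDomain_of_notMem_range _ _ ?_
  rintro ⟨v, rfl⟩
  refine v.ne_top' (SetLike.ext fun f => ⟨fun _ => ValuationSubring.mem_top f, fun _ => ?_⟩)
  exact (algebraMap_mem_placeExt v).mp (hw f)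

theorem divExt_injective : Function.Injective (divExt Ω E : Divisor K F → Divisor Ω E) :=
  Finsupp.mapDomain_injective placeExt_injective

/-- The divisor of a function of `F` computed on `E`. -/
theorem ord_algebraMap_eq_divExt {D : Divisor K F} {f : F} (hD : ∀ v, D v = v.ord f)
    (w : Place Ω E) : divExt Ω E D w = w.ord (algebraMap F E f) := by
  rcases exists_eq_placeExt_or (K := K) (F := F) w with ⟨v, rfl⟩ | hw
  · rw [divExt_apply_placeExt, hD, ord_placeExt]
  · rw [divExt_apply_of_forall_mem D hw, ord_algebraMap_eq_zero_of_forall_mem hw]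

theorem divExt_mem_principal {D : Divisor K F} (hD : D ∈ Divisor.principal (K := K) (F := F)) :
    divExt Ω E D ∈ Divisor.principal (K := Ω) (F := E) := by
  obtain ⟨f, hf, hD⟩ := hD
  exact ⟨algebraMap F E f, (map_ne_zero (algebraMap F E)).mpr hf,
    ord_algebraMap_eq_divExt hD⟩

variable [IsAlgClosed Ω] [IsCurveOver Ω E]

theorem degree_divExt (D : Divisor K F) :
    Divisor.degree (divExt Ω E D) = Divisor.degree D := by
  induction D using Finsupp.induction with
  | zero => simp
  | single_add v n D _ _ ih =>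
    rw [map_add, map_add, map_add, ih, divExt_single, Divisor.degree_single,
      Divisor.degree_single, IsCurveOver.deg_eq_one_of_isAlgClosed,
      IsCurveOver.deg_eq_one_of_isAlgClosed]

variable (Ω E)

/-- `divExt` on divisors of degree zero. -/
def degZeroExt :
    Divisor.degZero (K := K) (F := F) →+ Divisor.degZero (K := Ω) (F := E) :=
  ((divExt Ω E).comp (Divisor.degZero (K := K) (F := F)).subtype).codRestrict _ fun D => by
    rw [Divisor.mem_degZero, AddMonoidHom.comp_apply, degree_divExt]
    exact D.2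

/-- The map on divisor classes of degree zero. -/
def picExt : Pic0 K F →+ Pic0 Ω E :=
  QuotientAddGroup.map _ _ (degZeroExt Ω E) <| by
    rintro ⟨D, hD0⟩ hD
    simp only [AddSubgroup.mem_comap, AddSubgroup.mem_addSubgroupOf] at hD ⊢
    exact divExt_mem_principal hD

variable {Ω E}

theorem picExt_mk (D : Divisor.degZero (K := K) (F := F)) :
    picExt Ω E (Pic0.mk D) = Pic0.mk (degZeroExt Ω E D) := rfl

theorem coe_degZeroExt (D : Divisor.degZero (K := K) (F := F)) :
    (degZeroExt Ω E D : Divisor Ω E) = divExt Ω E (D : Divisor K F) := rfl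

end

end Fermat.Agent.Curve
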