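/-
Constant field extension: the action of `Aut(Ω/K)` on `E`, enough automorphisms to move
transcendental constants, and Galois descent for stable subspaces.
-/
import Fermat.Agent.Curve.ConstExtPlace
import Fermat.Prelude.Def_AlgebraicCurve_BaseChangeGalois
import Mathlib.RingTheory.Localization.FractionRing
import Mathlib.RingTheory.AlgebraicIndependent.Adjoin
import Mathlib.RingTheory.AlgebraicIndependent.TranscendenceBasis
import Mathlib.FieldTheory.IsAlgClosed.Basic

set_option autoImplicit false

noncomputable section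

namespace Fermat.Agent.Curve

open AlgebraicCurve TensorProduct

universe uK uF uΩ uE

/-- An algebraically closed extension has enough automorphisms: every transcendental constant can
be translated by a constant of the base. -/
theorem exists_algEquiv_apply_eq_add {K Ω : Type*} [Field K] [Field Ω] [Algebra K Ω]
    [IsAlgClosed Ω] {t : Ω} (ht : Transcendental K t) (a : K) :
    ∃ σ : Ω ≃ₐ[K] Ω, σ t = t + algebraMap K Ω a := by
  classical
  obtain ⟨s, hts, hs⟩ := exists_isTranscendenceBasis_superset (R := K) (s := {t})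
    ((algebraicIndependent_unique_type_iff (x := fun i : ({t} : Set Ω) => id (i : Ω))).mpr
      (by simpa using ht))
  let i₀ : s := ⟨t, hts rfl⟩
  -- translate one variable
  let τ₁ : MvPolynomial s K →ₐ[K] MvPolynomial s K :=
    MvPolynomial.aeval fun i => if i = i₀ then MvPolynomial.X i + MvPolynomial.C a
      else MvPolynomial.X i
  let τ₂ : MvPolynomial s K →ₐ[K] MvPolynomial s K :=
    MvPolynomial.aeval fun i => if i = i₀ then MvPolynomial.X i - MvPolynomial.C a
      else MvPolynomial.X i
  let τ : MvPolynomial s K ≃ₐ[K] MvPolynomial s K := AlgEquiv.ofAlgHom τ₁ τ₂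
    (MvPolynomial.algHom_ext fun i => by
      by_cases h : i = i₀ <;> simp [τ₁, τ₂, h])
    (MvPolynomial.algHom_ext fun i => by
      by_cases h : i = i₀ <;> simp [τ₁, τ₂, h])
  let B := IntermediateField.adjoin K (Set.range ((↑) : s → Ω))
  let e : FractionRing (MvPolynomial s K) ≃ₐ[K] B := hs.1.aevalEquivField
  let τB : B ≃ₐ[K] B := (e.symm.trans (IsFractionRing.algEquivOfAlgEquiv τ)).trans e
  have : Algebra.IsAlgebraic B Ω := hs.isAlgebraic_field
  have : IsAlgClosure B Ω := ⟨inferInstance, inferInstance⟩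
  let σ₀ : Ω ≃+* Ω := IsAlgClosure.equivOfEquiv Ω Ω τB.toRingEquiv
  have hσ₀ : ∀ b : B, σ₀ (b : Ω) = (τB b : Ω) := fun b =>
    IsAlgClosure.equivOfEquiv_algebraMap Ω Ω τB.toRingEquiv b
  refine ⟨AlgEquiv.ofRingEquiv (f := σ₀) fun c => ?_, ?_⟩
  · have h := hσ₀ (algebraMap K B c)
    rw [τB.commutes] at h
    exact h
  let P : FractionRing (MvPolynomial s K) :=
    algebraMap (MvPolynomial s K) (FractionRing (MvPolynomial s K)) (MvPolynomial.X i₀)
  have he : ∀ q : MvPolynomial s K, (e (algebraMap _ _ q) : Ω) =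
      MvPolynomial.aeval ((↑) : s → Ω) q :=
    fun q => hs.1.aevalEquivField_algebraMap_apply_coe q
  have hP : (e P : Ω) = t := by
    rw [he]
    simp [i₀]
  show σ₀ t = _
  have h1 : σ₀ t = (τB (e P) : Ω) := by
    rw [← hσ₀ (e P), hP]
  rw [h1]
  simp only [τB, AlgEquiv.trans_apply, AlgEquiv.symm_apply_apply, P]
  rw [IsFractionRing.algEquivOfAlgEquiv_algebraMap, he]
  simp [τ, τ₁, i₀]

theorem exists_infinite_orbit {K Ω : Type*} [Field K] [Field Ω] [Algebra K Ω]
    [IsAlgClosed Ω] [Infinite K] {t : Ω} (ht : Transcendental K t) :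
    Set.Infinite (Set.range fun σ : Ω ≃ₐ[K] Ω => σ t) := by
  choose σ hσ using exists_algEquiv_apply_eq_add ht
  refine Set.infinite_of_injective_forall_mem (f := fun a : K => t + algebraMap K Ω a) ?_
    (fun a => ⟨σ a, hσ a⟩)
  intro a b h
  exact (algebraMap K Ω).injective (add_left_cancel h)

variable {K : Type uK} {F : Type uF} {Ω : Type uΩ} {E : Type uE}
  [Field K] [Field F] [Field Ω] [Field E]
  [Algebra K F] [Algebra K Ω] [Algebra K E] [Algebra F E] [Algebra Ω E]
  [IsScalarTower K F E] [IsScalarTower K Ω E] [IsConstExt K F Ω E]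

variable (K F Ω E) in
theorem isFractionRing_extConstMap :
    @IsFractionRing (Ω ⊗[K] F) _ E _ (extConstMap K F Ω E).toRingHom.toAlgebra := by
  letI : Algebra (Ω ⊗[K] F) E := (extConstMap K F Ω E).toRingHom.toAlgebra
  have hinj := IsConstExt.injective (K := K) (F := F) (Ω := Ω) (E := E)
  have : FaithfulSMul (Ω ⊗[K] F) E :=
    (faithfulSMul_iff_algebraMap_injective _ _).mpr hinj
  refine IsFractionRing.of_field (Ω ⊗[K] F) E fun e => ?_
  obtain ⟨a, b, hb, h⟩ := IsConstExt.exists_eq_div (K := K) (F := F) (Ω := Ω) e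
  exact ⟨a, b, eq_div_of_mul_eq hb h⟩

variable (F E) in
/-- The ring automorphism of `E` induced by an automorphism of the constants. -/
def constRingAut (σ : Ω ≃ₐ[K] Ω) : RingAut E :=
  letI : Algebra (Ω ⊗[K] F) E := (extConstMap K F Ω E).toRingHom.toAlgebra
  haveI : IsFractionRing (Ω ⊗[K] F) E := isFractionRing_extConstMap K F Ω E
  IsFractionRing.ringEquivOfRingEquiv
    (Algebra.TensorProduct.congr σ (AlgEquiv.refl : F ≃ₐ[K] F)).toRingEquiv

theorem constRingAut_extConstMap (σ : Ω ≃ₐ[K] Ω) (h : Ω ⊗[K] F) :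
    constRingAut F E σ (extConstMap K F Ω E h) =
      extConstMap K F Ω E (Algebra.TensorProduct.congr σ (AlgEquiv.refl : F ≃ₐ[K] F) h) := by
  letI : Algebra (Ω ⊗[K] F) E := (extConstMap K F Ω E).toRingHom.toAlgebra
  haveI : IsFractionRing (Ω ⊗[K] F) E := isFractionRing_extConstMap K F Ω E
  exact IsFractionRing.ringEquivOfRingEquiv_algebraMap _ h

theorem constRingAut_algebraMap_base (σ : Ω ≃ₐ[K] Ω) (f : F) :
    constRingAut F E σ (algebraMap F E f) = algebraMap F E f := by
  have h := constRingAut_extConstMap (E := E) σ ((1 : Ω) ⊗ₜ[K] f)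
  simpa [extConstMap_tmul] using h

theorem constRingAut_algebraMap_const (σ : Ω ≃ₐ[K] Ω) (c : Ω) :
    constRingAut F E σ (algebraMap Ω E c) = algebraMap Ω E (σ c) := by
  have h := constRingAut_extConstMap (E := E) σ (c ⊗ₜ[K] (1 : F))
  simpa [extConstMap_tmul] using h

/-- Two ring endomorphisms of `E` agreeing on `F` and on `Ω` are equal. -/
theorem ringHom_ext_constExt (K : Type uK) (F : Type uF) [Field K] [Field F] [Algebra K F]
    [Algebra K Ω] [Algebra K E] [Algebra F E] [IsScalarTower K F E] [IsScalarTower K Ω E]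
    [IsConstExt K F Ω E] {g g' : E →+* E}
    (hF : ∀ f : F, g (algebraMap F E f) = g' (algebraMap F E f))
    (hΩ : ∀ c : Ω, g (algebraMap Ω E c) = g' (algebraMap Ω E c)) : g = g' := by
  have hT : ∀ h : Ω ⊗[K] F, g (extConstMap K F Ω E h) = g' (extConstMap K F Ω E h) := by
    intro h
    induction h using TensorProduct.induction_on with
    | zero => simp
    | tmul c f => simp [extConstMap_tmul, hF, hΩ]
    | add x y hx hy => simp [hx, hy]
  refine RingHom.ext fun e => ?_
  obtain ⟨a, b, hb, h⟩ := IsConstExt.exists_eq_div (K := K) (F := F) (Ω := Ω) e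
  rw [eq_div_of_mul_eq hb h, map_div₀, map_div₀, hT, hT]

variable (F E) in
/-- The semilinear automorphism of `E` induced by an automorphism of the constants. -/
def constAut : (Ω ≃ₐ[K] Ω) →* SemilinearAut Ω E where
  toFun σ := ⟨(constRingAut F E σ, σ.toRingEquiv), constRingAut_algebraMap_const σ⟩
  map_one' := by
    refine Subtype.ext (Prod.ext (RingEquiv.toRingHom_injective ?_) rfl)
    exact ringHom_ext_constExt K F (Ω := Ω) (fun f => constRingAut_algebraMap_base 1 f)
      (fun c => constRingAut_algebraMap_const 1 c)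
  map_mul' σ τ := by
    refine Subtype.ext (Prod.ext (RingEquiv.toRingHom_injective ?_) rfl)
    refine ringHom_ext_constExt K F (Ω := Ω) (fun f => ?_) (fun c => ?_)
    · show constRingAut F E (σ * τ) _ = constRingAut F E σ (constRingAut F E τ _)
      rw [constRingAut_algebraMap_base, constRingAut_algebraMap_base, constRingAut_algebraMap_base]
    · show constRingAut F E (σ * τ) _ = constRingAut F E σ (constRingAut F E τ _)
      rw [constRingAut_algebraMap_const, constRingAut_algebraMap_const,
        constRingAut_algebraMap_const]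
      rfl

theorem constAut_smul_algebraMap_base (σ : Ω ≃ₐ[K] Ω) (f : F) :
    constAut F E σ • algebraMap F E f = algebraMap F E f :=
  constRingAut_algebraMap_base σ f

theorem constAut_smul_algebraMap_const (σ : Ω ≃ₐ[K] Ω) (c : Ω) :
    constAut F E σ • algebraMap Ω E c = algebraMap Ω E (σ c) :=
  constRingAut_algebraMap_const σ c

theorem constAut_smul_placeExt [IsAlgClosed K] [IsCurveOver K F] (σ : Ω ≃ₐ[K] Ω)
    (v : Place K F) : constAut F E σ • placeExt Ω E v = placeExt Ω E v := by
  have hmem : ∀ f : F,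
      algebraMap F E f ∈ (constAut F E σ • placeExt Ω E v).toValuationSubring ↔
        algebraMap F E f ∈ (placeExt Ω E v).toValuationSubring := by
    intro f
    rw [SemilinearAut.smul_toValuationSubring, ValuationSubring.mem_pointwise_smul_iff_inv_smul_mem,
      ← map_inv, constAut_smul_algebraMap_base]
  refine eq_placeExt v (fun f hf => (hmem f).mpr ((algebraMap_mem_placeExt v).mpr hf)) ?_
  by_contra hall
  push Not at hall
  exact v.ne_top' (SetLike.ext fun f => ⟨fun _ => ValuationSubring.mem_top f,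
    fun _ => (algebraMap_mem_placeExt v).mp ((hmem f).mp (hall f))⟩)

theorem constAut_smul_divExt [IsAlgClosed K] [IsCurveOver K F] (σ : Ω ≃ₐ[K] Ω)
    (D : Divisor K F) : constAut F E σ • divExt Ω E D = divExt Ω E D := by
  induction D using Finsupp.induction with
  | zero => simp
  | single_add v n D _ _ ih =>
    rw [map_add, smul_add, ih, divExt_single, SemilinearAut.smul_single, constAut_smul_placeExt]

theorem constAut_smul_picExt [IsAlgClosed K] [IsCurveOver K F] [IsAlgClosed Ω] [IsCurveOver Ω E]
    (σ : Ω ≃ₐ[K] Ω) (x : Pic0 K F) :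
    constAut F E σ • picExt Ω E x = picExt Ω E x := by
  obtain ⟨D, rfl⟩ := Pic0.mk_surjective x
  rw [picExt_mk, SemilinearAut.pic0_smul_mk]
  refine congrArg Pic0.mk (Subtype.ext ?_)
  rw [SemilinearAut.coe_degZeroSMulHom, coe_degZeroExt, constAut_smul_divExt]

/-- The fixed field of `Aut(Ω/K)` is `K`. -/
theorem mem_range_algebraMap_of_forall_fixed {K Ω : Type*} [Field K] [Field Ω] [Algebra K Ω]
    [IsAlgClosed K] [IsAlgClosed Ω] {t : Ω} (h : ∀ σ : Ω ≃ₐ[K] Ω, σ t = t) :
    t ∈ Set.range (algebraMap K Ω) := by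
  by_contra hnot
  have ht : Transcendental K t := fun halg =>
    hnot (minpoly.mem_range_of_degree_eq_one K t
      (IsAlgClosed.degree_eq_one_of_irreducible K (minpoly.irreducible halg.isIntegral)))
  obtain ⟨σ, hσ⟩ := exists_algEquiv_apply_eq_add ht 1
  rw [h σ, map_one] at hσ
  exact one_ne_zero (left_eq_add.mp hσ)

/-- Descent for stable subspaces of `Ω ⊗[K] F`. -/
theorem le_span_one_tmul_of_stable {K Ω : Type*} [Field K] [Field Ω] [Algebra K Ω]
    [IsAlgClosed K] [IsAlgClosed Ω] {M : Type*} [AddCommGroup M] [Module K M]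
    (W : Submodule Ω (Ω ⊗[K] M))
    (hW : ∀ σ : Ω ≃ₐ[K] Ω, ∀ h ∈ W, TensorProduct.map σ.toLinearMap LinearMap.id h ∈ W) :
    W ≤ Submodule.span Ω ((fun f : M => (1 : Ω) ⊗ₜ[K] f) '' {f | (1 : Ω) ⊗ₜ[K] f ∈ W}) := by
  classical
  let b := Module.Free.chooseBasis K M
  let B := b.baseChange Ω
  have hB : ∀ (σ : Ω ≃ₐ[K] Ω) (h : Ω ⊗[K] M) i,
      B.repr (TensorProduct.map σ.toLinearMap LinearMap.id h) i = σ (B.repr h i) := by
    intro σ h i
    induction h using TensorProduct.induction_on with
    | zero => simp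
    | tmul c f => simp [B, Module.Basis.baseChange_repr_tmul]
    | add x y hx hy => simp [hx, hy]
  suffices H : ∀ n, ∀ h ∈ W, (B.repr h).support.card ≤ n →
      h ∈ Submodule.span Ω ((fun f : M => (1 : Ω) ⊗ₜ[K] f) '' {f | (1 : Ω) ⊗ₜ[K] f ∈ W}) from
    fun h hh => H _ h hh le_rfl
  intro n
  induction n with
  | zero =>
    intro h _ hc
    rw [Nat.le_zero, Finset.card_eq_zero, Finsupp.support_eq_empty,
      LinearEquiv.map_eq_zero_iff] at hc
    simp [hc]
  | succ n ih =>
    intro h hh hc
    rcases eq_or_ne h 0 with rfl | hne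
    · exact zero_mem _
    -- an element of minimal support below that of `h`
    have hex : ∃ m, ∃ g ∈ W, g ≠ 0 ∧ (B.repr g).support ⊆ (B.repr h).support ∧
        (B.repr g).support.card = m := ⟨_, h, hh, hne, subset_rfl, rfl⟩
    obtain ⟨g, hgW, hg0, hgsub, hgcard⟩ := Nat.find_spec hex
    obtain ⟨i₀, hi₀⟩ : (B.repr g).support.Nonempty := by
      rw [Finsupp.support_nonempty_iff]
      exact (map_ne_zero_iff _ B.repr.injective).mpr hg0
    have hgi : B.repr g i₀ ≠ 0 := Finsupp.mem_support_iff.mp hi₀
    set g₁ := (B.repr g i₀)⁻¹ • g with hg₁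
    have hg₁W : g₁ ∈ W := W.smul_mem _ hgW
    have hg₁i : B.repr g₁ i₀ = 1 := by simp [hg₁, hgi]
    have hg₁sub : (B.repr g₁).support ⊆ (B.repr g).support := by
      rw [hg₁, map_smul]
      exact Finsupp.support_smul
    -- it is invariant
    have hinv : ∀ (σ : Ω ≃ₐ[K] Ω) i, σ (B.repr g₁ i) = B.repr g₁ i := by
      intro σ
      by_contra hcon
      push Not at hcon
      obtain ⟨j, hj⟩ := hcon
      set d := TensorProduct.map σ.toLinearMap LinearMap.id g₁ - g₁ with hd
      have hdW : d ∈ W := W.sub_mem (hW σ g₁ hg₁W) hg₁W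
      have hdi : ∀ i, B.repr d i = σ (B.repr g₁ i) - B.repr g₁ i := fun i => by
        rw [hd, map_sub, Finsupp.sub_apply, hB]
      have hd0 : d ≠ 0 := fun h0 => hj (by
        have := hdi j
        rw [h0, map_zero, Finsupp.zero_apply] at this
        exact sub_eq_zero.mp this.symm)
      have hdsub : (B.repr d).support ⊆ (B.repr g).support.erase i₀ := by
        intro i hi
        rw [Finsupp.mem_support_iff, hdi] at hi
        refine Finset.mem_erase.mpr ⟨fun he => hi ?_, hg₁sub ?_⟩
        · rw [he, hg₁i, map_one, sub_self]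
        · rw [Finsupp.mem_support_iff]
          intro h0
          apply hi
          rw [h0, map_zero, sub_self]
      have h1 := Nat.find_min' hex ⟨d, hdW, hd0,
        (hdsub.trans (Finset.erase_subset _ _)).trans hgsub, rfl⟩
      have h2 := Finset.card_le_card hdsub
      rw [Finset.card_erase_of_mem hi₀] at h2
      have h3 : 0 < (B.repr g).support.card := Finset.card_pos.mpr ⟨i₀, hi₀⟩
      omega
    choose r hr using fun i => mem_range_algebraMap_of_forall_fixed fun σ => hinv σ i
    have hg₁mem : g₁ ∈ Submodule.span Ω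
        ((fun f : M => (1 : Ω) ⊗ₜ[K] f) '' {f | (1 : Ω) ⊗ₜ[K] f ∈ W}) := by
      have hsum : g₁ = (1 : Ω) ⊗ₜ[K] ∑ i ∈ (B.repr g₁).support, r i • b i := by
        conv_lhs => rw [← B.linearCombination_repr g₁]
        rw [Finsupp.linearCombination_apply, Finsupp.sum, TensorProduct.tmul_sum]
        refine Finset.sum_congr rfl fun i _ => ?_
        rw [Module.Basis.baseChange_apply, TensorProduct.tmul_smul, ← hr i, algebraMap_smul]
      have hmemW : (1 : Ω) ⊗ₜ[K] (∑ i ∈ (B.repr g₁).support, r i • b i) ∈ W := by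
        rw [← hsum]; exact hg₁W
      rw [hsum]
      exact Submodule.subset_span ⟨_, hmemW, rfl⟩
    have hrec := ih (h - B.repr h i₀ • g₁) (W.sub_mem hh (W.smul_mem _ hg₁W)) ?_
    · simpa using add_mem hrec (Submodule.smul_mem _ (B.repr h i₀) hg₁mem)
    · have hsub : (B.repr (h - B.repr h i₀ • g₁)).support ⊆ (B.repr h).support.erase i₀ := by
        intro i hi
        rw [Finsupp.mem_support_iff, map_sub, map_smul, Finsupp.sub_apply, Finsupp.smul_apply,
          smul_eq_mul] at hi
        refine Finset.mem_erase.mpr ⟨fun he => hi ?_, ?_⟩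
        · rw [he, hg₁i, mul_one, sub_self]
        · by_contra h0
          apply hi
          rw [Finsupp.notMem_support_iff.mp h0,
            Finsupp.notMem_support_iff.mp fun h1 => h0 (hgsub (hg₁sub h1)), mul_zero, sub_self]
      have h2 := Finset.card_le_card hsub
      rw [Finset.card_erase_of_mem (hgsub hi₀)] at h2
      omega

/-- Galois descent: a finite dimensional subspace of `E` stable under the constant automorphisms
is spanned by functions of `F`. -/
theorem le_span_of_constAut_stable [IsAlgClosed K] [IsAlgClosed Ω] (V : Submodule Ω E)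
    [Module.Finite Ω V] (hV : ∀ σ : Ω ≃ₐ[K] Ω, ∀ e ∈ V, constAut F E σ • e ∈ V) :
    V ≤ Submodule.span Ω (algebraMap F E '' {f | algebraMap F E f ∈ V}) := by
  classical
  let μ := extConstMap K F Ω E
  have hinj : Function.Injective μ := IsConstExt.injective
  have hσμ : ∀ (σ : Ω ≃ₐ[K] Ω) (h : Ω ⊗[K] F),
      constAut F E σ • μ h = μ (TensorProduct.map σ.toLinearMap LinearMap.id h) := by
    intro σ h
    induction h using TensorProduct.induction_on with
    | zero => simp
    | tmul c f =>
      simp only [μ, extConstMap_tmul, smul_mul', constAut_smul_algebraMap_const,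
        constAut_smul_algebraMap_base, TensorProduct.map_tmul, LinearMap.id_coe, id_eq]
      rfl
    | add x y hx hy => simp only [map_add, smul_add, hx, hy]
  -- the common denominators of `V`
  let J : Submodule Ω (Ω ⊗[K] F) :=
    { carrier := {b | ∀ e ∈ V, e * μ b ∈ μ.range}
      add_mem' := fun hb hb' e he => by rw [map_add, mul_add]; exact add_mem (hb e he) (hb' e he)
      zero_mem' := fun e _ => by rw [map_zero, mul_zero]; exact zero_mem _
      smul_mem' := fun c b hb e he => by
        rw [map_smul, mul_smul_comm]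
        exact μ.range.smul_mem (hb e he) c }
  have hJstable : ∀ σ : Ω ≃ₐ[K] Ω, ∀ b ∈ J,
      TensorProduct.map σ.toLinearMap LinearMap.id b ∈ J := by
    intro σ b hb e he
    obtain ⟨a, ha⟩ := hb _ (hV σ⁻¹ e he)
    refine ⟨TensorProduct.map σ.toLinearMap LinearMap.id a, ?_⟩
    have ha' : μ a = constAut F E σ⁻¹ • e * μ b := ha
    show μ _ = e * μ _
    rw [← hσμ, ← hσμ, ha', smul_mul', ← mul_smul, ← map_mul, mul_inv_cancel, map_one, one_smul]
  obtain ⟨S, hS⟩ : V.FG := Module.Finite.iff_fg.mp inferInstance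
  have hJne : ∃ b ∈ J, b ≠ 0 := by
    choose A B hB hAB using fun e : E => IsConstExt.exists_eq_div (K := K) (F := F) (Ω := Ω) e
    refine ⟨∏ e ∈ S, B e, fun e he => ?_, ?_⟩
    · rw [← hS] at he
      induction he using Submodule.span_induction with
      | mem x hx =>
        rw [← Finset.mul_prod_erase _ _ hx, map_mul, ← mul_assoc]
        refine mul_mem ⟨A x, (hAB x).symm⟩ ⟨_, rfl⟩
      | zero => rw [zero_mul]; exact zero_mem _
      | add x y _ _ hx hy => rw [add_mul]; exact add_mem hx hy
      | smul c x _ hx => rw [smul_mul_assoc]; exact μ.range.smul_mem hx c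
    · intro h0
      have h1 : μ (∏ e ∈ S, B e) = 0 := by rw [h0, map_zero]
      rw [map_prod, Finset.prod_eq_zero_iff] at h1
      obtain ⟨e, _, he⟩ := h1
      exact hB e he
  obtain ⟨f, hfJ, hf0⟩ : ∃ f : F, (1 : Ω) ⊗ₜ[K] f ∈ J ∧ f ≠ 0 := by
    by_contra hcon
    push Not at hcon
    obtain ⟨b, hbJ, hb0⟩ := hJne
    have hle := (le_span_one_tmul_of_stable J hJstable) hbJ
    have hsub : (fun f : F => (1 : Ω) ⊗ₜ[K] f) '' {f | (1 : Ω) ⊗ₜ[K] f ∈ J} ⊆ {0} := by
      rintro x ⟨f, hf, rfl⟩
      simp [hcon f hf]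
    have h0 := Submodule.span_mono hsub hle
    rw [Submodule.span_zero_singleton, Submodule.mem_bot] at h0
    exact hb0 h0
  have hfE : algebraMap F E f ≠ 0 := (map_ne_zero (algebraMap F E)).mpr hf0
  have hμf : μ ((1 : Ω) ⊗ₜ[K] f) = algebraMap F E f := by
    simp [μ, extConstMap_tmul]
  -- the subspace `f V` of the tensor product
  let W : Submodule Ω (Ω ⊗[K] F) :=
    { carrier := {h | μ h / algebraMap F E f ∈ V}
      add_mem' := fun hb hb' => by
        simp only [Set.mem_setOf_eq] at *
        rw [map_add, add_div]; exact add_mem hb hb'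
      zero_mem' := by simp
      smul_mem' := fun c b hb => by
        simp only [Set.mem_setOf_eq] at *
        rw [map_smul, Algebra.smul_def, mul_div_assoc, ← Algebra.smul_def]
        exact V.smul_mem c hb }
  have hWstable : ∀ σ : Ω ≃ₐ[K] Ω, ∀ b ∈ W,
      TensorProduct.map σ.toLinearMap LinearMap.id b ∈ W := by
    intro σ b hb
    show μ _ / _ ∈ V
    rw [← hσμ]
    have := hV σ _ hb
    rwa [div_eq_mul_inv, smul_mul', smul_inv'', constAut_smul_algebraMap_base,
      ← div_eq_mul_inv] at this
  intro e he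
  obtain ⟨h, hh⟩ := hfJ e he
  have hh' : μ h = e * algebraMap F E f := by rw [← hμf]; exact hh
  have hhW : h ∈ W := by
    show μ h / _ ∈ V
    rwa [hh', mul_div_cancel_right₀ _ hfE]
  have hspan := le_span_one_tmul_of_stable W hWstable hhW
  have key : ∀ x ∈ Submodule.span Ω
      ((fun f : F => (1 : Ω) ⊗ₜ[K] f) '' {g | (1 : Ω) ⊗ₜ[K] g ∈ W}),
      μ x / algebraMap F E f ∈
        Submodule.span Ω (algebraMap F E '' {f | algebraMap F E f ∈ V}) := by
    intro x hx
    induction hx using Submodule.span_induction with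
    | mem x hx =>
      obtain ⟨g, hg, rfl⟩ := hx
      have hg' : μ ((1 : Ω) ⊗ₜ[K] g) / algebraMap F E f ∈ V := hg
      rw [show μ ((1 : Ω) ⊗ₜ[K] g) / algebraMap F E f = algebraMap F E (g / f) by
        simp [μ, extConstMap_tmul]] at hg' ⊢
      exact Submodule.subset_span ⟨g / f, hg', rfl⟩
    | zero => simp
    | add x y _ _ hx hy => rw [map_add, add_div]; exact add_mem hx hy
    | smul c x _ hx =>
      rw [map_smul, Algebra.smul_def, mul_div_assoc, ← Algebra.smul_def]
      exact Submodule.smul_mem _ c hx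
  have := key h hspan
  rwa [hh', mul_div_cancel_right₀ _ hfE] at this

/-- The constant automorphisms have finite orbits only on places coming from `F`. -/
theorem exists_eq_placeExt_of_finite_orbit [IsAlgClosed K] [IsCurveOver K F] [IsAlgClosed Ω]
    [IsCurveOver Ω E] [Nonempty (Place K F)] {w : Place Ω E}
    (h : (Set.range fun σ : Ω ≃ₐ[K] Ω => constAut F E σ • w).Finite) :
    ∃ v : Place K F, w = placeExt Ω E v := by
  classical
  rcases exists_eq_placeExt_or (K := K) (F := F) w with hv | hall
  · exact hv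
  exfalso
  obtain ⟨v₀⟩ := ‹Nonempty (Place K F)›
  obtain ⟨π, hπ⟩ := IsDiscreteValuationRing.exists_irreducible v₀.toValuationSubring
  set x : F := (π : F)
  have hx : ∀ a : K, x - algebraMap K F a ≠ 0 := by
    intro a h0
    have h1 : v₀.ord x = 1 := v₀.ord_coe_irreducible hπ
    rw [sub_eq_zero.mp h0, ord_algebraMap v₀ a] at h1
    omega
  set t : Ω := constResidue w ⟨algebraMap F E x, hall x⟩
  -- the value of `x` at `w`
  have hzero : 0 < w.ord (algebraMap F E x - algebraMap Ω E t) ∨
      algebraMap F E x - algebraMap Ω E t = 0 := by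
    have hmem : (⟨algebraMap F E x, hall x⟩ - algebraMap Ω w.toValuationSubring t :
        w.toValuationSubring) ∈ IsLocalRing.maximalIdeal w.toValuationSubring := by
      rw [← constResidue_eq_zero_iff, map_sub, constResidue_algebraMap, sub_self]
    exact ((mem_maximalIdeal_iff_ord w _).mp hmem).symm
  have ht : Transcendental K t := by
    intro halg
    obtain ⟨a, ha⟩ := minpoly.mem_range_of_degree_eq_one K t
      (IsAlgClosed.degree_eq_one_of_irreducible K (minpoly.irreducible halg.isIntegral))
    rw [← ha, ← IsScalarTower.algebraMap_apply K Ω E, IsScalarTower.algebraMap_apply K F E,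
      ← map_sub] at hzero
    rcases hzero with h1 | h1
    · rw [ord_algebraMap_eq_zero_of_forall_mem hall] at h1
      omega
    · exact hx a ((map_eq_zero _).mp h1)
  refine exists_infinite_orbit ht ?_
  let val : Place Ω E → Ω := fun u =>
    if hu : algebraMap F E x ∈ u.toValuationSubring then
      constResidue u ⟨algebraMap F E x, hu⟩ else 0
  refine (h.image val).subset ?_
  rintro _ ⟨σ, rfl⟩
  refine ⟨_, ⟨σ, rfl⟩, ?_⟩
  have hmem : algebraMap F E x ∈ (constAut F E σ • w).toValuationSubring := by
    have h0 := ValuationSubring.smul_mem_pointwise_smul (constAut F E σ) _ w.toValuationSubring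
      (hall x)
    rwa [constAut_smul_algebraMap_base] at h0
  simp only [val, dif_pos hmem]
  rw [← sub_eq_zero, ← constResidue_algebraMap (constAut F E σ • w) (σ t), ← map_sub,
    constResidue_eq_zero_iff, mem_maximalIdeal_iff_ord]
  have he : algebraMap F E x - algebraMap Ω E (σ t) =
      constAut F E σ • (algebraMap F E x - algebraMap Ω E t) := by
    rw [smul_sub, constAut_smul_algebraMap_base, constAut_smul_algebraMap_const]
  rw [AddSubgroupClass.coe_sub, Place.coe_algebraMap]
  show algebraMap F E x - algebraMap Ω E (σ t) = 0 ∨ _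
  rw [he]
  rcases hzero with h1 | h1
  · right; rwa [SemilinearAut.ord_smul]
  · left; rw [h1, smul_zero]

end Fermat.Agent.Curve
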