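/-
Constant field extension: linear disjointness, `Ω ⊗[K] F` is a domain for algebraically closed
`K`, constructors of `IsConstExt`, existence, and the universal property.
-/
import Fermat.Agent.Curve.ConstExtPlace
import Fermat.Agent.Curve.BasicInstances
import Mathlib.FieldTheory.IntermediateField.Adjoin.Basic
import Mathlib.RingTheory.Algebraic.Integral
import Mathlib.RingTheory.Jacobson.Ring
import Mathlib.Algebra.Polynomial.Basis
import Mathlib.RingTheory.TensorProduct.Maps

set_option autoImplicit false

noncomputable section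

namespace Fermat.Agent.Curve

open AlgebraicCurve TensorProduct IntermediateField

universe uK uF uΩ uE

section Domain

variable {K : Type*} [Field K] [IsAlgClosed K] {Ω : Type*} [Field Ω] [Algebra K Ω]

/-- A finitely generated domain over an algebraically closed field has a rational point avoiding
a given non-zero element. -/
theorem exists_algHom_apply_ne_zero {A : Type*} [CommRing A] [IsDomain A] [Algebra K A]
    [Algebra.FiniteType K A] {z : A} (hz : z ≠ 0) : ∃ φ : A →ₐ[K] K, φ z ≠ 0 := by
  have hjac : (⊥ : Ideal A).jacobson = ⊥ :=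
    (isJacobsonRing_of_finiteType (A := K) (B := A)).out
      (Ideal.IsPrime.isRadical Ideal.isPrime_bot)
  have hz' : z ∉ (⊥ : Ideal A).jacobson := by rw [hjac]; simpa using hz
  rw [Ideal.jacobson, Ideal.mem_sInf] at hz'
  push Not at hz'
  obtain ⟨m, ⟨-, hm⟩, hzm⟩ := hz'
  haveI := hm
  letI : Field (A ⧸ m) := Ideal.Quotient.field m
  haveI : Algebra.FiniteType K (A ⧸ m) :=
    Algebra.FiniteType.of_surjective (Ideal.Quotient.mkₐ K m) Ideal.Quotient.mk_surjective
  haveI : Module.Finite K (A ⧸ m) := finite_of_finite_type_of_isJacobsonRing K (A ⧸ m)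
  haveI : Algebra.IsIntegral K (A ⧸ m) := Algebra.IsIntegral.of_finite K (A ⧸ m)
  let e : K ≃ₐ[K] A ⧸ m :=
    AlgEquiv.ofBijective (Algebra.ofId K _) IsAlgClosed.algebraMap_bijective_of_isIntegral
  refine ⟨(e.symm : (A ⧸ m) →ₐ[K] K).comp (Ideal.Quotient.mkₐ K m), fun h => hzm ?_⟩
  rw [← Ideal.Quotient.eq_zero_iff_mem]
  exact (map_eq_zero_iff e.symm e.symm.injective).mp h

/-- For an algebraically closed base field the tensor product of two fields is a domain. -/
theorem isDomain_tensorProduct (F : Type*) [Field F] [Algebra K F] : IsDomain (Ω ⊗[K] F) := by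
  classical
  have hnt : Nontrivial (Ω ⊗[K] F) := by
    haveI := (Module.Free.chooseBasis K F).index_nonempty
    exact ((Module.Free.chooseBasis K F).baseChange Ω).repr.toEquiv.nontrivial
  refine (isDomain_iff_noZeroDivisors_and_nontrivial _).mpr ⟨⟨fun {x y} hxy => ?_⟩, hnt⟩
  by_contra hcon
  push Not at hcon
  let b := Module.Free.chooseBasis K F
  let B := b.baseChange Ω
  obtain ⟨i, hi⟩ : ∃ i, B.repr x i ≠ 0 := by
    by_contra h
    push Not at h
    exact hcon.1 (B.repr.injective (Finsupp.ext fun i => by simp [h i]))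
  obtain ⟨j, hj⟩ : ∃ j, B.repr y j ≠ 0 := by
    by_contra h
    push Not at h
    exact hcon.2 (B.repr.injective (Finsupp.ext fun i => by simp [h i]))
  let S : Finset Ω := (B.repr x).support.image (B.repr x) ∪ (B.repr y).support.image (B.repr y)
  let A := Algebra.adjoin K (S : Set Ω)
  have hA : ∀ (z : Ω ⊗[K] F), (∀ k ∈ (B.repr z).support, B.repr z k ∈ A) →
      ∃ z' : A ⊗[K] F, Algebra.TensorProduct.map A.val (AlgHom.id K F) z' = z ∧
        ∀ k, ((b.baseChange A).repr z' k : Ω) = B.repr z k := by
    intro z hz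
    let c : Module.Free.ChooseBasisIndex K F → A := fun k =>
      if h : k ∈ (B.repr z).support then ⟨_, hz k h⟩ else 0
    refine ⟨∑ k ∈ (B.repr z).support, c k ⊗ₜ b k, ?_, fun k => ?_⟩
    · conv_rhs => rw [← B.linearCombination_repr z]
      rw [Finsupp.linearCombination_apply, Finsupp.sum, map_sum]
      refine Finset.sum_congr rfl fun k hk => ?_
      rw [Algebra.TensorProduct.map_tmul, Module.Basis.baseChange_apply, TensorProduct.smul_tmul',
        smul_eq_mul, mul_one]
      simp only [c, dif_pos hk, AlgHom.id_apply, Subalgebra.coe_val]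
    · rw [map_sum, Finsupp.finset_sum_apply, AddSubmonoidClass.coe_finset_sum]
      simp only [Module.Basis.baseChange_repr_tmul, Module.Basis.repr_self, Finsupp.single_apply,
        ite_smul, one_smul, zero_smul]
      rw [Finset.sum_eq_single k]
      · rw [if_pos rfl]
        by_cases hk : k ∈ (B.repr z).support
        · simp only [c, dif_pos hk]
        · simp only [c, dif_neg hk]
          exact (Finsupp.notMem_support_iff.mp hk).symm
      · intro l _ hl; simp [hl]
      · intro hk; simp only [c, dif_neg hk]; simp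
  obtain ⟨x', hx', hxc⟩ := hA x fun k hk => Algebra.subset_adjoin
    (by simp only [S, Finset.coe_union, Finset.coe_image]; exact Or.inl ⟨k, hk, rfl⟩)
  obtain ⟨y', hy', hyc⟩ := hA y fun k hk => Algebra.subset_adjoin
    (by simp only [S, Finset.coe_union, Finset.coe_image]; exact Or.inr ⟨k, hk, rfl⟩)
  haveI : Algebra.FiniteType K A :=
    (Subalgebra.fg_iff_finiteType A).mp ⟨S, rfl⟩
  have hne : (b.baseChange A).repr x' i * (b.baseChange A).repr y' j ≠ 0 :=
    mul_ne_zero (fun h => hi (by rw [← hxc i, h]; rfl)) (fun h => hj (by rw [← hyc j, h]; rfl))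
  obtain ⟨φ, hφ⟩ := exists_algHom_apply_ne_zero (K := K) hne
  have hzero : x' * y' = 0 := by
    have hinj : Function.Injective (Algebra.TensorProduct.map A.val (AlgHom.id K F)) :=
      Module.Flat.rTensor_preserves_injective_linearMap (M := F) A.val.toLinearMap
        Subtype.val_injective
    exact hinj (by rw [map_mul, hx', hy', hxy, map_zero])
  -- specialise
  let ev : A ⊗[K] F →ₐ[K] F :=
    Algebra.TensorProduct.lift ((Algebra.ofId K F).comp φ) (AlgHom.id K F) fun _ _ => Commute.all _ _
  have hev : ∀ z : A ⊗[K] F, ∀ k, b.repr (ev z) k = φ ((b.baseChange A).repr z k) := by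
    intro z k
    induction z using TensorProduct.induction_on with
    | zero => simp
    | tmul a f =>
      simp only [ev, Algebra.TensorProduct.lift_tmul, AlgHom.comp_apply, Algebra.ofId_apply,
        AlgHom.id_apply, Module.Basis.baseChange_repr_tmul]
      rw [← Algebra.smul_def, map_smul, Finsupp.smul_apply, map_smul, smul_eq_mul, smul_eq_mul,
        mul_comm]
    | add u v hu hv => simp [hu, hv]
  rw [map_mul] at hφ
  have h0 : ev x' * ev y' = 0 := by rw [← map_mul, hzero, map_zero]
  rcases mul_eq_zero.mp h0 with h | h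
  · exact left_ne_zero_of_mul hφ (by rw [← hev, h, map_zero, Finsupp.zero_apply])
  · exact right_ne_zero_of_mul hφ (by rw [← hev, h, map_zero, Finsupp.zero_apply])

end Domain

variable {K : Type uK} {F : Type uF} {Ω : Type uΩ} {E : Type uE}
  [Field K] [Field F] [Field Ω] [Field E]
  [Algebra K F] [Algebra K Ω] [Algebra K E] [Algebra F E] [Algebra Ω E]
  [IsScalarTower K F E] [IsScalarTower K Ω E]

theorem IsConstExt.of_injective (hinj : Function.Injective (extConstMap K F Ω E))
    (hgen : IntermediateField.adjoin Ω (Set.range (algebraMap F E)) = ⊤) :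
    IsConstExt K F Ω E := by
  refine ⟨hinj, fun e => ?_⟩
  have he : e ∈ IntermediateField.adjoin Ω (Set.range (algebraMap F E)) :=
    hgen ▸ IntermediateField.mem_top
  obtain ⟨r, hr, s, hs, rfl⟩ := IntermediateField.mem_adjoin_iff_div.mp he
  have hle : Algebra.adjoin Ω (Set.range (algebraMap F E)) ≤ (extConstMap K F Ω E).range := by
    refine Algebra.adjoin_le ?_
    rintro _ ⟨f, rfl⟩
    exact ⟨1 ⊗ₜ f, by simp [extConstMap_tmul]⟩
  obtain ⟨a, ha⟩ := hle hr
  obtain ⟨b, hb⟩ := hle hs
  replace ha : extConstMap K F Ω E a = r := ha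
  replace hb : extConstMap K F Ω E b = s := hb
  rcases eq_or_ne s 0 with rfl | hs0
  · exact ⟨0, 1, by simp, by simp⟩
  · exact ⟨a, b, hb ▸ hs0, by rw [ha, hb, div_mul_cancel₀ _ hs0]⟩

/-- `E = Ω(F)` with some `x ∈ F` transcendental over `Ω`, `F` algebraic over `K(x)`,
`K` algebraically closed. -/
theorem IsConstExt.of_transcendental [IsAlgClosed K] (x : F) [Algebra.IsAlgebraic K⟮x⟯ F]
    (hx : Transcendental Ω (algebraMap F E x))
    (hgen : IntermediateField.adjoin Ω (Set.range (algebraMap F E)) = ⊤) :
    IsConstExt K F Ω E := by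
  refine IsConstExt.of_injective ((injective_iff_map_eq_zero _).mpr fun h hh => ?_) hgen
  by_contra h0
  have hdom : IsDomain (Ω ⊗[K] F) := isDomain_tensorProduct F
  let i : F →ₐ[K] Ω ⊗[K] F := Algebra.TensorProduct.includeRight
  let R := Algebra.adjoin Ω ({i x} : Set (Ω ⊗[K] F))
  -- `Ω ⊗ F` is algebraic over `Ω[x]`
  have hgen' : ∀ f : F, IsAlgebraic R (i f) := by
    intro f
    have halg : IsAlgebraic (Algebra.adjoin K ({x} : Set F)) f :=
      IntermediateField.isAlgebraic_adjoin_iff.mp (Algebra.IsAlgebraic.isAlgebraic f)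
    have hmap : ∀ y : Algebra.adjoin K ({x} : Set F), i y ∈ R := by
      rintro ⟨y, hy⟩
      show i y ∈ R
      induction hy using Algebra.adjoin_induction with
      | mem y hy => rw [Set.mem_singleton_iff] at hy; subst hy; exact Algebra.self_mem_adjoin_singleton Ω _
      | algebraMap c => rw [AlgHom.commutes, IsScalarTower.algebraMap_apply K Ω (Ω ⊗[K] F)]; exact R.algebraMap_mem _
      | add y z _ _ hy hz => rw [map_add]; exact add_mem hy hz
      | mul y z _ _ hy hz => rw [map_mul]; exact mul_mem hy hz
    exact halg.ringHom_of_comp_eq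
      ((i.toRingHom.comp (Algebra.adjoin K ({x} : Set F)).val.toRingHom).codRestrict R hmap)
      i.toRingHom
      (fun a b hab => Subtype.ext (i.toRingHom.injective (congrArg Subtype.val hab)))
      (RingHom.ext fun _ => rfl)
  have hall : ∀ z : Ω ⊗[K] F, IsAlgebraic R z := by
    intro z
    induction z using TensorProduct.induction_on with
    | zero => exact isAlgebraic_zero
    | tmul c f =>
      have hcf : c ⊗ₜ[K] f = algebraMap R (Ω ⊗[K] F) (algebraMap Ω R c) * i f := by
        show c ⊗ₜ[K] f = algebraMap Ω (Ω ⊗[K] F) c * i f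
        simp [i]
      rw [hcf]
      exact isAlgebraic_algebraMap _ |>.mul (hgen' f)
    | add u v hu hv => exact hu.add hv
  obtain ⟨r, hr, hdvd⟩ :=
    (hall h).exists_nonzero_dvd (mem_nonZeroDivisors_of_ne_zero h0)
  -- a non-zero element of `Ω[x]` killed by the map
  have hr0 : extConstMap K F Ω E (r : Ω ⊗[K] F) = 0 := by
    obtain ⟨t, ht⟩ := hdvd
    rw [show (r : Ω ⊗[K] F) = h * t from ht, map_mul, hh, zero_mul]
  obtain ⟨p, hp⟩ : ∃ p : Polynomial Ω, Polynomial.aeval (i x) p = (r : Ω ⊗[K] F) := by
    have h2 : (r : Ω ⊗[K] F) ∈ Algebra.adjoin Ω ({i x} : Set (Ω ⊗[K] F)) := r.2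
    rw [Algebra.adjoin_singleton_eq_range_aeval] at h2
    exact h2
  rw [← hp, ← Polynomial.aeval_algHom_apply,
    show extConstMap K F Ω E (i x) = algebraMap F E x by simp [i, extConstMap_tmul]] at hr0
  have hp0 : p = 0 := transcendental_iff.mp hx p hr0
  exact hr (Subtype.ext (by rw [← hp, hp0, map_zero]; rfl))

variable [IsConstExt K F Ω E]

/-- Linear disjointness. -/
theorem IsConstExt.linearIndependent {ι : Type*} {f : ι → F} (hf : LinearIndependent K f) :
    LinearIndependent Ω (algebraMap F E ∘ f) := by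
  classical
  obtain ⟨g, hg⟩ := LinearMap.exists_leftInverse_of_injective
    (Finsupp.linearCombination K f) (LinearMap.ker_eq_bot.mpr hf)
  rw [linearIndependent_iff]
  intro l hl
  have hl' : extConstMap K F Ω E (∑ i ∈ l.support, l i ⊗ₜ f i) = 0 := by
    rw [map_sum, ← hl, Finsupp.linearCombination_apply, Finsupp.sum]
    exact Finset.sum_congr rfl fun i _ => by
      rw [extConstMap_tmul, Function.comp_apply, Algebra.smul_def]
  have h0 : ∑ i ∈ l.support, l i ⊗ₜ[K] f i = 0 :=
    (injective_iff_map_eq_zero _).mp (IsConstExt.injective (K := K) (F := F) (Ω := Ω) (E := E))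
      _ hl'
  ext j
  have h1 := congrArg (TensorProduct.lift (LinearMap.mk₂ K
    (fun (c : Ω) (y : F) => (g y j) • c) (fun c c' y => smul_add _ c c')
    (fun a c y => smul_comm _ a c) (fun c y y' => by simp [add_smul])
    (fun a c y => by simp [mul_smul]))) h0
  have hgf : ∀ i, g (f i) = Finsupp.single i 1 := fun i => by
    have := LinearMap.congr_fun hg (Finsupp.single i 1)
    simpa [Finsupp.linearCombination_single] using this
  simp only [map_sum, TensorProduct.lift.tmul, LinearMap.mk₂_apply, map_zero, hgf,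
    Finsupp.single_apply, ite_smul, one_smul, zero_smul] at h1
  rw [Finsupp.zero_apply]
  rw [Finset.sum_ite_eq'] at h1
  by_cases hj : j ∈ l.support
  · rwa [if_pos hj] at h1
  · exact Finsupp.notMem_support_iff.mp hj

theorem IsConstExt.transcendental {x : F} (hx : Transcendental K x) :
    Transcendental Ω (algebraMap F E x) := by
  rw [transcendental_iff]
  intro p hp
  have hli : LinearIndependent K fun n : ℕ => x ^ n := by
    have := (Polynomial.basisMonomials K).linearIndependent.map' (Polynomial.aeval x).toLinearMap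
      (LinearMap.ker_eq_bot.mpr (transcendental_iff_injective.mp hx))
    simpa [Function.comp_def] using this
  have h2 := IsConstExt.linearIndependent (Ω := Ω) (E := E) hli
  have hp' : ∑ n ∈ p.support, p.coeff n • (algebraMap F E ∘ fun n : ℕ => x ^ n) n = 0 := by
    rw [Polynomial.aeval_def, Polynomial.eval₂_eq_sum, Polynomial.sum] at hp
    simpa [Algebra.smul_def] using hp
  have := linearIndependent_iff'.mp h2 p.support p.coeff hp'
  ext n
  by_cases hn : n ∈ p.support
  · simpa using this n hn
  · simpa using Polynomial.notMem_support_iff.mp hn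

theorem IsConstExt.adjoin_range_eq_top (K : Type uK) (F : Type uF) [Field K] [Field F]
    [Algebra K F] [Algebra K Ω] [Algebra K E] [Algebra F E] [IsScalarTower K F E]
    [IsScalarTower K Ω E] [IsConstExt K F Ω E] :
    IntermediateField.adjoin Ω (Set.range (algebraMap F E)) = ⊤ := by
  rw [eq_top_iff]
  intro e _
  obtain ⟨a, b, hb, h⟩ := IsConstExt.exists_eq_div (K := K) (F := F) (Ω := Ω) e
  have hmem : ∀ z : Ω ⊗[K] F,
      extConstMap K F Ω E z ∈ IntermediateField.adjoin Ω (Set.range (algebraMap F E)) := by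
    intro z
    induction z using TensorProduct.induction_on with
    | zero => simp
    | tmul c f =>
      rw [extConstMap_tmul]
      exact mul_mem (IntermediateField.algebraMap_mem _ c)
        (IntermediateField.subset_adjoin _ _ ⟨f, rfl⟩)
    | add u v hu hv => rw [map_add]; exact add_mem hu hv
  rw [eq_div_of_mul_eq hb h]
  exact div_mem (hmem a) (hmem b)

theorem IsConstExt.finite_adjoin (x : F) [Module.Finite K⟮x⟯ F] :
    Module.Finite Ω⟮algebraMap F E x⟯ E := by
  classical
  let b := Module.finBasis K⟮x⟯ F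
  let L := Ω⟮algebraMap F E x⟯
  have hL : ∀ y : K⟮x⟯, algebraMap F E y ∈ L := by
    intro y
    let T : IntermediateField K F := (L.restrictScalars K).comap (IsScalarTower.toAlgHom K F E)
    have hT : K⟮x⟯ ≤ T := IntermediateField.adjoin_le_iff.mpr
      (Set.singleton_subset_iff.mpr (IntermediateField.mem_adjoin_simple_self Ω _))
    exact hT y.2
  have hint : ∀ f : F, IsIntegral L (algebraMap F E f) := by
    intro f
    have hf : IsIntegral K⟮x⟯ f := IsIntegral.of_finite _ f
    obtain ⟨p, hp, hp0⟩ := hf
    refine ⟨p.map (((algebraMap F E).comp (algebraMap K⟮x⟯ F)).codRestrict L hL),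
      hp.map _, ?_⟩
    rw [Polynomial.eval₂_map]
    have : (algebraMap L E).comp (((algebraMap F E).comp (algebraMap K⟮x⟯ F)).codRestrict L hL) =
        (algebraMap F E).comp (algebraMap K⟮x⟯ F) := RingHom.ext fun _ => rfl
    rw [this, ← Polynomial.hom_eval₂, hp0, map_zero]
  let S : IntermediateField L E :=
    IntermediateField.adjoin L (Set.range fun i => algebraMap F E (b i))
  haveI : Module.Finite L S :=
    IntermediateField.finiteDimensional_adjoin fun z hz => by
      obtain ⟨i, rfl⟩ := hz; exact hint _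
  have hS : ∀ f : F, algebraMap F E f ∈ S := by
    intro f
    rw [← b.sum_repr f, map_sum]
    refine sum_mem fun i _ => ?_
    rw [Algebra.smul_def, map_mul]
    exact mul_mem (S.algebraMap_mem ⟨_, hL _⟩) (IntermediateField.subset_adjoin _ _ ⟨i, rfl⟩)
  have htop : (⊤ : IntermediateField Ω E) ≤ S.restrictScalars Ω := by
    rw [← IsConstExt.adjoin_range_eq_top K F, IntermediateField.adjoin_le_iff]
    rintro _ ⟨f, rfl⟩
    exact hS f
  have hS' : S = ⊤ := eq_top_iff.mpr fun e _ => htop IntermediateField.mem_top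
  exact Module.Finite.equiv ((IntermediateField.equivOfEq hS').trans IntermediateField.topEquiv).toLinearEquiv

/-- A constant field extension of a function field of one variable is one. -/
theorem IsConstExt.isFunctionFieldOne (h : IsFunctionFieldOne K F) : IsFunctionFieldOne Ω E := by
  obtain ⟨x, hx, hfin⟩ := h.exists_transcendental_finite
  haveI := hfin
  haveI := IsConstExt.finite_adjoin (K := K) (Ω := Ω) (E := E) x
  exact IsFunctionFieldOne.of_finite (IsConstExt.transcendental hx)

theorem IsConstExt.finrank_adjoin [IsAlgClosed K] [IsAlgClosed Ω] [IsFunctionFieldOne K F]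
    {x : F} (hx : Transcendental K x) :
    Module.finrank Ω⟮algebraMap F E x⟯ E = Module.finrank K⟮x⟯ F := by
  haveI := IsConstExt.isFunctionFieldOne (Ω := Ω) (E := E) ‹IsFunctionFieldOne K F›
  have h1 := degree_zeroDivisor hx
  have h2 := degree_zeroDivisor (IsConstExt.transcendental (Ω := Ω) (E := E) hx)
  have h3 : divExt Ω E (zeroDivisor K x) = zeroDivisor Ω (algebraMap F E x) := by
    ext w
    rcases exists_eq_placeExt_or (K := K) (F := F) w with ⟨v, rfl⟩ | hw
    · rw [divExt_apply_placeExt, zeroDivisor_apply, zeroDivisor_apply, ord_placeExt]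
    · rw [divExt_apply_of_forall_mem _ hw, zeroDivisor_apply,
        ord_algebraMap_eq_zero_of_forall_mem hw, max_self]
  rw [← h3, degree_divExt, h1] at h2
  exact_mod_cast h2.symm

omit [IsConstExt K F Ω E] in
theorem nonempty_place_of_isFunctionFieldOne [IsFunctionFieldOne K F] : Nonempty (Place K F) := by
  obtain ⟨x, hx, -⟩ := IsFunctionFieldOne.exists_transcendental_finite (K := K) (F := F)
  obtain ⟨v, -⟩ := exists_place_ord_pos hx
  exact ⟨v⟩

/-- Universal property: a map of `F` into a field over `Ω` compatible on `K`, injective on the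
tensor product, extends to `E`. -/
theorem IsConstExt.exists_liftHom {E' : Type*} [Field E'] [Algebra Ω E'] [Algebra K E']
    [IsScalarTower K Ω E'] (ψ : F →ₐ[K] E') [IsAlgClosed K] (x : F) [Algebra.IsAlgebraic K⟮x⟯ F]
    (hx : Transcendental Ω (ψ x)) :
    ∃ Ψ : E →ₐ[Ω] E', ∀ f : F, Ψ (algebraMap F E f) = ψ f := by
  letI : Algebra F E' := ψ.toRingHom.toAlgebra
  haveI : IsScalarTower K F E' := IsScalarTower.of_algebraMap_eq fun a => (ψ.commutes a).symm
  let E₀ := IntermediateField.adjoin Ω (Set.range (algebraMap F E'))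
  letI : Algebra F E₀ :=
    ((algebraMap F E').codRestrict E₀ fun f =>
      IntermediateField.subset_adjoin _ _ ⟨f, rfl⟩).toAlgebra
  haveI : IsScalarTower K F E₀ := IsScalarTower.of_algebraMap_eq fun a =>
    Subtype.ext (IsScalarTower.algebraMap_apply K F E' a)
  have hgen : IntermediateField.adjoin Ω (Set.range (algebraMap F E₀)) = ⊤ := by
    apply IntermediateField.lift_injective E₀
    rw [IntermediateField.lift_adjoin, IntermediateField.lift_top, ← Set.range_comp]
    rfl
  haveI hE₀ : IsConstExt K F Ω E₀ := IsConstExt.of_transcendental x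
    (fun h => hx (h.algHom E₀.val)) hgen
  have hμ : Function.Injective (extConstMap K F Ω E₀) := hE₀.injective
  letI : Algebra (Ω ⊗[K] F) E := (extConstMap K F Ω E).toRingHom.toAlgebra
  haveI : IsScalarTower Ω (Ω ⊗[K] F) E :=
    IsScalarTower.of_algebraMap_eq fun c => ((extConstMap K F Ω E).commutes c).symm
  haveI : FaithfulSMul (Ω ⊗[K] F) E :=
    (faithfulSMul_iff_algebraMap_injective _ _).mpr IsConstExt.injective
  haveI : IsFractionRing (Ω ⊗[K] F) E := IsFractionRing.of_field (Ω ⊗[K] F) E fun e => by
    obtain ⟨a, b, hb, h⟩ := IsConstExt.exists_eq_div (K := K) (F := F) (Ω := Ω) e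
    exact ⟨a, b, eq_div_of_mul_eq hb h⟩
  refine ⟨E₀.val.comp (IsFractionRing.liftAlgHom (K := E) hμ), fun f => ?_⟩
  have h1 : algebraMap F E f = algebraMap (Ω ⊗[K] F) E (1 ⊗ₜ f) := by
    show _ = extConstMap K F Ω E (1 ⊗ₜ f)
    simp [extConstMap_tmul]
  rw [h1, AlgHom.comp_apply, IsFractionRing.liftAlgHom_apply, IsFractionRing.lift_algebraMap]
  show ((extConstMap K F Ω E₀ (1 ⊗ₜ f) : E₀) : E') = ψ f
  simp [extConstMap_tmul]
  rfl

end Fermat.Agent.Curve
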