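/-
Elementary facts on Riemann-Roch spaces over an algebraically closed constant field, used by the
constant field extension files: degrees of effective divisors, finiteness, codimension of a point.
-/
import Fermat.Agent.Curve.ConstExtBasic
import Fermat.Agent.Curve.BasicPlace
import Mathlib.LinearAlgebra.FiniteDimensional.Lemmas

set_option autoImplicit false

noncomputable section

namespace Fermat.Agent.Curve.ConstExt

open AlgebraicCurve

variable {K F : Type*} [Field K] [Field F] [Algebra K F] [IsAlgClosed K] [IsCurveOver K F]

theorem degree_eq_sum (D : Divisor K F) : Divisor.degree D = D.sum fun _ n => n := by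
  induction D using Finsupp.induction with
  | zero => simp
  | single_add v n D hv hn ih =>
    rw [map_add, ih, Divisor.degree_single, IsCurveOver.deg_eq_one_of_isAlgClosed,
      Finsupp.sum_add_index' (fun _ => rfl) (fun _ _ _ => rfl), Finsupp.sum_single_index rfl]
    simp

theorem degree_nonneg {D : Divisor K F} (h : ∀ v, 0 ≤ D v) : 0 ≤ Divisor.degree D := by
  rw [degree_eq_sum]
  exact Finset.sum_nonneg fun v _ => h v

theorem le_degree {D : Divisor K F} (h : ∀ v, 0 ≤ D v) (v : Place K F) :
    D v ≤ Divisor.degree D := by
  rw [degree_eq_sum]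
  by_cases hv : v ∈ D.support
  · exact Finset.single_le_sum (fun w _ => h w) hv
  · rw [Finsupp.notMem_support_iff.mp hv]
    exact Finset.sum_nonneg fun w _ => h w

theorem eq_zero_of_nonneg_of_degree_eq_zero {D : Divisor K F} (h : ∀ v, 0 ≤ D v)
    (hd : Divisor.degree D = 0) : D = 0 :=
  Finsupp.ext fun v => le_antisymm ((le_degree h v).trans_eq hd) (h v)

omit [IsAlgClosed K] in
theorem degree_eq_zero_of_forall_ord {D : Divisor K F} {f : F} (hf : f ≠ 0)
    (h : ∀ v, D v = v.ord f) : Divisor.degree D = 0 := by
  obtain ⟨D', hD', hdeg⟩ := HasPrincipalDivisors.exists_divisor (K := K) f hf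
  rwa [show D = D' from Finsupp.ext fun v => by rw [h, hD']]

/-- A non-zero element of `L(D)` gives an effective divisor linearly equivalent to `D`. -/
theorem exists_effective {D : Divisor K F} {f : F} (hf : f ≠ 0)
    (hD : f ∈ riemannRochSpace D) :
    ∃ P : Divisor K F, (∀ v, P v = D v + v.ord f) ∧ (∀ v, 0 ≤ P v) ∧
      Divisor.degree P = Divisor.degree D := by
  obtain ⟨E, hE, hdeg⟩ := HasPrincipalDivisors.exists_divisor (K := K) f hf
  refine ⟨D + E, fun v => by rw [Finsupp.add_apply, hE], fun v => ?_, by rw [map_add, hdeg, add_zero]⟩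
  have := (mem_riemannRochSpace_iff.mp hD v).resolve_left hf
  rw [Finsupp.add_apply, hE]
  omega

theorem riemannRochSpace_eq_bot_of_degree_neg {D : Divisor K F} (h : Divisor.degree D < 0) :
    riemannRochSpace D = ⊥ := by
  rw [eq_bot_iff]
  intro f hf
  rw [Submodule.mem_bot]
  by_contra hf0
  obtain ⟨P, -, hP, hdeg⟩ := exists_effective hf0 hf
  have := degree_nonneg hP
  omega

theorem riemannRochSpace_mono {D D' : Divisor K F} (h : ∀ v, D v ≤ D' v) :
    riemannRochSpace D ≤ riemannRochSpace D' := fun f hf => by
  rw [mem_riemannRochSpace_iff] at hf ⊢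
  intro v
  rcases hf v with h0 | h0
  · exact Or.inl h0
  · exact Or.inr (by have := h v; omega)

/-- A place has codimension at most one. -/
theorem le_sup_span_sub_single (D : Divisor K F) (w : Place K F) :
    ∃ g : F, riemannRochSpace D ≤
      riemannRochSpace (D - Finsupp.single w 1) ⊔ Submodule.span K {g} := by
  classical
  by_cases h : riemannRochSpace D ≤ riemannRochSpace (D - Finsupp.single w 1)
  · exact ⟨0, h.trans le_sup_left⟩
  obtain ⟨g, hgD, hg⟩ := SetLike.not_le_iff_exists.mp h
  have hg0 : g ≠ 0 := fun h0 => hg (h0 ▸ zero_mem _)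
  have hgw : w.ord g = -D w := by
    by_contra hne
    refine hg (mem_riemannRochSpace_iff.mpr fun v => Or.inr ?_)
    have := (mem_riemannRochSpace_iff.mp hgD v).resolve_left hg0
    rw [Finsupp.sub_apply, Finsupp.single_apply]
    split_ifs with hv
    · subst hv; omega
    · omega
  refine ⟨g, fun f hf => ?_⟩
  have hq : f / g ∈ w.toValuationSubring := by
    rcases eq_or_ne f 0 with rfl | hf0
    · simp
    apply mem_of_ord_nonneg
    have := (mem_riemannRochSpace_iff.mp hf w).resolve_left hf0
    rw [ord_div w hf0 hg0, hgw]
    omega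
  set c := constResidue w ⟨f / g, hq⟩ with hc
  have hmax : (⟨f / g, hq⟩ - algebraMap K w.toValuationSubring c : w.toValuationSubring) ∈
      IsLocalRing.maximalIdeal w.toValuationSubring := by
    rw [← constResidue_eq_zero_iff, map_sub, constResidue_algebraMap, sub_self]
  refine Submodule.mem_sup.mpr ⟨f - c • g, ?_, c • g,
    Submodule.smul_mem _ _ (Submodule.mem_span_singleton_self g), sub_add_cancel _ _⟩
  have hmem := Submodule.sub_mem _ hf (Submodule.smul_mem _ c hgD)
  refine mem_riemannRochSpace_iff.mpr fun v => ?_
  rcases eq_or_ne (f - c • g) 0 with h0 | h0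
  · exact Or.inl h0
  refine Or.inr ?_
  have hv := (mem_riemannRochSpace_iff.mp hmem v).resolve_left h0
  rw [Finsupp.sub_apply, Finsupp.single_apply]
  split_ifs with hwv
  · subst hwv
    have hne : (f / g - algebraMap K F c) ≠ 0 := fun h1 => h0 (by
      rw [Algebra.smul_def, ← sub_eq_zero.mp h1, div_mul_cancel₀ _ hg0, sub_self])
    have hpos : 0 < w.ord (f / g - algebraMap K F c) := by
      by_contra hle
      have hu : IsUnit (⟨f / g, hq⟩ - algebraMap K w.toValuationSubring c :
          w.toValuationSubring) := by
        have hnn := ord_nonneg_of_mem w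
          (⟨f / g, hq⟩ - algebraMap K w.toValuationSubring c : w.toValuationSubring).2
        rw [← w.adicValuation_coe_eq_one_iff,
          show ((⟨f / g, hq⟩ - algebraMap K w.toValuationSubring c : w.toValuationSubring) : F)
            = f / g - algebraMap K F c from rfl] at *
        rw [w.adicValuation_eq_exp_neg_ord hne, show w.ord (f / g - algebraMap K F c) = 0 by omega]
        simp
      exact (IsLocalRing.mem_maximalIdeal _).mp hmax hu
    have heq : f - c • g = (f / g - algebraMap K F c) * g := by
      rw [sub_mul, div_mul_cancel₀ _ hg0, Algebra.smul_def]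
    rw [heq, w.ord_mul hne hg0, hgw]
    omega
  · omega

variable [Nonempty (Place K F)]

theorem finite_riemannRochSpace (D : Divisor K F) : Module.Finite K (riemannRochSpace D) := by
  classical
  obtain ⟨w⟩ := ‹Nonempty (Place K F)›
  suffices h : ∀ (n : ℕ) (D : Divisor K F), Divisor.degree D < n →
      (riemannRochSpace D).FG from
    Module.Finite.iff_fg.mpr (h ((Divisor.degree D).toNat + 1) D (by omega))
  intro n
  induction n with
  | zero =>
    intro D hD
    rw [riemannRochSpace_eq_bot_of_degree_neg (by simpa using hD)]
    exact Submodule.fg_bot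
  | succ n ih =>
    intro D hD
    obtain ⟨g, hg⟩ := le_sup_span_sub_single D w
    have h1 := ih (D - Finsupp.single w 1) (by
      rw [map_sub, Divisor.degree_single, IsCurveOver.deg_eq_one_of_isAlgClosed]
      push_cast
      omega)
    have h2 : (riemannRochSpace (D - Finsupp.single w 1) ⊔ Submodule.span K {g}).FG :=
      h1.sup (Submodule.fg_span_singleton g)
    haveI : Module.Finite K ↥(riemannRochSpace (D - Finsupp.single w 1) ⊔ Submodule.span K {g}) :=
      Module.Finite.iff_fg.mpr h2
    haveI : Module.Finite K (riemannRochSpace D) := Submodule.finiteDimensional_of_le hg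
    exact Module.Finite.iff_fg.mp inferInstance

theorem finrank_le_finrank_sub_add_degree (D B : Divisor K F) (hB : ∀ v, 0 ≤ B v) :
    (Module.finrank K (riemannRochSpace D) : ℤ) ≤
      Module.finrank K (riemannRochSpace (D - B)) + Divisor.degree B := by
  classical
  suffices h : ∀ (n : ℕ) (D B : Divisor K F), (∀ v, 0 ≤ B v) → Divisor.degree B = n →
      (Module.finrank K (riemannRochSpace D) : ℤ) ≤
        Module.finrank K (riemannRochSpace (D - B)) + n by
    have h0 := degree_nonneg hB
    have := h (Divisor.degree B).toNat D B hB (by omega)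
    omega
  intro n
  induction n with
  | zero =>
    intro D B hB hd
    rw [eq_zero_of_nonneg_of_degree_eq_zero hB (by simpa using hd), sub_zero]
    simp
  | succ n ih =>
    intro D B hB hd
    obtain ⟨w, hw⟩ : ∃ w, 0 < B w := by
      by_contra hcon
      push Not at hcon
      have hB0 : B = 0 := Finsupp.ext fun v => le_antisymm (hcon v) (hB v)
      rw [hB0, map_zero] at hd
      omega
    have hB' : ∀ v, 0 ≤ (B - Finsupp.single w 1 : Divisor K F) v := fun v => by
      rw [Finsupp.sub_apply, Finsupp.single_apply]
      split_ifs with hv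
      · subst hv; omega
      · simpa using hB v
    have h1 := ih (D - Finsupp.single w 1) (B - Finsupp.single w 1) hB' (by
      rw [map_sub, Divisor.degree_single, IsCurveOver.deg_eq_one_of_isAlgClosed, hd]
      push_cast; ring)
    rw [sub_sub_sub_cancel_right] at h1
    obtain ⟨g, hg⟩ := le_sup_span_sub_single D w
    haveI := finite_riemannRochSpace (D - Finsupp.single w 1)
    have h2 : Module.finrank K (riemannRochSpace D) ≤
        Module.finrank K (riemannRochSpace (D - Finsupp.single w 1)) + 1 := by
      refine (Submodule.finrank_mono hg).trans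
        ((Submodule.finrank_add_le_finrank_add_finrank _ _).trans ?_)
      gcongr
      exact (finrank_span_le_card ({g} : Set F)).trans (by simp)
    push_cast
    omega

end Fermat.Agent.Curve.ConstExt
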