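/-
Constant field extension: Riemann-Roch spaces, injectivity of `picExt`, rigidity of classes with
finite orbit, and the bijection on torsion.
-/
import Fermat.Agent.Curve.ConstExtAut
import Fermat.Agent.Curve.ConstExtMk
import Fermat.Agent.Curve.ConstExtSpaces

set_option autoImplicit false

noncomputable section

namespace Fermat.Agent.Curve

open AlgebraicCurve TensorProduct

universe uK uF uΩ uE

variable {K : Type uK} {F : Type uF} {Ω : Type uΩ} {E : Type uE}
  [Field K] [Field F] [Field Ω] [Field E]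
  [Algebra K F] [Algebra K Ω] [Algebra K E] [Algebra F E] [Algebra Ω E]
  [IsScalarTower K F E] [IsScalarTower K Ω E] [IsConstExt K F Ω E]
  [IsAlgClosed K] [IsCurveOver K F] [IsAlgClosed Ω] [IsCurveOver Ω E]

theorem algebraMap_mem_riemannRochSpace_iff {D : Divisor K F} {f : F} :
    algebraMap F E f ∈ riemannRochSpace (divExt Ω E D) ↔ f ∈ riemannRochSpace D := by
  rw [mem_riemannRochSpace_iff, mem_riemannRochSpace_iff]
  rcases eq_or_ne f 0 with rfl | hf
  · simp
  have hfE : algebraMap F E f ≠ 0 := (map_ne_zero (algebraMap F E)).mpr hf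
  constructor
  · intro h v
    have := (h (placeExt Ω E v)).resolve_left hfE
    rw [divExt_apply_placeExt, ord_placeExt] at this
    exact Or.inr this
  · intro h w
    rcases exists_eq_placeExt_or (K := K) (F := F) w with ⟨v, rfl⟩ | hw
    · rw [divExt_apply_placeExt, ord_placeExt]
      exact Or.inr ((h v).resolve_left hf)
    · rw [divExt_apply_of_forall_mem _ hw, ord_algebraMap_eq_zero_of_forall_mem hw]
      exact Or.inr (by omega)

/-- The Riemann-Roch space of an extended divisor is spanned by that of the divisor. -/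
theorem riemannRochSpace_divExt [Nonempty (Place K F)] (D : Divisor K F) :
    riemannRochSpace (divExt Ω E D) =
      Submodule.span Ω (algebraMap F E '' (riemannRochSpace D : Set F)) := by
  haveI : Nonempty (Place Ω E) := Nonempty.map (fun v : Place K F => placeExt Ω E v) inferInstance
  haveI := ConstExt.finite_riemannRochSpace (divExt Ω E D)
  apply le_antisymm
  · refine (le_span_of_constAut_stable (K := K) (F := F) (riemannRochSpace (divExt Ω E D))
      fun σ e he => ?_).trans (Submodule.span_mono (Set.image_mono fun f hf =>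
        algebraMap_mem_riemannRochSpace_iff.mp hf))
    rw [mem_riemannRochSpace_iff] at he ⊢
    intro w
    rcases eq_or_ne e 0 with rfl | he0
    · exact Or.inl (smul_zero _)
    refine Or.inr ?_
    have h1 := (he ((constAut F E σ)⁻¹ • w)).resolve_left he0
    rw [← SemilinearAut.ord_smul (constAut F E σ) ((constAut F E σ)⁻¹ • w) e, smul_inv_smul,
      ← SemilinearAut.divisor_smul_apply, constAut_smul_divExt] at h1
    exact h1
  · rw [Submodule.span_le]
    rintro _ ⟨f, hf, rfl⟩
    exact algebraMap_mem_riemannRochSpace_iff.mpr hf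

theorem finrank_riemannRochSpace_divExt [Nonempty (Place K F)] (D : Divisor K F) :
    Module.finrank Ω (riemannRochSpace (divExt Ω E D)) =
      Module.finrank K (riemannRochSpace D) := by
  haveI := ConstExt.finite_riemannRochSpace D
  let b := Module.finBasis K (riemannRochSpace D)
  let g : Fin (Module.finrank K (riemannRochSpace D)) → F := fun i => (b i : F)
  have hg : LinearIndependent K g :=
    b.linearIndependent.map' (riemannRochSpace D).subtype (Submodule.ker_subtype _)
  have hgE := IsConstExt.linearIndependent (Ω := Ω) (E := E) hg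
  have hspan : Submodule.span Ω (algebraMap F E '' (riemannRochSpace D : Set F)) =
      Submodule.span Ω (Set.range (algebraMap F E ∘ g)) := by
    refine le_antisymm (Submodule.span_le.mpr ?_) (Submodule.span_mono ?_)
    · rintro _ ⟨f, hf, rfl⟩
      have h1 : f = ∑ i, b.repr ⟨f, hf⟩ i • g i := by
        have h2 := congrArg Subtype.val (b.sum_repr ⟨f, hf⟩)
        rw [AddSubmonoidClass.coe_finsetSum] at h2
        exact h2.symm
      rw [SetLike.mem_coe, h1, map_sum]
      refine sum_mem fun i _ => ?_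
      rw [Algebra.smul_def, map_mul, ← IsScalarTower.algebraMap_apply K F E,
        IsScalarTower.algebraMap_apply K Ω E, ← Algebra.smul_def]
      exact Submodule.smul_mem _ _ (Submodule.subset_span ⟨i, rfl⟩)
    · rintro _ ⟨i, rfl⟩
      exact ⟨g i, (b i).2, rfl⟩
  rw [riemannRochSpace_divExt, hspan, finrank_span_eq_card hgE, Fintype.card_fin]

/-- A divisor of `F` which becomes principal on `E` is principal. -/
theorem mem_principal_of_divExt_mem_principal {D : Divisor K F}
    (hD : divExt Ω E D ∈ Divisor.principal (K := Ω) (F := E)) :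
    D ∈ Divisor.principal (K := K) (F := F) := by
  rcases isEmpty_or_nonempty (Place K F) with hempty | hne
  · rw [show D = 0 from Finsupp.ext fun v => hempty.elim v]
    exact zero_mem _
  obtain ⟨e, he, hDe⟩ := hD
  have hdeg : Divisor.degree D = 0 := by
    rw [← degree_divExt (Ω := Ω) (E := E)]
    exact ConstExt.degree_eq_zero_of_forall_ord he hDe
  have hemem : e ∈ riemannRochSpace (divExt Ω E (-D)) := by
    rw [mem_riemannRochSpace_iff]
    intro w
    refine Or.inr ?_
    rw [map_neg, Finsupp.neg_apply, hDe]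
    omega
  rw [riemannRochSpace_divExt] at hemem
  obtain ⟨f, hf, hf0⟩ : ∃ f ∈ riemannRochSpace (-D), f ≠ 0 := by
    by_contra hcon
    push Not at hcon
    apply he
    have hle : Submodule.span Ω (algebraMap F E '' (riemannRochSpace (-D) : Set F)) ≤ ⊥ := by
      rw [Submodule.span_le]
      rintro _ ⟨f, hf, rfl⟩
      simp [hcon f hf]
    exact (Submodule.mem_bot Ω).mp (hle hemem)
  obtain ⟨P, hP, hPnn, hPdeg⟩ := ConstExt.exists_effective hf0 hf
  have hP0 := ConstExt.eq_zero_of_nonneg_of_degree_eq_zero hPnn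
    (by rw [hPdeg, map_neg, hdeg, neg_zero])
  refine ⟨f, hf0, fun v => ?_⟩
  have := hP v
  rw [hP0, Finsupp.zero_apply, Finsupp.neg_apply] at this
  omega

theorem picExt_injective : Function.Injective (picExt Ω E : Pic0 K F →+ Pic0 Ω E) := by
  rw [injective_iff_map_eq_zero]
  intro x hx
  obtain ⟨D, rfl⟩ := Pic0.mk_surjective x
  rw [picExt_mk] at hx
  have h1 := (QuotientAddGroup.eq_zero_iff _).mp hx
  rw [AddSubgroup.mem_addSubgroupOf, coe_degZeroExt] at h1
  exact (QuotientAddGroup.eq_zero_iff _).mpr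
    (AddSubgroup.mem_addSubgroupOf.mpr (mem_principal_of_divExt_mem_principal h1))

omit [IsCurveOver K F] [IsAlgClosed K] [IsAlgClosed Ω] in
private theorem pic0_mk_eq_iff {D D' : Divisor.degZero (K := Ω) (F := E)} :
    Pic0.mk D = Pic0.mk D' ↔
      (D' : Divisor Ω E) - (D : Divisor Ω E) ∈ Divisor.principal (K := Ω) (F := E) := by
  unfold Pic0.mk
  rw [QuotientAddGroup.eq, AddSubgroup.mem_addSubgroupOf]
  simp [neg_add_eq_sub]

/-- Some multiple of an effective divisor of `F` makes a given divisor of `E` effective up to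
linear equivalence. -/
private theorem exists_riemannRochSpace_add_divExt_ne_bot [Nonempty (Place K F)]
    (D₀ : Divisor Ω E) :
    ∃ A : Divisor K F, (∀ v, 0 ≤ A v) ∧ riemannRochSpace (D₀ + divExt Ω E A) ≠ ⊥ := by
  obtain ⟨v₀⟩ := ‹Nonempty (Place K F)›
  haveI : Nonempty (Place Ω E) := ⟨placeExt Ω E v₀⟩
  obtain ⟨f, hf0, hford⟩ := exists_ord_eq v₀ 1
  have hf : Transcendental K f := transcendental_of_ord_ne_zero v₀ (by omega)
  obtain ⟨Df, hDf, -⟩ := HasPrincipalDivisors.exists_divisor (K := K) f hf0
  let P : Divisor K F := Df.mapRange (fun n => max (-n) 0) (by simp)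
  let B : Divisor Ω E := D₀.mapRange (fun n => max (-n) 0) (by simp)
  have hB : ∀ w, 0 ≤ B w := fun w => le_max_right _ _
  set n := (Divisor.degree B).toNat
  refine ⟨n • P, fun v => ?_, fun hbot => ?_⟩
  · rw [Finsupp.smul_apply]
    exact smul_nonneg (Nat.zero_le n) (le_max_right _ _)
  haveI := ConstExt.finite_riemannRochSpace (divExt Ω E (n • P))
  let pw : Fin (n + 1) → riemannRochSpace (divExt Ω E (n • P)) := fun i =>
    ⟨algebraMap F E (f ^ (i : ℕ)), algebraMap_mem_riemannRochSpace_iff.mpr
      (mem_riemannRochSpace_iff.mpr fun v => Or.inr (by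
        rw [ord_pow, Finsupp.smul_apply, nsmul_eq_mul]
        show -((n : ℤ) * max (-(Df v)) 0) ≤ _
        rw [hDf]
        have hi : ((i : ℕ) : ℤ) ≤ (n : ℤ) := by exact_mod_cast Nat.lt_succ_iff.mp i.2
        rcases le_or_gt 0 (v.ord f) with h | h
        · rw [max_eq_right (by omega)]
          have : 0 ≤ ((i : ℕ) : ℤ) * v.ord f := mul_nonneg (by positivity) h
          omega
        · rw [max_eq_left (by omega)]
          have := mul_le_mul_of_nonneg_right hi (show 0 ≤ -v.ord f by omega)
          linarith))⟩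
  have hpw : LinearIndependent Ω pw := by
    apply LinearIndependent.of_comp (riemannRochSpace (divExt Ω E (n • P))).subtype
    have hli : LinearIndependent Ω fun i : ℕ => algebraMap F E f ^ i := by
      have := (Polynomial.basisMonomials Ω).linearIndependent.map'
        (Polynomial.aeval (algebraMap F E f)).toLinearMap
        (LinearMap.ker_eq_bot.mpr (transcendental_iff_injective.mp
          (IsConstExt.transcendental (Ω := Ω) (E := E) hf)))
      simpa [Function.comp_def] using this
    have := hli.comp (fun i : Fin (n + 1) => (i : ℕ)) Fin.val_injective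
    simpa [Function.comp_def, pw, map_pow] using this
  have h1 := hpw.fintype_card_le_finrank
  rw [Fintype.card_fin] at h1
  have h2 := ConstExt.finrank_le_finrank_sub_add_degree (divExt Ω E (n • P)) B hB
  have hle : riemannRochSpace (divExt Ω E (n • P) - B) ≤
      riemannRochSpace (D₀ + divExt Ω E (n • P)) := ConstExt.riemannRochSpace_mono fun w => by
    rw [Finsupp.sub_apply, Finsupp.add_apply]
    show _ - max (-(D₀ w)) 0 ≤ _
    omega
  rw [hbot, le_bot_iff] at hle
  rw [hle, finrank_bot] at h2
  have h3 := ConstExt.degree_nonneg hB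
  omega

/-- Rigidity: a class with finite orbit under the constant automorphisms comes from `F`. -/
theorem mem_range_picExt_of_finite_orbit [Nonempty (Place K F)] {x : Pic0 Ω E}
    (h : (Set.range fun σ : Ω ≃ₐ[K] Ω => constAut F E σ • x).Finite) :
    x ∈ Set.range (picExt Ω E : Pic0 K F →+ Pic0 Ω E) := by
  classical
  obtain ⟨D₀, rfl⟩ := Pic0.mk_surjective x
  have hex : ∃ n : ℕ, ∃ A : Divisor K F, (∀ v, 0 ≤ A v) ∧ (Divisor.degree A).toNat = n ∧
      riemannRochSpace ((D₀ : Divisor Ω E) + divExt Ω E A) ≠ ⊥ := by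
    obtain ⟨A, hA, hne⟩ := exists_riemannRochSpace_add_divExt_ne_bot (K := K) (F := F)
      (D₀ : Divisor Ω E)
    exact ⟨_, A, hA, rfl, hne⟩
  obtain ⟨A, hA, hAdeg, hne⟩ := Nat.find_spec hex
  obtain ⟨f, hf, hf0⟩ := Submodule.exists_mem_ne_zero_of_ne_bot hne
  -- the space is one dimensional
  have hone : ∀ g ∈ riemannRochSpace ((D₀ : Divisor Ω E) + divExt Ω E A),
      ∃ c : Ω, g = c • f := by
    obtain ⟨v₀⟩ := ‹Nonempty (Place K F)›
    haveI : Nonempty (Place Ω E) := ⟨placeExt Ω E v₀⟩
    obtain ⟨v, hv⟩ : ∃ v : Place K F, riemannRochSpace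
        ((D₀ : Divisor Ω E) + divExt Ω E A - Finsupp.single (placeExt Ω E v) 1) = ⊥ := by
      by_cases hA0 : A = 0
      · refine ⟨v₀, ConstExt.riemannRochSpace_eq_bot_of_degree_neg ?_⟩
        rw [hA0, map_zero, add_zero, map_sub, Divisor.mem_degZero.mp D₀.2, Divisor.degree_single,
          IsCurveOver.deg_eq_one_of_isAlgClosed]
        norm_num
      · obtain ⟨v, hv⟩ : ∃ v, 0 < A v := by
          by_contra hcon
          push Not at hcon
          exact hA0 (Finsupp.ext fun v => le_antisymm (hcon v) (hA v))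
        refine ⟨v, ?_⟩
        by_contra hne'
        have hA' : ∀ u, 0 ≤ (A - Finsupp.single v 1 : Divisor K F) u := fun u => by
          rw [Finsupp.sub_apply, Finsupp.single_apply]
          split_ifs with hu
          · subst hu; omega
          · simpa using hA u
        have hlt : (Divisor.degree (A - Finsupp.single v 1)).toNat < Nat.find hex := by
          rw [map_sub, Divisor.degree_single, IsCurveOver.deg_eq_one_of_isAlgClosed, ← hAdeg]
          have h1 : A v ≤ Divisor.degree A := ConstExt.le_degree hA v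
          omega
        refine Nat.find_min hex hlt ⟨_, hA', rfl, ?_⟩
        rwa [map_sub, divExt_single, ← add_sub_assoc]
    obtain ⟨g₀, hg₀⟩ := ConstExt.le_sup_span_sub_single
      ((D₀ : Divisor Ω E) + divExt Ω E A) (placeExt Ω E v)
    rw [hv, bot_sup_eq] at hg₀
    intro g hg
    obtain ⟨a, ha⟩ := Submodule.mem_span_singleton.mp (hg₀ hg)
    obtain ⟨b, hb⟩ := Submodule.mem_span_singleton.mp (hg₀ hf)
    have hb0 : b ≠ 0 := fun h0 => hf0 (by rw [← hb, h0, zero_smul])
    exact ⟨a * b⁻¹, by rw [← ha, ← hb, smul_smul, inv_mul_cancel_right₀ hb0]⟩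
  obtain ⟨D, hD, hDnn, hDdeg⟩ := ConstExt.exists_effective hf0 hf
  -- uniqueness
  have huniq : ∀ u : Ω ≃ₐ[K] Ω, constAut F E u • Pic0.mk D₀ = Pic0.mk D₀ →
      constAut F E u • D = D := by
    intro u hu
    rw [SemilinearAut.pic0_smul_mk, pic0_mk_eq_iff, SemilinearAut.coe_degZeroSMulHom] at hu
    obtain ⟨g, hg0, hg⟩ := hu
    set U := constAut F E u
    have hUf0 : U • f ≠ 0 := (smul_ne_zero_iff_ne U).mpr hf0
    have hval : ∀ w, (U • D) w =
        ((D₀ : Divisor Ω E) + divExt Ω E A) w + w.ord (g⁻¹ * U • f) := by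
      intro w
      have h2 : (U • divExt Ω E A : Divisor Ω E) = divExt Ω E A := constAut_smul_divExt u A
      have h3 := hg w
      rw [Finsupp.sub_apply, SemilinearAut.divisor_smul_apply] at h3
      have h4 := SemilinearAut.ord_smul U (U⁻¹ • w) f
      rw [smul_inv_smul] at h4
      have h5 : (divExt Ω E A) w = (divExt Ω E A) (U⁻¹ • w) := by
        conv_lhs => rw [← h2]
        rw [SemilinearAut.divisor_smul_apply]
      rw [SemilinearAut.divisor_smul_apply, hD, Finsupp.add_apply, Finsupp.add_apply,
        w.ord_mul (inv_ne_zero hg0) hUf0, w.ord_inv, h4, h5]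
      omega
    have hmem : g⁻¹ * U • f ∈ riemannRochSpace ((D₀ : Divisor Ω E) + divExt Ω E A) := by
      rw [mem_riemannRochSpace_iff]
      intro w
      refine Or.inr ?_
      have h0 : 0 ≤ (U • D) w := by
        rw [SemilinearAut.divisor_smul_apply]; exact hDnn _
      rw [hval] at h0
      omega
    obtain ⟨c, hc⟩ := hone _ hmem
    have hc0 : c ≠ 0 := fun h0 => mul_ne_zero (inv_ne_zero hg0) hUf0 (by rw [hc, h0, zero_smul])
    refine Finsupp.ext fun w => ?_
    rw [hval, hD, hc, Algebra.smul_def, w.ord_mul ((map_ne_zero (algebraMap Ω E)).mpr hc0) hf0,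
      ord_algebraMap, zero_add]
  -- the orbit of `D` is finite
  have hDfin : (Set.range fun σ : Ω ≃ₐ[K] Ω => constAut F E σ • D).Finite := by
    choose! s hs using fun (y : Pic0 Ω E)
      (hy : y ∈ Set.range fun σ : Ω ≃ₐ[K] Ω => constAut F E σ • Pic0.mk D₀) => hy
    refine (h.image fun y => constAut F E (s y) • D).subset ?_
    rintro _ ⟨σ, rfl⟩
    refine ⟨_, ⟨σ, rfl⟩, ?_⟩
    set τ := s (constAut F E σ • Pic0.mk D₀)
    have hτ : constAut F E τ • Pic0.mk D₀ = constAut F E σ • Pic0.mk D₀ := hs _ ⟨σ, rfl⟩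
    have h1 := huniq (σ⁻¹ * τ) (by
      rw [map_mul, mul_smul, hτ, ← mul_smul, ← map_mul, inv_mul_cancel, map_one, one_smul])
    have h2 := congrArg (constAut F E σ • ·) h1
    simp only [← mul_smul, ← map_mul, mul_inv_cancel_left] at h2
    exact h2
  -- hence the places of `D` come from `F`
  have hplace : ∀ w ∈ D.support, ∃ v : Place K F, w = placeExt Ω E v := by
    intro w hw
    refine exists_eq_placeExt_of_finite_orbit ?_
    refine (hDfin.biUnion fun P _ => P.support.finite_toSet).subset ?_
    rintro _ ⟨σ, rfl⟩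
    refine Set.mem_biUnion (x := constAut F E σ • D) ⟨σ, rfl⟩ ?_
    rw [Finset.mem_coe, Finsupp.mem_support_iff, SemilinearAut.divisor_smul_apply_smul]
    exact Finsupp.mem_support_iff.mp hw
  let D₁ : Divisor K F := Finsupp.comapDomain (placeExt Ω E) D placeExt_injective.injOn
  have hD₁ : divExt Ω E D₁ = D :=
    Finsupp.mapDomain_comapDomain _ placeExt_injective D fun w hw => by
      obtain ⟨v, rfl⟩ := hplace w hw
      exact ⟨v, rfl⟩
  have hdeg : Divisor.degree (D₁ - A) = 0 := by
    rw [map_sub, ← degree_divExt (Ω := Ω) (E := E) D₁, hD₁, hDdeg, map_add,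
      Divisor.mem_degZero.mp D₀.2, degree_divExt, zero_add, sub_self]
  refine ⟨Pic0.mk ⟨D₁ - A, hdeg⟩, ?_⟩
  rw [picExt_mk, pic0_mk_eq_iff, coe_degZeroExt]
  refine ⟨f⁻¹, inv_ne_zero hf0, fun w => ?_⟩
  rw [map_sub, hD₁, Finsupp.sub_apply, Finsupp.sub_apply, hD, Finsupp.add_apply, w.ord_inv]
  omega

/-- Rigidity of torsion: a finite torsion group is already defined over `K`. -/
theorem mem_range_picExt_of_mem_torsion [Nonempty (Place K F)] {m : ℕ}
    [Finite (Pic0.torsion Ω E m)] {x : Pic0 Ω E} (hx : x ∈ Pic0.torsion Ω E m) :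
    ∃ y ∈ Pic0.torsion K F m, picExt Ω E y = x := by
  have hfin : ((Pic0.torsion Ω E m : AddSubgroup (Pic0 Ω E)) : Set (Pic0 Ω E)).Finite :=
    Set.toFinite _
  obtain ⟨y, rfl⟩ := mem_range_picExt_of_finite_orbit (K := K) (F := F) (hfin.subset (by
    rintro _ ⟨σ, rfl⟩
    exact SemilinearAut.smul_mem_torsion _ hx))
  refine ⟨y, ?_, rfl⟩
  rw [Pic0.mem_torsion] at hx ⊢
  exact picExt_injective (Ω := Ω) (E := E) (by rw [map_zsmul, hx, map_zero])

variable (K F Ω E) in
/-- `picExt` restricted to torsion. -/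
def picExtTorsionHom (m : ℕ) : Pic0.torsion K F m →+ Pic0.torsion Ω E m :=
  ((picExt Ω E).comp (Pic0.torsion K F m).subtype).codRestrict _ fun y => by
    rw [Pic0.mem_torsion, AddMonoidHom.comp_apply, ← map_zsmul,
      AddSubgroup.subtype_apply, Pic0.mem_torsion.mp y.2, map_zero]

theorem picExtTorsionHom_bijective [Nonempty (Place K F)] (m : ℕ)
    [Finite (Pic0.torsion Ω E m)] : Function.Bijective (picExtTorsionHom K F Ω E m) := by
  constructor
  · intro a b h
    exact Subtype.ext (picExt_injective (congrArg Subtype.val h))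
  · rintro ⟨x, hx⟩
    obtain ⟨y, hy, hxy⟩ := mem_range_picExt_of_mem_torsion (K := K) (F := F) hx
    exact ⟨⟨y, hy⟩, Subtype.ext hxy⟩

variable (K F Ω E) in
/-- The isomorphism on torsion. -/
def picExtTorsionEquiv [Nonempty (Place K F)] (m : ℕ) [Finite (Pic0.torsion Ω E m)] :
    Pic0.torsion K F m ≃+ Pic0.torsion Ω E m :=
  AddEquiv.ofBijective _ (picExtTorsionHom_bijective m)

theorem coe_picExtTorsionEquiv [Nonempty (Place K F)] (m : ℕ) [Finite (Pic0.torsion Ω E m)]
    (y : Pic0.torsion K F m) :
    ((picExtTorsionEquiv K F Ω E m y : Pic0.torsion Ω E m) : Pic0 Ω E) =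
      picExt Ω E (y : Pic0 K F) := rfl

theorem natCard_torsion_eq [Nonempty (Place K F)] (m : ℕ) [Finite (Pic0.torsion Ω E m)] :
    Nat.card (Pic0.torsion K F m) = Nat.card (Pic0.torsion Ω E m) :=
  Nat.card_congr (picExtTorsionEquiv K F Ω E m).toEquiv

theorem finite_torsion_of_constExt (m : ℕ) [Finite (Pic0.torsion Ω E m)] :
    Finite (Pic0.torsion K F m) :=
  Finite.of_injective (picExtTorsionHom K F Ω E m) fun _ _ h =>
    Subtype.ext (picExt_injective (congrArg Subtype.val h))

end Fermat.Agent.Curve
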