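/-
Constant field extension: the genus is unchanged.
-/
import Fermat.Agent.Curve.ConstExtRigid
import Fermat.Agent.Curve.RiemannRochDuality

set_option autoImplicit false

noncomputable section

namespace Fermat.Agent.Curve

open AlgebraicCurve

universe uK uF uΩ uE

variable {K : Type uK} {F : Type uF} {Ω : Type uΩ} {E : Type uE}
  [Field K] [Field F] [Field Ω] [Field E]
  [Algebra K F] [Algebra K Ω] [Algebra K E] [Algebra F E] [Algebra Ω E]
  [IsScalarTower K F E] [IsScalarTower K Ω E]

/-- The genus does not change under extension of the algebraically closed constant field. -/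
theorem genusFF_eq [IsConstExt K F Ω E] [IsAlgClosed K] [IsAlgClosed Ω]
    [IsFunctionFieldOne K F] : genusFF Ω E = genusFF K F := by
  haveI : IsFunctionFieldOne Ω E :=
    IsConstExt.isFunctionFieldOne (K := K) (F := F) ‹IsFunctionFieldOne K F›
  haveI : Nonempty (Place K F) := nonempty_place_of_isFunctionFieldOne
  obtain ⟨v⟩ := ‹Nonempty (Place K F)›
  set D : Divisor K F := Finsupp.single v (2 * (genusFF K F : ℤ) + 2 * (genusFF Ω E : ℤ))
    with hD
  have hdeg : Divisor.degree D = 2 * (genusFF K F : ℤ) + 2 * (genusFF Ω E : ℤ) := by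
    rw [hD, Divisor.degree_single, IsCurveOver.deg_eq_one_of_isAlgClosed]
    simp
  have h1 := ellDim_eq_of_degree_ge (D := D) (by omega)
  have h2 := ellDim_eq_of_degree_ge (D := divExt Ω E D) (by rw [degree_divExt]; omega)
  rw [degree_divExt] at h2
  have h3 : ellDim (divExt Ω E D) = ellDim D := finrank_riemannRochSpace_divExt D
  omega

end Fermat.Agent.Curve
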