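/-
Common setup for the good reduction of a function field.
`A` is a valuation subring of the constant field `K`, `F` a function field over `K`,
`k`, `Fb` the special constant field and the special function field.
-/
import Fermat.Prelude.Def_AlgebraicCurve_IsCurveOver
import Fermat.Prelude.Def_AlgebraicCurve_Repartitions
import Mathlib.FieldTheory.IntermediateField.Adjoin.Basic
import Mathlib.LinearAlgebra.Dimension.Finrank

set_option autoImplicit false

namespace Fermat.Agent.Curve

open AlgebraicCurve IntermediateField

universe uK uF uk uFb

/-- Good reduction of the function field `F/K` along the valuation subring `A` of `K`, with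
special fibre the function field `Fb/k`: a "Gauss" valuation subring `V` of `F` whose residue
field is `Fb`, with no loss of degree and no drop of genus. -/
structure GoodReduction {K : Type uK} [Field K] (A : ValuationSubring K)
    (F : Type uF) [Field F] [Algebra K F]
    (k : Type uk) [Field k] (Fb : Type uFb) [Field Fb] [Algebra k Fb] where
  /-- the reduction of constants -/
  π : A →+* k
  π_surjective : Function.Surjective π
  /-- the valuation subring of `F` -/
  V : ValuationSubring F
  mem_V_iff : ∀ a : K, algebraMap K F a ∈ V ↔ a ∈ A
  /-- the reduction of functions -/
  φ : V →+* Fb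
  φ_surjective : Function.Surjective φ
  φ_algebraMap : ∀ a : A, φ ⟨algebraMap K F a, (mem_V_iff a).2 a.2⟩ = algebraMap k Fb (π a)
  /-- every non-zero function can be scaled by a constant to have non-zero reduction -/
  exists_scale : ∀ f : F, f ≠ 0 → ∃ c : K, ∃ h : c • f ∈ V, φ ⟨c • f, h⟩ ≠ 0
  /-- a function whose degree is preserved by reduction -/
  x : V
  x_transcendental : Transcendental k (φ x)
  degree_eq : Module.finrank K⟮(x : F)⟯ F = Module.finrank k⟮φ x⟯ Fb
  degree_pos : 0 < Module.finrank k⟮φ x⟯ Fb
  genus_eq : genusFF k Fb = genusFF K F

end Fermat.Agent.Curve
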