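/-
Reduction of finite dimensional spaces of functions along a `GoodReduction`.
-/
import Fermat.Agent.Curve.Setup
import Mathlib.FieldTheory.IsAlgClosed.Basic
import Mathlib.FieldTheory.IntermediateField.Adjoin.Algebra
import Mathlib.RingTheory.Valuation.ValuationSubring
import Mathlib.RingTheory.Valuation.Integral
import Mathlib.RingTheory.Valuation.LocalSubring
import Mathlib.Algebra.Polynomial.Lifts
import Mathlib.Algebra.Polynomial.Basis
import Mathlib.RingTheory.AlgebraTower
import Mathlib.RingTheory.Algebraic.Basic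
import Mathlib.RingTheory.Localization.Integer
import Mathlib.RingTheory.Localization.FractionRing

set_option autoImplicit false

namespace Fermat.Agent.Curve.GoodReduction

open AlgebraicCurve IntermediateField
open scoped IntermediateField.algebraAdjoinAdjoin

universe uK uF uk uFb

variable {K : Type uK} [Field K] {A : ValuationSubring K}
  {F : Type uF} [Field F] [Algebra K F]
  {k : Type uk} [Field k] {Fb : Type uFb} [Field Fb] [Algebra k Fb]
  (G : GoodReduction A F k Fb)

include G in
/-- the residue field of an algebraically closed field is algebraically closed -/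
theorem isAlgClosed_residue [IsAlgClosed K] : IsAlgClosed k := by
  refine IsAlgClosed.of_exists_root _ fun p hp hirr => ?_
  have hlift : p ∈ Polynomial.lifts G.π := by
    rw [Polynomial.lifts_iff_coeff_lifts]
    exact fun n => G.π_surjective _
  obtain ⟨q, hq, hdeg, hmon⟩ := Polynomial.lifts_and_degree_eq_and_monic hlift hp
  have hd : (q.map (algebraMap A K)).degree ≠ 0 := by
    rw [hmon.degree_map, hdeg]
    exact (Polynomial.degree_pos_of_irreducible hirr).ne'
  obtain ⟨z, hz⟩ := IsAlgClosed.exists_root _ hd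
  have hint : IsIntegral A z := ⟨q, hmon, by
    rwa [Polynomial.IsRoot.def, Polynomial.eval_map] at hz⟩
  obtain ⟨a, ha⟩ := IsIntegrallyClosed.isIntegral_iff.1 hint
  refine ⟨G.π a, ?_⟩
  rw [← hq, Polynomial.eval_map]
  · have hqa : Polynomial.eval₂ (RingHom.id A) a q = 0 := by
      apply Subtype.coe_injective
      have := hz
      rw [Polynomial.IsRoot.def, Polynomial.eval_map, ← ha,
        Polynomial.eval₂_at_apply] at this
      simpa using this
    have h := congrArg G.π hqa
    rw [map_zero, Polynomial.hom_eval₂, RingHom.comp_id] at h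
    exact h

/-- the kernel of the reduction of constants is the maximal ideal -/
theorem π_eq_zero_iff (a : A) : G.π a = 0 ↔ ¬ IsUnit a := by
  haveI := RingHom.ker_isMaximal_of_surjective G.π G.π_surjective
  rw [← RingHom.mem_ker, IsLocalRing.eq_maximalIdeal (I := RingHom.ker G.π) inferInstance,
    IsLocalRing.mem_maximalIdeal, mem_nonunits_iff]

/-- the kernel of the reduction of functions is the maximal ideal -/
theorem φ_eq_zero_iff (f : G.V) : G.φ f = 0 ↔ ¬ IsUnit f := by
  haveI := RingHom.ker_isMaximal_of_surjective G.φ G.φ_surjective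
  rw [← RingHom.mem_ker, IsLocalRing.eq_maximalIdeal (I := RingHom.ker G.φ) inferInstance,
    IsLocalRing.mem_maximalIdeal, mem_nonunits_iff]

theorem inv_mem_of_φ_ne_zero {f : G.V} (hf : G.φ f ≠ 0) : ((f : F))⁻¹ ∈ G.V := by
  obtain ⟨u, hu⟩ : IsUnit f := not_not.1 (mt (G.φ_eq_zero_iff f).2 hf)
  have h1 : ((u : G.V) : F) * ((↑u⁻¹ : G.V) : F) = 1 := by
    rw [← MulMemClass.coe_mul, ← Units.val_mul, mul_inv_cancel]
    rfl
  rw [← hu, inv_eq_of_mul_eq_one_right h1]
  exact (↑u⁻¹ : G.V).2

theorem φ_inv {f : G.V} (hf : G.φ f ≠ 0) :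
    G.φ ⟨((f : F))⁻¹, G.inv_mem_of_φ_ne_zero hf⟩ = (G.φ f)⁻¹ := by
  refine eq_inv_of_mul_eq_one_left ?_
  rw [← map_mul, ← map_one G.φ]
  congr 1
  apply Subtype.ext
  have : (f : F) ≠ 0 := fun h => hf (by rw [show f = 0 from Subtype.ext h, map_zero])
  simp [this]

theorem coe_ne_zero_of_φ_ne_zero {f : G.V} (hf : G.φ f ≠ 0) : (f : F) ≠ 0 :=
  fun h => hf (by rw [show f = 0 from Subtype.ext h, map_zero])

theorem algebraMap_mem (a : A) : algebraMap K F a ∈ G.V :=
  (G.mem_V_iff a).2 a.2

theorem smul_mem (a : A) {f : F} (hf : f ∈ G.V) : (a : K) • f ∈ G.V := by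
  rw [Algebra.smul_def]
  exact mul_mem (G.algebraMap_mem a) hf

theorem φ_smul (a : A) (f : G.V) :
    G.φ ⟨(a : K) • (f : F), G.smul_mem a f.2⟩ = G.π a • G.φ f := by
  rw [Algebra.smul_def (G.π a), ← G.φ_algebraMap a, ← map_mul]
  congr 1
  apply Subtype.ext
  simp [Algebra.smul_def]

omit [Field k] [Field Fb] [Algebra k Fb] [Algebra K F] [Field F] in
/-- scaling a non-zero finite family of constants into `A` with one entry equal to one -/
theorem exists_scale_family {I : Type*} (s : Finset I) (c : I → K) {i : I} (hi : i ∈ s)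
    (hci : c i ≠ 0) :
    ∃ j ∈ s, c j ≠ 0 ∧ ∀ l ∈ s, (c j)⁻¹ * c l ∈ A := by
  obtain ⟨j, hj, hmax⟩ := s.exists_max_image (fun l => A.valuation (c l)) ⟨i, hi⟩
  have hpos : A.valuation (c j) ≠ 0 := by
    intro h0
    have := hmax i hi
    rw [h0] at this
    exact hci ((map_eq_zero _).1 (le_antisymm this zero_le))
  have hj0 : c j ≠ 0 := fun h => hpos (by rw [h, map_zero])
  refine ⟨j, hj, hj0, fun l hl => ?_⟩
  rw [← A.valuation_le_one_iff, map_mul, map_inv₀]
  calc (A.valuation (c j))⁻¹ * A.valuation (c l)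
      ≤ (A.valuation (c j))⁻¹ * A.valuation (c j) := mul_le_mul_right (hmax l hl) _
    _ = 1 := inv_mul_cancel₀ hpos

theorem φ_sum_smul {I : Type*} (s : Finset I) (c : I → A) (e : I → G.V)
    (h : ∑ i ∈ s, ((c i : A) : K) • ((e i : G.V) : F) ∈ G.V) :
    G.φ ⟨∑ i ∈ s, ((c i : A) : K) • ((e i : G.V) : F), h⟩ = ∑ i ∈ s, G.π (c i) • G.φ (e i) := by
  have : (⟨∑ i ∈ s, ((c i : A) : K) • ((e i : G.V) : F), h⟩ : G.V) =
      ∑ i ∈ s, ⟨((c i : A) : K) • ((e i : G.V) : F), G.smul_mem (c i) (e i).2⟩ := by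
    apply Subtype.ext
    simp
  rw [this, map_sum]
  exact Finset.sum_congr rfl fun i _ => G.φ_smul _ _

/-- lifts of independent reductions have integral coordinates -/
theorem coeff_mem_of_sum_mem {I : Type*} {e : I → G.V}
    (he : LinearIndependent k (fun i => G.φ (e i))) (s : Finset I) (c : I → K)
    (h : ∑ i ∈ s, c i • ((e i : G.V) : F) ∈ G.V) : ∀ i ∈ s, c i ∈ A := by
  intro i hi
  by_contra hci
  have hci0 : c i ≠ 0 := fun h0 => hci (h0 ▸ A.zero_mem)
  obtain ⟨j, hj, hj0, hall⟩ := exists_scale_family (A := A) s c hi hci0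
  have hjA : c j ∉ A := fun hjA => hci (by
    have := mul_mem hjA (hall i hi)
    rwa [← mul_assoc, mul_inv_cancel₀ hj0, one_mul] at this)
  have hjinv : (c j)⁻¹ ∈ A := (A.mem_or_inv_mem (c j)).resolve_left hjA
  have hsmall : G.π ⟨(c j)⁻¹, hjinv⟩ = 0 := by
    rw [G.π_eq_zero_iff]
    rintro ⟨u, hu⟩
    apply hjA
    have h1 : ((u : A) : K) * ((↑u⁻¹ : A) : K) = 1 := by
      rw [← MulMemClass.coe_mul, ← Units.val_mul, mul_inv_cancel]
      rfl
    rw [hu] at h1
    have : ((↑u⁻¹ : A) : K) = c j := by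
      have h1' : (c j)⁻¹ * ((↑u⁻¹ : A) : K) = 1 := h1
      rw [eq_inv_of_mul_eq_one_right h1', inv_inv]
    exact this ▸ (↑u⁻¹ : A).2
  classical
  let c' : I → A := fun l => if hl : l ∈ s then ⟨(c j)⁻¹ * c l, hall l hl⟩ else 0
  have hc' : ∀ l ∈ s, ((c' l : A) : K) = (c j)⁻¹ * c l := fun l hl => by simp [c', hl]
  have heq : ∑ l ∈ s, ((c' l : A) : K) • ((e l : G.V) : F) =
      (c j)⁻¹ • ∑ l ∈ s, c l • ((e l : G.V) : F) := by
    rw [Finset.smul_sum]
    exact Finset.sum_congr rfl fun l hl => by rw [hc' l hl, mul_smul]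
  have hmem : ∑ l ∈ s, ((c' l : A) : K) • ((e l : G.V) : F) ∈ G.V := by
    rw [heq]
    exact G.smul_mem ⟨_, hjinv⟩ h
  have hzero : ∑ l ∈ s, G.π (c' l) • G.φ (e l) = 0 := by
    rw [← G.φ_sum_smul s c' e hmem]
    have : (⟨_, hmem⟩ : G.V) =
        ⟨((⟨(c j)⁻¹, hjinv⟩ : A) : K) • ∑ l ∈ s, c l • ((e l : G.V) : F),
          G.smul_mem ⟨_, hjinv⟩ h⟩ := Subtype.ext heq
    rw [this]
    exact (G.φ_smul ⟨_, hjinv⟩ ⟨_, h⟩).trans (by rw [hsmall, zero_smul])
  have hj1 : G.π (c' j) = 0 := linearIndependent_iff'.1 he s _ hzero j hj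
  have hj2 : c' j = 1 := Subtype.ext (by rw [hc' j hj, inv_mul_cancel₀ hj0]; rfl)
  rw [hj2, map_one] at hj1
  exact one_ne_zero hj1

/-- lifts of independent reductions are independent -/
theorem linearIndependent_lift {I : Type*} {e : I → G.V}
    (he : LinearIndependent k (fun i => G.φ (e i))) :
    LinearIndependent K (fun i => ((e i : G.V) : F)) := by
  classical
  rw [linearIndependent_iff']
  intro s c hsum i hi
  by_contra hci
  obtain ⟨j, hj, hj0, hall⟩ := exists_scale_family (A := A) s c hi hci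
  let c' : I → A := fun l => if hl : l ∈ s then ⟨(c j)⁻¹ * c l, hall l hl⟩ else 0
  have hc' : ∀ l ∈ s, ((c' l : A) : K) = (c j)⁻¹ * c l := fun l hl => by simp [c', hl]
  have heq : ∑ l ∈ s, ((c' l : A) : K) • ((e l : G.V) : F) = 0 := by
    have : ∑ l ∈ s, ((c' l : A) : K) • ((e l : G.V) : F) =
        (c j)⁻¹ • ∑ l ∈ s, c l • ((e l : G.V) : F) := by
      rw [Finset.smul_sum]
      exact Finset.sum_congr rfl fun l hl => by rw [hc' l hl, mul_smul]
    rw [this, hsum, smul_zero]
  have hmem : ∑ l ∈ s, ((c' l : A) : K) • ((e l : G.V) : F) ∈ G.V := by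
    rw [heq]; exact zero_mem _
  have hzero : ∑ l ∈ s, G.π (c' l) • G.φ (e l) = 0 := by
    rw [← G.φ_sum_smul s c' e hmem, ← map_zero G.φ]
    exact congrArg _ (Subtype.ext heq)
  have hj1 : G.π (c' j) = 0 := linearIndependent_iff'.1 he s _ hzero j hj
  have hj2 : c' j = 1 := Subtype.ext (by rw [hc' j hj, inv_mul_cancel₀ hj0]; rfl)
  rw [hj2, map_one] at hj1
  exact one_ne_zero hj1

theorem linearIndependent_pow {f : Fb} (hf : Transcendental k f) :
    LinearIndependent k (fun i : ℕ => f ^ i) := by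
  have h := (Polynomial.basisMonomials k).linearIndependent.map'
    (Polynomial.aeval (R := k) f).toLinearMap
    (LinearMap.ker_eq_bot.2 (transcendental_iff_injective.1 hf))
  have hfun : (fun i : ℕ => f ^ i) =
      ⇑(Polynomial.aeval (R := k) f).toLinearMap ∘ ⇑(Polynomial.basisMonomials k) := by
    funext i
    simp
  rw [hfun]
  exact h

theorem linearIndependent_pow_mul {f : Fb} (hf : Transcendental k f) {I : Type*} {b : I → Fb}
    (hb : LinearIndependent k⟮f⟯ b) :
    LinearIndependent k (fun p : ℕ × I => f ^ p.1 * b p.2) := by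
  have hp : LinearIndependent k (fun i : ℕ => (AdjoinSimple.gen k f) ^ i) := by
    apply LinearIndependent.of_comp k⟮f⟯.val.toLinearMap
    exact linearIndependent_pow hf
  exact linearIndependent_smul hp hb

/-- the special fibre of a space of functions -/
def reduceSubspace (W : Submodule K F) : Submodule k Fb where
  carrier := {y | ∃ f : G.V, (f : F) ∈ W ∧ G.φ f = y}
  zero_mem' := ⟨0, W.zero_mem, map_zero _⟩
  add_mem' := by
    rintro _ _ ⟨f, hf, rfl⟩ ⟨g, hg, rfl⟩
    exact ⟨f + g, W.add_mem hf hg, map_add _ _ _⟩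
  smul_mem' := by
    rintro c _ ⟨f, hf, rfl⟩
    obtain ⟨a, rfl⟩ := G.π_surjective c
    exact ⟨⟨(a : K) • (f : F), G.smul_mem a f.2⟩, W.smul_mem _ hf, G.φ_smul a f⟩

theorem mem_reduceSubspace {W : Submodule K F} {y : Fb} :
    y ∈ G.reduceSubspace W ↔ ∃ f : G.V, (f : F) ∈ W ∧ G.φ f = y :=
  Iff.rfl

theorem reduceSubspace_mono {W W' : Submodule K F} (h : W ≤ W') :
    G.reduceSubspace W ≤ G.reduceSubspace W' := by
  rintro y ⟨f, hf, rfl⟩
  exact ⟨f, h hf, rfl⟩

/-- lifts of a family independent over `k(φ f)` are independent over `K(f)` -/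
theorem linearIndependent_adjoin_lift {I : Type*} (f : G.V) (hf : Transcendental k (G.φ f))
    {B : I → G.V} (hB : LinearIndependent k⟮G.φ f⟯ (fun i => G.φ (B i))) :
    LinearIndependent K (fun p : ℕ × I => (f : F) ^ p.1 * ((B p.2 : G.V) : F)) ∧
      LinearIndependent K⟮(f : F)⟯ (fun i => ((B i : G.V) : F)) := by
  have h1 : LinearIndependent k (fun p : ℕ × I => G.φ (f ^ p.1 * B p.2)) := by
    simpa only [map_mul, map_pow] using linearIndependent_pow_mul hf hB
  have h2 : LinearIndependent K (fun p : ℕ × I => (f : F) ^ p.1 * ((B p.2 : G.V) : F)) := by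
    have := G.linearIndependent_lift h1
    simpa using this
  refine ⟨h2, (LinearIndependent.iff_fractionRing (Algebra.adjoin K {(f : F)}) K⟮(f : F)⟯).1 ?_⟩
  classical
  rw [linearIndependent_iff']
  intro s c hc i hi
  have hr : ∀ r : Algebra.adjoin K {(f : F)}, ∃ q : Polynomial K, Polynomial.aeval (f : F) q = r :=
    fun r => by
      have : (r : F) ∈ (Polynomial.aeval (R := K) (f : F)).range := by
        rw [← Algebra.adjoin_singleton_eq_range_aeval]
        exact r.2
      exact this
  choose q hq using hr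
  let N := s.sup (fun l => (q (c l)).natDegree) + 1
  have hsum : ∑ p ∈ Finset.range N ×ˢ s,
      (q (c p.2)).coeff p.1 • ((f : F) ^ p.1 * ((B p.2 : G.V) : F)) = 0 := by
    rw [Finset.sum_product_right, ← hc]
    refine Finset.sum_congr rfl fun l hl => ?_
    rw [Algebra.smul_def]
    show _ = (c l : F) * _
    rw [← hq (c l), Polynomial.aeval_eq_sum_range' (n := N)
      (Nat.lt_succ_of_le (Finset.le_sup (f := fun l => (q (c l)).natDegree) hl)), Finset.sum_mul]
    exact Finset.sum_congr rfl fun m _ => by rw [smul_mul_assoc]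
  have hzero := linearIndependent_iff'.1 h2 _ (fun p => (q (c p.2)).coeff p.1) hsum
  have hq0 : q (c i) = 0 := by
    ext m
    rw [Polynomial.coeff_zero]
    by_cases hm : m < N
    · exact hzero (m, i) (Finset.mem_product.2 ⟨Finset.mem_range.2 hm, hi⟩)
    · exact Polynomial.coeff_eq_zero_of_natDegree_lt (lt_of_lt_of_le
        (Nat.lt_succ_of_le (Finset.le_sup (f := fun l => (q (c l)).natDegree) hi))
        (not_lt.1 hm))
  apply Subtype.ext
  rw [← hq (c i), hq0, map_zero]
  rfl

/-- subspaces of a space with an orthonormal family have orthonormal bases -/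
theorem exists_family_of_le_span {I : Type*} {E : I → G.V}
    (hE : LinearIndependent k (fun i => G.φ (E i))) :
    ∀ (d : ℕ) (W : Submodule K F), FiniteDimensional K W → Module.finrank K W = d →
      W ≤ Submodule.span K (Set.range fun i => ((E i : G.V) : F)) →
      ∃ e : Fin d → G.V, (∀ i, ((e i : G.V) : F) ∈ W) ∧
        LinearIndependent k (fun i => G.φ (e i)) := by
  classical
  have hK := G.linearIndependent_lift hE
  intro d
  induction d with
  | zero => exact fun W _ _ _ => ⟨Fin.elim0, fun i => i.elim0, linearIndependent_empty_type⟩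
  | succ d ih =>
    intro W _ hd hW
    have hWne : W ≠ ⊥ := fun h => by rw [h, finrank_bot] at hd; omega
    obtain ⟨w₀, hw₀, hw₀0⟩ := W.exists_mem_ne_zero_of_ne_bot hWne
    obtain ⟨a, ha, haφ⟩ := G.exists_scale w₀ hw₀0
    let w : G.V := ⟨a • w₀, ha⟩
    have hwW : (w : F) ∈ W := W.smul_mem a hw₀
    have key : ∀ (f : G.V) (hf : (f : F) ∈ W), ∃ c : I → A,
        (∀ l, ((c l : A) : K) = hK.repr ⟨(f : F), hW hf⟩ l) ∧
        G.φ f = ∑ l ∈ (hK.repr ⟨(f : F), hW hf⟩).support, G.π (c l) • G.φ (E l) := by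
      intro f hf
      set L := hK.repr ⟨(f : F), hW hf⟩ with hL
      have hrep : ∑ l ∈ L.support, L l • ((E l : G.V) : F) = (f : F) := by
        have := hK.linearCombination_repr ⟨(f : F), hW hf⟩
        rwa [Finsupp.linearCombination_apply, Finsupp.sum] at this
      have hmem : ∀ l, L l ∈ A := by
        intro l
        by_cases hl : l ∈ L.support
        · exact G.coeff_mem_of_sum_mem hE L.support (fun l => L l) (hrep ▸ f.2) l hl
        · rw [Finsupp.notMem_support_iff.1 hl]; exact A.zero_mem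
      refine ⟨fun l => ⟨L l, hmem l⟩, fun l => rfl, ?_⟩
      rw [← G.φ_sum_smul L.support (fun l => ⟨L l, hmem l⟩) E (hrep ▸ f.2)]
      exact congrArg _ (Subtype.ext hrep.symm)
    obtain ⟨c, hc, hφw⟩ := key w hwW
    obtain ⟨i, his, hi⟩ : ∃ i ∈ (hK.repr ⟨(w : F), hW hwW⟩).support, G.π (c i) ≠ 0 := by
      by_contra hall
      push Not at hall
      apply haφ
      show G.φ w = 0
      rw [hφw]
      exact Finset.sum_eq_zero fun l hl => by rw [hall l hl, zero_smul]
    let coord : W →ₗ[K] K :=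
      (Finsupp.lapply i).comp (hK.repr.comp (Submodule.inclusion hW))
    have hcoordw : coord ⟨w, hwW⟩ ≠ 0 := by
      show hK.repr ⟨(w : F), hW hwW⟩ i ≠ 0
      exact Finsupp.mem_support_iff.1 his
    have hker : Module.finrank K (LinearMap.ker coord) = d := by
      have h := LinearMap.finrank_range_add_finrank_ker coord
      rw [LinearMap.range_eq_top.2 (LinearMap.surjective (fun h => hcoordw (by rw [h]; rfl))),
        finrank_top, Module.finrank_self, hd] at h
      omega
    let W₀ : Submodule K F := (LinearMap.ker coord).map W.subtype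
    have hW₀d : Module.finrank K W₀ = d := by
      rw [← hker]
      exact ((Submodule.equivMapOfInjective _ W.injective_subtype _).finrank_eq).symm
    have hW₀le : W₀ ≤ W := Submodule.map_subtype_le W _
    obtain ⟨e, heW, he⟩ := ih W₀ inferInstance hW₀d (hW₀le.trans hW)
    have heS : ∀ l, G.φ (e l) ∈ Submodule.span k ((fun j => G.φ (E j)) '' {j | j ≠ i}) := by
      intro l
      obtain ⟨c', hc', hφ'⟩ := key (e l) (hW₀le (heW l))
      rw [hφ']
      refine Submodule.sum_mem _ fun j _ => ?_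
      by_cases hji : j = i
      · subst hji
        obtain ⟨⟨v, hv⟩, hvker, hveq⟩ := Submodule.mem_map.1 (heW l)
        have h0 : coord ⟨((e l : G.V) : F), hW₀le (heW l)⟩ = 0 := by
          have : (⟨((e l : G.V) : F), hW₀le (heW l)⟩ : W) = ⟨v, hv⟩ := Subtype.ext hveq.symm
          rw [this]; exact hvker
        have : c' j = 0 := Subtype.ext (by rw [hc' j]; exact h0)
        rw [this, map_zero, zero_smul]
        exact zero_mem _
      · exact Submodule.smul_mem _ _ (Submodule.subset_span ⟨j, hji, rfl⟩)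
    refine ⟨Fin.cons w e, ?_, ?_⟩
    · intro l
      refine Fin.cases ?_ (fun m => ?_) l
      · simpa using hwW
      · simpa using hW₀le (heW m)
    have hcons : (fun l => G.φ ((Fin.cons w e : Fin (d + 1) → G.V) l)) =
        Fin.cons (G.φ w) (fun m => G.φ (e m)) := by
      funext l
      exact Fin.cases (by simp) (fun m => by simp) l
    rw [hcons, linearIndependent_finCons]
    refine ⟨he, fun hmem => hE.notMem_span_image (s := {j | j ≠ i}) (x := i) (by simp) ?_⟩
    have hle : Submodule.span k (Set.range fun m => G.φ (e m)) ≤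
        Submodule.span k ((fun j => G.φ (E j)) '' {j | j ≠ i}) :=
      Submodule.span_le.2 (by rintro _ ⟨m, rfl⟩; exact heS m)
    have h1 := hle hmem
    rw [hφw, ← Finset.add_sum_erase _ _ his] at h1
    have hrest : ∑ j ∈ (hK.repr ⟨(w : F), hW hwW⟩).support.erase i, G.π (c j) • G.φ (E j) ∈
        Submodule.span k ((fun j => G.φ (E j)) '' {j | j ≠ i}) :=
      Submodule.sum_mem _ fun j hj => Submodule.smul_mem _ _
        (Submodule.subset_span ⟨j, Finset.ne_of_mem_erase hj, rfl⟩)
    have h2 := Submodule.smul_mem _ (G.π (c i))⁻¹ ((Submodule.add_mem_iff_left _ hrest).1 h1)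
    rwa [smul_smul, inv_mul_cancel₀ hi, one_smul] at h2

/-- a finite dimensional space of functions lies in a space with an orthonormal family -/
theorem exists_orthonormal_span_ge (W : Submodule K F) [FiniteDimensional K W] :
    ∃ E : ℕ × Fin (Module.finrank k⟮G.φ G.x⟯ Fb) → G.V,
      LinearIndependent k (fun i => G.φ (E i)) ∧
      W ≤ Submodule.span K (Set.range fun i => ((E i : G.V) : F)) := by
  classical
  haveI : Module.Finite k⟮G.φ G.x⟯ Fb := Module.finite_of_finrank_pos G.degree_pos
  haveI : Module.Finite K⟮(G.x : F)⟯ F :=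
    Module.finite_of_finrank_pos (G.degree_eq ▸ G.degree_pos)
  let b := Module.finBasis k⟮G.φ G.x⟯ Fb
  choose Y hY using fun j => G.φ_surjective (b j)
  have hYb : LinearIndependent k⟮G.φ G.x⟯ (fun j => G.φ (Y j)) := by
    simp only [hY]; exact b.linearIndependent
  obtain ⟨h2, h3⟩ := G.linearIndependent_adjoin_lift G.x G.x_transcendental hYb
  have hspan : Submodule.span K⟮(G.x : F)⟯ (Set.range fun j => ((Y j : G.V) : F)) = ⊤ :=
    h3.span_eq_top_of_card_eq_finrank' (by rw [Fintype.card_fin, G.degree_eq])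
  let R := Algebra.adjoin K {(G.x : F)}
  obtain ⟨T, hT⟩ := (Submodule.fg_iff_finiteDimensional W).2 ‹_›
  have hrep : ∀ t : F, ∃ c : Fin (Module.finrank k⟮G.φ G.x⟯ Fb) → K⟮(G.x : F)⟯,
      ∑ j, c j • ((Y j : G.V) : F) = t := fun t =>
    (Submodule.mem_span_range_iff_exists_fun _).1 (hspan ▸ Submodule.mem_top)
  choose c hc using hrep
  obtain ⟨g, hg⟩ := IsLocalization.exist_integer_multiples (nonZeroDivisors R)
    (T ×ˢ (Finset.univ : Finset (Fin (Module.finrank k⟮G.φ G.x⟯ Fb)))) (fun p => c p.1 p.2)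
  have hg0 : ((g : R) : F) ≠ 0 :=
    fun h => nonZeroDivisors.ne_zero g.2 (Subtype.ext h)
  obtain ⟨a, hu, huφ⟩ := G.exists_scale _ hg0
  let u : G.V := ⟨a • ((g : R) : F), hu⟩
  have hu0 : (u : F) ≠ 0 := G.coe_ne_zero_of_φ_ne_zero huφ
  refine ⟨fun p => ⟨((u : F))⁻¹, G.inv_mem_of_φ_ne_zero huφ⟩ * (G.x ^ p.1 * Y p.2), ?_, ?_⟩
  · have hbase : LinearIndependent k
        (fun p : ℕ × Fin (Module.finrank k⟮G.φ G.x⟯ Fb) => G.φ (G.x ^ p.1 * Y p.2)) := by
      simpa only [map_mul, map_pow] using linearIndependent_pow_mul G.x_transcendental hYb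
    have hne : G.φ ⟨((u : F))⁻¹, G.inv_mem_of_φ_ne_zero huφ⟩ ≠ 0 := by
      rw [G.φ_inv huφ]; exact inv_ne_zero huφ
    have := hbase.map' (LinearMap.mulLeft k (G.φ ⟨((u : F))⁻¹, G.inv_mem_of_φ_ne_zero huφ⟩))
      (LinearMap.ker_eq_bot.2 (mul_right_injective₀ hne))
    simp only [map_mul, map_pow] at this ⊢
    exact this
  · rw [← hT, Submodule.span_le]
    intro t ht
    have hgt : ((g : R) : F) * t ∈ Submodule.span K
        (Set.range fun p : ℕ × Fin (Module.finrank k⟮G.φ G.x⟯ Fb) =>
          (G.x : F) ^ p.1 * ((Y p.2 : G.V) : F)) := by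
      rw [← hc t, Finset.mul_sum]
      refine Submodule.sum_mem _ fun j _ => ?_
      obtain ⟨r, hr⟩ := hg (t, j) (Finset.mem_product.2 ⟨ht, Finset.mem_univ j⟩)
      have hr' : ((r : R) : F) = ((g : R) : F) * ((c t j : K⟮(G.x : F)⟯) : F) := by
        have := congrArg Subtype.val hr
        rw [Algebra.smul_def] at this
        exact this
      rw [Algebra.smul_def, ← mul_assoc]
      show ((g : R) : F) * ((c t j : K⟮(G.x : F)⟯) : F) * _ ∈ _
      rw [← hr']
      have hrmem : (r : F) ∈ (Polynomial.aeval (R := K) (G.x : F)).range := by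
        rw [← Algebra.adjoin_singleton_eq_range_aeval]
        exact r.2
      obtain ⟨q, hq⟩ := hrmem
      rw [← hq]
      show Polynomial.aeval (G.x : F) q * _ ∈ _
      rw [Polynomial.aeval_eq_sum_range, Finset.sum_mul]
      exact Submodule.sum_mem _ fun m _ => by
        rw [smul_mul_assoc]
        exact Submodule.smul_mem _ _ (Submodule.subset_span ⟨(m, j), rfl⟩)
    have ha0 : a ≠ 0 := fun h => hu0 (by simp [u, h])
    have ht' : t = ((u : F))⁻¹ * (a • (((g : R) : F) * t)) := by
      rw [← smul_mul_assoc]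
      show t = ((u : F))⁻¹ * ((u : F) * t)
      rw [inv_mul_cancel_left₀ hu0]
    have hle : Submodule.map (LinearMap.mulLeft K ((u : F))⁻¹) (Submodule.span K
        (Set.range fun p : ℕ × Fin (Module.finrank k⟮G.φ G.x⟯ Fb) =>
          (G.x : F) ^ p.1 * ((Y p.2 : G.V) : F))) ≤ Submodule.span K (Set.range fun p : ℕ × Fin (Module.finrank k⟮G.φ G.x⟯ Fb) =>
        (((⟨((u : F))⁻¹, G.inv_mem_of_φ_ne_zero huφ⟩ * (G.x ^ p.1 * Y p.2) : G.V)) : F)) := by
      rw [Submodule.map_span, ← Set.range_comp]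
      exact le_of_eq (by congr 1)
    rw [ht']
    exact hle ⟨_, Submodule.smul_mem _ a hgt, rfl⟩

/-- the lattice `W ∩ V` has a basis reducing to a basis of the special fibre -/
theorem exists_lattice_basis (W : Submodule K F) [FiniteDimensional K W] :
    ∃ e : Fin (Module.finrank K W) → G.V, (∀ i, ((e i : G.V) : F) ∈ W) ∧
      LinearIndependent k (fun i => G.φ (e i)) ∧
      ∀ f : G.V, (f : F) ∈ W → ∃ c : Fin (Module.finrank K W) → A,
        (f : F) = ∑ i, ((c i : A) : K) • ((e i : G.V) : F) := by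
  obtain ⟨E, hE, hW⟩ := G.exists_orthonormal_span_ge W
  obtain ⟨e, heW, he⟩ := G.exists_family_of_le_span hE _ W inferInstance rfl hW
  refine ⟨e, heW, he, fun f hf => ?_⟩
  have hKe : LinearIndependent K (fun i => ((e i : G.V) : F)) := G.linearIndependent_lift he
  have hspan : Submodule.span K (Set.range fun i => ((e i : G.V) : F)) = W := by
    refine Submodule.eq_of_le_of_finrank_le (Submodule.span_le.2 ?_) ?_
    · rintro _ ⟨i, rfl⟩; exact heW i
    · rw [finrank_span_eq_card hKe, Fintype.card_fin]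
  obtain ⟨c, hc⟩ := (Submodule.mem_span_range_iff_exists_fun K).1 (hspan.symm ▸ hf :
    (f : F) ∈ Submodule.span K (Set.range fun i => ((e i : G.V) : F)))
  have hcA := G.coeff_mem_of_sum_mem he Finset.univ c (hc ▸ f.2)
  exact ⟨fun i => ⟨c i, hcA i (Finset.mem_univ i)⟩, hc.symm⟩

theorem finiteDimensional_reduceSubspace (W : Submodule K F) [FiniteDimensional K W] :
    FiniteDimensional k (G.reduceSubspace W) := by
  obtain ⟨e, heW, he, hspan⟩ := G.exists_lattice_basis W
  have hle : G.reduceSubspace W ≤ Submodule.span k (Set.range fun i => G.φ (e i)) := by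
    rintro _ ⟨f, hf, rfl⟩
    obtain ⟨c, hc⟩ := hspan f hf
    have : f = ⟨∑ i, ((c i : A) : K) • ((e i : G.V) : F), hc ▸ f.2⟩ := Subtype.ext hc
    rw [this, G.φ_sum_smul]
    exact Submodule.sum_mem _ fun i _ =>
      Submodule.smul_mem _ _ (Submodule.subset_span ⟨i, rfl⟩)
  haveI := FiniteDimensional.span_of_finite k (Set.finite_range fun i => G.φ (e i))
  exact Submodule.finiteDimensional_of_le hle

/-- reduction does not lose dimension -/
theorem finrank_reduceSubspace (W : Submodule K F) [FiniteDimensional K W] :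
    Module.finrank k (G.reduceSubspace W) = Module.finrank K W := by
  obtain ⟨e, heW, he, hspan⟩ := G.exists_lattice_basis W
  have heq : G.reduceSubspace W = Submodule.span k (Set.range fun i => G.φ (e i)) := by
    refine le_antisymm ?_ (Submodule.span_le.2 ?_)
    · rintro _ ⟨f, hf, rfl⟩
      obtain ⟨c, hc⟩ := hspan f hf
      have : f = ⟨∑ i, ((c i : A) : K) • ((e i : G.V) : F), hc ▸ f.2⟩ := Subtype.ext hc
      rw [this, G.φ_sum_smul]
      exact Submodule.sum_mem _ fun i _ =>
        Submodule.smul_mem _ _ (Submodule.subset_span ⟨i, rfl⟩)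
    · rintro _ ⟨i, rfl⟩
      exact ⟨e i, heW i, rfl⟩
  rw [heq, finrank_span_eq_card he, Fintype.card_fin]

/-- reduction does not increase the degree of a function -/
theorem finrank_adjoin_reduction_le (f : G.V) (hf : Transcendental k (G.φ f))
    [Module.Finite K⟮(f : F)⟯ F] :
    Module.finrank k⟮G.φ f⟯ Fb ≤ Module.finrank K⟮(f : F)⟯ F := by
  rcases Nat.eq_zero_or_pos (Module.finrank k⟮G.φ f⟯ Fb) with h | h
  · omega
  haveI := Module.finite_of_finrank_pos h
  choose B hB using fun j => G.φ_surjective (Module.finBasis k⟮G.φ f⟯ Fb j)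
  have hBb : LinearIndependent k⟮G.φ f⟯ (fun j => G.φ (B j)) := by
    simp only [hB]; exact Module.Basis.linearIndependent _
  simpa using (G.linearIndependent_adjoin_lift f hf hBb).2.fintype_card_le_finrank

theorem transcendental_of_reduction (f : G.V) (hf : Transcendental k (G.φ f)) :
    Transcendental K (f : F) := by
  have h : LinearIndependent K (fun i : ℕ => ((f ^ i : G.V) : F)) :=
    G.linearIndependent_lift (e := fun i => f ^ i) (by
      simpa only [map_pow] using linearIndependent_pow hf)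
  rw [transcendental_iff]
  intro q hq
  ext m
  rw [Polynomial.coeff_zero]
  by_cases hm : m < q.natDegree + 1
  · refine linearIndependent_iff'.1 h (Finset.range (q.natDegree + 1)) (fun i => q.coeff i) ?_ m
      (Finset.mem_range.2 hm)
    rw [← hq, Polynomial.aeval_eq_sum_range]
    exact Finset.sum_congr rfl fun i _ => by simp
  · exact Polynomial.coeff_eq_zero_of_natDegree_lt (by omega)

end Fermat.Agent.Curve.GoodReduction
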