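/-
The valuation subring of a `GoodReduction` is the only extension of the Gauss valuation of `K(x)`.
-/
import Fermat.Agent.Curve.ReductionLattice
import Mathlib.Algebra.Polynomial.Lifts

set_option autoImplicit false

noncomputable section

namespace Fermat.Agent.Curve

open IntermediateField Polynomial

/-- A finite family, not all zero, can be scaled into a valuation subring with an entry one. -/
theorem exists_scale_div {K : Type*} [Field K] (A : ValuationSubring K) {ι : Type*}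
    (s : Finset ι) (v : ι → K) (h : ∃ i ∈ s, v i ≠ 0) :
    ∃ j ∈ s, v j ≠ 0 ∧ ∀ i ∈ s, v i / v j ∈ A := by
  obtain ⟨i₀, hi₀, hv₀⟩ := h
  obtain ⟨j, hj, hmax⟩ := s.exists_max_image (fun i => A.valuation (v i)) ⟨i₀, hi₀⟩
  have hj0 : v j ≠ 0 := by
    intro h0
    have := hmax i₀ hi₀
    rw [h0, map_zero] at this
    exact hv₀ ((Valuation.zero_iff _).1 (le_antisymm this zero_le'))
  refine ⟨j, hj, hj0, fun i hi => (A.valuation_le_one_iff _).1 ?_⟩
  rw [map_div₀]
  exact div_le_one_of_le₀ (hmax i hi) zero_le'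

/-- Every non-zero polynomial is a constant times an integral polynomial with non-zero
reduction. -/
theorem exists_scale_poly {K : Type*} [Field K] {k : Type*} [Field k] (A : ValuationSubring K)
    (π : A →+* k) {r : K[X]} (hr : r ≠ 0) :
    ∃ (a : K) (r₀ : A[X]), a ≠ 0 ∧ r = C a * r₀.map A.subtype ∧ r₀.map π ≠ 0 := by
  obtain ⟨j, hj, hj0, hmem⟩ := exists_scale_div A r.support r.coeff
    ⟨r.natDegree, natDegree_mem_support_of_nonzero hr,
      mem_support_iff.1 (natDegree_mem_support_of_nonzero hr)⟩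
  have hall : ∀ i, (C (r.coeff j)⁻¹ * r).coeff i ∈ A := by
    intro i
    rw [coeff_C_mul]
    by_cases hi : i ∈ r.support
    · simpa [div_eq_inv_mul] using hmem i hi
    · rw [notMem_support_iff.1 hi, mul_zero]
      exact A.zero_mem
  have hl : C (r.coeff j)⁻¹ * r ∈ Polynomial.lifts A.subtype := by
    rw [lifts_iff_coeff_lifts]
    exact fun i => ⟨⟨_, hall i⟩, rfl⟩
  obtain ⟨r₀, hr₀⟩ := (mem_lifts _).1 hl
  refine ⟨r.coeff j, r₀, hj0, ?_, fun h0 => ?_⟩
  · rw [hr₀, ← mul_assoc, ← C_mul, mul_inv_cancel₀ hj0, C_1, one_mul]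
  · have h1 : r₀.coeff j = 1 := A.subtype_injective <| by
      have := congrArg (fun p => p.coeff j) hr₀
      simpa [hj0] using this
    have := congrArg (fun p => p.coeff j) h0
    simp [h1] at this

namespace GoodReduction

universe uK uF uk uFb uΩ

variable {K : Type uK} [Field K] {A : ValuationSubring K}
  {F : Type uF} [Field F] [Algebra K F]
  {k : Type uk} [Field k] {Fb : Type uFb} [Field Fb] [Algebra k Fb]
  (G : GoodReduction A F k Fb)

/-- constants inside the valuation subring -/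
def constHom : A →+* G.V :=
  ((algebraMap K F).comp A.subtype).codRestrict G.V fun a => G.algebraMap_mem a

/-- evaluation of integral polynomials at `x` -/
def polyHom : A[X] →+* G.V :=
  eval₂RingHom G.constHom G.x

theorem coe_polyHom (p : A[X]) : (G.polyHom p : F) = aeval (G.x : F) (p.map A.subtype) := by
  have h : ((SubringClass.subtype G.V).comp G.polyHom) p
      = eval₂ ((algebraMap K F).comp A.subtype) (G.x : F) p := by
    simp only [polyHom, RingHom.comp_apply, coe_eval₂RingHom, hom_eval₂]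
    rfl
  rw [aeval_def, eval₂_map]
  exact h

theorem φ_polyHom (p : A[X]) : G.φ (G.polyHom p) = aeval (G.φ G.x) (p.map G.π) := by
  rw [aeval_def, eval₂_map, polyHom, coe_eval₂RingHom, hom_eval₂]
  congr 1
  ext a
  exact G.φ_algebraMap a

theorem φ_polyHom_ne_zero {p : A[X]} (hp : p.map G.π ≠ 0) : G.φ (G.polyHom p) ≠ 0 := by
  rw [G.φ_polyHom]
  exact fun h => hp ((transcendental_iff.1 G.x_transcendental) _ h)

theorem isUnit_polyHom {p : A[X]} (hp : p.map G.π ≠ 0) : IsUnit (G.polyHom p) := by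
  by_contra h
  exact G.φ_polyHom_ne_zero hp ((G.φ_eq_zero_iff _).2 h)

theorem coe_polyHom_ne_zero {p : A[X]} (hp : p.map G.π ≠ 0) : (G.polyHom p : F) ≠ 0 := by
  intro h
  refine G.φ_polyHom_ne_zero hp ?_
  rw [show G.polyHom p = 0 from Subtype.ext h, map_zero]

/-- normal form of the elements of `K(x)` -/
theorem exists_normalForm {c : F} (hc : c ∈ K⟮(G.x : F)⟯) (hc0 : c ≠ 0) :
    ∃ (a : K) (r s : A[X]), a ≠ 0 ∧ r.map G.π ≠ 0 ∧ s.map G.π ≠ 0 ∧
      c * (G.polyHom s : F) = algebraMap K F a * (G.polyHom r : F) ∧ (c ∈ G.V ↔ a ∈ A) := by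
  obtain ⟨r, s, rfl⟩ := IntermediateField.mem_adjoin_simple_iff K c |>.1 hc
  obtain ⟨hr, hs⟩ := div_ne_zero_iff.1 hc0
  obtain ⟨a, r₀, ha, hra, hr₀⟩ := exists_scale_poly A G.π (r := r) (by rintro rfl; simp at hr)
  obtain ⟨b, s₀, hb, hsb, hs₀⟩ := exists_scale_poly A G.π (r := s) (by rintro rfl; simp at hs)
  have hs0' := G.coe_polyHom_ne_zero hs₀
  have hr0' := G.coe_polyHom_ne_zero hr₀
  have hb' : algebraMap K F b ≠ 0 := by simpa using hb
  have heq : aeval (G.x : F) r / aeval (G.x : F) s =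
      algebraMap K F (a / b) * ((G.polyHom r₀ : F) / (G.polyHom s₀ : F)) := by
    rw [hra, hsb, map_mul, map_mul, aeval_C, aeval_C, ← G.coe_polyHom, ← G.coe_polyHom,
      map_div₀, mul_div_mul_comm]
  refine ⟨a / b, r₀, s₀, div_ne_zero ha hb, hr₀, hs₀, ?_, ?_⟩
  · rw [heq]
    field_simp
  · rw [heq, ← G.mem_V_iff (a / b)]
    obtain ⟨u, hu⟩ := G.isUnit_polyHom hr₀
    obtain ⟨w, hw⟩ := G.isUnit_polyHom hs₀
    have h1 : ∀ y : G.Vˣ, ((y : G.V) : F)⁻¹ = (((y⁻¹ : G.Vˣ) : G.V) : F) := fun y => by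
      refine inv_eq_of_mul_eq_one_right ?_
      exact congrArg Subtype.val y.mul_inv
    rw [← hu, ← hw]
    constructor
    · intro h
      have := mul_mem h (mul_mem ((u⁻¹ : G.Vˣ) : G.V).2 (w : G.V).2)
      convert this using 1
      rw [← h1]
      field_simp
    · intro h
      rw [div_eq_mul_inv ((u : G.V) : F), h1 w]
      exact mul_mem h (mul_mem (u : G.V).2 ((w⁻¹ : G.Vˣ) : G.V).2)

theorem φ_mem_adjoin {c : F} (hc : c ∈ K⟮(G.x : F)⟯) (hV : c ∈ G.V) :
    G.φ ⟨c, hV⟩ ∈ k⟮G.φ G.x⟯ := by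
  rcases eq_or_ne c 0 with rfl | hc0
  · rw [show (⟨0, hV⟩ : G.V) = 0 from rfl, map_zero]
    exact zero_mem _
  obtain ⟨a, r, s, -, -, hs, heq, hiff⟩ := G.exists_normalForm hc hc0
  have ha : a ∈ A := hiff.1 hV
  have h : (⟨c, hV⟩ : G.V) * G.polyHom s = G.constHom ⟨a, ha⟩ * G.polyHom r := Subtype.ext heq
  have h2 := congrArg G.φ h
  simp only [map_mul, G.φ_polyHom] at h2
  have h3 : G.φ (G.constHom ⟨a, ha⟩) = algebraMap k Fb (G.π ⟨a, ha⟩) := G.φ_algebraMap ⟨a, ha⟩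
  rw [h3, ← eq_div_iff (G.φ_polyHom s ▸ G.φ_polyHom_ne_zero hs)] at h2
  rw [h2]
  refine div_mem (mul_mem (IntermediateField.algebraMap_mem _ _) ?_) ?_ <;>
  exact algebra_adjoin_le_adjoin k _ (aeval_mem_adjoin_singleton k _)

/-- lifts of a residual basis are independent over the Gauss ring -/
theorem mem_and_φ_eq_zero_of_sum {ι : Type*} [Fintype ι] (β : ι → G.V)
    (hβ : LinearIndependent k⟮G.φ G.x⟯ fun i => G.φ (β i))
    (c : ι → F) (hc : ∀ i, c i ∈ K⟮(G.x : F)⟯) (hsum : ∑ i, c i * (β i : F) ∈ G.V) :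
    ∀ i, c i ∈ G.V ∧ ∀ h : c i ∈ G.V,
      G.φ ⟨∑ i, c i * (β i : F), hsum⟩ = 0 → G.φ ⟨c i, h⟩ = 0 := by
  classical
  have hall : ∀ i, c i ∈ G.V := by
    by_contra hcon
    simp only [not_forall] at hcon
    obtain ⟨i₀, hi₀⟩ := hcon
    obtain ⟨j, -, hj0, hmem⟩ := exists_scale_div G.V Finset.univ c
      ⟨i₀, Finset.mem_univ _, fun h => hi₀ (h ▸ G.V.zero_mem)⟩
    have hjnot : c j ∉ G.V := by
      intro hjV
      refine hi₀ ?_
      have := mul_mem (hmem i₀ (Finset.mem_univ _)) hjV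
      rwa [div_mul_cancel₀ _ hj0] at this
    have hinv : (c j)⁻¹ ∈ G.V := (G.V.mem_or_inv_mem _).resolve_left hjnot
    have hinv0 : G.φ ⟨(c j)⁻¹, hinv⟩ = 0 :=
      (G.φ_eq_zero_iff _).2 fun hu =>
        hjnot (by
          obtain ⟨u, hu⟩ := hu
          have h1 : ((u⁻¹ : G.Vˣ) : G.V) * ⟨(c j)⁻¹, hinv⟩ = 1 := by rw [← hu, u.inv_mul]
          have h2 : (((u⁻¹ : G.Vˣ) : G.V) : F) * (c j)⁻¹ = 1 := congrArg Subtype.val h1
          have h3 : c j = (((u⁻¹ : G.Vˣ) : G.V) : F) := by field_simp at h2; exact h2.symm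
          exact h3 ▸ ((u⁻¹ : G.Vˣ) : G.V).2)
    have h1 : ∑ i, (⟨c i / c j, hmem i (Finset.mem_univ _)⟩ : G.V) * β i =
        ⟨∑ i, c i * (β i : F), hsum⟩ * ⟨(c j)⁻¹, hinv⟩ := by
      ext
      simp only [AddSubmonoidClass.coe_finset_sum, MulMemClass.coe_mul, Finset.sum_mul]
      exact Finset.sum_congr rfl fun i _ => by ring
    have h2 := congrArg G.φ h1
    rw [map_sum, map_mul, hinv0, mul_zero] at h2
    have h3 := Fintype.linearIndependent_iff.1 hβ
      (fun i => ⟨G.φ ⟨c i / c j, hmem i (Finset.mem_univ _)⟩,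
        G.φ_mem_adjoin (div_mem (hc i) (hc j)) _⟩)
      (by simpa [Algebra.smul_def] using h2) j
    have h4 : G.φ ⟨c j / c j, hmem j (Finset.mem_univ _)⟩ = 0 := congrArg Subtype.val h3
    rw [show (⟨c j / c j, hmem j (Finset.mem_univ _)⟩ : G.V) = 1 from
      Subtype.ext (div_self hj0), map_one] at h4
    exact one_ne_zero h4
  refine fun i => ⟨hall i, fun h h0 => ?_⟩
  have h1 : ∑ i, (⟨c i, hall i⟩ : G.V) * β i = ⟨∑ i, c i * (β i : F), hsum⟩ := by
    ext
    simp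
  rw [← h1, map_sum] at h0
  have h3 := Fintype.linearIndependent_iff.1 hβ
    (fun i => ⟨G.φ ⟨c i, hall i⟩, G.φ_mem_adjoin (hc i) _⟩)
    (by simpa [Algebra.smul_def] using h0) i
  exact congrArg Subtype.val h3

/-- `V` has a basis over the Gauss ring lifting a residual basis -/
theorem exists_integral_basis :
    ∃ (n : ℕ) (β : Fin n → G.V), LinearIndependent k⟮G.φ G.x⟯ (fun i => G.φ (β i)) ∧
      ∀ f : F, ∃ c : Fin n → F, (∀ i, c i ∈ K⟮(G.x : F)⟯) ∧ f = ∑ i, c i * (β i : F) := by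
  have : FiniteDimensional k⟮G.φ G.x⟯ Fb := Module.finite_of_finrank_pos G.degree_pos
  let b := Module.finBasis k⟮G.φ G.x⟯ Fb
  choose β hβ using fun i => G.φ_surjective (b i)
  have hind : LinearIndependent k⟮G.φ G.x⟯ (fun i => G.φ (β i)) := by
    simpa only [hβ] using b.linearIndependent
  refine ⟨_, β, hind, ?_⟩
  have hli : LinearIndependent K⟮(G.x : F)⟯ (fun i => (β i : F)) :=
    (G.linearIndependent_adjoin_lift G.x G.x_transcendental hind).2
  have : FiniteDimensional K⟮(G.x : F)⟯ F :=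
    Module.finite_of_finrank_pos (G.degree_eq.symm ▸ G.degree_pos)
  intro f
  have : Nonempty (Fin (Module.finrank k⟮G.φ G.x⟯ Fb)) := Fin.pos_iff_nonempty.1 G.degree_pos
  let b' := basisOfLinearIndependentOfCardEqFinrank hli (by
    simpa using G.degree_eq.symm)
  refine ⟨fun i => (b'.repr f i : F), fun i => (b'.repr f i).2, ?_⟩
  conv_lhs => rw [← b'.sum_repr f]
  simp [b', Algebra.smul_def, coe_basisOfLinearIndependentOfCardEqFinrank]

/-- the elements of `V` are exactly the combinations with integral coefficients -/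
theorem isIntegral_of_mem {Ω : Type uΩ} [Field Ω] (ψ : F →+* Ω) (B : ValuationSubring Ω)
    (hO : ∀ c ∈ K⟮(G.x : F)⟯, c ∈ G.V → ψ c ∈ B) {f : F} (hf : f ∈ G.V) : ψ f ∈ B := by
  obtain ⟨n, β, hβ, hspan⟩ := G.exists_integral_basis
  let O : Subring F := G.V.toSubring ⊓ K⟮(G.x : F)⟯.toSubfield.toSubring
  have hOmem : ∀ {c}, c ∈ G.V → c ∈ K⟮(G.x : F)⟯ → c ∈ O := fun h1 h2 => ⟨h1, h2⟩
  have hN : ∀ g : F, g ∈ Submodule.span O (Set.range fun i => (β i : F)) ↔ g ∈ G.V := by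
    intro g
    constructor
    · intro hg
      induction hg using Submodule.span_induction with
      | mem g hg =>
          obtain ⟨i, rfl⟩ := hg
          exact (β i).2
      | zero => exact G.V.zero_mem
      | add a b _ _ ha hb => exact add_mem ha hb
      | smul r a _ ha => exact mul_mem r.2.1 ha
    · intro hg
      obtain ⟨c, hc, rfl⟩ := hspan g
      refine Submodule.sum_mem _ fun i _ => ?_
      exact Submodule.smul_mem _ (⟨c i, hOmem (G.mem_and_φ_eq_zero_of_sum β hβ c hc hg i).1 (hc i)⟩ : O)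
        (Submodule.subset_span ⟨i, rfl⟩)
  have hbot : Submodule.span O (Set.range fun i => (β i : F)) ≠ ⊥ := fun h => by
    have := (hN 1).2 G.V.one_mem
    rw [h, Submodule.mem_bot] at this
    exact one_ne_zero this
  have hint : IsIntegral O f :=
    isIntegral_of_smul_mem_submodule _ hbot (Submodule.fg_span (Set.finite_range _))
      f fun g hg => (hN _).2 (mul_mem hf ((hN g).1 hg))
  obtain ⟨p, hp, hpf⟩ := hint
  let ψ' : O →+* B := (ψ.comp O.subtype).codRestrict B fun c => hO c c.2.2 c.2.1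
  have : IsIntegral B (ψ f) := ⟨p.map ψ', hp.map _, by
    rw [eval₂_map, ← map_zero ψ, ← hpf, hom_eval₂]
    rfl⟩
  exact Subring.isIntegrallyClosedIn_iff.1
    (inferInstanceAs (IsIntegrallyClosedIn B Ω)) this

/-- Uniqueness of the extension of the Gauss valuation. -/
theorem mem_V_iff_of_gauss {Ω : Type uΩ} [Field Ω] (ψ : F →+* Ω) (B : ValuationSubring Ω)
    (hA : ∀ a : K, ψ (algebraMap K F a) ∈ B ↔ a ∈ A)
    (hp : ∀ p : A[X], ψ (G.polyHom p) ∈ B)
    (hu : ∀ p : A[X], p.map G.π ≠ 0 → ψ (G.polyHom p) ∉ B.nonunits) :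
    ∀ f : F, (ψ f ∈ B ↔ f ∈ G.V) ∧ ∀ h : f ∈ G.V, (ψ f ∈ B.nonunits ↔ G.φ ⟨f, h⟩ = 0) := by
  have hunit : ∀ p : A[X], p.map G.π ≠ 0 → B.valuation (ψ (G.polyHom p)) = 1 := fun p hp0 =>
    le_antisymm ((B.valuation_le_one_iff _).2 (hp p))
      (not_lt.1 fun h => hu p hp0 (B.mem_nonunits_iff.2 h))
  have hO : ∀ c ∈ K⟮(G.x : F)⟯, c ∈ G.V → ψ c ∈ B ∧
      ∀ h : c ∈ G.V, G.φ ⟨c, h⟩ = 0 → ψ c ∈ B.nonunits := by
    intro c hc hcV
    rcases eq_or_ne c 0 with rfl | hc0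
    · exact ⟨by simp, fun _ _ => by simp⟩
    obtain ⟨a, r, s, ha0, hr, hs, heq, hiff⟩ := G.exists_normalForm hc hc0
    have ha : a ∈ A := hiff.1 hcV
    have hval : B.valuation (ψ c) = B.valuation (ψ (algebraMap K F a)) := by
      have := congrArg (fun z => B.valuation (ψ z)) heq
      simpa [hunit r hr, hunit s hs] using this
    refine ⟨(B.valuation_le_one_iff _).1 (hval ▸ (B.valuation_le_one_iff _).2 ((hA a).2 ha)),
      fun h h0 => ?_⟩
    rw [B.mem_nonunits_iff, hval, ← B.mem_nonunits_iff, ← inv_inv (ψ (algebraMap K F a)),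
      B.inv_mem_nonunits_iff]
    refine Or.inr fun hinv => ?_
    rw [← map_inv₀, ← map_inv₀, hA] at hinv
    have hua : IsUnit (⟨a, ha⟩ : A) :=
      IsUnit.of_mul_eq_one ⟨a⁻¹, hinv⟩ (Subtype.ext (mul_inv_cancel₀ ha0))
    have : IsUnit (⟨c, h⟩ : G.V) := by
      have e : (⟨c, h⟩ : G.V) * G.polyHom s = G.constHom ⟨a, ha⟩ * G.polyHom r := Subtype.ext heq
      exact isUnit_of_mul_isUnit_left
        (e ▸ IsUnit.mul (hua.map G.constHom) (G.isUnit_polyHom hr))
    exact (G.φ_eq_zero_iff _).1 h0 this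
  have hVB : ∀ {g}, g ∈ G.V → ψ g ∈ B := fun hg =>
    G.isIntegral_of_mem ψ B (fun c hc h => (hO c hc h).1) hg
  have hmax : ∀ (g : F) (h : g ∈ G.V), G.φ ⟨g, h⟩ = 0 → ψ g ∈ B.nonunits := by
    intro g h h0
    obtain ⟨n, β, hβ, hspan⟩ := G.exists_integral_basis
    obtain ⟨c, hc, rfl⟩ := hspan g
    rw [map_sum, B.mem_nonunits_iff]
    refine Valuation.map_sum_lt _ one_ne_zero fun i _ => ?_
    obtain ⟨h1, h2⟩ := G.mem_and_φ_eq_zero_of_sum β hβ c hc h i
    rw [map_mul, map_mul]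
    exact (mul_le_of_le_one_right' ((B.valuation_le_one_iff _).2 (hVB (β i).2))).trans_lt
      (B.mem_nonunits_iff.1 ((hO _ (hc i) h1).2 h1 (h2 h1 h0)))
  intro f
  have hmem : ψ f ∈ B → f ∈ G.V := by
    intro hf
    by_contra hfV
    have hf0 : f ≠ 0 := fun h => hfV (h ▸ G.V.zero_mem)
    have hinv : f⁻¹ ∈ G.V := (G.V.mem_or_inv_mem f).resolve_left hfV
    have h0 : G.φ ⟨f⁻¹, hinv⟩ = 0 := (G.φ_eq_zero_iff _).2 fun hu => hfV <| by
      obtain ⟨u, hu⟩ := hu
      have h1 : ((u⁻¹ : G.Vˣ) : G.V) * ⟨f⁻¹, hinv⟩ = 1 := by rw [← hu, u.inv_mul]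
      have h2 : (((u⁻¹ : G.Vˣ) : G.V) : F) * f⁻¹ = 1 := congrArg Subtype.val h1
      have h3 : f = (((u⁻¹ : G.Vˣ) : G.V) : F) := by field_simp at h2; exact h2.symm
      exact h3 ▸ ((u⁻¹ : G.Vˣ) : G.V).2
    have h1 := hmax _ hinv h0
    rw [map_inv₀, B.inv_mem_nonunits_iff] at h1
    rcases h1 with h1 | h1
    · exact hf0 ((map_eq_zero ψ).1 h1)
    · exact h1 hf
  refine ⟨⟨hmem, hVB⟩, fun h => ⟨fun hn => ?_, hmax f h⟩⟩
  rw [G.φ_eq_zero_iff]
  intro hu
  obtain ⟨u, hu⟩ := hu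
  have h1 : ((u⁻¹ : G.Vˣ) : G.V) * ⟨f, h⟩ = 1 := by rw [← hu, u.inv_mul]
  have h2 : ψ (((u⁻¹ : G.Vˣ) : G.V) : F) * ψ f = 1 := by
    rw [← map_mul, ← map_one ψ]
    exact congrArg ψ (congrArg Subtype.val h1)
  have h3 := congrArg B.valuation h2
  rw [map_mul, map_one] at h3
  exact ((mul_le_of_le_one_left' ((B.valuation_le_one_iff _).2 (hVB ((u⁻¹ : G.Vˣ) : G.V).2))
    ).trans_lt (B.mem_nonunits_iff.1 hn)).ne h3

end GoodReduction

end Fermat.Agent.Curve

end
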