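/-
Deuring's reduction map on places and divisors attached to a `GoodReduction`.
-/
import Fermat.Agent.Curve.ReductionLattice
import Fermat.Agent.Curve.ReductionAux
import Mathlib.Data.Finsupp.Basic

set_option autoImplicit false

noncomputable section

namespace Fermat.Agent.Curve.GoodReduction

open AlgebraicCurve IntermediateField

universe uK uF uk uFb

variable {K : Type uK} [Field K] {A : ValuationSubring K}
  {F : Type uF} [Field F] [Algebra K F]
  {k : Type uk} [Field k] {Fb : Type uFb} [Field Fb] [Algebra k Fb]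
  (G : GoodReduction A F k Fb)

/-- `r` carries the divisor of every integral function with non-zero reduction to the divisor of
its reduction -/
def IsReductionMap (r : Place K F → Place k Fb) : Prop :=
  ∀ f : G.V, G.φ f ≠ 0 → ∀ D : Divisor K F, (∀ P, D P = P.ord (f : F)) →
    ∀ Q, Finsupp.mapDomain r D Q = Q.ord (G.φ f)

include G in
/-- the generic fibre is a function field -/
theorem isFunctionFieldOne : IsFunctionFieldOne K F :=
  haveI : Module.Finite K⟮(G.x : F)⟯ F :=
    Module.finite_of_finrank_pos (G.degree_eq ▸ G.degree_pos)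
  IsFunctionFieldOne.of_finite (G.transcendental_of_reduction G.x G.x_transcendental)

include G in
/-- the special fibre is a function field -/
theorem isFunctionFieldOne_special : IsFunctionFieldOne k Fb :=
  haveI : Module.Finite k⟮G.φ G.x⟯ Fb := Module.finite_of_finrank_pos G.degree_pos
  IsFunctionFieldOne.of_finite G.x_transcendental

theorem φ_const (a : A) (f : G.V) (h : (f : F) - algebraMap K F a ∈ G.V) :
    G.φ ⟨(f : F) - algebraMap K F a, h⟩ = G.φ f - algebraMap k Fb (G.π a) := by
  rw [← G.φ_algebraMap a, ← map_sub]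
  rfl

variable [IsAlgClosed K]

open RedAux

/-- reduction does not increase the number of poles -/
theorem degree_poleDivisor_φ_le [IsFunctionFieldOne K F] [IsFunctionFieldOne k Fb] (f : G.V) :
    Divisor.degree (poleDivisor k (G.φ f)) ≤ Divisor.degree (poleDivisor K (f : F)) := by
  haveI := G.isAlgClosed_residue
  by_cases h : Transcendental k (G.φ f)
  · have hK := G.transcendental_of_reduction f h
    haveI := finite_adjoin_of_transcendental hK
    rw [degree_poleDivisor h, degree_poleDivisor hK]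
    exact_mod_cast G.finrank_adjoin_reduction_le f h
  · have h0 : poleDivisor k (G.φ f) = 0 := Finsupp.ext fun v => by
      rw [poleDivisor_apply, ord_eq_zero_of_isAlgebraic v (not_not.1 h)]
      rfl
    rw [h0, map_zero]
    exact degree_nonneg (poleDivisor_nonneg _)

section Construction

variable [IsFunctionFieldOne K F] [IsFunctionFieldOne k Fb]

theorem one_mem_reduce {D : Divisor K F} (hD : 0 ≤ D) :
    (1 : Fb) ∈ G.reduceSubspace (riemannRochSpace D) :=
  ⟨1, one_mem_L hD, map_one _⟩

theorem pole_le_of_mem_reduce {D : Divisor K F} (hD : 0 ≤ D) :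
    ∀ y ∈ G.reduceSubspace (riemannRochSpace D),
      Divisor.degree (poleDivisor k y) ≤ Divisor.degree D := by
  rintro y ⟨f, hf, rfl⟩
  exact (G.degree_poleDivisor_φ_le f).trans (degree_mono ((poleDivisor_le_iff hD).2 hf))

theorem exists_red_element {D : Divisor K F} (hD : 0 ≤ D) (S : Finset (Place k Fb)) :
    ∃ y ∈ G.reduceSubspace (riemannRochSpace D), y ≠ 0 ∧
      G.reduceSubspace (riemannRochSpace D) ≤ riemannRochSpace (poleDivisor k y) ∧
      ∀ v ∈ S, v.ord y = -(poleDivisor k y v) :=
  haveI := G.isAlgClosed_residue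
  exists_max_pole _ (G.one_mem_reduce hD) _ (G.pole_le_of_mem_reduce hD) S

/-- the reduction of an effective divisor: common pole divisor of the special fibre of `L(D)` -/
def redDiv (D : Divisor K F) : Divisor k Fb :=
  open scoped Classical in
  if hD : 0 ≤ D then poleDivisor k (G.exists_red_element hD ∅).choose else 0

theorem redDiv_nonneg (D : Divisor K F) : 0 ≤ G.redDiv D := by
  rw [redDiv]
  split_ifs
  · exact poleDivisor_nonneg _
  · exact le_rfl

theorem exists_mem_redDiv {D : Divisor K F} (hD : 0 ≤ D) :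
    ∃ y ∈ G.reduceSubspace (riemannRochSpace D), y ≠ 0 ∧ poleDivisor k y = G.redDiv D := by
  obtain ⟨hy, hy0, -, -⟩ := (G.exists_red_element hD ∅).choose_spec
  exact ⟨_, hy, hy0, by rw [redDiv, dif_pos hD]⟩

theorem reduce_le_redDiv {D : Divisor K F} (hD : 0 ≤ D) :
    G.reduceSubspace (riemannRochSpace D) ≤ riemannRochSpace (G.redDiv D) := by
  obtain ⟨-, -, hle, -⟩ := (G.exists_red_element hD ∅).choose_spec
  rwa [redDiv, dif_pos hD]

theorem degree_redDiv_le {D : Divisor K F} (hD : 0 ≤ D) :
    Divisor.degree (G.redDiv D) ≤ Divisor.degree D := by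
  obtain ⟨y, hy, -, hy'⟩ := G.exists_mem_redDiv hD
  exact hy' ▸ G.pole_le_of_mem_reduce hD y hy

theorem mul_mem_reduce {D D' : Divisor K F} {y z : Fb}
    (hy : y ∈ G.reduceSubspace (riemannRochSpace D))
    (hz : z ∈ G.reduceSubspace (riemannRochSpace D')) :
    y * z ∈ G.reduceSubspace (riemannRochSpace (D + D')) := by
  obtain ⟨f, hf, rfl⟩ := hy
  obtain ⟨g, hg, rfl⟩ := hz
  exact ⟨f * g, mul_mem_L hf hg, map_mul _ _ _⟩

theorem redDiv_add_le {D D' : Divisor K F} (hD : 0 ≤ D) (hD' : 0 ≤ D') :
    G.redDiv D + G.redDiv D' ≤ G.redDiv (D + D') := by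
  obtain ⟨y, hy, hy0, hyE⟩ := G.exists_mem_redDiv hD
  obtain ⟨z, hz, hz0, hzE⟩ := G.exists_mem_redDiv hD'
  have h1 := G.reduce_le_redDiv (add_nonneg hD hD') (G.mul_mem_reduce hy hz)
  have h2 := G.reduce_le_redDiv (add_nonneg hD hD')
    (G.mul_mem_reduce hy (G.one_mem_reduce hD'))
  have h3 := G.reduce_le_redDiv (add_nonneg hD hD')
    (G.mul_mem_reduce (G.one_mem_reduce hD) hz)
  rw [mul_one] at h2
  rw [one_mul] at h3
  rw [mem_L_iff (mul_ne_zero hy0 hz0)] at h1
  rw [mem_L_iff hy0] at h2
  rw [mem_L_iff hz0] at h3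
  refine Finsupp.le_def.2 fun v => ?_
  have := h1 v
  have := h2 v
  have := h3 v
  have := v.ord_mul hy0 hz0
  have := Finsupp.le_def.1 (G.redDiv_nonneg (D + D')) v
  rw [Finsupp.add_apply, ← hyE, ← hzE, poleDivisor_apply, poleDivisor_apply]
  rw [Finsupp.zero_apply] at this
  omega

include G in
theorem exists_large_bound : ∃ c : ℤ, 0 < c ∧ ∀ D : Divisor K F, 0 ≤ D → c ≤ Divisor.degree D →
    Divisor.degree (G.redDiv D) = Divisor.degree D := by
  haveI := G.isAlgClosed_residue
  obtain ⟨c, hc0, hc⟩ := exists_degree_le_of_finrank (K := k) (F := Fb)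
  refine ⟨c, hc0, fun D hD hdeg => le_antisymm (G.degree_redDiv_le hD) (hc _ _ hdeg ?_)⟩
  haveI := finite_L D
  haveI := finite_L (G.redDiv D)
  have h1 := G.finrank_reduceSubspace (riemannRochSpace D)
  have h2 := Submodule.finrank_mono (G.reduce_le_redDiv hD)
  have h3 := le_finrank_L D
  rw [G.genus_eq]
  omega

theorem redDiv_add_eq {c : ℤ} (hc : ∀ D : Divisor K F, 0 ≤ D → c ≤ Divisor.degree D →
    Divisor.degree (G.redDiv D) = Divisor.degree D) {D D' : Divisor K F} (hD : 0 ≤ D)
    (hD' : 0 ≤ D') (h : c ≤ Divisor.degree D) (h' : c ≤ Divisor.degree D') :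
    G.redDiv (D + D') = G.redDiv D + G.redDiv D' := by
  haveI := G.isAlgClosed_residue
  refine (eq_of_le_of_degree_le (G.redDiv_add_le hD hD') ?_).symm
  rw [map_add, hc D hD h, hc D' hD' h', ← map_add]
  exact G.degree_redDiv_le (add_nonneg hD hD')

theorem single_nonneg' (P : Place K F) {n : ℤ} (hn : 0 ≤ n) :
    (0 : Divisor K F) ≤ Finsupp.single P n :=
  Finsupp.le_def.2 fun v => by
    classical
    rw [Finsupp.zero_apply, Finsupp.single_apply]
    split_ifs <;> omega

theorem redDiv_mono {D D' : Divisor K F} (hD : 0 ≤ D) (h : D ≤ D') :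
    G.redDiv D ≤ G.redDiv D' := by
  have hD' := hD.trans h
  obtain ⟨y, hy, hy0, hyE⟩ := G.exists_mem_redDiv hD
  rw [← hyE, poleDivisor_le_iff (G.redDiv_nonneg D')]
  exact G.reduce_le_redDiv hD' (G.reduceSubspace_mono (L_mono h) hy)

include G in
theorem exists_point_map : ∃ (c : ℤ) (q : Place K F → Place k Fb), 0 < c ∧
    ∀ P, ∀ m : ℤ, c ≤ m → G.redDiv (Finsupp.single P m) = Finsupp.single (q P) m := by
  haveI := G.isAlgClosed_residue
  obtain ⟨c, hc0, hc⟩ := G.exists_large_bound
  suffices H : ∀ P : Place K F, ∃ Q : Place k Fb, ∀ m : ℤ, c ≤ m →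
      G.redDiv (Finsupp.single P m) = Finsupp.single Q m by
    choose q hq using H
    exact ⟨c, q, hc0, hq⟩
  intro P
  let R : ℤ → Divisor k Fb := fun m => G.redDiv (Finsupp.single P m)
  have hdegP : ∀ m : ℤ, Divisor.degree (Finsupp.single P m : Divisor K F) = m := fun m => by
    rw [Divisor.degree_single, deg_one]; simp
  have hadd : ∀ a b, c ≤ a → c ≤ b → R (a + b) = R a + R b := fun a b ha hb => by
    show G.redDiv (Finsupp.single P (a + b)) = _
    rw [Finsupp.single_add]
    exact G.redDiv_add_eq hc (single_nonneg' P (by omega)) (single_nonneg' P (by omega))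
      (by rw [hdegP]; exact ha) (by rw [hdegP]; exact hb)
  have hdeg : ∀ m, c ≤ m → Divisor.degree (R m) = m := fun m hm => by
    rw [hc _ (single_nonneg' P (by omega)) (by rw [hdegP]; exact hm), hdegP]
  obtain ⟨Q, hQ⟩ : ∃ Q, R (c + 1) - R c = Finsupp.single Q 1 := by
    refine eq_single_of_degree_eq_one (sub_nonneg.2 ?_) ?_
    · refine G.redDiv_mono (single_nonneg' P (by omega)) ?_
      rw [Finsupp.single_add]
      exact le_add_of_nonneg_right (single_nonneg' P zero_le_one)
    · rw [map_sub, hdeg _ (by omega), hdeg _ le_rfl]; ring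
  have hstep : ∀ m, c ≤ m → R (m + 1) = R m + Finsupp.single Q 1 := by
    intro m hm
    have h1 := hadd (m + 1) c (by omega) le_rfl
    have h2 := hadd m (c + 1) hm (by omega)
    rw [show m + 1 + c = m + (c + 1) by ring, h2] at h1
    rw [← hQ]
    linear_combination (norm := abel) h1.symm
  have hiter : ∀ j : ℕ, R (c + j) = R c + Finsupp.single Q (j : ℤ) := by
    intro j
    induction j with
    | zero => simp
    | succ j ih =>
      push_cast
      rw [← add_assoc, hstep _ (by omega), ih, Finsupp.single_add, add_assoc]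
  refine ⟨Q, fun m hm => ?_⟩
  have hRc : R c = Finsupp.single Q c := by
    have h1 := hiter c.toNat
    rw [Int.toNat_of_nonneg hc0.le, hadd c c le_rfl le_rfl] at h1
    exact add_left_cancel h1
  have h2 := hiter (m - c).toNat
  rw [Int.toNat_of_nonneg (by omega), add_sub_cancel, hRc, ← Finsupp.single_add,
    add_sub_cancel] at h2
  exact h2

theorem mapDomain_le {α β : Type*} (q : α → β) {D D' : α →₀ ℤ} (h : D ≤ D') :
    Finsupp.mapDomain q D ≤ Finsupp.mapDomain q D' := by
  classical
  refine Finsupp.le_def.2 fun b => ?_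
  rw [← sub_nonneg, ← Finsupp.sub_apply, ← Finsupp.mapDomain_sub, Finsupp.mapDomain,
    Finsupp.sum_apply]
  refine Finset.sum_nonneg fun a _ => ?_
  dsimp only
  rw [Finsupp.single_apply]
  split_ifs
  · simpa using Finsupp.le_def.mp h a
  · exact le_rfl

theorem le_redDiv_sparse {c : ℤ} {q : Place K F → Place k Fb} (hc : 0 < c)
    (hq : ∀ P, ∀ m : ℤ, c ≤ m → G.redDiv (Finsupp.single P m) = Finsupp.single (q P) m) :
    ∀ D : Divisor K F, (∀ P, D P = 0 ∨ c ≤ D P) → Finsupp.mapDomain q D ≤ G.redDiv D := by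
  classical
  intro D
  induction D using Finsupp.induction with
  | zero => intro; rw [Finsupp.mapDomain_zero]; exact G.redDiv_nonneg 0
  | single_add P n D hP hn ih =>
    intro h
    have hPn : c ≤ n := by
      have := h P
      rw [Finsupp.add_apply, Finsupp.single_eq_same, Finsupp.notMem_support_iff.1 hP,
        add_zero] at this
      exact this.resolve_left hn
    have hD : ∀ P', D P' = 0 ∨ c ≤ D P' := fun P' => by
      by_cases hP' : P' = P
      · exact Or.inl (hP' ▸ Finsupp.notMem_support_iff.1 hP)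
      · simpa [hP'] using h P'
    have hD0 : 0 ≤ D := Finsupp.le_def.2 fun P' => by
      rcases hD P' with h' | h' <;> simp <;> omega
    rw [Finsupp.mapDomain_add, Finsupp.mapDomain_single, ← hq P n hPn]
    exact (add_le_add le_rfl (ih hD)).trans
      (G.redDiv_add_le (single_nonneg' P (by omega)) hD0)

theorem redDiv_sparse {c : ℤ} {q : Place K F → Place k Fb} (hc : 0 < c)
    (hq : ∀ P, ∀ m : ℤ, c ≤ m → G.redDiv (Finsupp.single P m) = Finsupp.single (q P) m)
    (D : Divisor K F) (h : ∀ P, D P = 0 ∨ c ≤ D P) :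
    G.redDiv D = Finsupp.mapDomain q D := by
  haveI := G.isAlgClosed_residue
  refine (eq_of_le_of_degree_le (G.le_redDiv_sparse hc hq D h) ?_).symm
  have hD : 0 ≤ D := Finsupp.le_def.2 fun P => by
    rcases h P with h' | h' <;> simp <;> omega
  refine (G.degree_redDiv_le hD).trans (le_of_eq ?_)
  rw [degree_eq_sum, degree_eq_sum, Finsupp.sum_mapDomain_index (fun _ => rfl) (fun _ _ _ => rfl)]

end Construction

omit [IsAlgClosed K] in
/-- the divisor of `f` on the generic fibre -/
theorem exists_divisor [IsFunctionFieldOne K F] (f : F) : ∃ D : Divisor K F, ∀ P, D P = P.ord f :=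
  ⟨divisorOf K f, fun _ => rfl⟩

theorem exists_isReductionMap : ∃ r : Place K F → Place k Fb, G.IsReductionMap r := by
  classical
  haveI := G.isAlgClosed_residue
  haveI := G.isFunctionFieldOne
  haveI := G.isFunctionFieldOne_special
  obtain ⟨c, q, hc, hq⟩ := G.exists_point_map
  refine ⟨q, fun f hf D hD => ?_⟩
  have hf0 : (f : F) ≠ 0 := G.coe_ne_zero_of_φ_ne_zero hf
  have hDf : D = divisorOf K (f : F) := Finsupp.ext fun P => by rw [hD P, divisorOf_apply]
  let B : Divisor K F := ∑ P ∈ D.support, Finsupp.single P (c + |D P|)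
  have hB : ∀ P, B P = if P ∈ D.support then c + |D P| else 0 := fun P => by
    simp only [B, Finset.sum_apply', Finsupp.single_apply, Finset.sum_ite_eq']
  have hBsparse : ∀ P, B P = 0 ∨ c ≤ B P := fun P => by
    rw [hB]; split_ifs
    · exact Or.inr (le_add_of_nonneg_right (abs_nonneg _))
    · exact Or.inl rfl
  have hBD : ∀ P, (B - D) P = 0 ∨ c ≤ (B - D) P := fun P => by
    rw [Finsupp.sub_apply, hB]; split_ifs with h
    · exact Or.inr (by have := le_abs_self (D P); omega)
    · exact Or.inl (by rw [Finsupp.notMem_support_iff.1 h]; rfl)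
  have hB0 : 0 ≤ B := Finsupp.le_def.2 fun P => by
    rcases hBsparse P with h' | h' <;> simp <;> omega
  have hBD0 : 0 ≤ B - D := Finsupp.le_def.2 fun P => by
    rcases hBD P with h' | h' <;> simp only [Finsupp.zero_apply] <;> omega
  have hfL : (f : F) ∈ riemannRochSpace (-D) := by
    rw [mem_L_iff hf0]
    intro P
    rw [Finsupp.neg_apply, hD P]
    omega
  have hmem : ∀ z ∈ G.reduceSubspace (riemannRochSpace B),
      G.φ f * z ∈ riemannRochSpace (G.redDiv (B - D)) := by
    intro z hz
    refine G.reduce_le_redDiv hBD0 ?_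
    rw [show B - D = -D + B by abel]
    exact G.mul_mem_reduce ⟨f, hfL, rfl⟩ hz
  obtain ⟨y, hy, hy0, hyE⟩ := G.exists_mem_redDiv hB0
  have h1 := hmem y hy
  have h2 := hmem 1 (G.one_mem_reduce hB0)
  rw [mul_one] at h2
  rw [mem_L_iff (mul_ne_zero hf hy0), G.redDiv_sparse hc hq _ hBD] at h1
  rw [mem_L_iff hf, G.redDiv_sparse hc hq _ hBD] at h2
  rw [G.redDiv_sparse hc hq _ hBsparse] at hyE
  have hmap0 : Divisor.degree (Finsupp.mapDomain q D) = 0 := by
    have : Divisor.degree D = 0 := hDf ▸ degree_divisorOf _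
    rw [degree_eq_sum, Finsupp.sum_mapDomain_index (fun _ => rfl) (fun _ _ _ => rfl),
      ← degree_eq_sum, this]
  have heq : Finsupp.mapDomain q D = divisorOf k (G.φ f) := by
    refine eq_of_le_of_degree_le (Finsupp.le_def.2 fun Q => ?_) ?_
    · have e1 := h1 Q
      have e2 := h2 Q
      have e3 := DFunLike.congr_fun hyE Q
      have := Q.ord_mul hf hy0
      rw [poleDivisor_apply] at e3
      rw [Finsupp.mapDomain_sub, Finsupp.sub_apply] at e1 e2
      rw [divisorOf_apply]
      omega
    · rw [hmap0, degree_divisorOf]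
  intro Q
  rw [heq, divisorOf_apply]

/-- the reduction map on places -/
def placeMap : Place K F → Place k Fb :=
  G.exists_isReductionMap.choose

theorem isReductionMap_placeMap : G.IsReductionMap G.placeMap :=
  G.exists_isReductionMap.choose_spec

/-- uniqueness of the reduction map -/
theorem IsReductionMap.eq_placeMap {r : Place K F → Place k Fb} (hr : G.IsReductionMap r) :
    r = G.placeMap := by
  haveI := G.isAlgClosed_residue
  haveI := G.isFunctionFieldOne
  haveI := G.isFunctionFieldOne_special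
  obtain ⟨c, q, hc, hq⟩ := G.exists_point_map
  suffices H : ∀ r' : Place K F → Place k Fb, G.IsReductionMap r' → r' = q by
    rw [H r hr, H _ G.isReductionMap_placeMap]
  intro r' hr'
  funext P
  obtain ⟨y, hy, hy0, hyE⟩ := G.exists_mem_redDiv (single_nonneg' P hc.le)
  obtain ⟨f, hf, rfl⟩ := hy
  have hf0 : (f : F) ≠ 0 := G.coe_ne_zero_of_φ_ne_zero hy0
  have hle : 0 ≤ divisorOf K (f : F) + Finsupp.single P c := Finsupp.le_def.2 fun v => by
    have := (mem_L_iff hf0).1 hf v
    rw [Finsupp.add_apply, divisorOf_apply, Finsupp.zero_apply]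
    omega
  have h := Finsupp.le_def.1 (mapDomain_le r' hle) (q P)
  rw [Finsupp.mapDomain_zero, Finsupp.zero_apply, Finsupp.mapDomain_add, Finsupp.add_apply,
    hr' f hy0 _ (divisorOf_apply _) (q P), Finsupp.mapDomain_single] at h
  have h' := DFunLike.congr_fun hyE (q P)
  rw [hq P c le_rfl, Finsupp.single_eq_same, poleDivisor_apply] at h'
  by_contra hne
  rw [Finsupp.single_eq_of_ne (Ne.symm hne)] at h
  omega

theorem placeMap_surjective : Function.Surjective G.placeMap := by
  classical
  haveI := G.isFunctionFieldOne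
  intro Q
  obtain ⟨h, hh0, hh⟩ := exists_ord_eq Q 1
  obtain ⟨f, rfl⟩ := G.φ_surjective h
  have h1 := G.isReductionMap_placeMap f hh0 _ (divisorOf_apply _) Q
  rw [hh] at h1
  by_contra hno
  push Not at hno
  rw [Finsupp.mapDomain_notin_range _ _ (fun ⟨P, hP⟩ => hno P hP)] at h1
  omega

theorem deg_placeMap (P : Place K F) : (G.placeMap P).deg = P.deg := by
  haveI := G.isAlgClosed_residue
  haveI := G.isFunctionFieldOne
  haveI := G.isFunctionFieldOne_special
  rw [deg_one, deg_one]

/-- the reduction map on divisors -/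
def divMap : Divisor K F →+ Divisor k Fb :=
  Finsupp.mapDomain.addMonoidHom G.placeMap

theorem divMap_apply (D : Divisor K F) : G.divMap D = Finsupp.mapDomain G.placeMap D := rfl

theorem divMap_single (P : Place K F) (n : ℤ) :
    G.divMap (Finsupp.single P n) = Finsupp.single (G.placeMap P) n :=
  Finsupp.mapDomain_single

theorem divMap_mono {D D' : Divisor K F} (h : D ≤ D') : G.divMap D ≤ G.divMap D' := by
  exact mapDomain_le _ h

theorem degree_divMap (D : Divisor K F) :
    Divisor.degree (G.divMap D) = Divisor.degree D := by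
  haveI := G.isAlgClosed_residue
  haveI := G.isFunctionFieldOne
  haveI := G.isFunctionFieldOne_special
  rw [degree_eq_sum, divMap_apply,
    Finsupp.sum_mapDomain_index (fun _ => rfl) (fun _ _ _ => rfl), ← degree_eq_sum]

/-- `div (φ f) = r_*(div f)` -/
theorem divMap_apply_eq_ord (f : G.V) (hf : G.φ f ≠ 0) {D : Divisor K F}
    (hD : ∀ P, D P = P.ord (f : F)) (Q : Place k Fb) :
    G.divMap D Q = Q.ord (G.φ f) :=
  G.isReductionMap_placeMap f hf D hD Q

theorem φ_mem_riemannRochSpace (f : G.V) {D : Divisor K F}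
    (hf : (f : F) ∈ riemannRochSpace D) : G.φ f ∈ riemannRochSpace (G.divMap D) := by
  haveI := G.isFunctionFieldOne
  rcases eq_or_ne (G.φ f) 0 with h | h
  · rw [h]; exact zero_mem _
  rw [mem_L_iff h]
  intro Q
  have hle : 0 ≤ divisorOf K (f : F) + D := Finsupp.le_def.2 fun P => by
    have := (mem_L_iff (G.coe_ne_zero_of_φ_ne_zero h)).1 hf P
    rw [Finsupp.add_apply, divisorOf_apply, Finsupp.zero_apply]
    omega
  have h' := Finsupp.le_def.1 (G.divMap_mono hle) Q
  rw [map_zero, Finsupp.zero_apply, map_add, Finsupp.add_apply,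
    G.divMap_apply_eq_ord f h (divisorOf_apply _) Q] at h'
  omega

theorem reduceSubspace_riemannRochSpace_le (D : Divisor K F) :
    G.reduceSubspace (riemannRochSpace D) ≤ riemannRochSpace (G.divMap D) := by
  rintro _ ⟨f, hf, rfl⟩
  exact G.φ_mem_riemannRochSpace f hf

/-- for divisors of large degree the lattice in `L(D)` reduces onto `L(r_* D)` -/
theorem exists_bound_reduceSubspace_eq :
    ∃ c : ℤ, ∀ D : Divisor K F, c ≤ Divisor.degree D →
      G.reduceSubspace (riemannRochSpace D) = riemannRochSpace (G.divMap D) := by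
  haveI := G.isAlgClosed_residue
  haveI := G.isFunctionFieldOne
  haveI := G.isFunctionFieldOne_special
  obtain ⟨c, hc⟩ := exists_finrank_L_eq (K := k) (F := Fb)
  refine ⟨c, fun D hD => ?_⟩
  haveI := finite_L D
  haveI := finite_L (G.divMap D)
  refine Submodule.eq_of_le_of_finrank_le (G.reduceSubspace_riemannRochSpace_le D) ?_
  have h1 := hc (G.divMap D) (by rw [G.degree_divMap]; exact hD)
  have h2 := le_finrank_L D
  rw [G.degree_divMap, G.genus_eq] at h1
  rw [G.finrank_reduceSubspace]
  omega

/-- the lattice in `L(D)` reduces onto `L(r_* D)` as soon as `2g - 1 ≤ deg D` -/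
theorem reduceSubspace_eq_of_degree_ge {D : Divisor K F}
    (hD : 2 * (genusFF K F : ℤ) - 1 ≤ Divisor.degree D) :
    G.reduceSubspace (riemannRochSpace D) = riemannRochSpace (G.divMap D) := by
  haveI := G.isAlgClosed_residue
  haveI := G.isFunctionFieldOne
  haveI := G.isFunctionFieldOne_special
  haveI := RedAux.finite_L D
  haveI := RedAux.finite_L (G.divMap D)
  refine Submodule.eq_of_le_of_finrank_le (G.reduceSubspace_riemannRochSpace_le D) ?_
  have h1 := ellDim_eq_of_degree_ge (D := G.divMap D)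
    (by rw [G.degree_divMap, G.genus_eq]; exact hD)
  have h2 := RedAux.le_finrank_L D
  rw [G.degree_divMap, G.genus_eq] at h1
  rw [G.finrank_reduceSubspace]
  unfold ellDim at h1
  omega

/-- values: if no pole of `f` reduces to `r P`, then `f(P)` is integral and reduces to
`(φ f)(r P)` -/
theorem residue_compat (P : Place K F) (f : G.V)
    (hf : ∀ P', G.placeMap P' = G.placeMap P → 0 ≤ P'.ord (f : F)) {c : K}
    (hc : P.adicValuation ((f : F) - algebraMap K F c) < 1) :
    ∃ h : c ∈ A, (G.placeMap P).adicValuation (G.φ f - algebraMap k Fb (G.π ⟨c, h⟩)) < 1 := by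
  classical
  haveI := G.isAlgClosed_residue
  haveI := G.isFunctionFieldOne
  haveI := G.isFunctionFieldOne_special
  have key : ∀ (g : G.V), G.φ g ≠ 0 → (∀ P', G.placeMap P' = G.placeMap P → 0 ≤ P'.ord (g : F)) →
      P.adicValuation (g : F) < 1 → 0 < (G.placeMap P).ord (G.φ g) := by
    intro g hg hpos hsmall
    have hP : 0 < P.ord (g : F) := by
      rw [P.adicValuation_eq_exp_neg_ord (G.coe_ne_zero_of_φ_ne_zero hg), ← WithZero.exp_zero,
        WithZero.exp_lt_exp] at hsmall
      omega
    rw [← G.isReductionMap_placeMap g hg _ (divisorOf_apply _), Finsupp.mapDomain,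
      Finsupp.sum_apply]
    refine Finset.sum_pos' (fun v _ => ?_) ⟨P, ?_, ?_⟩
    · dsimp only
      rw [Finsupp.single_apply]
      split_ifs with h
      · exact hpos v h
      · exact le_rfl
    · rw [Finsupp.mem_support_iff, divisorOf_apply]; omega
    · dsimp only
      rw [Finsupp.single_eq_same, divisorOf_apply]; exact hP
  have hord : ∀ (a b : K), ∀ v : Place K F, 0 ≤ v.ord (f : F) →
      0 ≤ v.ord (a • (f : F) - algebraMap K F b) := by
    intro a b v hv
    refine ord_nonneg_of_mem v (sub_mem ?_ (v.algebraMap_mem' b))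
    rw [Algebra.smul_def]
    exact mul_mem (v.algebraMap_mem' a) (mem_of_ord_nonneg v hv)
  by_cases hcA : c ∈ A
  · refine ⟨hcA, ?_⟩
    have hgV : (f : F) - algebraMap K F c ∈ G.V := sub_mem f.2 (G.algebraMap_mem ⟨c, hcA⟩)
    have hφ := G.φ_const ⟨c, hcA⟩ f hgV
    rcases eq_or_ne (G.φ ⟨_, hgV⟩) 0 with h0 | h0
    · rw [← hφ, h0, map_zero]; exact zero_lt_one
    · have := key ⟨_, hgV⟩ h0 (fun v hv => by simpa using hord 1 c v (hf v hv)) hc
      rw [← hφ, Place.adicValuation_eq_exp_neg_ord _ h0, ← WithZero.exp_zero, WithZero.exp_lt_exp]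
      omega
  · exfalso
    have hc0 : c ≠ 0 := fun h => hcA (h ▸ A.zero_mem)
    have hinv : c⁻¹ ∈ A := (A.mem_or_inv_mem c).resolve_left hcA
    have hπ : G.π ⟨c⁻¹, hinv⟩ = 0 := by
      rw [G.π_eq_zero_iff]
      rintro ⟨u, hu⟩
      have h1 : ((u : A) : K) * ((↑u⁻¹ : A) : K) = 1 := by
        rw [← MulMemClass.coe_mul, ← Units.val_mul, mul_inv_cancel]; rfl
      rw [hu] at h1
      have h1' : c⁻¹ * ((↑u⁻¹ : A) : K) = 1 := h1
      apply hcA
      have : ((↑u⁻¹ : A) : K) = c := by rw [eq_inv_of_mul_eq_one_right h1', inv_inv]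
      exact this ▸ (↑u⁻¹ : A).2
    have hsV : c⁻¹ • (f : F) ∈ G.V := G.smul_mem ⟨_, hinv⟩ f.2
    have hgV : c⁻¹ • (f : F) - algebraMap K F (1 : A) ∈ G.V :=
      sub_mem hsV (G.algebraMap_mem 1)
    have hφ : G.φ ⟨_, hgV⟩ = -1 := by
      rw [G.φ_const 1 ⟨_, hsV⟩ hgV, G.φ_smul ⟨_, hinv⟩ f, hπ, zero_smul, map_one, map_one,
        zero_sub]
    have hsmall : P.adicValuation (c⁻¹ • (f : F) - algebraMap K F ((1 : A) : K)) < 1 := by
      have : c⁻¹ • (f : F) - algebraMap K F ((1 : A) : K) =
          c⁻¹ • ((f : F) - algebraMap K F c) := by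
        rw [smul_sub, Algebra.smul_def c⁻¹ (algebraMap K F c), ← map_mul, inv_mul_cancel₀ hc0]
        rfl
      rw [this, Algebra.smul_def, map_mul]
      exact lt_of_le_of_lt
        (mul_le_of_le_one_left' (P.adicValuation_algebraMap_le_one _)) hc
    have := key ⟨_, hgV⟩ (by rw [hφ]; simp) (fun v hv => hord c⁻¹ _ v (hf v hv)) hsmall
    rw [hφ, ord_neg, Place.ord_one] at this
    omega

/-- regularity: if no pole of `f` reduces to `Q`, then `φ f` is regular at `Q` -/
theorem adicValuation_φ_le_one (Q : Place k Fb) (f : G.V)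
    (hf : ∀ P, G.placeMap P = Q → 0 ≤ P.ord (f : F)) : Q.adicValuation (G.φ f) ≤ 1 := by
  classical
  haveI := G.isFunctionFieldOne
  rw [Place.adicValuation_le_one_iff]
  refine or_iff_not_imp_left.2 fun h => ?_
  rw [← G.isReductionMap_placeMap f h _ (divisorOf_apply _), Finsupp.mapDomain, Finsupp.sum_apply]
  refine Finset.sum_nonneg fun v _ => ?_
  dsimp only
  rw [Finsupp.single_apply]
  split_ifs with hv
  · exact hf v hv
  · exact le_rfl

/-- every divisor is equivalent to one whose reduction avoids a given finite set of places -/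
theorem exists_equiv_avoid (D : Divisor K F) (S : Finset (Place k Fb)) :
    ∃ D' : Divisor K F, D' - D ∈ Divisor.principal (K := K) (F := F) ∧
      ∀ P ∈ D'.support, G.placeMap P ∉ S := by
  classical
  haveI := G.isAlgClosed_residue
  haveI := G.isFunctionFieldOne
  haveI := G.isFunctionFieldOne_special
  obtain ⟨c, hc0, hc⟩ := exists_degree_le_of_finrank (K := k) (F := Fb)
  obtain ⟨P₀⟩ := nonempty_place (K := K) (F := F)
  have key : ∀ D : Divisor K F, 0 ≤ D → c ≤ Divisor.degree D →
      ∃ D' : Divisor K F, D' - D ∈ Divisor.principal (K := K) (F := F) ∧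
        ∀ P ∈ D'.support, G.placeMap P ∉ S := by
    intro D hD hdeg
    obtain ⟨y, hy, hy0, hle, hyS⟩ := G.exists_red_element hD S
    have hpole : poleDivisor k y ≤ G.divMap D := by
      rw [poleDivisor_le_iff (by simpa using G.divMap_mono hD)]
      exact G.reduceSubspace_riemannRochSpace_le D hy
    have heq : poleDivisor k y = G.divMap D := by
      refine eq_of_le_of_degree_le hpole ?_
      rw [G.degree_divMap]
      refine hc _ _ hdeg ?_
      haveI := finite_L D
      haveI := finite_L (poleDivisor k y)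
      have h1 := Submodule.finrank_mono hle
      have h2 := le_finrank_L D
      rw [G.finrank_reduceSubspace] at h1
      rw [G.genus_eq]
      omega
    obtain ⟨f, hf, rfl⟩ := hy
    have hf0 : (f : F) ≠ 0 := G.coe_ne_zero_of_φ_ne_zero hy0
    refine ⟨divisorOf K (f : F) + D, ⟨(f : F), hf0, fun P => ?_⟩, fun P hP hPS => ?_⟩
    · simp
    · have hnn : ∀ v, 0 ≤ (divisorOf K (f : F) + D) v := fun v => by
        have := (mem_L_iff hf0).1 hf v
        rw [Finsupp.add_apply, divisorOf_apply]
        omega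
      have hpos : 0 < (divisorOf K (f : F) + D) P :=
        lt_of_le_of_ne (hnn P) (Ne.symm (Finsupp.mem_support_iff.1 hP))
      have hmap : 0 < G.divMap (divisorOf K (f : F) + D) (G.placeMap P) := by
        rw [divMap_apply, Finsupp.mapDomain, Finsupp.sum_apply]
        refine Finset.sum_pos' (fun v _ => ?_) ⟨P, hP, ?_⟩
        · dsimp only
          rw [Finsupp.single_apply]
          split_ifs
          · exact hnn v
          · exact le_rfl
        · dsimp only
          rw [Finsupp.single_eq_same]; exact hpos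
      rw [map_add, Finsupp.add_apply, G.divMap_apply_eq_ord f hy0 (divisorOf_apply _),
        hyS _ hPS, heq] at hmap
      omega
  let Dneg : Divisor K F := D.mapRange (fun n => max (-n) 0) (by simp)
  let H : Divisor K F := Finsupp.single P₀ (c + |Divisor.degree D|)
  have hn0 : 0 ≤ Dneg := Finsupp.le_def.2 fun v => by simp [Dneg]
  have hp0 : 0 ≤ D + Dneg := Finsupp.le_def.2 fun v => by
    simp only [Dneg, Finsupp.add_apply, Finsupp.mapRange_apply, Finsupp.zero_apply]
    omega
  have hH : 0 ≤ H := single_nonneg' P₀ (by positivity)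
  have hdegH : c ≤ Divisor.degree H := by
    rw [Divisor.degree_single, deg_one]
    simp
  obtain ⟨D₁, hD₁, hS₁⟩ := key (D + Dneg + H) (add_nonneg hp0 hH)
    (by rw [map_add]; have := degree_nonneg hp0; omega)
  obtain ⟨D₂, hD₂, hS₂⟩ := key (Dneg + H) (add_nonneg hn0 hH)
    (by rw [map_add]; have := degree_nonneg hn0; omega)
  refine ⟨D₁ - D₂, ?_, fun P hP => ?_⟩
  · have := sub_mem hD₁ hD₂
    convert this using 1
    abel
  · rcases Finset.mem_union.1 (Finsupp.support_sub hP) with h | h
    · exact hS₁ P h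
    · exact hS₂ P h

theorem divMap_mem_principal {D : Divisor K F}
    (hD : D ∈ Divisor.principal (K := K) (F := F)) :
    G.divMap D ∈ Divisor.principal (K := k) (F := Fb) := by
  obtain ⟨g, hg, hgD⟩ := hD
  obtain ⟨a, ha, haφ⟩ := G.exists_scale g hg
  have ha0 : a ≠ 0 := fun h => haφ (by
    rw [show (⟨a • g, ha⟩ : G.V) = 0 from Subtype.ext (by simp [h]), map_zero])
  refine ⟨G.φ ⟨_, ha⟩, haφ, fun Q => G.divMap_apply_eq_ord _ haφ (fun P => ?_) Q⟩
  rw [hgD P]
  exact (RedAux.ord_const_smul P ha0 g).symm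

theorem divMap_mem_degZero {D : Divisor K F} (hD : D ∈ Divisor.degZero (K := K) (F := F)) :
    G.divMap D ∈ Divisor.degZero (K := k) (F := Fb) := by
  rwa [Divisor.mem_degZero, G.degree_divMap]

/-- reduction of divisors of degree zero -/
def reductionDegZero :
    Divisor.degZero (K := K) (F := F) →+ Divisor.degZero (K := k) (F := Fb) :=
  (G.divMap.domRestrict (Divisor.degZero (K := K) (F := F))).codRestrict _
    fun D => G.divMap_mem_degZero D.2

theorem coe_reductionDegZero (D : Divisor.degZero (K := K) (F := F)) :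
    (G.reductionDegZero D : Divisor k Fb) = G.divMap (D : Divisor K F) := rfl

/-- reduction of divisor classes of degree zero -/
def reductionPic0 : Pic0 K F →+ Pic0 k Fb :=
  QuotientAddGroup.map _ _ G.reductionDegZero (by
    rintro ⟨D, hD0⟩ hD
    simp only [AddSubgroup.mem_addSubgroupOf] at hD ⊢
    exact G.divMap_mem_principal hD)

theorem reductionPic0_mk (D : Divisor.degZero (K := K) (F := F)) :
    G.reductionPic0 (Pic0.mk D) = Pic0.mk (G.reductionDegZero D) := rfl

theorem reductionPic0_surjective : Function.Surjective G.reductionPic0 := by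
  intro x
  obtain ⟨⟨E, hE⟩, rfl⟩ := Pic0.mk_surjective x
  obtain ⟨D, hD⟩ := Finsupp.mapDomain_surjective G.placeMap_surjective E
  have hD0 : D ∈ Divisor.degZero (K := K) (F := F) := by
    rw [Divisor.mem_degZero, ← G.degree_divMap D, divMap_apply, hD]
    exact hE
  refine ⟨Pic0.mk ⟨D, hD0⟩, ?_⟩
  rw [reductionPic0_mk]
  exact congrArg Pic0.mk (Subtype.ext hD)

end Fermat.Agent.Curve.GoodReduction

end
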