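/-
Existence of the constant field extension: the fraction field of `Ω ⊗[K] F`.
-/
import Fermat.Agent.Curve.ConstExtMk
import Mathlib.RingTheory.Localization.FractionRing

set_option autoImplicit false

noncomputable section

namespace Fermat.Agent.Curve

open AlgebraicCurve TensorProduct

universe uK uF uΩ

variable (K : Type uK) (F : Type uF) (Ω : Type uΩ) [Field K] [Field F] [Field Ω]
  [Algebra K F] [Algebra K Ω] [IsAlgClosed K]

/-- The constant field extension of `F/K` to `Ω`. -/
def ConstExtField : Type (max uΩ uF) := FractionRing (Ω ⊗[K] F)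

instance : Field (ConstExtField K F Ω) :=
  haveI : IsDomain (Ω ⊗[K] F) := isDomain_tensorProduct F
  inferInstanceAs (Field (FractionRing (Ω ⊗[K] F)))

/-- The canonical map from the tensor product. -/
def toConstExtField : Ω ⊗[K] F →+* ConstExtField K F Ω :=
  algebraMap (Ω ⊗[K] F) (FractionRing (Ω ⊗[K] F))

instance : Algebra Ω (ConstExtField K F Ω) :=
  ((toConstExtField K F Ω).comp Algebra.TensorProduct.includeLeftRingHom).toAlgebra

instance : Algebra F (ConstExtField K F Ω) :=
  ((toConstExtField K F Ω).comp
    (Algebra.TensorProduct.includeRight : F →ₐ[K] Ω ⊗[K] F).toRingHom).toAlgebra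

instance : Algebra K (ConstExtField K F Ω) :=
  ((algebraMap Ω (ConstExtField K F Ω)).comp (algebraMap K Ω)).toAlgebra

instance : IsScalarTower K Ω (ConstExtField K F Ω) :=
  IsScalarTower.of_algebraMap_eq fun _ => rfl

instance : IsScalarTower K F (ConstExtField K F Ω) :=
  IsScalarTower.of_algebraMap_eq fun a => by
    show toConstExtField K F Ω _ = toConstExtField K F Ω _
    exact congrArg _
      ((Algebra.TensorProduct.includeRight : F →ₐ[K] Ω ⊗[K] F).commutes a).symm

theorem extConstMap_constExtField (h : Ω ⊗[K] F) :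
    extConstMap K F Ω (ConstExtField K F Ω) h = toConstExtField K F Ω h := by
  induction h using TensorProduct.induction_on with
  | zero => simp
  | tmul c f =>
    rw [extConstMap_tmul]
    show toConstExtField K F Ω (c ⊗ₜ 1) * toConstExtField K F Ω (1 ⊗ₜ f) = _
    rw [← map_mul, Algebra.TensorProduct.tmul_mul_tmul, mul_one, one_mul]
  | add x y hx hy => rw [map_add, map_add, hx, hy]

instance : IsConstExt K F Ω (ConstExtField K F Ω) := by
  haveI : IsDomain (Ω ⊗[K] F) := isDomain_tensorProduct F
  have hinj : Function.Injective (toConstExtField K F Ω) :=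
    IsFractionRing.injective (Ω ⊗[K] F) (FractionRing (Ω ⊗[K] F))
  refine ⟨fun a b h => hinj (by rwa [extConstMap_constExtField, extConstMap_constExtField] at h),
    fun e => ?_⟩
  obtain ⟨a, b, hb, h⟩ := IsFractionRing.div_surjective (A := Ω ⊗[K] F)
    (K := FractionRing (Ω ⊗[K] F)) e
  have hb0 : toConstExtField K F Ω b ≠ 0 :=
    (map_ne_zero_iff _ hinj).mpr (nonZeroDivisors.ne_zero hb)
  refine ⟨a, b, by rwa [extConstMap_constExtField], ?_⟩
  rw [extConstMap_constExtField, extConstMap_constExtField]
  exact ((div_eq_iff hb0).mp h).symm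

end Fermat.Agent.Curve
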