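/-
Finite extensions of function fields: fundamental identity and norm formula.
-/
import Fermat.Agent.Curve.BasicFunctionField
import Mathlib.FieldTheory.IntermediateField.Basic
import Mathlib.RingTheory.IntegralClosure.Algebra.Basic
import Fermat.Prelude.Def_AlgebraicCurve_DivisorPushPull
import Fermat.Prelude.Def_AlgebraicCurve_Correspondence

set_option autoImplicit false

noncomputable section

namespace Fermat.Agent.Curve

open AlgebraicCurve IntermediateField

section Tower

variable {K F F' : Type*} [Field K] [Field F] [Field F'] [Algebra K F] [Algebra K F']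
  [Algebra F F'] [IsScalarTower K F F']

omit [IsScalarTower K F F'] in
theorem transcendental_algebraMap [IsScalarTower K F F'] {t : F} (ht : Transcendental K t) :
    Transcendental K (algebraMap F F' t) :=
  (transcendental_algebraMap_iff (algebraMap F F').injective).mpr ht

/-- `[F' : K(t)] = [F' : F] [F : K(t)]`. -/
theorem finrank_adjoin_algebraMap (t : F) :
    Module.finrank K⟮algebraMap F F' t⟯ F' = Module.finrank K⟮t⟯ F * Module.finrank F F' := by
  rw [Module.finrank_mul_finrank K⟮t⟯ F F']
  let e : K⟮t⟯ ≃ₐ[K] K⟮algebraMap F F' t⟯ :=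
    (IntermediateField.equivMap K⟮t⟯ (IsScalarTower.toAlgHom K F F')).trans
      (IntermediateField.equivOfEq (by rw [IntermediateField.adjoin_map, Set.image_singleton]; rfl))
  refine (Algebra.finrank_eq_of_equiv_equiv e.toRingEquiv (RingEquiv.refl F') ?_).symm
  ext x
  rfl

theorem finite_adjoin_algebraMap_iff (t : F) :
    Module.Finite K⟮algebraMap F F' t⟯ F' ↔ Module.Finite K⟮t⟯ F' := by
  let e : K⟮t⟯ ≃ₐ[K] K⟮algebraMap F F' t⟯ :=
    (IntermediateField.equivMap K⟮t⟯ (IsScalarTower.toAlgHom K F F')).trans
      (IntermediateField.equivOfEq (by rw [IntermediateField.adjoin_map, Set.image_singleton]; rfl))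
  constructor <;> intro h
  · exact Module.Finite.of_equiv_equiv e.toRingEquiv.symm (RingEquiv.refl F') (by
      ext x
      obtain ⟨y, rfl⟩ := e.surjective x
      simp only [RingHom.coe_comp, Function.comp_apply, RingEquiv.toRingHom_eq_coe, RingEquiv.coe_toRingHom,
        RingEquiv.refl_apply]
      rw [show e.toRingEquiv.symm (e y) = y from e.symm_apply_apply y]
      rfl)
  · exact Module.Finite.of_equiv_equiv e.toRingEquiv (RingEquiv.refl F') (by ext x; rfl)

/-- A finite extension of a function field is a function field. -/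
theorem IsFunctionFieldOne.of_finite_extension [IsFunctionFieldOne K F] [Module.Finite F F'] :
    IsFunctionFieldOne K F' := by
  obtain ⟨x, hx, hfin⟩ := IsFunctionFieldOne.exists_transcendental_finite (K := K) (F := F)
  exact ⟨⟨algebraMap F F' x, transcendental_algebraMap hx,
    (finite_adjoin_algebraMap_iff x).mpr (Module.Finite.trans F F')⟩⟩

/-- A subfield over which a function field is finite is a function field. -/
theorem IsFunctionFieldOne.of_finite_subextension [IsFunctionFieldOne K F'] [Module.Finite F F'] :
    IsFunctionFieldOne K F := by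
  obtain ⟨x, hx, -⟩ := IsFunctionFieldOne.exists_transcendental_finite (K := K) (F := F')
  obtain ⟨t, ht⟩ : ∃ t : F, Transcendental K t := by
    by_contra! h
    have : Algebra.IsAlgebraic K F := ⟨fun t => not_not.mp (h t)⟩
    have : Algebra.IsAlgebraic K F' := Algebra.IsAlgebraic.trans K F F'
    exact hx (Algebra.IsAlgebraic.isAlgebraic x)
  have : Module.Finite K⟮t⟯ F' :=
    (finite_adjoin_algebraMap_iff t).mp (finite_adjoin_of_transcendental (transcendental_algebraMap ht))
  exact ⟨⟨t, ht, Module.Finite.left K⟮t⟯ F F'⟩⟩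

/-- An extension of function fields is finite. -/
theorem finite_of_isFunctionFieldOne [IsFunctionFieldOne K F] [IsFunctionFieldOne K F'] :
    Module.Finite F F' := by
  obtain ⟨x, hx, -⟩ := IsFunctionFieldOne.exists_transcendental_finite (K := K) (F := F)
  have : Module.Finite K⟮x⟯ F' :=
    (finite_adjoin_algebraMap_iff x).mp (finite_adjoin_of_transcendental (transcendental_algebraMap hx))
  exact Module.Finite.of_restrictScalars_finite K⟮x⟯ F F'

variable [Algebra.IsIntegral F F'] [IsFunctionFieldOne K F'] [Module.Finite F F']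

theorem sum_fiber_mul_deg (v : Place K F) :
    ∑ w ∈ v.fiber F', (w.ramificationIndex F : ℤ) * (w.deg : ℤ)
      = (v.deg : ℤ) * ∑ w ∈ v.fiber F', ((w.ramificationIndex F * w.inertiaDeg F : ℕ) : ℤ) := by
  rw [Finset.mul_sum]
  refine Finset.sum_congr rfl fun w hw => ?_
  rw [← w.deg_restrict_mul_inertiaDeg (F := F), Place.mem_fiber.mp hw]
  push_cast
  ring

theorem sum_fiber_eq_finrank (v : Place K F) :
    ∑ w ∈ v.fiber F', w.ramificationIndex F * w.inertiaDeg F = Module.finrank F F' := by
  classical
  have : IsFunctionFieldOne K F := IsFunctionFieldOne.of_finite_subextension (F' := F')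
  obtain ⟨t, ht0, ht⟩ := exists_uniformizer v
  have htr : Transcendental K t := transcendental_of_ord_ne_zero v (by omega)
  set n := Module.finrank F F' with hn
  set Z := zeroDivisor K t with hZ
  have hle : ∀ u : Place K F, ∑ w ∈ u.fiber F', w.ramificationIndex F * w.inertiaDeg F ≤ n :=
    fun u => sum_ramificationIndex_mul_inertiaDeg_le fun w hw => Place.mem_fiber.mp hw
  have hpull : Divisor.pullback F' Z = zeroDivisor K (algebraMap F F' t) := by
    ext w
    rw [Divisor.pullback_apply, hZ, zeroDivisor_apply, zeroDivisor_apply, w.ord_restrict,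
      mul_max_of_nonneg _ _ (Int.natCast_nonneg _), mul_zero]
  have hdeg : Divisor.degree (Divisor.pullback F' Z) =
      ∑ u ∈ Z.support, Z u * ((u.deg : ℤ) *
        ∑ w ∈ u.fiber F', ((w.ramificationIndex F * w.inertiaDeg F : ℕ) : ℤ)) := by
    conv_lhs => rw [← Z.sum_single]
    rw [Finsupp.sum, map_sum, map_sum]
    refine Finset.sum_congr rfl fun u _ => ?_
    rw [Divisor.pullback_single, map_sum, ← sum_fiber_mul_deg, Finset.mul_sum]
    exact Finset.sum_congr rfl fun w _ => by rw [Divisor.degree_single]; ring
  have hdegZ : Divisor.degree Z = ∑ u ∈ Z.support, Z u * (u.deg : ℤ) := by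
    conv_lhs => rw [← Z.sum_single]
    rw [Finsupp.sum, map_sum]
    exact Finset.sum_congr rfl fun u _ => Divisor.degree_single u _
  have key : ∑ u ∈ Z.support, Z u * ((u.deg : ℤ) *
        ∑ w ∈ u.fiber F', ((w.ramificationIndex F * w.inertiaDeg F : ℕ) : ℤ))
      = ∑ u ∈ Z.support, Z u * ((u.deg : ℤ) * (n : ℤ)) := by
    have h1 : ∑ u ∈ Z.support, Z u * ((u.deg : ℤ) * (n : ℤ)) = Divisor.degree Z * n := by
      rw [hdegZ, Finset.sum_mul]
      exact Finset.sum_congr rfl fun u _ => by ring
    rw [h1, ← hdeg, hpull, degree_zeroDivisor (transcendental_algebraMap htr), hZ,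
      degree_zeroDivisor htr, finrank_adjoin_algebraMap]
    push_cast
    rfl
  have hv : v ∈ Z.support := by rw [Finsupp.mem_support_iff, hZ, zeroDivisor_apply, ht]; decide
  have hterm := (Finset.sum_eq_sum_iff_of_le fun u _ => ?_).mp key v hv
  · rw [hZ, zeroDivisor_apply, ht, max_eq_left (by decide : (0:ℤ) ≤ 1), one_mul, one_mul] at hterm
    have := mul_left_cancel₀ (by exact_mod_cast (deg_pos v).ne') hterm
    exact_mod_cast this
  · refine mul_le_mul_of_nonneg_left (mul_le_mul_of_nonneg_left ?_ (Int.natCast_nonneg _))
      (by rw [hZ, zeroDivisor_apply]; exact le_max_right _ _)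
    rw [← Nat.cast_sum]
    exact_mod_cast hle u

instance (priority := 100) sumRamificationInertia_of_isFunctionFieldOne :
    SumRamificationInertia K F F' :=
  ⟨fun v => by exact_mod_cast sum_fiber_eq_finrank (F' := F') v⟩

theorem exists_restrict_eq (v : Place K F) : ∃ w : Place K F', w.restrict F = v := by
  by_contra! h
  have h1 := sum_fiber_eq_finrank (F' := F') v
  rw [show v.fiber F' = ∅ from Finset.eq_empty_of_forall_notMem fun w hw => h w (Place.mem_fiber.mp hw),
    Finset.sum_empty] at h1
  exact Module.finrank_pos.ne h1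

/-- The order of a norm. -/
theorem ord_norm_eq_sum_fiber (v : Place K F) {y : F'} (hy : y ≠ 0) :
    v.ord (Algebra.norm F y) = ∑ w ∈ v.fiber F', w.ord y * (w.inertiaDeg F : ℤ) :=
  ord_norm (fun w hw => Place.mem_fiber.mp hw) (sum_fiber_eq_finrank v) hy

theorem pushforwardNormFormula_of_isFunctionFieldOne :
    Divisor.PushforwardNormFormula K F F' := by
  classical
  intro f hf D hD v
  rw [Divisor.pushforward_apply, ord_norm_eq_sum_fiber v hf, ← Finset.sum_filter]
  refine (Finset.sum_congr rfl fun w _ => by rw [hD w]).trans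
    (Finset.sum_subset (fun w hw => ?_) fun w hw hwn => ?_)
  · exact Place.mem_fiber.mpr (Finset.mem_filter.mp hw).2
  · simp only [Finset.mem_filter, not_and] at hwn
    rw [← hD w]
    by_cases h : w ∈ D.support
    · exact absurd (Place.mem_fiber.mp hw) (hwn h)
    · rw [Finsupp.notMem_support_iff.mp h, zero_mul]

end Tower

section Along

variable {K F F' : Type*} [Field K] [Field F] [Field F'] [Algebra K F] [Algebra K F']
variable (φ : F →ₐ[K] F')

theorem finiteAlong [IsFunctionFieldOne K F] [IsFunctionFieldOne K F'] : FiniteAlong K φ :=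
  letI := algebraAlong φ
  haveI := isScalarTower_along φ
  finite_of_isFunctionFieldOne (K := K) (F := F) (F' := F')

theorem isIntegral_of_finiteAlong (hfin : FiniteAlong K φ) : φ.toRingHom.IsIntegral := by
  letI := algebraAlong φ
  haveI : Module.Finite F F' := hfin
  intro x
  exact Algebra.IsIntegral.isIntegral (R := F) x

theorem isIntegral_toRingHom [IsFunctionFieldOne K F] [IsFunctionFieldOne K F'] :
    φ.toRingHom.IsIntegral :=
  isIntegral_of_finiteAlong φ (finiteAlong φ)

variable [IsFunctionFieldOne K F']

theorem fundamentalIdentityAlong (hφ : φ.toRingHom.IsIntegral) (hfin : FiniteAlong K φ)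
    [HasPrincipalDivisors K F'] : FundamentalIdentityAlong K φ hφ := by
  letI := algebraAlong φ
  haveI := isScalarTower_along φ
  haveI := isIntegral_along φ hφ
  haveI : Module.Finite F F' := hfin
  exact instFundamentalIdentityOfSumRamificationInertia

theorem normFormulaAlong (hfin : FiniteAlong K φ) : NormFormulaAlong K φ hfin := by
  letI := algebraAlong φ
  haveI := isScalarTower_along φ
  haveI : Module.Finite F F' := hfin
  exact pushforwardNormFormula_of_isFunctionFieldOne

end Along

end Fermat.Agent.Curve

end
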