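/-
Two-chart integral models of a function field over a valuation subring of the constants.

`IntegralChart A x`: a subring of `F`, finite over `A[x]`, whose span over `K` is the integral
closure of `K[x]` and whose special fibre is smooth, i.e. at every maximal ideal containing the
maximal ideal of `A` the maximal ideal of the special fibre is principal after localisation.
Reducedness, flatness and the rank of the special fibre are consequences, not hypotheses.
-/
import Fermat.Agent.Curve.Setup
import Mathlib.RingTheory.FiniteType
import Mathlib.Algebra.Polynomial.AlgebraMap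
import Mathlib.RingTheory.IntegralClosure.IsIntegral.Basic

set_option autoImplicit false

namespace Fermat.Agent.Curve

open Polynomial IntermediateField

universe uK uF

variable {K : Type uK} [Field K] {F : Type uF} [Field F] [Algebra K F]

/-- The constants of `A` inside `F`. -/
noncomputable def constHom (A : ValuationSubring K) : A →+* F :=
  (algebraMap K F).comp A.subtype

@[simp] theorem constHom_apply (A : ValuationSubring K) (a : A) :
    (constHom A a : F) = algebraMap K F (a : K) := rfl

/-- Polynomials with coefficients in `A`, evaluated at `x`. -/
noncomputable def polyHom (A : ValuationSubring K) (x : F) : A[X] →+* F :=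
  Polynomial.eval₂RingHom (constHom A) x

/-- The valuation attached to `A` has rank at most one. -/
def RankLeOne (A : ValuationSubring K) : Prop :=
  ∀ a d : A, a ∈ IsLocalRing.maximalIdeal A → d ≠ 0 → ∃ n : ℕ, d ∣ a ^ n

/-- A smooth integral chart over `A[x]`. -/
structure IntegralChart (A : ValuationSubring K) (x : F) where
  /-- the ring of the chart -/
  ring : Subring F
  poly_mem : ∀ p : A[X], polyHom A x p ∈ ring
  finite : ((polyHom A x).codRestrict ring poly_mem).Finite
  span : ∀ f : F, IsIntegral (Algebra.adjoin K ({x} : Set F)) f →
    ∃ a : A, a ≠ 0 ∧ constHom A a * f ∈ ring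
  smooth : ∀ P : Ideal ring, P.IsMaximal →
    (IsLocalRing.maximalIdeal A).map (((polyHom A x).codRestrict ring poly_mem).comp C) ≤ P →
    ∃ t ∈ P, ∀ y ∈ P, ∃ s, s ∉ P ∧ s * y ∈ Ideal.span {t} ⊔
      (IsLocalRing.maximalIdeal A).map (((polyHom A x).codRestrict ring poly_mem).comp C)

namespace IntegralChart

variable {A : ValuationSubring K} {x : F} (R : IntegralChart A x)

/-- The structure map of the chart. -/
noncomputable def polyMap : A[X] →+* R.ring := (polyHom A x).codRestrict R.ring R.poly_mem

/-- The constants in the chart. -/
noncomputable def constMap : A →+* R.ring := R.polyMap.comp C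

@[simp] theorem coe_polyMap (p : A[X]) : (R.polyMap p : F) = polyHom A x p := rfl

@[simp] theorem coe_constMap (a : A) : (R.constMap a : F) = algebraMap K F (a : K) :=
  eval₂_C (constHom A) x

/-- The ideal of the special fibre. -/
noncomputable def specialIdeal : Ideal R.ring :=
  (IsLocalRing.maximalIdeal A).map R.constMap

end IntegralChart

/-- Two smooth integral charts, over `A[x]` and `A[1/x]`, with the same ring over `A[x, 1/x]`. -/
structure TwoChartModel (A : ValuationSubring K) (F : Type uF) [Field F] [Algebra K F] where
  /-- the function to the projective line -/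
  x : F
  transcendental : Transcendental K x
  finiteDimensional : FiniteDimensional K⟮x⟯ F
  /-- the chart over `A[x]` -/
  chart0 : IntegralChart A x
  /-- the chart over `A[1/x]` -/
  chart1 : IntegralChart A x⁻¹
  glue0 : ∀ f ∈ chart0.ring, ∃ N : ℕ, f * x⁻¹ ^ N ∈ chart1.ring
  glue1 : ∀ f ∈ chart1.ring, ∃ N : ℕ, f * x ^ N ∈ chart0.ring

end Fermat.Agent.Curve
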