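/-
Connectedness of the special fibre of a two-term (Čech) complex over a valuation ring.

`p₁ p₂ : R →ₐ[A] S` are two maps of algebras over a valuation ring `A` (typically
`R = R₁ × R₂` the two charts and `S` their overlap).  If the equalizer over `A` consists of
constants only, if the torsion of the cokernel of `p₁ - p₂` is killed by a single non-zero
scalar (e.g. the cokernel is a finite `A`-module), and if `A` has rank at most one, then every
idempotent of the equalizer of the reductions is constant.  The proof is the Newton iteration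
`e ↦ 3e² - 2e³`.
-/
import Mathlib.RingTheory.Valuation.ValuationRing
import Mathlib.RingTheory.Ideal.Maps
import Mathlib.RingTheory.LocalRing.MaximalIdeal.Basic
import Mathlib.RingTheory.LocalRing.Module
import Mathlib.RingTheory.Flat.TorsionFree
import Mathlib.RingTheory.KrullDimension.Basic
import Mathlib.RingTheory.Finiteness.Basic
import Mathlib.RingTheory.Noetherian.Basic
import Mathlib.LinearAlgebra.Prod
import Mathlib.FieldTheory.IsAlgClosed.Basic

set_option autoImplicit false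

namespace Fermat.Agent.Curve.Connected

open IsLocalRing

universe uA uR uS

variable {A : Type uA} [CommRing A] [IsDomain A] [ValuationRing A]

/-- An element of `𝔪R` is a multiple of a single element of `𝔪`. -/
theorem exists_smul_of_mem_map_maximalIdeal {R : Type uR} [CommRing R] [Algebra A R]
    {x : R} (hx : x ∈ (maximalIdeal A).map (algebraMap A R)) :
    ∃ δ ∈ maximalIdeal A, ∃ r : R, x = δ • r := by
  induction hx using Submodule.span_induction with
  | mem x hx =>
    obtain ⟨a, ha, rfl⟩ := hx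
    exact ⟨a, ha, 1, by rw [Algebra.smul_def, mul_one]⟩
  | zero => exact ⟨0, Submodule.zero_mem _, 0, by rw [smul_zero]⟩
  | add x y _ _ hx hy =>
    obtain ⟨a, ha, r, rfl⟩ := hx
    obtain ⟨b, hb, s, rfl⟩ := hy
    rcases ValuationRing.dvd_total a b with ⟨c, rfl⟩ | ⟨c, rfl⟩
    · exact ⟨a, ha, r + c • s, by rw [smul_add, mul_smul]⟩
    · exact ⟨b, hb, c • r + s, by rw [smul_add, mul_smul]⟩
  | smul t x _ hx =>
    obtain ⟨a, ha, r, rfl⟩ := hx
    exact ⟨a, ha, t * r, by rw [smul_eq_mul, mul_smul_comm]⟩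

/-- Two elements of the maximal ideal have a common divisor in the maximal ideal. -/
theorem exists_common_dvd {a b : A} (ha : a ∈ maximalIdeal A) (hb : b ∈ maximalIdeal A) :
    ∃ d ∈ maximalIdeal A, d ∣ a ∧ d ∣ b := by
  rcases ValuationRing.dvd_total a b with h | h
  · exact ⟨a, ha, dvd_rfl, h⟩
  · exact ⟨b, hb, h, dvd_rfl⟩

section Newton

variable {R : Type uR} [CommRing R] [Algebra A R] {S : Type uS} [CommRing S] [Algebra A S]
  (p₁ p₂ : R →ₐ[A] S)

/-- Newton iteration: an approximate idempotent lift can be made arbitrarily good. -/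
theorem exists_newton_lift (δ : A) (v : R) (h : S) (r : R)
    (hv : p₁ v - p₂ v = δ • h) (hr : v * v - v = δ • r) (n : ℕ) :
    ∃ (v' r' : R) (h' : S), (∃ w : R, v' - v = δ • w) ∧
      p₁ v' - p₂ v' = δ ^ (n + 1) • h' ∧ v' * v' - v' = δ ^ (n + 1) • r' := by
  induction n with
  | zero => exact ⟨v, r, h, ⟨0, by simp⟩, by simpa using hv, by simpa using hr⟩
  | succ n ih =>
    obtain ⟨u, s, g, ⟨w, hw⟩, hu, hs⟩ := ih
    set b : A := δ ^ (n + 1) with hb
    refine ⟨3 * u ^ 2 - 2 * u ^ 3,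
      δ ^ n • (s ^ 2 * (4 * (u * u - u) - 3)),
      δ ^ n • (g * (-6 * p₂ s + g * (3 - 6 * p₂ u - 2 * (b • g)))),
      ⟨w + δ ^ n • (s * (1 - 2 * u)), ?_⟩, ?_, ?_⟩
    · have : 3 * u ^ 2 - 2 * u ^ 3 - v = (u - v) + (u * u - u) * (1 - 2 * u) := by ring
      rw [this, hw, hs, hb, pow_succ']
      simp only [Algebra.smul_def, map_mul]
      ring
    · have h1 : p₁ u = p₂ u + b • g := by rw [← hu]; ring
      have h2 : p₂ u * p₂ u - p₂ u = b • p₂ s := by
        rw [← map_mul, ← map_sub, hs, map_smul]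
      have key : p₁ (3 * u ^ 2 - 2 * u ^ 3) - p₂ (3 * u ^ 2 - 2 * u ^ 3) =
          (b • g) * (-6 * (p₂ u * p₂ u - p₂ u) + 3 * (b • g) - 6 * p₂ u * (b • g)
            - 2 * ((b • g) * (b • g))) := by
        simp only [map_sub, map_mul, map_pow, map_ofNat, h1]
        ring
      rw [key, h2, hb]
      simp only [Algebra.smul_def, map_mul, map_pow]
      ring
    · have key : (3 * u ^ 2 - 2 * u ^ 3) * (3 * u ^ 2 - 2 * u ^ 3) - (3 * u ^ 2 - 2 * u ^ 3) =
          (u * u - u) ^ 2 * (4 * (u * u - u) - 3) := by ring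
      rw [key, hs, hb]
      simp only [Algebra.smul_def, map_mul, map_pow]
      ring

/-- **Connectedness.** An element which is idempotent and in the equalizer modulo `𝔪` is
constant modulo `𝔪`, as soon as the equalizer over `A` consists of constants, the torsion of
the cokernel of `p₁ - p₂` is bounded by `c` and `A` is archimedean. -/
theorem exists_const_sub_mem
    (heq : ∀ r : R, p₁ r = p₂ r → ∃ a : A, r = algebraMap A R a)
    {c : A} (hc0 : c ≠ 0)
    (hc : ∀ (b : A) (r : R) (h : S), b ≠ 0 → p₁ r - p₂ r = b • h →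
      ∃ y : R, p₁ y - p₂ y = c • h)
    (harch : ∀ a δ : A, a ≠ 0 → δ ∈ maximalIdeal A → ∃ n : ℕ, ¬δ ^ n ∣ a)
    {e : R} (he : e * e - e ∈ (maximalIdeal A).map (algebraMap A R))
    (hd : p₁ e - p₂ e ∈ (maximalIdeal A).map (algebraMap A S)) :
    ∃ a : A, e - algebraMap A R a ∈ (maximalIdeal A).map (algebraMap A R) := by
  obtain ⟨δ₁, hδ₁, r, hr⟩ := exists_smul_of_mem_map_maximalIdeal he
  obtain ⟨δ₂, hδ₂, h, hh⟩ := exists_smul_of_mem_map_maximalIdeal hd
  obtain ⟨δ, hδ, ⟨d₁, hd₁⟩, ⟨d₂, hd₂⟩⟩ := exists_common_dvd hδ₁ hδ₂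
  rcases eq_or_ne δ 0 with hδ0 | hδ0
  · obtain ⟨a, rfl⟩ := heq e (sub_eq_zero.mp (by rw [hh, hd₂, hδ0, zero_mul, zero_smul]))
    exact ⟨a, by simp⟩
  obtain ⟨n, hn⟩ := harch c δ hc0 hδ
  obtain ⟨v, -, g, ⟨w, hw⟩, hv, -⟩ := exists_newton_lift p₁ p₂ δ e (d₂ • h) (d₁ • r)
    (by rw [hh, hd₂, mul_smul]) (by rw [hr, hd₁, mul_smul]) n
  have hb : δ ^ (n + 1) ≠ 0 := pow_ne_zero _ hδ0
  have hnb : ¬δ ^ (n + 1) ∣ c := fun h => hn ((pow_dvd_pow δ n.le_succ).trans h)
  obtain ⟨s, hs⟩ : c ∣ δ ^ (n + 1) := (ValuationRing.dvd_total _ _).resolve_right hnb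
  have hsm : s ∈ maximalIdeal A := fun hu => hnb (by
    rw [hs]; exact (mul_dvd_mul_iff_left hc0).2 hu.dvd |>.trans (by rw [mul_one]))
  obtain ⟨y, hy⟩ := hc _ v g hb hv
  obtain ⟨a, ha⟩ := heq (v - s • y) (by
    have : p₁ v - p₂ v = s • (p₁ y - p₂ y) := by rw [hv, hy, hs, mul_comm, mul_smul]
    simp only [map_sub, map_smul]
    rw [smul_sub] at this
    linear_combination this)
  refine ⟨a, ?_⟩
  have hmem : ∀ (t : A) (x : R), t ∈ maximalIdeal A →
      t • x ∈ (maximalIdeal A).map (algebraMap A R) := fun t x ht => by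
    rw [Algebra.smul_def]
    exact Ideal.mul_mem_right _ _ (Ideal.mem_map_of_mem _ ht)
  have : e - algebraMap A R a = s • y - δ • w := by rw [← ha, ← hw]; ring
  rw [this]
  exact Ideal.sub_mem _ (hmem s y hsm) (hmem δ w hδ)

/-- **No non-trivial idempotent in the special fibre.** -/
theorem idempotent_mem_or_sub_one_mem
    (heq : ∀ r : R, p₁ r = p₂ r → ∃ a : A, r = algebraMap A R a)
    {c : A} (hc0 : c ≠ 0)
    (hc : ∀ (b : A) (r : R) (h : S), b ≠ 0 → p₁ r - p₂ r = b • h →
      ∃ y : R, p₁ y - p₂ y = c • h)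
    (harch : ∀ a δ : A, a ≠ 0 → δ ∈ maximalIdeal A → ∃ n : ℕ, ¬δ ^ n ∣ a)
    {e : R} (he : e * e - e ∈ (maximalIdeal A).map (algebraMap A R))
    (hd : p₁ e - p₂ e ∈ (maximalIdeal A).map (algebraMap A S)) :
    e ∈ (maximalIdeal A).map (algebraMap A R) ∨
      e - 1 ∈ (maximalIdeal A).map (algebraMap A R) := by
  set m := (maximalIdeal A).map (algebraMap A R)
  obtain ⟨a, ha⟩ := exists_const_sub_mem p₁ p₂ heq hc0 hc harch he hd
  by_cases ha0 : a ∈ maximalIdeal A
  · exact Or.inl (by simpa using add_mem ha (Ideal.mem_map_of_mem _ ha0))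
  by_cases ha1 : a - 1 ∈ maximalIdeal A
  · refine Or.inr ?_
    have := add_mem ha (Ideal.mem_map_of_mem (algebraMap A R) ha1)
    rwa [map_sub, map_one, sub_add_sub_cancel] at this
  · -- then `a (a - 1)` is a unit lying in `𝔪R`, so `𝔪R = ⊤`
    have hu : IsUnit (a * (a - 1)) :=
      ((not_not.1 ha0 : IsUnit a)).mul (not_not.1 ha1 : IsUnit (a - 1))
    have hmem : algebraMap A R (a * (a - 1)) ∈ m := by
      have h2 := m.mul_mem_left (e + algebraMap A R a - 1) ha
      have h3 := sub_mem he h2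
      convert h3 using 1
      rw [map_mul, map_sub, map_one]
      ring
    exact Or.inl ((Ideal.eq_top_of_isUnit_mem _ hmem (hu.map _)).symm ▸ Submodule.mem_top)

/-- The same, phrased with reduction maps: the equalizer of the reductions has no idempotents
other than `0` and `1`. -/
theorem eq_zero_or_eq_one_of_reduction {Rb Sb : Type*} [CommRing Rb] [CommRing Sb]
    (φ : R →+* Rb) (ψ : S →+* Sb) (q₁ q₂ : Rb →+* Sb)
    (hφ : Function.Surjective φ)
    (hφker : RingHom.ker φ ≤ (maximalIdeal A).map (algebraMap A R))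
    (hφm : ∀ a ∈ maximalIdeal A, φ (algebraMap A R a) = 0)
    (hψker : RingHom.ker ψ ≤ (maximalIdeal A).map (algebraMap A S))
    (hq₁ : ∀ r, q₁ (φ r) = ψ (p₁ r)) (hq₂ : ∀ r, q₂ (φ r) = ψ (p₂ r))
    (heq : ∀ r : R, p₁ r = p₂ r → ∃ a : A, r = algebraMap A R a)
    {c : A} (hc0 : c ≠ 0)
    (hc : ∀ (b : A) (r : R) (h : S), b ≠ 0 → p₁ r - p₂ r = b • h →
      ∃ y : R, p₁ y - p₂ y = c • h)
    (harch : ∀ a δ : A, a ≠ 0 → δ ∈ maximalIdeal A → ∃ n : ℕ, ¬δ ^ n ∣ a)
    {eb : Rb} (hidem : eb * eb = eb) (heb : q₁ eb = q₂ eb) :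
    eb = 0 ∨ eb = 1 := by
  obtain ⟨e, rfl⟩ := hφ eb
  have hle : (maximalIdeal A).map (algebraMap A R) ≤ RingHom.ker φ :=
    Ideal.map_le_iff_le_comap.2 fun a ha => hφm a ha
  rcases idempotent_mem_or_sub_one_mem p₁ p₂ heq hc0 hc harch (e := e)
      (hφker (by simp [RingHom.mem_ker, hidem]))
      (hψker (by rw [RingHom.mem_ker, map_sub, ← hq₁, ← hq₂, heb, sub_self])) with h | h
  · exact Or.inl (RingHom.mem_ker.1 (hle h))
  · refine Or.inr ?_
    have := RingHom.mem_ker.1 (hle h)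
    rwa [map_sub, map_one, sub_eq_zero] at this

end Newton

/-- The torsion of a finite module over a valuation ring is killed by one non-zero scalar. -/
theorem exists_ne_zero_forall_torsion_smul_eq_zero (Q : Type uR) [AddCommGroup Q] [Module A Q]
    [Module.Finite A Q] :
    ∃ c : A, c ≠ 0 ∧ ∀ (b : A) (x : Q), b ≠ 0 → b • x = 0 → c • x = 0 := by
  classical
  set T := Submodule.torsion A Q
  haveI : Module.Flat A (Q ⧸ T) := by
    rw [Module.Flat.flat_iff_torsion_eq_bot_of_isBezout]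
    exact Submodule.QuotientTorsion.torsion_eq_bot
  haveI : Module.Free A (Q ⧸ T) := Module.free_of_flat_of_isLocalRing
  obtain ⟨σ, hσ⟩ := Module.projective_lifting_property T.mkQ (LinearMap.id)
    (Submodule.Quotient.mk_surjective T)
  let π : Q →ₗ[A] Q := LinearMap.id - σ ∘ₗ T.mkQ
  obtain ⟨s, hs⟩ := (Module.Finite.fg_top : (⊤ : Submodule A Q).FG)
  have hπ : ∀ x, π x ∈ T := fun x => by
    rw [← Submodule.Quotient.mk_eq_zero]
    have := LinearMap.congr_fun hσ (T.mkQ x)
    simp only [LinearMap.comp_apply, LinearMap.id_apply, Submodule.mkQ_apply] at this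
    simp [π, this]
  have hex : ∀ x ∈ s, ∃ a : nonZeroDivisors A, (a : A) • π x = 0 := fun x _ =>
    (Submodule.mem_torsion_iff _).1 (hπ x)
  choose a ha using hex
  refine ⟨∏ x ∈ s.attach, (a x.1 x.2 : A), Finset.prod_ne_zero_iff.2
    (fun x _ => nonZeroDivisors.ne_zero (a x.1 x.2).2), fun b x hb hbx => ?_⟩
  set c := ∏ x ∈ s.attach, (a x.1 x.2 : A)
  have hcπ : ∀ y, c • π y = 0 := by
    intro y
    have hy : y ∈ Submodule.span A (s : Set Q) := hs ▸ Submodule.mem_top
    induction hy using Submodule.span_induction with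
    | mem z hz =>
      obtain ⟨t, ht⟩ := Finset.dvd_prod_of_mem (fun x : {x // x ∈ s} => (a x.1 x.2 : A))
        (Finset.mem_attach s ⟨z, hz⟩)
      rw [show c = (a z hz : A) * t from ht, mul_comm, mul_smul, ha z hz, smul_zero]
    | zero => simp
    | add y z _ _ hy hz => rw [map_add, smul_add, hy, hz, add_zero]
    | smul t y _ hy => rw [map_smul, smul_comm, hy, smul_zero]
  have hxT : x ∈ T :=
    (Submodule.mem_torsion_iff x).2 ⟨⟨b, mem_nonZeroDivisors_of_ne_zero hb⟩, hbx⟩
  have hπx : π x = x := by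
    simp [π, (Submodule.Quotient.mk_eq_zero T).2 hxT]
  simpa [hπx] using hcπ x

/-- The torsion bound required by `exists_const_sub_mem`, from finiteness of the cokernel of
`p₁ - p₂`. -/
theorem exists_torsion_bound {R : Type uR} [CommRing R] [Algebra A R]
    {S : Type uS} [CommRing S] [Algebra A S] (p₁ p₂ : R →ₐ[A] S)
    [Module.Finite A (S ⧸ LinearMap.range (p₁.toLinearMap - p₂.toLinearMap))] :
    ∃ c : A, c ≠ 0 ∧ ∀ (b : A) (r : R) (h : S), b ≠ 0 → p₁ r - p₂ r = b • h →
      ∃ y : R, p₁ y - p₂ y = c • h := by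
  set W := LinearMap.range (p₁.toLinearMap - p₂.toLinearMap)
  obtain ⟨c, hc0, hc⟩ := exists_ne_zero_forall_torsion_smul_eq_zero (A := A) (S ⧸ W)
  refine ⟨c, hc0, fun b r h hb hr => ?_⟩
  have h1 : b • (W.mkQ h) = 0 := by
    rw [← map_smul, ← hr, Submodule.mkQ_apply, Submodule.Quotient.mk_eq_zero]
    exact ⟨r, by simp⟩
  have h2 := hc b (W.mkQ h) hb h1
  rw [← map_smul, Submodule.mkQ_apply, Submodule.Quotient.mk_eq_zero] at h2
  obtain ⟨y, hy⟩ := h2
  exact ⟨y, by simpa using hy⟩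

omit [ValuationRing A] in
/-- A local domain of dimension at most one is archimedean. -/
theorem not_forall_pow_dvd [IsLocalRing A] [Ring.KrullDimLE 1 A] (a δ : A) (ha : a ≠ 0)
    (hδ : δ ∈ maximalIdeal A) : ∃ n : ℕ, ¬δ ^ n ∣ a := by
  rcases eq_or_ne δ 0 with rfl | hδ0
  · exact ⟨1, by simpa using ha⟩
  by_cases hau : IsUnit a
  · exact ⟨1, fun h => hδ (by simpa using isUnit_of_dvd_unit h hau)⟩
  have : δ ∈ (Ideal.span {a}).radical := by
    rw [Ideal.radical_eq_sInf, Submodule.mem_sInf]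
    rintro P ⟨haP, hP⟩
    have hP0 : P ≠ ⊥ := fun h => ha (by
      simpa [h] using haP (Ideal.mem_span_singleton_self a))
    haveI := hP
    rw [IsLocalRing.eq_maximalIdeal
      (Ring.krullDimLE_one_iff_of_noZeroDivisors.mp ‹_› P hP0 hP)]
    exact hδ
  obtain ⟨N, hN⟩ := this
  obtain ⟨t, ht⟩ := Ideal.mem_span_singleton.1 hN
  refine ⟨N + 1, fun ⟨s, hs⟩ => hδ (IsUnit.of_mul_eq_one (t * s) ?_)⟩
  refine mul_left_cancel₀ ha ?_
  rw [mul_one]
  conv_rhs => rw [hs, pow_succ, ht]
  ring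

omit [ValuationRing A] in
/-- Translation of the condition "every element of the maximal ideal is topologically
nilpotent" into the form used here. -/
theorem not_pow_dvd_of_dvd_pow [IsLocalRing A]
    (h : ∀ a d : A, a ∈ maximalIdeal A → d ≠ 0 → ∃ n : ℕ, d ∣ a ^ n) (a δ : A) (ha : a ≠ 0)
    (hδ : δ ∈ maximalIdeal A) : ∃ n : ℕ, ¬δ ^ n ∣ a := by
  rcases eq_or_ne δ 0 with rfl | hδ0
  · exact ⟨1, by simpa using ha⟩
  obtain ⟨n, hn⟩ := h δ (δ * a) hδ (mul_ne_zero hδ0 ha)
  refine ⟨n, fun hna => hδ (IsUnit.of_mul_eq_one ((hn.trans hna).choose) ?_)⟩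
  have := (hn.trans hna).choose_spec
  refine mul_left_cancel₀ ha ?_
  rw [mul_one]
  conv_rhs => rw [this]
  ring

/-- A reduced integral algebra over an algebraically closed field without non-trivial
idempotents consists of constants. -/
theorem exists_algebraMap_eq_of_forall_idempotent {k : Type*} [Field k] [IsAlgClosed k]
    {H : Type*} [CommRing H] [Algebra k H] [IsReduced H]
    (hidem : ∀ e : H, e * e = e → e = 0 ∨ e = 1) {x : H} (hx : IsIntegral k x) :
    ∃ c : k, algebraMap k H c = x := by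
  open Polynomial in
  rcases subsingleton_or_nontrivial H with hH | hH
  · exact ⟨0, Subsingleton.elim _ _⟩
  set p := minpoly k x
  obtain ⟨c, hc⟩ := IsAlgClosed.exists_root p (minpoly.degree_pos hx).ne'
  obtain ⟨q, hpq, hq⟩ := p.exists_eq_pow_rootMultiplicity_mul_and_not_dvd (minpoly.ne_zero hx) c
  set e := p.rootMultiplicity c
  have he : 0 < e := (rootMultiplicity_pos (minpoly.ne_zero hx)).2 hc
  obtain ⟨a, b, hab⟩ : IsCoprime ((X - C c) ^ e) q :=
    (((irreducible_X_sub_C c).coprime_iff_not_dvd).2 hq).pow_left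
  have hzero : aeval x ((X - C c) ^ e) * aeval x q = 0 := by
    rw [← map_mul, ← hpq, minpoly.aeval]
  have hone : aeval x a * aeval x ((X - C c) ^ e) + aeval x b * aeval x q = 1 := by
    rw [← map_mul, ← map_mul, ← map_add, hab, map_one]
  rcases hidem (aeval x b * aeval x q) (by linear_combination (aeval x b * aeval x q) * hone -
    (aeval x a * aeval x b) * hzero) with h | h
  · exfalso
    have h0 : aeval x q = 0 := by
      linear_combination aeval x a * hzero + aeval x q * h - aeval x q * hone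
    have hq0 : q ≠ 0 := fun h0 => hq (h0 ▸ dvd_zero _)
    have hdeg : p.natDegree ≤ q.natDegree := natDegree_le_of_dvd (minpoly.dvd k x h0) hq0
    have : p.natDegree = e + q.natDegree := by
      rw [hpq, natDegree_mul (pow_ne_zero _ (X_sub_C_ne_zero c)) hq0, natDegree_pow,
        natDegree_X_sub_C, mul_one]
    omega
  · refine ⟨c, (sub_eq_zero.mp ?_).symm⟩
    have h0 : aeval x ((X - C c) ^ e) = 0 := by
      linear_combination aeval x b * hzero - aeval x ((X - C c) ^ e) * h
    simp only [map_pow, map_sub, aeval_X, aeval_C] at h0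
    exact eq_zero_of_pow_eq_zero h0

end Fermat.Agent.Curve.Connected
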