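/-
The modular function fields are function fields of one variable (hence curves).
-/
import Fermat.Agent.Curve.BasicInstances
import Fermat.Agent.Curve.BasicExtension
import Fermat.Agent.ModFun.ModularPolynomial
import Fermat.Prelude.Def_ModularCurve_ArithmeticGalois
import Fermat.Prelude.Def_ModularCurve_HeckeOperatorTotal
import Fermat.Prelude.Def_ModularCurve_X0ModL

set_option autoImplicit false

noncomputable section

namespace Fermat.Agent.Curve

open AlgebraicCurve ModularCurve IntermediateField

section Adjoin

variable {K E : Type*} [Field K] [Field E] [Algebra K E]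

/-- A field generated by finitely many elements, all algebraic over `K(x)` for one of them `x`. -/
theorem isFunctionFieldOne_adjoin {S : Set E} (hS : S.Finite) {x : E} (hx : Transcendental K x)
    (hxS : x ∈ IntermediateField.adjoin K S)
    (hint : ∀ y ∈ S, IsIntegral K⟮x⟯ y) :
    IsFunctionFieldOne K (IntermediateField.adjoin K S) := by
  set M := IntermediateField.adjoin K S with hM
  set x' : M := ⟨x, hxS⟩ with hx'
  have hx'tr : Transcendental K x' := fun h => hx (h.algHom M.val)
  -- the subfield `K(x)` computed in `M` and in `E`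
  have hmap : (K⟮x'⟯).map M.val = K⟮x⟯ := by
    rw [IntermediateField.adjoin_map, Set.image_singleton]; rfl
  let e : K⟮x'⟯ ≃ₐ[K] K⟮x⟯ :=
    (IntermediateField.equivMap K⟮x'⟯ M.val).trans (IntermediateField.equivOfEq hmap)
  have he : ∀ z : K⟮x'⟯, ((e z : K⟮x⟯) : E) = M.val (z : M) := fun z => rfl
  have hint' : ∀ y : M, (y : E) ∈ S → IsIntegral K⟮x'⟯ y := by
    intro y hy
    obtain ⟨p, hpm, hp⟩ := hint _ hy
    refine ⟨p.map (e.symm : K⟮x⟯ →+* K⟮x'⟯), hpm.map _, ?_⟩
    apply M.val.injective
    rw [map_zero, Polynomial.eval₂_map]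
    have h := Polynomial.hom_eval₂ p ((algebraMap K⟮x'⟯ M).comp (e.symm : K⟮x⟯ →+* K⟮x'⟯))
      (M.val : M →+* E) y
    refine h.trans (Eq.trans ?_ hp)
    congr 1
    ext z
    show M.val ((e.symm z : K⟮x'⟯) : M) = (z : E)
    rw [← he, AlgEquiv.apply_symm_apply]
  have : Algebra.EssFiniteType K M :=
    IntermediateField.essFiniteType_iff.mpr (IntermediateField.fg_adjoin_of_finite hS)
  have : Algebra.EssFiniteType K⟮x'⟯ M := Algebra.EssFiniteType.of_comp K _ _
  set T : Set M := M.val ⁻¹' S with hT
  have hTfin : T.Finite := hS.preimage M.val.injective.injOn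
  have : FiniteDimensional K⟮x'⟯ (IntermediateField.adjoin K⟮x'⟯ T) := by
    have := hTfin.to_subtype
    exact IntermediateField.finiteDimensional_adjoin fun y hy => hint' y hy
  have htop : IntermediateField.adjoin K⟮x'⟯ T = ⊤ := by
    apply IntermediateField.restrictScalars_injective K
    rw [IntermediateField.restrictScalars_top, IntermediateField.restrictScalars_adjoin, eq_top_iff]
    have hTtop : IntermediateField.adjoin K T = ⊤ := by
      apply IntermediateField.map_injective M.val
      rw [IntermediateField.adjoin_map, ← AlgHom.fieldRange_eq_map, IntermediateField.fieldRange_val,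
        hT, Set.image_preimage_eq_inter_range]
      refine le_antisymm (IntermediateField.adjoin_le_iff.mpr fun z hz =>
        IntermediateField.subset_adjoin K S hz.1) (IntermediateField.adjoin_le_iff.mpr fun z hz => ?_)
      exact IntermediateField.subset_adjoin K _
        ⟨hz, ⟨⟨z, IntermediateField.subset_adjoin K S hz⟩, rfl⟩⟩
    rw [← hTtop]
    exact IntermediateField.adjoin.mono K _ _ Set.subset_union_right
  rw [htop] at this
  exact ⟨⟨x', hx'tr, Module.Finite.equiv IntermediateField.topEquiv.toLinearEquiv⟩⟩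

end Adjoin

section Series

theorem transcendental_jqModC' (K : Type*) [Field K] : Transcendental K (jqModC K) := by
  rw [transcendental_iff]
  intro p hp
  by_contra hp0
  have h := congrArg (fun z : LaurentSeries K => z.coeff (-(p.natDegree : ℤ))) hp
  simp only [Polynomial.aeval_eq_sum_range, HahnSeries.coeff_zero, HahnSeries.coeff_sum,
    Algebra.smul_def, algebraMap_laurentSeries_eq_single, HahnSeries.coeff_single_zero_mul] at h
  rw [Finset.sum_eq_single_of_mem p.natDegree (Finset.mem_range.mpr (Nat.lt_succ_self _))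
    (fun i hi hne => ?_)] at h
  · rw [coeff_jqModC_pow_self, mul_one] at h
    exact hp0 (Polynomial.leadingCoeff_eq_zero.mp h)
  · rw [coeff_jqModC_pow_of_lt K (by
      have := Finset.mem_range.mp hi
      omega), mul_zero]

theorem coeffMap_eval₂_modular {R S : Type*} [CommRing R] [CommRing S] (f : R →+* S)
    {N : ℕ} [NeZero N] (Φ : Polynomial (Polynomial ℤ)) :
    coeffMap f (Φ.eval₂ (Polynomial.eval₂RingHom (Int.castRingHom (LaurentSeries R)) (jqModC R))
      (jqNModC R N)) =
    Φ.eval₂ (Polynomial.eval₂RingHom (Int.castRingHom (LaurentSeries S)) (jqModC S))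
      (jqNModC S N) := by
  rw [Polynomial.hom_eval₂, coeffMap_jqNModC]
  congr 1
  refine Polynomial.ringHom_ext' (Subsingleton.elim _ _) ?_
  simp [coeffMap_jqModC]

/-- The modular equation over any commutative ring. -/
theorem eval₂_modularPolynomial_eq_zero (R : Type*) [CommRing R] {N : ℕ} [NeZero N]
    (data : ModularPolynomialData N) :
    data.Φ.eval₂ (Polynomial.eval₂RingHom (Int.castRingHom (LaurentSeries R)) (jqModC R))
      (jqNModC R N) = 0 := by
  have hQ : coeffMap (Int.castRingHom ℚ)
      (data.Φ.eval₂ (Polynomial.eval₂RingHom (Int.castRingHom (LaurentSeries ℤ)) (jqModC ℤ))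
        (jqNModC ℤ N)) = 0 := by
    rw [coeffMap_eval₂_modular]
    refine Eq.trans ?_ data.eval_eq_zero
    congr 1
    refine Polynomial.ringHom_ext' (Subsingleton.elim _ _) ?_
    simp [jqModC_rat]
  have hZ : data.Φ.eval₂ (Polynomial.eval₂RingHom (Int.castRingHom (LaurentSeries ℤ)) (jqModC ℤ))
      (jqNModC ℤ N) = 0 := by
    ext k
    have h := congrArg (fun z : LaurentSeries ℚ => z.coeff k) hQ
    simpa using h
  rw [← coeffMap_eval₂_modular (Int.castRingHom R), hZ, map_zero]

theorem isIntegral_qExpand_jqModC (K : Type*) [Field K] (d : ℕ) [NeZero d] :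
    IsIntegral K⟮jqModC K⟯ (qExpand K d (jqModC K)) := by
  obtain ⟨data⟩ := ModFun.nonempty_modularPolynomialData d
  refine ⟨data.Φ.map (Polynomial.eval₂RingHom (Int.castRingHom _)
    (⟨jqModC K, mem_adjoin_simple_self K _⟩ : K⟮jqModC K⟯)), data.monic.map _, ?_⟩
  rw [Polynomial.eval₂_map]
  refine Eq.trans ?_ (eval₂_modularPolynomial_eq_zero K data)
  congr 1
  refine Polynomial.ringHom_ext' (Subsingleton.elim _ _) ?_
  simp

theorem finite_divisorExpansionsC (K : Type*) [Field K] (N : ℕ) [NeZero N] :
    (divisorExpansionsC K N).Finite := by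
  classical
  refine Set.Finite.subset (N.divisors.finite_toSet.image fun d =>
    if h : d = 0 then 0 else haveI : NeZero d := ⟨h⟩; qExpand K d (jqModC K)) ?_
  rintro y ⟨d, hd, hdN, rfl⟩
  exact ⟨d, Finset.mem_coe.mpr (Nat.mem_divisors.mpr ⟨hdN, NeZero.ne N⟩), by simp [hd.ne]⟩

end Series

instance isFunctionFieldOne_modularFunctionFieldFullC (k : Type*) [Field k]
    (N : ℕ) [NeZero N] :
    IsFunctionFieldOne k (modularFunctionFieldFullC k N) :=
  isFunctionFieldOne_adjoin (finite_divisorExpansionsC k N) (transcendental_jqModC' k)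
    (jqModC_mem_full k N) (by rintro y ⟨d, hd, -, rfl⟩; haveI := hd; exact isIntegral_qExpand_jqModC k d)

theorem coeffEmb_qExpand_jq (L : Type*) [Field L] [Algebra ℚ L] (d : ℕ) [NeZero d] :
    coeffEmb L (qExpand ℚ d jq) = qExpand L d (jqModC L) := by
  rw [coeffEmb, coeffMap_qExpand, ← jqModC_rat, coeffMap_jqModC]

/-- The base change of the rational modular function field is the field generated by all
`j (q ^ d)`. -/
theorem laurentBaseChange_full_eq_fullC (L : Type*) [Field L] [Algebra ℚ L] (N : ℕ) :
    laurentBaseChange L (modularFunctionFieldFull N) = modularFunctionFieldFullC L N := by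
  apply le_antisymm
  · rw [laurentBaseChange, IntermediateField.adjoin_le_iff]
    rintro _ ⟨x, hx, rfl⟩
    refine IntermediateField.adjoin_induction ℚ
      (p := fun x _ => coeffEmb L x ∈ modularFunctionFieldFullC L N) ?_ ?_ ?_ ?_ ?_ hx
    · rintro y ⟨d, hd, hdN, rfl⟩
      haveI := hd
      rw [coeffEmb_qExpand_jq]
      exact jqModCd_mem_full L N hdN
    · intro c
      rw [show coeffEmb L (algebraMap ℚ (LaurentSeries ℚ) c)
          = algebraMap L (LaurentSeries L) (algebraMap ℚ L c) by
        rw [algebraMap_laurentSeries_eq_single, algebraMap_laurentSeries_eq_single, coeffEmb,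
          coeffMap_single]]
      exact IntermediateField.algebraMap_mem _ _
    · intro y z _ _ hy hz; rw [map_add]; exact add_mem hy hz
    · intro y _ hy; rw [map_inv₀]; exact inv_mem hy
    · intro y z _ _ hy hz; rw [map_mul]; exact mul_mem hy hz
  · rw [modularFunctionFieldFullC, IntermediateField.adjoin_le_iff]
    rintro _ ⟨d, hd, hdN, rfl⟩
    haveI := hd
    rw [← coeffEmb_qExpand_jq]
    exact coeffEmb_mem_laurentBaseChange L (jqd_mem_full N hdN)

instance isFunctionFieldOne_laurentBaseChange_full (L : Type*) [Field L] [Algebra ℚ L]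
    (N : ℕ) [NeZero N] :
    IsFunctionFieldOne L (laurentBaseChange L (modularFunctionFieldFull N)) := by
  rw [laurentBaseChange_full_eq_fullC]
  infer_instance

theorem heckeInputsAlong (L : Type*) [Field L] [Algebra ℚ L] (N ℓ : ℕ) [NeZero N] [NeZero ℓ] :
    HeckeInputsAlong L N ℓ :=
  heckeInputsAlong_intro (isIntegral_toRingHom (heckeAlphaBar L N ℓ))
    (isIntegral_toRingHom (heckeBetaBar L N ℓ))
    (fundamentalIdentityAlong _ _ (finiteAlong _))
    (finiteAlong _) (normFormulaAlong _ (finiteAlong _))

example (N : ℕ) [NeZero N] :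
    IsCurveOver (AlgebraicClosure ℚ) (modularFunctionFieldBar N) := inferInstance

example (N : ℕ) [NeZero N] :
    Algebra.EssFiniteType (AlgebraicClosure ℚ) (modularFunctionFieldBar N) := inferInstance

example (k : Type*) [Field k] [IsAlgClosed k] (N : ℕ) [NeZero N] :
    IsCurveOver k (modularFunctionFieldFullC k N) := inferInstance

end Fermat.Agent.Curve

end
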