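/-
A Frobenius for a function field over the algebraic closure of a finite field: a semilinear
automorphism which is `c ↦ c ^ q` on constants and has finite orbits. Descent of stable
subspaces, Hilbert 90, and the finiteness of fixed places.
-/
import Fermat.Prelude.Def_AlgebraicCurve_BaseChangeGalois
import Fermat.Prelude.Def_AlgebraicCurve_IsCurveOver
import Fermat.Prelude.Def_AlgebraicCurve_Repartitions
import Fermat.Agent.Curve.BasicPlace
import Mathlib.FieldTheory.IntermediateField.Adjoin.Algebra
import Mathlib.FieldTheory.Perfect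
import Mathlib.FieldTheory.Separable
import Mathlib.FieldTheory.IsAlgClosed.Basic
import Mathlib.RingTheory.Polynomial.Basic
import Mathlib.LinearAlgebra.Basis.VectorSpace
import Mathlib.Tactic

set_option autoImplicit false

noncomputable section

namespace Fermat.Agent.Curve.ZetaFrob

open AlgebraicCurve AlgebraicCurve.SemilinearAut

variable {K F : Type*} [Field K] [Field F] [Algebra K F]

/-- `σ` is a `q`-Frobenius of `F` over `K`. -/
structure IsFrob (σ : SemilinearAut K F) (q : ℕ) : Prop where
  one_lt : 1 < q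
  cast_eq_zero : (q : K) = 0
  base : ∀ c : K, baseAut σ c = c ^ q
  periodic : ∀ f : F, ∃ n : ℕ, 0 < n ∧ σ ^ n • f = f
  exists_fixed : ∃ x : F, Transcendental K x ∧ σ • x = x

variable {σ : SemilinearAut K F} {q : ℕ}

theorem IsFrob.smul_algebraMap' (h : IsFrob σ q) (c : K) :
    σ • algebraMap K F c = algebraMap K F (c ^ q) := by
  rw [SemilinearAut.smul_algebraMap, h.base]

theorem IsFrob.smul_kSmul (h : IsFrob σ q) (c : K) (f : F) :
    σ • (c • f) = c ^ q • (σ • f) := by
  rw [Algebra.smul_def, Algebra.smul_def, smul_mul', h.smul_algebraMap']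

theorem IsFrob.pow_smul_algebraMap (h : IsFrob σ q) (n : ℕ) (c : K) :
    σ ^ n • algebraMap K F c = algebraMap K F (c ^ q ^ n) := by
  induction n generalizing c with
  | zero => rw [pow_zero, one_smul, pow_zero, pow_one]
  | succ n ih => rw [pow_succ, mul_smul, h.smul_algebraMap', ih, ← pow_mul, pow_succ' q n]

theorem pow_mul_smul_eq {G α : Type*} [Monoid G] [MulAction G α] {g : G} {a : α} {n : ℕ}
    (h : g ^ n • a = a) (m : ℕ) : g ^ (n * m) • a = a := by
  induction m with
  | zero => rw [mul_zero, pow_zero, one_smul]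
  | succ m ih => rw [Nat.mul_succ, pow_add, mul_smul, h, ih]

theorem pow_smul_eq_self {G α : Type*} [Monoid G] [MulAction G α] {g : G} {a : α}
    (h : g • a = a) (m : ℕ) : g ^ m • a = a := by
  induction m with
  | zero => rw [pow_zero, one_smul]
  | succ m ih => rw [pow_succ, mul_smul, h, ih]

theorem IsFrob.pow (h : IsFrob σ q) {n : ℕ} (hn : 0 < n) : IsFrob (σ ^ n) (q ^ n) where
  one_lt := Nat.one_lt_pow hn.ne' h.one_lt
  cast_eq_zero := by rw [Nat.cast_pow, h.cast_eq_zero, zero_pow hn.ne']
  base := fun c => (algebraMap K F).injective (by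
    rw [← h.pow_smul_algebraMap n c, SemilinearAut.smul_algebraMap])
  periodic := fun f => by
    obtain ⟨m, hm, e⟩ := h.periodic f
    exact ⟨m, hm, by rw [← pow_mul, mul_comm]; exact pow_mul_smul_eq e n⟩
  exists_fixed := by
    obtain ⟨x, hx, e⟩ := h.exists_fixed
    exact ⟨x, hx, pow_smul_eq_self e n⟩

theorem IsFrob.exists_pow_const (h : IsFrob σ q) (c : K) : ∃ n, 0 < n ∧ c ^ q ^ n = c := by
  obtain ⟨n, hn, e⟩ := h.periodic (algebraMap K F c)
  rw [h.pow_smul_algebraMap] at e
  exact ⟨n, hn, (algebraMap K F).injective e⟩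

variable [IsAlgClosed K]

theorem IsFrob.natCard_const (h : IsFrob σ q) : Nat.card {c : K // c ^ q = c} = q := by
  classical
  open Polynomial in
  have hsep : (X ^ q - X : K[X]).Separable := by
    rw [separable_def]
    refine ⟨0, -1, ?_⟩
    simp [derivative_X_pow, h.cast_eq_zero]
  open Polynomial in
  have hcard := card_rootSet_eq_natDegree (K := K) hsep (IsAlgClosed.splits _)
  rw [FiniteField.X_pow_card_sub_X_natDegree_eq K h.one_lt] at hcard
  refine (Nat.card_congr ?_).trans (Nat.card_eq_fintype_card.trans hcard)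
  refine Equiv.subtypeEquivRight fun c => ?_
  rw [Polynomial.mem_rootSet]
  simp [sub_eq_zero, FiniteField.X_pow_card_sub_X_ne_zero K h.one_lt]

theorem IsFrob.finite_const (h : IsFrob σ q) : Finite {c : K // c ^ q = c} :=
  Nat.finite_of_card_ne_zero (by rw [h.natCard_const]; exact (Nat.zero_lt_of_lt h.one_lt).ne')

/-- A polynomial of `q`-powers vanishing on all constants fixed by the `N`-th power. -/
theorem IsFrob.coeff_eq_zero (h : IsFrob σ q) {L : Type*} [Field L] [Algebra K L] {N : ℕ}
    (hN : 0 < N) (a : ℕ → L)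
    (H : ∀ t : K, t ^ q ^ N = t →
      ∑ i ∈ Finset.range N, a i * algebraMap K L t ^ q ^ i = 0) : a 0 = 0 := by
  classical
  open Polynomial in
  set P : L[X] := ∑ i ∈ Finset.range N, Polynomial.C (a i) * Polynomial.X ^ q ^ i with hP
  have := (h.pow hN).finite_const
  have hcard := (h.pow hN).natCard_const
  have hP0 : P = 0 := by
    have := Fintype.ofFinite {c : K // c ^ q ^ N = c}
    refine Polynomial.eq_zero_of_natDegree_lt_card_of_eval_eq_zero P
      (f := fun t : {c : K // c ^ q ^ N = c} => algebraMap K L t.1)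
      ((algebraMap K L).injective.comp Subtype.val_injective) (fun t => ?_) ?_
    · simpa [hP, Polynomial.eval_finsetSum] using H t.1 t.2
    · rw [← Nat.card_eq_fintype_card, hcard]
      refine lt_of_le_of_lt (Polynomial.natDegree_sum_le_of_forall_le _ _ (n := q ^ (N - 1))
        fun i hi => ?_) (Nat.pow_lt_pow_right h.one_lt (by omega))
      refine (Polynomial.natDegree_C_mul_X_pow_le _ _).trans
        (Nat.pow_le_pow_right (Nat.zero_lt_of_lt h.one_lt) ?_)
      rw [Finset.mem_range] at hi
      omega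
  have e := congrArg (fun p => Polynomial.coeff p 1) hP0
  simp only [hP, Polynomial.finsetSum_coeff, Polynomial.coeff_C_mul_X_pow,
    Polynomial.coeff_zero] at e
  rw [Finset.sum_eq_single 0] at e
  · simpa using e
  · intro i _ hi
    rw [if_neg]
    exact (Nat.one_lt_pow hi h.one_lt).ne
  · simp [hN]

/-- Hilbert 90 for the periodic automorphism. -/
theorem IsFrob.exists_smul_eq_div (h : IsFrob σ q) {f : F} {N : ℕ} (hN : 0 < N)
    (hnorm : ∏ i ∈ Finset.range N, σ ^ i • f = 1) :
    ∃ g : F, g ≠ 0 ∧ σ • g = g / f := by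
  classical
  have hf : f ≠ 0 := by
    intro e
    obtain ⟨M, rfl⟩ : ∃ M, N = M + 1 := ⟨N - 1, by omega⟩
    rw [Finset.prod_range_succ', pow_zero, one_smul, e, mul_zero] at hnorm
    exact zero_ne_one hnorm
  set P : ℕ → F := fun i => ∏ j ∈ Finset.range i, σ ^ j • f with hP
  obtain ⟨t, ht, hne⟩ : ∃ t : K, t ^ q ^ N = t ∧
      ∑ i ∈ Finset.range N, P i * algebraMap K F t ^ q ^ i ≠ 0 := by
    by_contra hcon
    push Not at hcon
    have := h.coeff_eq_zero hN P hcon
    simp [hP] at this
  set u : ℕ → F := fun i => P i * algebraMap K F t ^ q ^ i with hu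
  refine ⟨∑ i ∈ Finset.range N, u i, hne, ?_⟩
  rw [eq_div_iff hf, Finset.smul_sum]
  have hstep : ∀ i, (σ • u i) * f = u (i + 1) := by
    intro i
    have hPs : P (i + 1) = σ • P i * f := by
      simp only [hP, Finset.prod_range_succ', pow_zero, one_smul, pow_succ', mul_smul]
      exact congrArg (· * f) (map_prod (MulDistribMulAction.toMonoidHom F σ)
        (fun j => σ ^ j • f) (Finset.range i)).symm
    simp only [hu, smul_mul', ← map_pow]
    rw [h.smul_algebraMap', ← pow_mul, ← pow_succ q i, hPs]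
    ring
  rw [Finset.sum_mul, Finset.sum_congr rfl fun i _ => hstep i]
  have h0 : u 0 = u N := by
    simp only [hu, hP, Finset.prod_range_zero, hnorm, ← map_pow, ht, pow_zero, pow_one]
  have e1 := Finset.sum_range_succ' u N
  rw [Finset.sum_range_succ, h0] at e1
  exact (add_right_cancel e1).symm

omit [IsAlgClosed K] in
theorem mem_of_pow_smul {V : Submodule K F} (hV : ∀ f ∈ V, σ • f ∈ V) (n : ℕ) {f : F}
    (hf : f ∈ V) : σ ^ n • f ∈ V := by
  induction n with
  | zero => rwa [pow_zero, one_smul]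
  | succ n ih => rw [pow_succ', mul_smul]; exact hV _ ih

/-- The fixed vectors span a stable subspace. -/
theorem IsFrob.span_fixed (h : IsFrob σ q) {V : Submodule K F} (hV : ∀ f ∈ V, σ • f ∈ V) :
    Submodule.span K {f | f ∈ V ∧ σ • f = f} = V := by
  refine le_antisymm (Submodule.span_le.2 fun f hf => hf.1) fun v hv => ?_
  by_contra hns
  obtain ⟨L, hLv, hLS⟩ := Submodule.exists_le_ker_of_notMem hns
  obtain ⟨N, hN, hNv⟩ := h.periodic v
  refine hLv ?_
  have := h.coeff_eq_zero hN (L := K) (fun i => L (σ ^ i • v)) fun t ht => ?_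
  · simpa using this
  set u : ℕ → F := fun i => σ ^ i • (t • v) with hu
  have hu' : ∀ i, u i = t ^ q ^ i • (σ ^ i • v) := fun i => by
    simp only [hu, Algebra.smul_def, smul_mul', h.pow_smul_algebraMap]
  have hfix : σ • ∑ i ∈ Finset.range N, u i = ∑ i ∈ Finset.range N, u i := by
    have hstep : ∀ i, σ • u i = u (i + 1) := fun i => by
      simp only [hu, ← mul_smul, ← pow_succ']
    rw [Finset.smul_sum, Finset.sum_congr rfl fun i _ => hstep i]
    have h0 : u 0 = u N := by rw [hu' N, hu' 0, ht, hNv, pow_zero, pow_zero, pow_one, one_smul]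
    have e1 := Finset.sum_range_succ' u N
    rw [Finset.sum_range_succ, h0] at e1
    exact (add_right_cancel e1).symm
  have hmem : ∑ i ∈ Finset.range N, u i ∈ Submodule.span K {f | f ∈ V ∧ σ • f = f} :=
    Submodule.subset_span ⟨Submodule.sum_mem _ fun i _ => by
      rw [hu']; exact V.smul_mem _ (mem_of_pow_smul hV i hv), hfix⟩
  have hker := hLS hmem
  rw [LinearMap.mem_ker, map_sum] at hker
  rw [← hker]
  refine Finset.sum_congr rfl fun i _ => ?_
  rw [hu' i, LinearMap.map_smul, smul_eq_mul, Algebra.algebraMap_self, RingHom.id_apply,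
    mul_comm]

/-- Descent: a stable subspace of dimension `l` has `q ^ l` fixed vectors. -/
theorem IsFrob.natCard_fixed (h : IsFrob σ q) (V : Submodule K F) [Module.Finite K V]
    (hV : ∀ f ∈ V, σ • f ∈ V) :
    Nat.card {f : F // f ∈ V ∧ σ • f = f} = q ^ Module.finrank K V := by
  classical
  obtain ⟨t, htS, hspan, hli⟩ := exists_linearIndependent K {f : F | f ∈ V ∧ σ • f = f}
  rw [h.span_fixed hV] at hspan
  set b : Module.Basis t K V := (Module.Basis.span hli).map
    (LinearEquiv.ofEq _ _ (by rw [Subtype.range_coe]; exact hspan)) with hb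
  have hbv : ∀ i : t, (b i : F) = i := fun i => by simp [hb, Module.Basis.span_apply]
  have : Finite t := Module.Finite.finite_basis b
  have := Fintype.ofFinite t
  have hfix : ∀ i : t, σ • ((b i : F)) = b i := fun i => by rw [hbv]; exact (htS i.2).2
  have key : ∀ w : V, σ • (w : F) = w ↔ ∀ i, b.repr w i ^ q = b.repr w i := by
    intro w
    have hw : σ • (w : F) = ((∑ i, (b.repr w i ^ q) • b i : V) : F) := by
      conv_lhs => rw [← b.sum_repr w]
      push_cast
      rw [Finset.smul_sum]
      refine Finset.sum_congr rfl fun i _ => ?_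
      rw [h.smul_kSmul, hfix]
    constructor
    · intro e i
      have e2 : (∑ i, (b.repr w i ^ q) • b i : V) = w := Subtype.ext (hw.symm.trans e)
      have := congrArg (fun z => b.repr z i) e2
      simpa only [b.repr_sum_self] using this
    · intro e
      rw [hw]
      simp_rw [e, b.sum_repr]
  calc Nat.card {f : F // f ∈ V ∧ σ • f = f}
      = Nat.card {w : V // ∀ i, b.repr w i ^ q = b.repr w i} :=
        Nat.card_congr ⟨fun f => ⟨⟨f.1, f.2.1⟩, (key _).1 f.2.2⟩,
          fun w => ⟨w.1.1, w.1.2, (key _).2 w.2⟩, fun _ => rfl, fun _ => rfl⟩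
    _ = Nat.card {c : t → K // ∀ i, c i ^ q = c i} :=
        Nat.card_congr (b.equivFun.toEquiv.subtypeEquiv fun w => Iff.rfl)
    _ = Nat.card (t → {c : K // c ^ q = c}) := Nat.card_congr (Equiv.subtypePiEquivPi (p := fun (_ : t) (c : K) => c ^ q = c))
    _ = q ^ Module.finrank K V := by
        rw [Nat.card_fun, h.natCard_const, Module.finrank_eq_nat_card_basis b]

variable [IsCurveOver K F]

omit σ q in
/-- The value of a function at a place where it is finite. -/
theorem exists_const_ord_pos (v : Place K F) {x : F} (hx : Transcendental K x)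
    (hv : 0 ≤ v.ord x) : ∃ c : K, 0 < v.ord (x - algebraMap K F c) := by
  have : Module.Finite K v.ResidueField := IsCurveOver.finiteResidue v
  have : Algebra.IsIntegral K v.ResidueField := Algebra.IsIntegral.of_finite K v.ResidueField
  obtain ⟨c, hc⟩ := (IsAlgClosed.algebraMap_bijective_of_isIntegral (k := K)
    (K := v.ResidueField)).2 (IsLocalRing.residue _ ⟨x, mem_of_ord_nonneg v hv⟩)
  refine ⟨c, ?_⟩
  have hne : x - algebraMap K F c ≠ 0 := sub_ne_zero.2 fun e => hx (e ▸ isAlgebraic_algebraMap c)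
  set y : v.toValuationSubring :=
    ⟨x, mem_of_ord_nonneg v hv⟩ - algebraMap K v.toValuationSubring c with hy
  have hycoe : (y : F) = x - algebraMap K F c := rfl
  have hnu : ¬ IsUnit y := by
    rw [← IsLocalRing.residue_ne_zero_iff_isUnit, not_not, hy, map_sub, sub_eq_zero, ← hc]
    rfl
  have h0 : 0 ≤ v.ord (y : F) := ord_nonneg_of_mem v y.2
  rcases h0.lt_or_eq with h1 | h1
  · rwa [hycoe] at h1
  · refine absurd ((v.adicValuation_coe_eq_one_iff y).1 ?_) hnu
    rw [v.adicValuation_eq_exp_neg_ord (hycoe ▸ hne), ← h1, neg_zero, WithZero.exp_zero]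

omit [IsAlgClosed K] σ q in
theorem finite_setOf_ord_pos {f : F} (hf : f ≠ 0) : {v : Place K F | 0 < v.ord f}.Finite := by
  obtain ⟨D, hD, -⟩ := HasPrincipalDivisors.exists_divisor (K := K) f hf
  refine D.support.finite_toSet.subset fun v hv => ?_
  rw [Finset.mem_coe, Finsupp.mem_support_iff, hD]
  exact (ne_of_lt hv).symm

theorem IsFrob.finite_fixed_places (h : IsFrob σ q) :
    {v : Place K F | σ • v = v}.Finite := by
  obtain ⟨x, hx, hxfix⟩ := h.exists_fixed
  have hx0 : x ≠ 0 := fun e => hx (e ▸ isAlgebraic_zero)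
  have := h.finite_const
  refine ((finite_setOf_ord_pos (inv_ne_zero hx0)).union
    (Set.finite_iUnion (ι := {c : K // c ^ q = c}) fun c => finite_setOf_ord_pos (K := K)
      (f := x - algebraMap K F c.1)
      (sub_ne_zero.2 fun e => hx (e ▸ isAlgebraic_algebraMap c.1)))).subset ?_
  intro v (hv : σ • v = v)
  rcases lt_or_ge (v.ord x) 0 with hneg | hpos
  · exact Or.inl (show 0 < v.ord x⁻¹ by rw [v.ord_inv]; omega)
  obtain ⟨c, hc⟩ := exists_const_ord_pos v hx hpos
  have hc' : 0 < v.ord (x - algebraMap K F (c ^ q)) := by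
    have := SemilinearAut.ord_smul σ v (x - algebraMap K F c)
    rw [hv, smul_sub, hxfix, h.smul_algebraMap'] at this
    omega
  have hcq : c ^ q = c := by
    by_contra hne
    have e : (x - algebraMap K F c) + -(x - algebraMap K F (c ^ q)) =
        algebraMap K F (c ^ q - c) := by rw [map_sub]; ring
    have h1 := le_ord_add v 1 (f := x - algebraMap K F c)
      (g := -(x - algebraMap K F (c ^ q)))
      (by rw [e, ne_eq, map_eq_zero, sub_eq_zero]; exact hne)
      (fun _ => hc) (fun _ => by rw [ord_neg]; exact hc')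
    rw [e, ord_algebraMap] at h1
    omega
  exact Or.inr (Set.mem_iUnion.2 ⟨⟨c, hcq⟩, hc⟩)

theorem IsFrob.periodic_place (h : IsFrob σ q) (v : Place K F) :
    ∃ n, 0 < n ∧ σ ^ n • v = v := by
  obtain ⟨x, hx, hxfix⟩ := h.exists_fixed
  have hx0 : x ≠ 0 := fun e => hx (e ▸ isAlgebraic_zero)
  obtain ⟨y, m, hm, hy, hy0, hyv⟩ : ∃ (y : F) (m : ℕ), 0 < m ∧ σ ^ m • y = y ∧ y ≠ 0 ∧
      0 < v.ord y := by
    rcases lt_or_ge (v.ord x) 0 with hneg | hpos
    · exact ⟨x⁻¹, 1, one_pos, by rw [pow_one, smul_inv'', hxfix], inv_ne_zero hx0,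
        by rw [v.ord_inv]; omega⟩
    obtain ⟨c, hc⟩ := exists_const_ord_pos v hx hpos
    obtain ⟨m, hm, e⟩ := h.exists_pow_const c
    refine ⟨_, m, hm, ?_, fun e0 => ?_, hc⟩
    · rw [smul_sub, h.pow_smul_algebraMap, e]
      congr 1
      exact pow_smul_eq_self hxfix m
    · rw [e0] at hc; simp at hc
  have hS := finite_setOf_ord_pos (K := K) hy0
  have := hS.to_subtype
  have horb : ∀ i : ℕ, 0 < ((σ ^ m) ^ i • v).ord y := by
    intro i
    have hyi : (σ ^ m) ^ i • y = y := pow_smul_eq_self hy i
    have := SemilinearAut.ord_smul ((σ ^ m) ^ i) v y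
    rw [hyi] at this
    omega
  obtain ⟨i, j, hne, hij⟩ := Finite.exists_ne_map_eq_of_infinite
    (fun i : ℕ => (⟨(σ ^ m) ^ i • v, horb i⟩ : {v : Place K F | 0 < v.ord y}))
  have key : ∀ a b : ℕ, a < b → (σ ^ m) ^ a • v = (σ ^ m) ^ b • v →
      ∃ n, 0 < n ∧ σ ^ n • v = v := by
    intro a b hab e
    refine ⟨m * (b - a), Nat.mul_pos hm (by omega), ?_⟩
    rw [show (σ ^ m) ^ b = (σ ^ m) ^ a * (σ ^ m) ^ (b - a) by
      rw [← pow_add, Nat.add_sub_cancel' hab.le], mul_smul] at e
    rw [pow_mul]
    exact (smul_left_cancel _ e).symm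
  rcases lt_or_gt_of_ne hne with hlt | hgt
  · exact key i j hlt (congrArg Subtype.val hij)
  · exact key j i hgt (congrArg Subtype.val hij).symm

omit σ q [IsAlgClosed K] [IsCurveOver K F] in
/-- Existence of a Frobenius. -/
theorem exists_isFrob [IsAlgClosed K] [IsCurveOver K F] [Algebra.EssFiniteType K F]
    (p : ℕ) [hp : Fact p.Prime] [CharP K p] (hK : ∀ c : K, ∃ n, 0 < n ∧ c ^ p ^ n = c) :
    ∃ (σ : SemilinearAut K F) (r : ℕ), 0 < r ∧ IsFrob σ (p ^ r) := by
  classical
  obtain ⟨x, hx⟩ : ∃ x : F, Transcendental K x := by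
    by_contra hcon
    push Not at hcon
    have : Algebra.IsAlgebraic K F := ⟨fun a => not_not.1 (hcon a)⟩
    have hb := IsAlgClosed.algebraMap_bijective_of_isIntegral (k := K) (K := F)
    have := KaehlerDifferential.subsingleton_of_surjective K F hb.2
    exact not_subsingleton Ω[F⁄K] this
  obtain ⟨s, hs⟩ := IntermediateField.fg_top K F
  set S : Finset F := insert x s with hS
  have hgen : ∀ f : F, f ∈ IntermediateField.adjoin K (Set.range fun i : S => (i : F)) := by
    intro f
    rw [show (Set.range fun i : S => (i : F)) = (S : Set F) from Subtype.range_coe]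
    exact IntermediateField.adjoin.mono K _ _ (Finset.coe_subset.2 (Finset.subset_insert x s))
      (hs.symm ▸ IntermediateField.mem_top)
  set ev := MvPolynomial.aeval (R := K) (fun i : S => (i : F)) with hev
  set I : Ideal (MvPolynomial S K) := RingHom.ker ev with hI
  obtain ⟨G, hG⟩ := IsNoetherian.noetherian I
  -- the coefficients of the relations lie in a finite field
  obtain ⟨r, hr, hfix⟩ : ∃ r, 0 < r ∧ ∀ g ∈ G, ∀ d, (g.coeff d) ^ p ^ r = g.coeff d := by
    suffices ∀ T : Finset K, ∃ r, 0 < r ∧ ∀ c ∈ T, c ^ p ^ r = c by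
      obtain ⟨r, hr, hfix⟩ := this (G.biUnion fun g => g.support.image g.coeff)
      refine ⟨r, hr, fun g hg d => ?_⟩
      by_cases hd : d ∈ g.support
      · exact hfix _ (Finset.mem_biUnion.2 ⟨g, hg, Finset.mem_image_of_mem _ hd⟩)
      · rw [MvPolynomial.notMem_support_iff.1 hd, zero_pow]
        exact pow_ne_zero _ hp.out.ne_zero
    intro T
    induction T using Finset.induction_on with
    | empty => exact ⟨1, one_pos, by simp⟩
    | insert c T _ ih =>
        obtain ⟨a, ha, hTa⟩ := ih
        obtain ⟨b, hb, hcb⟩ := hK c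
        have key : ∀ (d : K) (n k : ℕ), d ^ p ^ n = d → d ^ p ^ (n * k) = d := by
          intro d n k e
          induction k with
          | zero => rw [mul_zero, pow_zero, pow_one]
          | succ k ih => rw [Nat.mul_succ, pow_add, pow_mul, ih, e]
        refine ⟨a * b, Nat.mul_pos ha hb, fun d hd => ?_⟩
        rcases Finset.mem_insert.1 hd with rfl | hd
        · rw [mul_comm]; exact key _ _ _ hcb
        · exact key _ _ _ (hTa d hd)
  set φK : K ≃+* K := iterateFrobeniusEquiv K p r with hφK
  set φ : MvPolynomial S K ≃+* MvPolynomial S K := MvPolynomial.mapEquiv S φK with hφ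
  have hφg : ∀ g ∈ G, φ g = g := fun g hg => by
    ext d
    simp only [hφ, MvPolynomial.mapEquiv_apply, MvPolynomial.coeff_map, hφK]
    exact hfix g hg d
  have hmap : I = I.map (φ : MvPolynomial S K →+* MvPolynomial S K) := by
    rw [← hG]
    show Ideal.span _ = Ideal.map _ (Ideal.span _)
    rw [Ideal.map_span]
    congr 1
    ext g
    simp only [Set.mem_image, Finset.mem_coe, RingEquiv.coe_toRingHom]
    exact ⟨fun hg => ⟨g, hg, hφg g hg⟩, by rintro ⟨a, ha, rfl⟩; rwa [hφg a ha]⟩
  have : I.IsPrime := RingHom.ker_isPrime _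
  set j : MvPolynomial S K ⧸ I →+* F := Ideal.Quotient.lift I ev.toRingHom (fun a ha => ha)
  have hj : Function.Injective j := by
    rw [injective_iff_map_eq_zero]
    intro a ha
    obtain ⟨a, rfl⟩ := Ideal.Quotient.mk_surjective a
    exact Ideal.Quotient.eq_zero_iff_mem.2 ha
  let Q := FractionRing (MvPolynomial S K ⧸ I)
  set e : Q →+* F := IsFractionRing.lift hj with he
  have hes : Function.Surjective e := fun f => by
    obtain ⟨a, b, rfl⟩ := (IntermediateField.mem_adjoin_range_iff K _ f).1 (hgen f)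
    refine ⟨algebraMap _ Q (Ideal.Quotient.mk I a) / algebraMap _ Q (Ideal.Quotient.mk I b), ?_⟩
    rw [map_div₀, he, IsFractionRing.lift_algebraMap, IsFractionRing.lift_algebraMap]
    rfl
  set eQ : Q ≃+* F := RingEquiv.ofBijective e ⟨e.injective, hes⟩ with heQ
  set τ : F ≃+* F := (eQ.symm.trans (IsFractionRing.ringEquivOfRingEquiv
    (Ideal.quotientEquiv I I φ hmap))).trans eQ with hτ
  have hτev : ∀ a, τ (ev a) = ev (φ a) := fun a => by
    have h1 : eQ (algebraMap _ Q (Ideal.Quotient.mk I a)) = ev a := by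
      rw [heQ]
      exact IsFractionRing.lift_algebraMap hj (Ideal.Quotient.mk I a)
    rw [hτ, RingEquiv.trans_apply, RingEquiv.trans_apply, ← h1, RingEquiv.symm_apply_apply,
      IsFractionRing.ringEquivOfRingEquiv_algebraMap, Ideal.quotientEquiv_mk, heQ]
    exact IsFractionRing.lift_algebraMap hj (Ideal.Quotient.mk I (φ a))
  have hτc : ∀ c : K, τ (algebraMap K F c) = algebraMap K F (c ^ p ^ r) := fun c => by
    rw [← MvPolynomial.aeval_C (fun i : S => (i : F)) c, hτev, hφ, MvPolynomial.mapEquiv_apply,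
      MvPolynomial.map_C]
    exact MvPolynomial.aeval_C _ _
  have hτX : ∀ i : S, τ (i : F) = i := fun i => by
    have h1 : ev (MvPolynomial.X i) = (i : F) := MvPolynomial.aeval_X _ i
    rw [← h1, hτev, hφ, MvPolynomial.mapEquiv_apply, MvPolynomial.map_X]
  have hmem : (τ, φK) ∈ SemilinearAut K F := fun c => by
    show τ _ = algebraMap K F (φK c)
    rw [hτc, hφK, iterateFrobeniusEquiv_def]
  set σ : SemilinearAut K F := ⟨(τ, φK), hmem⟩
  refine ⟨σ, r, hr, ?_⟩
  have hσ : ∀ f : F, σ • f = τ f := fun f => rfl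
  have hσc : ∀ (n : ℕ) (c : K), σ ^ n • algebraMap K F c = algebraMap K F (c ^ p ^ (r * n)) := by
    intro n
    induction n with
    | zero => intro c; rw [pow_zero, one_smul, mul_zero, pow_zero, pow_one]
    | succ n ih =>
        intro c
        rw [pow_succ, mul_smul, hσ, hτc, ih, ← pow_mul, ← pow_add, Nat.mul_succ,
          Nat.add_comm r]
  refine ⟨Nat.one_lt_pow hr.ne' hp.out.one_lt, by
    rw [Nat.cast_pow, CharP.cast_eq_zero, zero_pow hr.ne'], fun c => ?_, ?_, ?_⟩
  · show φK c = _
    rw [hφK, iterateFrobeniusEquiv_def]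
  · let P : IntermediateField K F :=
      { carrier := {f | ∃ n : ℕ, 0 < n ∧ σ ^ n • f = f}
        zero_mem' := ⟨1, one_pos, smul_zero _⟩
        one_mem' := ⟨1, one_pos, smul_one _⟩
        add_mem' := by
          rintro a b ⟨m, hm, ha⟩ ⟨n, hn, hb⟩
          refine ⟨m * n, Nat.mul_pos hm hn, ?_⟩
          rw [smul_add, pow_mul_smul_eq ha, mul_comm, pow_mul_smul_eq hb]
        mul_mem' := by
          rintro a b ⟨m, hm, ha⟩ ⟨n, hn, hb⟩
          refine ⟨m * n, Nat.mul_pos hm hn, ?_⟩
          rw [smul_mul', pow_mul_smul_eq ha, mul_comm m n, pow_mul_smul_eq hb]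
        algebraMap_mem' := fun c => by
          obtain ⟨n, hn, e⟩ := hK c
          refine ⟨n, hn, ?_⟩
          rw [hσc]
          congr 1
          have : ∀ k, c ^ p ^ (n * k) = c := fun k => by
            induction k with
            | zero => rw [mul_zero, pow_zero, pow_one]
            | succ k ih => rw [Nat.mul_succ, pow_add, pow_mul, ih, e]
          rw [mul_comm]; exact this r
        inv_mem' := by
          rintro a ⟨m, hm, ha⟩
          exact ⟨m, hm, by rw [smul_inv'', ha]⟩ }
    intro f
    have hle : IntermediateField.adjoin K (Set.range fun i : S => (i : F)) ≤ P := by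
      rw [IntermediateField.adjoin_le_iff]
      rintro _ ⟨i, rfl⟩
      exact ⟨1, one_pos, by rw [pow_one, hσ, hτX]⟩
    exact hle (hgen f)
  · exact ⟨x, hx, (hσ x).trans (hτX ⟨x, Finset.mem_insert_self x s⟩)⟩

end Fermat.Agent.Curve.ZetaFrob
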