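/-
A Gauss reduction of a function field: the data of a `GoodReduction` except equality of the genus.
-/
import Fermat.Agent.Curve.Setup
import Mathlib.RingTheory.Algebraic.Basic
import Mathlib.FieldTheory.IntermediateField.Adjoin.Basic

set_option autoImplicit false

namespace Fermat.Agent.Curve

open AlgebraicCurve IntermediateField

universe uK uF uk uFb

/-- A valuation subring `V` of `F` over `A` with residue field `Fb`, and a function `x` whose
degree is preserved by reduction. -/
structure GaussReduction {K : Type uK} [Field K] (A : ValuationSubring K)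
    (F : Type uF) [Field F] [Algebra K F]
    (k : Type uk) [Field k] (Fb : Type uFb) [Field Fb] [Algebra k Fb] where
  /-- the reduction of constants -/
  π : A →+* k
  π_surjective : Function.Surjective π
  /-- the valuation subring of `F` -/
  V : ValuationSubring F
  mem_V_iff : ∀ a : K, algebraMap K F a ∈ V ↔ a ∈ A
  /-- the reduction of functions -/
  φ : V →+* Fb
  φ_surjective : Function.Surjective φ
  φ_algebraMap : ∀ a : A, φ ⟨algebraMap K F a, (mem_V_iff a).2 a.2⟩ = algebraMap k Fb (π a)
  /-- a function whose degree is preserved by reduction -/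
  x : V
  x_transcendental : Transcendental k (φ x)
  degree_eq : Module.finrank K⟮(x : F)⟯ F = Module.finrank k⟮φ x⟯ Fb
  degree_pos : 0 < Module.finrank k⟮φ x⟯ Fb

namespace GaussReduction

variable {K : Type uK} [Field K] {A : ValuationSubring K}
  {F : Type uF} [Field F] [Algebra K F]
  {k : Type uk} [Field k] {Fb : Type uFb} [Field Fb] [Algebra k Fb]
  (G : GaussReduction A F k Fb)

theorem φ_x_ne_zero : G.φ G.x ≠ 0 := fun h =>
  G.x_transcendental (by rw [h]; exact isAlgebraic_zero)

theorem x_ne_zero : (G.x : F) ≠ 0 := fun h => G.φ_x_ne_zero (by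
  rw [show G.x = 0 from Subtype.ext h, map_zero])

theorem x_inv_mem : ((G.x : F))⁻¹ ∈ G.V := by
  rcases G.V.mem_or_inv_mem (G.x : F)⁻¹ with h | h
  · exact h
  · by_contra hn
    have hmax := RingHom.ker_isMaximal_of_surjective G.φ G.φ_surjective
    have hunit : IsUnit G.x := by
      by_contra hu
      exact G.φ_x_ne_zero (RingHom.mem_ker.1 (by
        rw [IsLocalRing.eq_maximalIdeal hmax]; exact hu))
    obtain ⟨u, hu⟩ := hunit
    apply hn
    have h1 : ((u : G.V) : F) * ((↑u⁻¹ : G.V) : F) = 1 := by
      rw [← MulMemClass.coe_mul, ← Units.val_mul, mul_inv_cancel]; rfl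
    rw [← hu, inv_eq_of_mul_eq_one_right h1]
    exact (↑u⁻¹ : G.V).2

theorem φ_x_inv : G.φ ⟨(G.x : F)⁻¹, G.x_inv_mem⟩ = (G.φ G.x)⁻¹ := by
  refine eq_inv_of_mul_eq_one_left ?_
  rw [← map_mul, ← map_one G.φ]
  exact congrArg _ (Subtype.ext (inv_mul_cancel₀ G.x_ne_zero))

/-- The same Gauss reduction, with `1/x` in place of `x`. -/
noncomputable def swap : GaussReduction A F k Fb where
  π := G.π
  π_surjective := G.π_surjective
  V := G.V
  mem_V_iff := G.mem_V_iff
  φ := G.φ
  φ_surjective := G.φ_surjective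
  φ_algebraMap := G.φ_algebraMap
  x := ⟨(G.x : F)⁻¹, G.x_inv_mem⟩
  x_transcendental := by
    rw [G.φ_x_inv]
    exact fun h => G.x_transcendental (by simpa using h.inv)
  degree_eq := by
    rw [G.φ_x_inv]
    have h1 : K⟮((⟨(G.x : F)⁻¹, G.x_inv_mem⟩ : G.V) : F)⟯ = K⟮(G.x : F)⟯ :=
      le_antisymm (adjoin_simple_le_iff.2 (inv_mem (mem_adjoin_simple_self K _)))
        (adjoin_simple_le_iff.2 (by
          have := inv_mem (mem_adjoin_simple_self K ((G.x : F)⁻¹))
          rwa [inv_inv] at this))
    have h2 : k⟮(G.φ G.x)⁻¹⟯ = k⟮G.φ G.x⟯ :=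
      le_antisymm (adjoin_simple_le_iff.2 (inv_mem (mem_adjoin_simple_self k _)))
        (adjoin_simple_le_iff.2 (by
          have := inv_mem (mem_adjoin_simple_self k ((G.φ G.x)⁻¹))
          rwa [inv_inv] at this))
    rw [h1, h2]
    exact G.degree_eq
  degree_pos := by
    rw [G.φ_x_inv]
    have h2 : k⟮(G.φ G.x)⁻¹⟯ = k⟮G.φ G.x⟯ :=
      le_antisymm (adjoin_simple_le_iff.2 (inv_mem (mem_adjoin_simple_self k _)))
        (adjoin_simple_le_iff.2 (by
          have := inv_mem (mem_adjoin_simple_self k ((G.φ G.x)⁻¹))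
          rwa [inv_inv] at this))
    rw [h2]
    exact G.degree_pos

@[simp] theorem swap_V : G.swap.V = G.V := rfl
@[simp] theorem coe_swap_x : (G.swap.x : F) = (G.x : F)⁻¹ := rfl

/-- In every residue disc of `A` the function `x` has at most one branch value. -/
def BranchIsolated : Prop :=
  ∀ a : A, ∃ c : A, G.π c = G.π a ∧ ∀ α : A, G.π α = G.π a → α ≠ c →
    ∀ P : Place K F, 0 < P.ord ((G.x : F) - algebraMap K F (α : K)) →
      P.ord ((G.x : F) - algebraMap K F (α : K)) = 1

/-- Every function on the special fibre which is integral over `k[x̄]` lifts to a function in `V`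
integral over `K[x]`. -/
def ChartSurjective : Prop :=
  ∀ b : Fb, IsIntegral (Algebra.adjoin k ({G.φ G.x} : Set Fb)) b →
    ∃ f : G.V, IsIntegral (Algebra.adjoin K ({(G.x : F)} : Set F)) (f : F) ∧ G.φ f = b

end GaussReduction

end Fermat.Agent.Curve
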