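/-
Gauss lemma over a valuation subring, and orthonormal bases of subspaces for the reduction map.
-/
import Mathlib.RingTheory.Valuation.ValuationSubring
import Mathlib.Algebra.Polynomial.Degree.Lemmas
import Mathlib.LinearAlgebra.FiniteDimensional.Lemmas
import Mathlib.RingTheory.LocalRing.ResidueField.Basic
import Mathlib.LinearAlgebra.Dimension.Constructions
import Mathlib.RingTheory.Polynomial.Basic

set_option autoImplicit false

namespace Fermat.Agent.Curve.ModelAux

open Polynomial

universe uK uk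

variable {K : Type uK} [Field K] {A : ValuationSubring K} {k : Type uk} [Field k]
  (π : A →+* k) (hπ : Function.Surjective π)

include hπ in
theorem ker_eq : RingHom.ker π = IsLocalRing.maximalIdeal A :=
  IsLocalRing.eq_maximalIdeal (RingHom.ker_isMaximal_of_surjective π hπ)

include hπ in
theorem map_ne_zero_iff_isUnit (a : A) : π a ≠ 0 ↔ IsUnit a := by
  rw [ne_eq, ← RingHom.mem_ker, ker_eq π hπ, IsLocalRing.mem_maximalIdeal, mem_nonunits_iff,
    not_not]

include hπ in
theorem exists_dvd_map_eq_zero (a : A) (h : π a = 0) : a ∈ IsLocalRing.maximalIdeal A := by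
  rw [← ker_eq π hπ]; exact h

omit [Field k] in
/-- An element of largest absolute value. -/
theorem exists_max_scale {ι : Type*} (s : Finset ι) (f : ι → K) (h : ∃ i ∈ s, f i ≠ 0) :
    ∃ i ∈ s, f i ≠ 0 ∧ ∀ j ∈ s, f j / f i ∈ A := by
  classical
  obtain ⟨i₀, hi₀, hfi₀⟩ := h
  obtain ⟨i, hi, hmax⟩ := s.exists_max_image (fun j => A.valuation (f j)) ⟨i₀, hi₀⟩
  have hne : f i ≠ 0 := fun hz => by
    have := hmax i₀ hi₀
    simp only [hz, map_zero, le_zero_iff, map_eq_zero] at this
    exact hfi₀ this
  refine ⟨i, hi, hne, fun j hj => ?_⟩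
  rw [← A.valuation_le_one_iff, map_div₀]
  exact div_le_one_of_le₀ (hmax j hj) zero_le

/-- A non-zero family of polynomials has a constant multiple which is integral and primitive. -/
theorem exists_scale_family {ι : Type*} [Fintype ι] {p : ι → K[X]} (hp : p ≠ 0) :
    ∃ (c : K) (q : ι → A[X]), c ≠ 0 ∧ (∀ j, (q j).map A.subtype = C c * p j) ∧
      ∃ j, (q j).map π ≠ 0 := by
  classical
  obtain ⟨⟨j₀, i⟩, hi, hne, hmax⟩ := exists_max_scale (A := A)
    (Finset.univ.sigma fun j => (p j).support) (fun s => (p s.1).coeff s.2)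
    (by
      obtain ⟨j, hj⟩ := Function.ne_iff.mp hp
      obtain ⟨i, hi⟩ := Finset.nonempty_of_ne_empty
        (by simpa [Polynomial.support_eq_empty] using hj : (p j).support ≠ ∅)
      exact ⟨⟨j, i⟩, Finset.mem_sigma.mpr ⟨Finset.mem_univ _, hi⟩, mem_support_iff.mp hi⟩)
  set c := ((p j₀).coeff i)⁻¹ with hc
  have hlift : ∀ j, ∃ q : A[X], q.map A.subtype = C c * p j := fun j => by
    refine (mem_lifts _).mp ((lifts_iff_coeff_lifts _).mpr fun n => ?_)
    rw [coeff_C_mul]
    by_cases hn : n ∈ (p j).support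
    · exact ⟨⟨_, hmax ⟨j, n⟩ (Finset.mem_sigma.mpr ⟨Finset.mem_univ _, hn⟩)⟩,
        by simp [hc, div_eq_inv_mul]⟩
    · exact ⟨0, by simp [notMem_support_iff.mp hn]⟩
  choose q hq using hlift
  refine ⟨c, q, inv_ne_zero hne, hq, j₀, fun hz => ?_⟩
  have h1 : (q j₀).coeff i = 1 := by
    apply A.subtype_injective
    have := congrArg (fun r => r.coeff i) (hq j₀)
    simp only [coeff_map, coeff_C_mul] at this
    rw [this, map_one, hc, inv_mul_cancel₀ hne]
  have := congrArg (fun r => r.coeff i) hz
  simp [coeff_map, h1] at this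

/-- Every non-zero polynomial is a constant multiple of a primitive integral one. -/
theorem exists_scale_poly {p : K[X]} (hp : p ≠ 0) :
    ∃ (c : K) (q : A[X]), c ≠ 0 ∧ q.map A.subtype = C c * p ∧ q.map π ≠ 0 := by
  obtain ⟨c, q, hc, hq, j, hj⟩ := exists_scale_family (A := A) π (p := fun _ : Unit => p)
    (fun h => hp (congrFun h ()))
  exact ⟨c, q (), hc, hq (), hj⟩

include hπ in
/-- Gauss: a quotient of an integral polynomial by a primitive one is integral. -/
theorem lift_of_mul_primitive {q : K[X]} {s p : A[X]} (hs : s.map π ≠ 0)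
    (h : q * s.map A.subtype = p.map A.subtype) : ∃ q₀ : A[X], q₀.map A.subtype = q := by
  rcases eq_or_ne q 0 with rfl | hq
  · exact ⟨0, Polynomial.map_zero _⟩
  obtain ⟨c, q₁, hc, hq₁, hprim⟩ := exists_scale_poly (A := A) π hq
  -- it is enough that `c⁻¹` is integral
  suffices hcA : c⁻¹ ∈ A by
    refine ⟨C ⟨c⁻¹, hcA⟩ * q₁, ?_⟩
    rw [Polynomial.map_mul, map_C, hq₁, ← mul_assoc, ← map_mul]
    simp [inv_mul_cancel₀ hc]
  rcases A.mem_or_inv_mem c with hcA | hcA
  swap
  · exact hcA
  have heq : q₁ * s = C (⟨c, hcA⟩ : A) * p := by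
    apply map_injective A.subtype A.subtype_injective
    rw [Polynomial.map_mul, Polynomial.map_mul, map_C, hq₁, ← h]
    show C c * q * _ = C c * _
    ring
  have hu : π ⟨c, hcA⟩ ≠ 0 := fun hz => by
    have := congrArg (Polynomial.map π) heq
    rw [Polynomial.map_mul, Polynomial.map_mul, map_C, hz, map_zero, zero_mul] at this
    exact mul_ne_zero hprim hs this
  obtain ⟨u, hu'⟩ := (map_ne_zero_iff_isUnit π hπ _).mp hu
  have : (((u⁻¹ : Aˣ) : A) : K) = c⁻¹ := by
    apply eq_inv_of_mul_eq_one_right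
    have h2 : (u : A) * ((u⁻¹ : Aˣ) : A) = 1 := u.mul_inv
    rw [hu'] at h2
    exact congrArg Subtype.val h2
  exact this ▸ ((u⁻¹ : Aˣ) : A).2

section Orthonormal

variable {ι : Type*} [Fintype ι]

/-- A subspace of `ι → K` has a basis in `ι → A` with independent reductions. -/
theorem exists_orthonormal : ∀ (r : ℕ) (W : Submodule K (ι → K)), Module.finrank K W = r →
    ∃ w : Fin r → ι → A, (∀ i, (fun j => (w i j : K)) ∈ W) ∧
      LinearIndependent k (fun i j => π (w i j)) := by
  classical
  intro r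
  induction r with
  | zero => exact fun W _ => ⟨Fin.elim0, fun i => i.elim0, linearIndependent_empty_type⟩
  | succ r ih =>
    intro W hW
    have hne : W ≠ ⊥ := by rintro rfl; simp at hW
    obtain ⟨v, hvW, hv⟩ := W.exists_mem_ne_zero_of_ne_bot hne
    obtain ⟨j₀, -, hj₀, hmax⟩ := exists_max_scale (A := A) Finset.univ v
      (let ⟨j, hj⟩ := Function.ne_iff.mp hv; ⟨j, Finset.mem_univ _, hj⟩)
    let v₀ : ι → A := fun j => ⟨v j / v j₀, hmax j (Finset.mem_univ _)⟩
    let e : W →ₗ[K] K := (LinearMap.proj j₀).comp W.subtype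
    have hv0 : (fun j => (v₀ j : K)) ∈ W := by
      have : (fun j => (v₀ j : K)) = (v j₀)⁻¹ • v := by
        funext j; simp [v₀, div_eq_inv_mul]
      rw [this]; exact W.smul_mem _ hvW
    have hesurj : Function.Surjective e := fun c =>
      ⟨c • ⟨_, hv0⟩, by simp [e, v₀, div_self hj₀]⟩
    have hker : Module.finrank K (LinearMap.ker e) = r := by
      have h1 := e.finrank_range_add_finrank_ker
      rw [LinearMap.range_eq_top.mpr hesurj, finrank_top, Module.finrank_self, hW] at h1
      omega
    obtain ⟨w, hwW, hwli⟩ := ih ((LinearMap.ker e).map W.subtype)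
      (by rw [Submodule.finrank_map_subtype_eq]; exact hker)
    have hwmem : ∀ i, (fun j => (w i j : K)) ∈ W ∧ (w i j₀ : K) = 0 := fun i => by
      obtain ⟨z, hz, hzeq⟩ := Submodule.mem_map.mp (hwW i)
      refine ⟨hzeq ▸ z.2, ?_⟩
      have : e z = 0 := hz
      simp only [e, LinearMap.comp_apply, LinearMap.proj_apply] at this
      rw [hzeq] at this
      exact this
    refine ⟨Fin.cons v₀ w, fun i => ?_, ?_⟩
    · refine Fin.cases ?_ (fun i => ?_) i
      · simpa using hv0
      · simpa using (hwmem i).1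
    rw [show (fun i j => π ((Fin.cons v₀ w : Fin (r + 1) → ι → A) i j)) =
        Fin.cons (fun j => π (v₀ j)) (fun i j => π (w i j)) from
      funext fun i => by refine Fin.cases ?_ (fun i => ?_) i <;> simp]
    rw [linearIndependent_finCons]
    refine ⟨hwli, fun hmem => ?_⟩
    let pr : (ι → k) →ₗ[k] k := LinearMap.proj j₀
    have hle : Submodule.span k (Set.range fun i j => π (w i j)) ≤ LinearMap.ker pr := by
      rw [Submodule.span_le]
      rintro _ ⟨i, rfl⟩
      have : w i j₀ = 0 := Subtype.ext (hwmem i).2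
      simp [pr, this]
    have h1 := hle hmem
    have : v₀ j₀ = 1 := Subtype.ext (by simp [v₀, div_self hj₀])
    simp [pr, this] at h1

end Orthonormal

end Fermat.Agent.Curve.ModelAux
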