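/-
The integral closure of `K[x]` in a function field of one variable: description by places,
Riemann-Roch spaces of multiples of the pole divisor of `x`, existence of an integral basis.
-/
import Fermat.Agent.Curve.ReductionAux
import Mathlib.RingTheory.Valuation.LocalSubring
import Mathlib.RingTheory.IntegralClosure.IntegrallyClosed
import Mathlib.RingTheory.Localization.Module
import Mathlib.RingTheory.Polynomial.Basic
import Mathlib.LinearAlgebra.FreeModule.PID
import Mathlib.FieldTheory.IntermediateField.Adjoin.Algebra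

set_option autoImplicit false
set_option linter.style.haveILetI false
set_option linter.unusedSectionVars false

noncomputable section

namespace Fermat.Agent.Curve.ModelAux

open AlgebraicCurve IntermediateField Polynomial
open scoped IntermediateField.algebraAdjoinAdjoin

variable {K F : Type*} [Field K] [Field F] [Algebra K F]

/-- `f` is integral over `K[x]`. -/
def IntOver (K : Type*) {F : Type*} [Field K] [Field F] [Algebra K F] (x f : F) : Prop :=
  IsIntegral (Algebra.adjoin K ({x} : Set F)) f

theorem intOver_aeval (x : F) (q : K[X]) : IntOver K x (aeval x q) := by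
  have h : aeval x q ∈ Algebra.adjoin K ({x} : Set F) := by
    rw [Algebra.adjoin_singleton_eq_range_aeval]
    exact ⟨q, rfl⟩
  exact isIntegral_algebraMap (x := (⟨_, h⟩ : Algebra.adjoin K ({x} : Set F)))

theorem intOver_algebraMap (x : F) (c : K) : IntOver K x (algebraMap K F c) := by
  simpa using intOver_aeval x (C c)

theorem intOver_self (x : F) : IntOver K x x := by
  simpa using intOver_aeval (K := K) x X

/-- Coordinates with polynomial coefficients are unique when the family is independent over
`K(x)`. -/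
def PolyIndep (K : Type*) {F : Type*} [Field K] [Field F] [Algebra K F] {ι : Type*} [Fintype ι]
    (x : F) (e : ι → F) : Prop :=
  ∀ q : ι → K[X], ∑ j, aeval x (q j) * e j = 0 → q = 0

theorem exists_aeval_eq {x : F} (r : Algebra.adjoin K ({x} : Set F)) :
    ∃ q : K[X], aeval x q = (r : F) := by
  exact (AlgHom.mem_range _).mp ((Algebra.adjoin_singleton_eq_range_aeval K x).le r.2)

theorem polyIndep_iff {ι : Type*} [Fintype ι] {x : F} (hx : Transcendental K x) (e : ι → F) :
    PolyIndep K x e ↔ LinearIndependent K⟮x⟯ e := by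
  rw [← LinearIndependent.iff_fractionRing (Algebra.adjoin K ({x} : Set F)) K⟮x⟯,
    Fintype.linearIndependent_iff]
  constructor
  · intro h g hg i
    choose q hq using fun j => exists_aeval_eq (g j)
    have h1 : q = 0 := h q (by simpa [hq, Algebra.smul_def, Subalgebra.algebraMap_mem] using hg)
    apply Subtype.ext
    rw [← hq i, h1]
    simp
  · intro h q hq
    have h1 := h (fun j => ⟨aeval x (q j),
      by rw [Algebra.adjoin_singleton_eq_range_aeval]; exact ⟨q j, rfl⟩⟩)
      (by simpa [Algebra.smul_def] using hq)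
    funext j
    exact transcendental_iff.mp hx (q j) (congrArg Subtype.val (h1 j))

/-- A maximal independent family spans, up to polynomial denominators. -/
theorem exists_mul_eq_sum {ι : Type*} [Fintype ι] {x : F} (hx : Transcendental K x)
    [Module.Finite K⟮x⟯ F] {e : ι → F} (he : PolyIndep K x e)
    (hcard : Fintype.card ι = Module.finrank K⟮x⟯ F) (f : F) :
    ∃ (d : K[X]) (q : ι → K[X]), d ≠ 0 ∧ aeval x d * f = ∑ j, aeval x (q j) * e j := by
  classical
  have hdep : ¬ PolyIndep K x (fun o : Option ι => Option.elim o f e) := by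
    rw [polyIndep_iff hx]
    intro h
    have := h.fintype_card_le_finrank
    rw [Fintype.card_option] at this
    omega
  simp only [PolyIndep, not_forall] at hdep
  obtain ⟨q, hq, hq0⟩ := hdep
  rw [Fintype.sum_option] at hq
  simp only [Option.elim_none, Option.elim_some] at hq
  refine ⟨q none, fun j => -q (some j), fun h0 => hq0 ?_, ?_⟩
  · have h1 : (fun j => q (some j)) = 0 := he _ (by simpa [h0] using hq)
    funext o
    cases o with
    | none => exact h0
    | some j => exact congrFun h1 j
  · rw [eq_neg_of_add_eq_zero_left hq, ← Finset.sum_neg_distrib]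
    exact Finset.sum_congr rfl fun j _ => by rw [map_neg]; ring

variable [IsFunctionFieldOne K F]

/-- Integrality over `K[x]` means no pole off the poles of `x`. -/
theorem intOver_iff {x f : F} : IntOver K x f ↔ ∀ v : Place K F, 0 ≤ v.ord x → 0 ≤ v.ord f := by
  constructor
  · intro hf v hv
    have hle : Algebra.adjoin K ({x} : Set F) ≤
        { v.toValuationSubring.toSubring with algebraMap_mem' := v.algebraMap_mem' } :=
      Algebra.adjoin_le (by simpa using mem_of_ord_nonneg v hv)
    let g : Algebra.adjoin K ({x} : Set F) →+* v.toValuationSubring :=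
      ((Algebra.adjoin K ({x} : Set F)).val.toRingHom).codRestrict
        v.toValuationSubring.toSubring (fun r => hle r.2)
    letI := g.toAlgebra
    haveI : IsScalarTower (Algebra.adjoin K ({x} : Set F)) v.toValuationSubring F :=
      IsScalarTower.of_algebraMap_eq fun _ => rfl
    obtain ⟨y, hy⟩ := IsIntegrallyClosed.isIntegral_iff.mp (IsIntegral.tower_top
      (A := v.toValuationSubring) hf)
    exact ord_nonneg_of_mem v (hy ▸ y.2)
  · intro h
    by_contra hf
    set C : Subring F := (integralClosure (Algebra.adjoin K ({x} : Set F)) F).toSubring with hC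
    haveI : IsIntegrallyClosedIn C F := by
      rw [Subring.isIntegrallyClosedIn_iff]
      intro z hz
      exact isIntegral_trans (A := integralClosure (Algebra.adjoin K ({x} : Set F)) F) _ hz
    obtain ⟨V, hCV, hfV⟩ := C.exists_le_valuationSubring_of_isIntegrallyClosedIn hf
    have hconst : ∀ c : K, algebraMap K F c ∈ V := fun c => hCV (intOver_algebraMap x c)
    have hxV : x ∈ V := hCV (intOver_self x)
    have hft : Transcendental K f := fun halg => hf (halg.isIntegral.tower_top)
    have hf0 : f ≠ 0 := fun h0 => hfV (h0 ▸ V.zero_mem)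
    have hinv : f⁻¹ ∈ V.nonunits := by
      rw [ValuationSubring.mem_nonunits_iff, map_inv₀]
      have : ¬ V.valuation f ≤ 1 := fun hle => hfV ((V.valuation_le_one_iff f).mp hle)
      exact inv_lt_one_of_one_lt₀ (not_le.mp this)
    let v : Place K F :=
      { toValuationSubring := V
        algebraMap_mem' := hconst
        ne_top' := fun htop => hfV (htop ▸ ValuationSubring.mem_top _)
        isPrincipalIdealRing' := isPrincipalIdealRing_of_mem_nonunits
          (transcendental_inv hft) V hconst hinv }
    exact hfV (mem_of_ord_nonneg v (h v (ord_nonneg_of_mem v hxV)))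

/-- The Riemann-Roch space of `m` times the pole divisor of `x`. -/
theorem mem_L_poleDivisor_iff {x f : F} (hx : x ≠ 0) (m : ℕ) :
    f ∈ riemannRochSpace ((m : ℤ) • poleDivisor K x) ↔
      IntOver K x f ∧ IntOver K x⁻¹ (f * x⁻¹ ^ m) := by
  rcases eq_or_ne f 0 with rfl | hf
  · refine iff_of_true (zero_mem _) ⟨intOver_iff.mpr fun v _ => by simp, ?_⟩
    exact intOver_iff.mpr fun v _ => by simp
  rw [RedAux.mem_L_iff hf, intOver_iff, intOver_iff]
  have hord : ∀ v : Place K F, v.ord (f * x⁻¹ ^ m) = v.ord f - m * v.ord x := fun v => by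
    rw [v.ord_mul hf (pow_ne_zero _ (inv_ne_zero hx)), ord_pow, v.ord_inv]; ring
  simp only [Finsupp.smul_apply, poleDivisor_apply, smul_eq_mul, hord, Place.ord_inv]
  constructor
  · intro h
    constructor <;> intro v hv <;> have := h v
    · rw [max_eq_right (by omega)] at this
      simpa using this
    · rw [max_eq_left (by omega)] at this
      linarith
  · intro h v
    rcases le_or_gt 0 (v.ord x) with hv | hv
    · rw [max_eq_right (by omega)]
      simpa using h.1 v hv
    · rw [max_eq_left (by omega)]
      have := h.2 v (by omega)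
      linarith

/-- A function integral over `K[x]` has bounded pole order along `x`. -/
theorem exists_mem_L_poleDivisor {x f : F} (hf : IntOver K x f) :
    ∃ a₀ : ℕ, ∀ a, a₀ ≤ a → f ∈ riemannRochSpace ((a : ℤ) • poleDivisor K x) := by
  classical
  rcases eq_or_ne f 0 with rfl | hf0
  · exact ⟨0, fun _ _ => zero_mem _⟩
  rw [intOver_iff] at hf
  refine ⟨∑ v ∈ (poleDivisor K f).support, (v.ord f).natAbs, fun a ha => ?_⟩
  rw [RedAux.mem_L_iff hf0]
  intro v
  simp only [Finsupp.smul_apply, poleDivisor_apply, smul_eq_mul]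
  rcases le_or_gt 0 (v.ord f) with hv | hv
  · have : 0 ≤ (a : ℤ) * max (-(v.ord x)) 0 := by positivity
    linarith
  · have hvx : v.ord x < 0 := by
      by_contra hno
      have := hf v (by omega)
      omega
    have hmem : v ∈ (poleDivisor K f).support := by
      rw [Finsupp.mem_support_iff, poleDivisor_apply]
      omega
    have hle : (v.ord f).natAbs ≤ a := le_trans
      (Finset.single_le_sum (f := fun w => (w.ord f).natAbs) (fun _ _ => Nat.zero_le _) hmem) ha
    rw [max_eq_left (by omega)]
    have h1 : (a : ℤ) * 1 ≤ (a : ℤ) * (-(v.ord x)) :=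
      mul_le_mul_of_nonneg_left (by omega) (Int.natCast_nonneg a)
    omega

variable [IsAlgClosed K]

/-- Riemann-Roch for the multiples of the pole divisor of `x`. -/
theorem exists_finrank_L_poleDivisor {x : F} (hx : Transcendental K x) :
    ∃ m₀ : ℕ, ∀ m, m₀ ≤ m →
      (Module.finrank K (riemannRochSpace ((m : ℤ) • poleDivisor K x)) : ℤ) =
        m * Module.finrank K⟮x⟯ F + 1 - (genusFF K F : ℤ) := by
  obtain ⟨c, hc⟩ := RedAux.exists_finrank_L_eq (K := K) (F := F)
  refine ⟨c.natAbs, fun m hm => ?_⟩
  have hdeg : Divisor.degree ((m : ℤ) • poleDivisor K x) = (m : ℤ) * Module.finrank K⟮x⟯ F := by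
    rw [map_zsmul, degree_poleDivisor hx, smul_eq_mul]
  have hpos : 0 < Module.finrank K⟮x⟯ F := finrank_adjoin_pos hx
  rw [hc _ (by
    rw [hdeg]
    have h1 : (m : ℤ) * 1 ≤ (m : ℤ) * Module.finrank K⟮x⟯ F :=
      mul_le_mul_of_nonneg_left (by exact_mod_cast hpos) (Int.natCast_nonneg m)
    omega), hdeg]

/-- For large `m` one has `L((m+1)D) = L(mD) + x L(mD)`. -/
theorem exists_L_succ {x : F} (hx : Transcendental K x) :
    ∃ m₀ : ℕ, ∀ m, m₀ ≤ m → ∀ f ∈ riemannRochSpace (((m + 1 : ℕ) : ℤ) • poleDivisor K x),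
      ∃ u ∈ riemannRochSpace ((m : ℤ) • poleDivisor K x),
      ∃ w ∈ riemannRochSpace ((m : ℤ) • poleDivisor K x), f = u + x * w := by
  obtain ⟨m₀, hm₀⟩ := exists_finrank_L_poleDivisor hx
  have hx0 : x ≠ 0 := fun h => hx (h ▸ isAlgebraic_zero)
  refine ⟨m₀ + 1, fun m hm => ?_⟩
  obtain ⟨m, rfl⟩ : ∃ l, m = l + 1 := ⟨m - 1, by omega⟩
  set L : ℕ → Submodule K F := fun i => riemannRochSpace ((i : ℤ) • poleDivisor K x) with hL
  haveI : ∀ i, FiniteDimensional K (L i) := fun i => RedAux.finite_L _
  set S := (L (m + 1)).map (LinearMap.mulLeft K x) with hS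
  have hinj : Function.Injective (LinearMap.mulLeft K x) := mul_right_injective₀ hx0
  have hcancel : ∀ (h : F) (i : ℕ), x * h * x⁻¹ ^ (i + 1) = h * x⁻¹ ^ i := fun h i => by
    linear_combination (h * x⁻¹ ^ i) * mul_inv_cancel₀ hx0
  have hsucc : ∀ i h, h ∈ L i → x * h ∈ L (i + 1) := fun i h hh => by
    obtain ⟨h1, h2⟩ := (mem_L_poleDivisor_iff hx0 i).mp hh
    refine (mem_L_poleDivisor_iff hx0 (i + 1)).mpr ⟨(intOver_self x).mul h1, ?_⟩
    rw [hcancel]
    exact h2
  have hmono : L m ≤ L (m + 1) := fun h hh => by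
    obtain ⟨h1, h2⟩ := (mem_L_poleDivisor_iff hx0 m).mp hh
    refine (mem_L_poleDivisor_iff hx0 (m + 1)).mpr ⟨h1, ?_⟩
    rw [pow_succ, ← mul_assoc]
    exact h2.mul (intOver_self x⁻¹)
  have hinter : L (m + 1) ⊓ S = (L m).map (LinearMap.mulLeft K x) := by
    apply le_antisymm
    · rintro f ⟨hf, h, hh, rfl⟩
      refine ⟨h, (mem_L_poleDivisor_iff hx0 m).mpr ⟨?_, ?_⟩, rfl⟩
      · exact ((mem_L_poleDivisor_iff hx0 (m + 1)).mp hh).1
      · rw [← hcancel]
        exact ((mem_L_poleDivisor_iff hx0 (m + 1)).mp hf).2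
    · rintro f ⟨h, hh, rfl⟩
      exact ⟨hsucc m h hh, h, hmono hh, rfl⟩
  have hle : L (m + 1) ⊔ S ≤ L (m + 1 + 1) := by
    refine sup_le (fun h hh => ?_) ?_
    · obtain ⟨h1, h2⟩ := (mem_L_poleDivisor_iff hx0 (m + 1)).mp hh
      refine (mem_L_poleDivisor_iff hx0 (m + 1 + 1)).mpr ⟨h1, ?_⟩
      rw [pow_succ _ (m + 1), ← mul_assoc]
      exact h2.mul (intOver_self x⁻¹)
    · rintro f ⟨h, hh, rfl⟩
      exact hsucc _ h hh
  have heq : L (m + 1) ⊔ S = L (m + 1 + 1) := by
    refine Submodule.eq_of_le_of_finrank_le hle ?_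
    have h1 := Submodule.finrank_sup_add_finrank_inf_eq (L (m + 1)) S
    rw [hinter] at h1
    rw [← (Submodule.equivMapOfInjective _ hinj (L m)).finrank_eq,
      hS, ← (Submodule.equivMapOfInjective _ hinj (L (m + 1))).finrank_eq] at h1
    have a0 : (Module.finrank K (L m) : ℤ) = _ := hm₀ m (by omega)
    have a1 : (Module.finrank K (L (m + 1)) : ℤ) = _ := hm₀ (m + 1) (by omega)
    have a2 : (Module.finrank K (L (m + 1 + 1)) : ℤ) = _ := hm₀ (m + 1 + 1) (by omega)
    zify at h1 ⊢
    push_cast at a1 a2
    rw [← hS] at h1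
    linarith
  intro f hf
  have hf' : f ∈ L (m + 1) ⊔ S := heq ▸ hf
  obtain ⟨u, hu, v, ⟨w, hw, rfl⟩, rfl⟩ := Submodule.mem_sup.mp hf'
  exact ⟨u, hu, w, hw, rfl⟩

/-- Existence of an integral basis over `K[x]`. -/
theorem exists_integralBasis {x : F} (hx : Transcendental K x) :
    ∃ b : Fin (Module.finrank K⟮x⟯ F) → F, (∀ j, IntOver K x (b j)) ∧ PolyIndep K x b ∧
      ∀ f, IntOver K x f → ∃ q : Fin (Module.finrank K⟮x⟯ F) → K[X],
        f = ∑ j, aeval x (q j) * b j := by
  classical
  have hx0 : x ≠ 0 := fun h => hx (h ▸ isAlgebraic_zero)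
  haveI := finite_adjoin_of_transcendental hx
  set R := Algebra.adjoin K ({x} : Set F)
  obtain ⟨m₀, hm₀⟩ := exists_L_succ hx
  set B : Submodule R F := Subalgebra.toSubmodule (integralClosure R F)
  set L : ℕ → Submodule K F := fun i => riemannRochSpace ((i : ℤ) • poleDivisor K x) with hL
  haveI : ∀ i, FiniteDimensional K (L i) := fun i => RedAux.finite_L _
  have hgen : Submodule.span R (L m₀ : Set F) = B := by
    apply le_antisymm
    · exact Submodule.span_le.mpr fun f hf => ((mem_L_poleDivisor_iff hx0 m₀).mp hf).1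
    · intro f hf
      obtain ⟨a, ha⟩ := exists_mem_L_poleDivisor (show IntOver K x f from hf)
      have key : ∀ i, m₀ ≤ i → ∀ g ∈ L i, g ∈ Submodule.span R (L m₀ : Set F) := by
        intro i hi
        induction i, hi using Nat.le_induction with
        | base => exact fun g hg => Submodule.subset_span hg
        | succ i hi ih =>
          intro g hg
          obtain ⟨u, hu, w, hw, rfl⟩ := hm₀ i hi g hg
          exact add_mem (ih u hu) (Submodule.smul_mem _
            (⟨x, Algebra.self_mem_adjoin_singleton K x⟩ : R) (ih w hw))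
      exact key (max a m₀) (le_max_right _ _) f (ha _ (le_max_left _ _))
  have hBfg : B.FG := by
    obtain ⟨s, hs⟩ := (Submodule.fg_iff_finiteDimensional (L m₀)).mpr inferInstance
    refine ⟨s, ?_⟩
    rw [← hgen, ← hs, Submodule.span_span_of_tower]
  haveI : Module.Finite R B := Module.Finite.of_fg hBfg
  haveI : IsPrincipalIdealRing R := by
    let g : K[X] →ₐ[K] R := (aeval x).codRestrict R fun q => by
      show aeval x q ∈ Algebra.adjoin K ({x} : Set F)
      rw [Algebra.adjoin_singleton_eq_range_aeval]; exact ⟨q, rfl⟩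
    exact IsPrincipalIdealRing.of_surjective g.toRingHom fun r =>
      (exists_aeval_eq r).imp fun q hq => Subtype.ext hq
  let bs := Module.Free.chooseBasis R B
  let e := fun i => ((bs i : B) : F)
  have hint : ∀ i, IntOver K x (e i) := fun i => (bs i).2
  have he : PolyIndep K x e := by
    rw [polyIndep_iff hx, ← LinearIndependent.iff_fractionRing R K⟮x⟯]
    exact bs.linearIndependent.map' B.subtype B.ker_subtype
  have hspan : ∀ f, IntOver K x f → ∃ q : _ → K[X], f = ∑ i, aeval x (q i) * e i := fun f hf => by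
    choose q hq using fun i => exists_aeval_eq (bs.repr ⟨f, hf⟩ i)
    refine ⟨q, ?_⟩
    have := congrArg Subtype.val (bs.sum_repr ⟨f, hf⟩)
    simp only [Submodule.coe_sum, Submodule.coe_smul, Algebra.smul_def] at this
    rw [← this]
    exact Finset.sum_congr rfl fun i _ => by rw [hq]; rfl
  have hcard : Fintype.card (Module.Free.ChooseBasisIndex R B) = Module.finrank K⟮x⟯ F := by
    refine le_antisymm ((polyIndep_iff hx e).mp he).fintype_card_le_finrank ?_
    -- every element is a fraction with integral numerator, hence in the `K(x)`-span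
    have htop : Submodule.span K⟮x⟯ (Set.range e) = ⊤ := by
      rw [eq_top_iff]
      intro f _
      haveI : Algebra.IsAlgebraic R F := Algebra.IsAlgebraic.trans R K⟮x⟯ F
      obtain ⟨d, hd, hint'⟩ := (Algebra.IsAlgebraic.isAlgebraic (R := R) f).exists_integral_multiple
      obtain ⟨q, hq⟩ := hspan (d • f) hint'
      have hd0 : ((d : R) : F) ≠ 0 := fun h => hd (Subtype.ext h)
      rw [Submodule.mem_span_range_iff_exists_fun]
      refine ⟨fun i => algebraMap R K⟮x⟯ ⟨aeval x (q i), by
        show aeval x (q i) ∈ Algebra.adjoin K ({x} : Set F)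
        rw [Algebra.adjoin_singleton_eq_range_aeval]; exact ⟨q i, rfl⟩⟩ / algebraMap R K⟮x⟯ d, ?_⟩
      apply mul_left_cancel₀ hd0
      rw [Finset.mul_sum]
      refine (Finset.sum_congr rfl fun i _ => ?_).trans (hq.symm.trans (Algebra.smul_def d f))
      rw [Algebra.smul_def, map_div₀]
      show (d : F) * (aeval x (q i) / (d : F) * e i) = aeval x (q i) * e i
      field_simp
    have := finrank_range_le_card (R := K⟮x⟯) e
    rw [Set.finrank, htop, finrank_top] at this
    exact this
  let σ := (Fintype.equivFinOfCardEq hcard).symm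
  refine ⟨e ∘ σ, fun j => hint _, ?_, fun f hf => ?_⟩
  · rw [polyIndep_iff hx]
    exact ((polyIndep_iff hx e).mp he).comp σ σ.injective
  · obtain ⟨q, hq⟩ := hspan f hf
    refine ⟨q ∘ σ, ?_⟩
    rw [hq]
    exact (Fintype.sum_equiv σ _ _ fun _ => rfl).symm

end Fermat.Agent.Curve.ModelAux

end
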