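/-
Elementary properties of a Gauss reduction: coordinates, scaling, integrality of reductions,
orthonormal bases of finite dimensional spaces of functions.
-/
import Fermat.Agent.Curve.GaussReduction
import Fermat.Agent.Curve.ModelGauss
import Fermat.Agent.Curve.ModelIntegral
import Mathlib.RingTheory.Valuation.LocalSubring
import Mathlib.Algebra.Polynomial.Lifts

set_option autoImplicit false
set_option linter.unusedSectionVars false
set_option linter.style.haveILetI false

noncomputable section

namespace Fermat.Agent.Curve.GaussReduction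

open AlgebraicCurve IntermediateField Polynomial ModelAux

universe uK uF uk uFb

variable {K : Type uK} [Field K] {A : ValuationSubring K}
  {F : Type uF} [Field F] [Algebra K F]
  {k : Type uk} [Field k] {Fb : Type uFb} [Field Fb] [Algebra k Fb]
  (G : GaussReduction A F k Fb)

/-- The constants inside the valuation ring. -/
def constV : A →+* G.V :=
  ((algebraMap K F).comp A.subtype).codRestrict G.V.toSubring fun a => (G.mem_V_iff a).2 a.2

/-- Integral polynomials in `x` inside the valuation ring. -/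
def polyV : A[X] →+* G.V := eval₂RingHom G.constV G.x

@[simp] theorem coe_polyV (p : A[X]) :
    ((G.polyV p : G.V) : F) = aeval (G.x : F) (p.map A.subtype) := by
  have h : G.V.subtype.comp G.polyV =
      (aeval (R := K) (G.x : F)).toRingHom.comp (mapRingHom A.subtype) := by
    apply Polynomial.ringHom_ext
    · intro a
      simp [polyV, constV]
    · simp [polyV]
  exact RingHom.congr_fun h p

@[simp] theorem φ_polyV (p : A[X]) : G.φ (G.polyV p) = aeval (G.φ G.x) (p.map G.π) := by
  have h : G.φ.comp G.polyV =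
      (aeval (R := k) (G.φ G.x)).toRingHom.comp (mapRingHom G.π) := by
    apply Polynomial.ringHom_ext
    · intro a
      simp [polyV, constV]
      exact G.φ_algebraMap a
    · simp [polyV]
  exact RingHom.congr_fun h p

theorem φ_sum_polyV {ι : Type*} [Fintype ι] (p : ι → A[X]) (Y : ι → G.V) :
    G.φ (∑ j, G.polyV (p j) * Y j) = ∑ j, aeval (G.φ G.x) ((p j).map G.π) * G.φ (Y j) := by
  simp [map_sum, map_mul]

theorem coe_sum_polyV {ι : Type*} [Fintype ι] (p : ι → A[X]) (Y : ι → G.V) :
    ((∑ j, G.polyV (p j) * Y j : G.V) : F) =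
      ∑ j, aeval (G.x : F) ((p j).map A.subtype) * (Y j : F) := by
  rw [← ValuationSubring.subtype_apply, map_sum]
  simp

theorem φ_eq_zero_iff_not_isUnit (f : G.V) : G.φ f = 0 ↔ ¬ IsUnit f := by
  haveI := RingHom.ker_isMaximal_of_surjective G.φ G.φ_surjective
  rw [← RingHom.mem_ker, IsLocalRing.eq_maximalIdeal (I := RingHom.ker G.φ) inferInstance,
    IsLocalRing.mem_maximalIdeal, mem_nonunits_iff]

theorem ne_zero_of_φ_ne_zero {f : G.V} (hf : G.φ f ≠ 0) : (f : F) ≠ 0 :=
  fun h => hf (by rw [show f = 0 from Subtype.ext h, map_zero])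

/-- Division by a unit of `V`. -/
theorem exists_mul_eq {d : G.V} (hd : G.φ d ≠ 0) (v : G.V) : ∃ w : G.V, d * w = v := by
  obtain ⟨u, hu⟩ : IsUnit d := not_not.1 (mt (G.φ_eq_zero_iff_not_isUnit d).2 hd)
  exact ⟨(u⁻¹ : G.Vˣ) * v, by rw [← hu, ← mul_assoc, Units.mul_inv, one_mul]⟩

theorem mem_of_mul_mem {d : G.V} (hd : G.φ d ≠ 0) {f : F} (h : (d : F) * f ∈ G.V) : f ∈ G.V := by
  obtain ⟨w, hw⟩ := G.exists_mul_eq hd ⟨_, h⟩
  have : (w : F) = f := mul_left_cancel₀ (G.ne_zero_of_φ_ne_zero hd) (congrArg Subtype.val hw)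
  exact this ▸ w.2

theorem φ_polyV_ne_zero {d : A[X]} (hd : d.map G.π ≠ 0) : G.φ (G.polyV d) ≠ 0 := by
  rw [G.φ_polyV]
  exact fun h => hd (transcendental_iff.mp G.x_transcendental _ h)

theorem constV_coe (a : A) : ((G.constV a : G.V) : F) = algebraMap K F (a : K) := rfl

theorem φ_constV (a : A) : G.φ (G.constV a) = algebraMap k Fb (G.π a) := G.φ_algebraMap a

variable {ι : Type*} [Fintype ι] (Y : ι → G.V)
  (hY : PolyIndep k (G.φ G.x) fun j => G.φ (Y j))

include hY in
/-- Lifts of an independent family are independent. -/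
theorem polyIndep_lift : PolyIndep K (G.x : F) fun j => (Y j : F) := by
  intro q hq
  by_contra h0
  obtain ⟨c, p, hc, hp, j, hj⟩ := ModelAux.exists_scale_family (A := A) G.π h0
  have hz : ∑ i, G.polyV (p i) * Y i = 0 := by
    apply Subtype.ext
    rw [G.coe_sum_polyV, ZeroMemClass.coe_zero]
    simp only [hp, map_mul, aeval_C, mul_assoc]
    rw [← Finset.mul_sum, hq, mul_zero]
  have := congrArg G.φ hz
  rw [G.φ_sum_polyV, map_zero] at this
  exact hj (congrFun (hY _ this) j)

theorem transcendental_x : Transcendental K (G.x : F) := by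
  rw [transcendental_iff]
  intro q hq
  have h1 : PolyIndep k (G.φ G.x) fun _ : Unit => G.φ (1 : G.V) := by
    intro p hp
    funext u
    exact transcendental_iff.mp G.x_transcendental (p u) (by simpa using hp)
  exact congrFun (G.polyIndep_lift (fun _ : Unit => 1) h1 (fun _ => q) (by simpa using hq)) ()

include G in
theorem isFunctionFieldOne_generic : IsFunctionFieldOne K F := by
  haveI := Module.finite_of_finrank_pos (G.degree_eq ▸ G.degree_pos)
  exact IsFunctionFieldOne.of_finite G.transcendental_x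

include G in
theorem isFunctionFieldOne_residue : IsFunctionFieldOne k Fb := by
  haveI := Module.finite_of_finrank_pos G.degree_pos
  exact IsFunctionFieldOne.of_finite G.x_transcendental

include G in
theorem isAlgClosed_k [IsAlgClosed K] : IsAlgClosed k := by
  refine IsAlgClosed.of_exists_root _ fun p hp hirr => ?_
  have hlift : p ∈ Polynomial.lifts G.π := by
    rw [Polynomial.lifts_iff_coeff_lifts]
    exact fun n => G.π_surjective _
  obtain ⟨q, hq, hdeg, hmon⟩ := Polynomial.lifts_and_degree_eq_and_monic hlift hp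
  have hd : (q.map (algebraMap A K)).degree ≠ 0 := by
    rw [hmon.degree_map, hdeg]
    exact (Polynomial.degree_pos_of_irreducible hirr).ne'
  obtain ⟨z, hz⟩ := IsAlgClosed.exists_root _ hd
  have hint : IsIntegral A z := ⟨q, hmon, by
    rwa [Polynomial.IsRoot.def, Polynomial.eval_map] at hz⟩
  obtain ⟨a, ha⟩ := IsIntegrallyClosed.isIntegral_iff.1 hint
  refine ⟨G.π a, ?_⟩
  have hqa : q.eval a = 0 := by
    apply Subtype.coe_injective
    rw [Polynomial.IsRoot.def, ← ha, Polynomial.eval_map, Polynomial.eval₂_at_apply] at hz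
    simpa using hz
  rw [← hq, Polynomial.eval_map, Polynomial.eval₂_at_apply, hqa, map_zero]

/-- There is a family of `n` functions with independent reductions. -/
theorem exists_frame : ∃ Y : Fin (Module.finrank k⟮G.φ G.x⟯ Fb) → G.V,
    PolyIndep k (G.φ G.x) fun j => G.φ (Y j) := by
  haveI := Module.finite_of_finrank_pos G.degree_pos
  let b := Module.finBasis k⟮G.φ G.x⟯ Fb
  choose Y hY using fun j => G.φ_surjective (b j)
  refine ⟨Y, ?_⟩
  simp only [hY]
  exact (polyIndep_iff G.x_transcendental _).mpr b.linearIndependent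

variable (hcard : Fintype.card ι = Module.finrank K⟮(G.x : F)⟯ F)

include hY hcard in
/-- Coordinates with a primitive denominator. -/
theorem exists_coords (f : F) : ∃ (d : A[X]) (q : ι → K[X]), d.map G.π ≠ 0 ∧
    aeval (G.x : F) (d.map A.subtype) * f = ∑ j, aeval (G.x : F) (q j) * (Y j : F) := by
  haveI := Module.finite_of_finrank_pos (G.degree_eq ▸ G.degree_pos)
  obtain ⟨d, q, hd, h⟩ := exists_mul_eq_sum G.transcendental_x (G.polyIndep_lift Y hY) hcard f
  obtain ⟨c, d₀, hc, hd₀, hprim⟩ := exists_scale_poly (A := A) G.π hd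
  refine ⟨d₀, fun j => C c * q j, hprim, ?_⟩
  rw [hd₀, map_mul, mul_assoc, h, Finset.mul_sum]
  simp [map_mul, mul_assoc]

include hY in
/-- The coordinates of an element of `V` with primitive denominator are integral. -/
theorem coords_integral {d : A[X]} {q : ι → K[X]} {f : G.V}
    (h : aeval (G.x : F) (d.map A.subtype) * (f : F) = ∑ j, aeval (G.x : F) (q j) * (Y j : F)) :
    ∃ p : ι → A[X], (∀ j, (p j).map A.subtype = q j) ∧ G.polyV d * f = ∑ j, G.polyV (p j) * Y j := by
  suffices hex : ∃ p : ι → A[X], ∀ j, (p j).map A.subtype = q j by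
    obtain ⟨p, hp⟩ := hex
    refine ⟨p, hp, Subtype.ext ?_⟩
    rw [G.coe_sum_polyV, MulMemClass.coe_mul, coe_polyV]
    simp only [hp]
    exact h
  rcases eq_or_ne q 0 with rfl | hq
  · exact ⟨0, fun j => by simp⟩
  obtain ⟨c, p, hc, hp, j, hj⟩ := ModelAux.exists_scale_family (A := A) G.π hq
  -- it is enough that `c⁻¹` is integral
  suffices hcA : c⁻¹ ∈ A by
    refine ⟨fun i => C ⟨c⁻¹, hcA⟩ * p i, fun i => ?_⟩
    rw [Polynomial.map_mul, map_C, hp, ← mul_assoc, ← map_mul]
    simp [inv_mul_cancel₀ hc]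
  rcases A.mem_or_inv_mem c with hcA | hcA
  swap
  · exact hcA
  have hu : G.π ⟨c, hcA⟩ ≠ 0 := by
    intro hz
    have heq : ∑ i, G.polyV (p i) * Y i = G.constV ⟨c, hcA⟩ * (G.polyV d * f) := by
      apply Subtype.ext
      rw [G.coe_sum_polyV, MulMemClass.coe_mul, MulMemClass.coe_mul, coe_polyV, constV_coe, h,
        Finset.mul_sum]
      simp [hp, mul_assoc]
    have := congrArg G.φ heq
    rw [G.φ_sum_polyV, map_mul, φ_constV, hz, map_zero, zero_mul] at this
    exact hj (congrFun (hY _ this) j)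
  obtain ⟨u, hu'⟩ := (map_ne_zero_iff_isUnit G.π G.π_surjective _).mp hu
  have hinv : (((u⁻¹ : Aˣ) : A) : K) = c⁻¹ := by
    apply eq_inv_of_mul_eq_one_right
    have h2 : (u : A) * ((u⁻¹ : Aˣ) : A) = 1 := u.mul_inv
    rw [hu'] at h2
    exact congrArg Subtype.val h2
  exact hinv ▸ ((u⁻¹ : Aˣ) : A).2

/-- Every non-zero function has a constant multiple with non-zero reduction. -/
theorem exists_scale (f : F) (hf : f ≠ 0) :
    ∃ c : K, ∃ h : c • f ∈ G.V, G.φ ⟨c • f, h⟩ ≠ 0 := by
  obtain ⟨Y, hY⟩ := G.exists_frame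
  obtain ⟨d, q, hd, h⟩ := G.exists_coords Y hY (by simp [G.degree_eq]) f
  have hq : q ≠ 0 := by
    rintro rfl
    simp only [Pi.zero_apply, map_zero, zero_mul, Finset.sum_const_zero, mul_eq_zero] at h
    have := G.ne_zero_of_φ_ne_zero (G.φ_polyV_ne_zero hd)
    rw [coe_polyV] at this
    exact h.elim this hf
  obtain ⟨c, p, hc, hp, j, hj⟩ := ModelAux.exists_scale_family (A := A) G.π hq
  have heq : ((G.polyV d : G.V) : F) * (c • f) = ((∑ i, G.polyV (p i) * Y i : G.V) : F) := by
    rw [G.coe_sum_polyV, coe_polyV, Algebra.smul_def, mul_left_comm, h, Finset.mul_sum]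
    simp [hp, mul_assoc]
  have hmem : c • f ∈ G.V := G.mem_of_mul_mem (G.φ_polyV_ne_zero hd) (heq ▸ Subtype.coe_prop _)
  refine ⟨c, hmem, fun h0 => hj ?_⟩
  have h1 : G.polyV d * ⟨c • f, hmem⟩ = ∑ i, G.polyV (p i) * Y i := Subtype.ext heq
  have h2 := congrArg G.φ h1
  rw [map_mul, h0, mul_zero, G.φ_sum_polyV] at h2
  exact congrFun (hY _ h2.symm) j

/-- The reduction of a function in `V` integral over `K[x]` is integral over `k[x̄]`. -/
theorem intOver_φ {f : G.V} (hf : IntOver K (G.x : F) (f : F)) :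
    IntOver k (G.φ G.x) (G.φ f) := by
  classical
  obtain ⟨Y, hY⟩ := G.exists_frame
  have hcard : Fintype.card (Fin (Module.finrank k⟮G.φ G.x⟯ Fb)) =
      Module.finrank K⟮(G.x : F)⟯ F := by simp [G.degree_eq]
  set R := Algebra.adjoin K ({(G.x : F)} : Set F)
  obtain ⟨s, hs⟩ := IsIntegral.fg_adjoin_singleton hf
  choose d q hd hdq using fun y => G.exists_coords Y hY hcard y
  set D := ∏ y ∈ s, d y with hD
  have hDprim : D.map G.π ≠ 0 := by
    rw [hD, Polynomial.map_prod]
    exact Finset.prod_ne_zero_iff.mpr fun y _ => hd y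
  -- `D` clears all denominators in `R[f]`
  have hclear : ∀ y ∈ Submodule.span R (s : Set F), ∃ Q : _ → K[X],
      aeval (G.x : F) (D.map A.subtype) * y = ∑ j, aeval (G.x : F) (Q j) * (Y j : F) := by
    intro y hy
    induction hy using Submodule.span_induction with
    | mem y hy =>
      refine ⟨fun j => (∏ z ∈ s.erase y, d z).map A.subtype * q y j, ?_⟩
      rw [hD, ← Finset.mul_prod_erase s d hy, Polynomial.map_mul, map_mul, mul_comm (aeval _ _),
        mul_assoc, hdq, Finset.mul_sum]
      simp [mul_assoc]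
    | zero => exact ⟨0, by simp⟩
    | add a b _ _ ha hb =>
      obtain ⟨P, hP⟩ := ha
      obtain ⟨Q, hQ⟩ := hb
      exact ⟨P + Q, by simp [mul_add, hP, hQ, add_mul, Finset.sum_add_distrib]⟩
    | smul r a _ ha =>
      obtain ⟨P, hP⟩ := ha
      obtain ⟨t, ht⟩ := exists_aeval_eq r
      refine ⟨fun j => t * P j, ?_⟩
      rw [Algebra.smul_def]
      show _ * ((r : F) * a) = _
      rw [← ht, mul_left_comm, hP, Finset.mul_sum]
      simp [mul_assoc]
  haveI : IsNoetherianRing (Algebra.adjoin k ({G.φ G.x} : Set Fb)) := by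
    rw [Algebra.adjoin_singleton_eq_range_aeval]
    exact isNoetherianRing_range _
  set Rb := Algebra.adjoin k ({G.φ G.x} : Set Fb)
  set N : Submodule Rb Fb := Submodule.span Rb (Set.range fun j => G.φ (Y j))
  haveI : Module.Finite Rb N := Module.Finite.of_fg (Submodule.fg_span (Set.finite_range _))
  set m := G.φ (G.polyV D)
  set S := Subalgebra.toSubmodule (Algebra.adjoin Rb ({G.φ f} : Set Fb))
  have hmem : ∀ y ∈ S, m * y ∈ N := by
    intro y hy
    have hy' : y ∈ Algebra.adjoin Rb ({G.φ f} : Set Fb) := hy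
    rw [Algebra.adjoin_singleton_eq_range_aeval] at hy'
    obtain ⟨P, rfl⟩ := hy'
    show m * aeval (G.φ f) P ∈ N
    rw [aeval_eq_sum_range, Finset.mul_sum]
    refine Submodule.sum_mem _ fun i _ => ?_
    rw [mul_smul_comm]
    refine Submodule.smul_mem _ _ ?_
    have hfi : ((f : F)) ^ i ∈ Submodule.span R (s : Set F) :=
      hs.symm ▸ Subalgebra.pow_mem _ (Algebra.self_mem_adjoin_singleton R (f : F)) i
    obtain ⟨Q, hQ⟩ := hclear _ hfi
    obtain ⟨p, -, hp⟩ := G.coords_integral Y hY (f := f ^ i) (d := D) (q := Q) (by simpa using hQ)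
    have := congrArg G.φ hp
    rw [map_mul, map_pow, G.φ_sum_polyV] at this
    rw [this]
    refine Submodule.sum_mem _ fun j _ => ?_
    have h1 : aeval (G.φ G.x) ((p j).map G.π) ∈ Rb := by
      show _ ∈ Algebra.adjoin k ({G.φ G.x} : Set Fb)
      rw [Algebra.adjoin_singleton_eq_range_aeval]
      exact ⟨_, rfl⟩
    exact Submodule.smul_mem N (⟨_, h1⟩ : Rb) (Submodule.subset_span ⟨j, rfl⟩)
  let g : S →ₗ[Rb] N := ((LinearMap.mulLeft Rb m).comp S.subtype).codRestrict N fun y => hmem _ y.2
  have hg : Function.Injective g := fun a b hab => Subtype.ext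
    (mul_left_cancel₀ (G.φ_polyV_ne_zero hDprim) (congrArg Subtype.val hab))
  haveI : Module.Finite Rb S := Module.Finite.of_injective g hg
  exact IsIntegral.of_mem_of_fg (Algebra.adjoin Rb ({G.φ f} : Set Fb))
    (Module.Finite.iff_fg.mp ‹_›) _ (Algebra.self_mem_adjoin_singleton Rb _)

/-- Finite dimensional spaces of functions have bases in `V` with independent reductions. -/
theorem exists_orthonormal_basis (W : Submodule K F) [FiniteDimensional K W] :
    ∃ e : Fin (Module.finrank K W) → G.V, (∀ i, (e i : F) ∈ W) ∧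
      LinearIndependent k fun i => G.φ (e i) := by
  classical
  obtain ⟨Y, hY⟩ := G.exists_frame
  let bW := Module.finBasis K W
  choose d q hd hdq using fun i => G.exists_coords Y hY (by simp [G.degree_eq]) (bW i : F)
  set D := ∏ i, d i with hD
  have hDprim : D.map G.π ≠ 0 := by
    rw [hD, Polynomial.map_prod]
    exact Finset.prod_ne_zero_iff.mpr fun y _ => hd y
  set m := aeval (G.x : F) (D.map A.subtype) with hm
  have hm0 : m ≠ 0 := by
    have := G.ne_zero_of_φ_ne_zero (G.φ_polyV_ne_zero hDprim)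
    rwa [coe_polyV] at this
  obtain ⟨Q, hQ⟩ : ∃ Q : Fin (Module.finrank K W) → Fin (Module.finrank k⟮G.φ G.x⟯ Fb) → K[X],
      ∀ i, m * (bW i : F) = ∑ j, aeval (G.x : F) (Q i j) * (Y j : F) := by
    refine ⟨fun i j => (∏ l ∈ Finset.univ.erase i, d l).map A.subtype * q i j, fun i => ?_⟩
    rw [hm, hD, ← Finset.mul_prod_erase _ d (Finset.mem_univ i), Polynomial.map_mul, map_mul,
      mul_comm (aeval _ _), mul_assoc, hdq, Finset.mul_sum]
    simp [mul_assoc]
  obtain ⟨N, hN⟩ : ∃ N, ∀ i j, (Q i j).natDegree < N := by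
    obtain ⟨N, hN⟩ := (Set.finite_range fun ij : Fin (Module.finrank K W) ×
      Fin (Module.finrank k⟮G.φ G.x⟯ Fb) => (Q ij.1 ij.2).natDegree).bddAbove
    exact ⟨N + 1, fun i j => Nat.lt_succ_of_le (hN ⟨(i, j), rfl⟩)⟩
  let T : (Fin (Module.finrank k⟮G.φ G.x⟯ Fb) × Fin N → K) →ₗ[K] F := Fintype.linearCombination K
    fun jl => m⁻¹ * ((G.x : F) ^ (jl.2 : ℕ) * (Y jl.1 : F))
  have hrange : W ≤ LinearMap.range T := by
    intro w hw
    have hspan : Submodule.span K (Set.range fun i => (bW i : F)) = W := by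
      have := congrArg (Submodule.map W.subtype) bW.span_eq
      rwa [Submodule.map_span, ← Set.range_comp, Submodule.map_top, Submodule.range_subtype]
        at this
    rw [← hspan] at hw
    refine Submodule.span_le.mpr ?_ hw
    rintro _ ⟨i, rfl⟩
    refine ⟨fun jl => (Q i jl.1).coeff jl.2, ?_⟩
    rw [Fintype.linearCombination_apply]
    apply mul_left_cancel₀ hm0
    rw [hQ, Finset.mul_sum, Fintype.sum_prod_type]
    refine Finset.sum_congr rfl fun j _ => ?_
    rw [aeval_eq_sum_range' (hN i j), Finset.sum_mul, Finset.sum_range]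
    refine Finset.sum_congr rfl fun l _ => ?_
    simp only [Algebra.smul_def]
    field_simp
  have hinj : Function.Injective T := by
    rw [← LinearMap.ker_eq_bot, LinearMap.ker_eq_bot']
    intro v hv
    have h1 := G.polyIndep_lift Y hY (fun j => ∑ l : Fin N, C (v (j, l)) * X ^ (l : ℕ)) (by
      rw [Fintype.linearCombination_apply] at hv
      apply_fun (m * ·) at hv
      rw [mul_zero, Finset.mul_sum, Fintype.sum_prod_type] at hv
      rw [← hv]
      refine Finset.sum_congr rfl fun j _ => ?_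
      rw [map_sum, Finset.sum_mul]
      refine Finset.sum_congr rfl fun l _ => ?_
      simp only [Algebra.smul_def, map_mul, aeval_C, map_pow, aeval_X]
      field_simp)
    funext ⟨j, l⟩
    have := congrArg (fun p => Polynomial.coeff p (l : ℕ)) (congrFun h1 j)
    simpa [coeff_C_mul_X_pow, Fin.val_eq_val, eq_comm] using this
  have hW' : Module.finrank K (W.comap T) = Module.finrank K W := by
    rw [(Submodule.equivMapOfInjective _ hinj (W.comap T)).finrank_eq,
      Submodule.map_comap_eq_of_le hrange]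
  obtain ⟨w, hwW, hwli⟩ := ModelAux.exists_orthonormal (A := A) G.π _ (W.comap T) hW'
  obtain ⟨minv, hminv⟩ := G.exists_mul_eq (G.φ_polyV_ne_zero hDprim) 1
  have hminvF : (minv : F) = m⁻¹ := by
    apply eq_inv_of_mul_eq_one_right
    have := congrArg Subtype.val hminv
    simpa [hm] using this
  let e : Fin (Module.finrank K W) → G.V :=
    fun i => minv * ∑ j, G.polyV (∑ l : Fin N, C (w i (j, l)) * X ^ (l : ℕ)) * Y j
  have heT : ∀ i, (e i : F) = T fun jl => (w i jl : K) := by
    intro i
    rw [MulMemClass.coe_mul, G.coe_sum_polyV, hminvF, Fintype.linearCombination_apply,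
      Fintype.sum_prod_type, Finset.mul_sum]
    refine Finset.sum_congr rfl fun j _ => ?_
    rw [Polynomial.map_sum, map_sum, Finset.sum_mul, Finset.mul_sum]
    refine Finset.sum_congr rfl fun l _ => ?_
    simp only [Polynomial.map_mul, map_C, Polynomial.map_pow, map_X, map_mul, aeval_C, map_pow,
      aeval_X, Algebra.smul_def, ValuationSubring.subtype_apply]
    ring
  refine ⟨e, fun i => heT i ▸ hwW i, ?_⟩
  let Tb : (Fin (Module.finrank k⟮G.φ G.x⟯ Fb) × Fin N → k) →ₗ[k] Fb := Fintype.linearCombination k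
    fun jl => G.φ minv * (G.φ G.x ^ (jl.2 : ℕ) * G.φ (Y jl.1))
  have hTb : Function.Injective Tb := by
    rw [← LinearMap.ker_eq_bot, LinearMap.ker_eq_bot']
    intro v hv
    have hmb : G.φ minv ≠ 0 := by
      intro h0
      have := congrArg G.φ hminv
      rw [map_mul, h0, mul_zero, map_one] at this
      exact zero_ne_one this
    have h1 := hY (fun j => ∑ l : Fin N, C (v (j, l)) * X ^ (l : ℕ)) (by
      apply mul_left_cancel₀ hmb
      rw [Fintype.linearCombination_apply, Fintype.sum_prod_type] at hv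
      rw [mul_zero, ← hv, Finset.mul_sum]
      refine Finset.sum_congr rfl fun j _ => ?_
      rw [map_sum, Finset.sum_mul, Finset.mul_sum]
      refine Finset.sum_congr rfl fun l _ => ?_
      simp only [Algebra.smul_def, map_mul, aeval_C, map_pow, aeval_X]
      ring)
    funext ⟨j, l⟩
    have := congrArg (fun p => Polynomial.coeff p (l : ℕ)) (congrFun h1 j)
    simpa [coeff_C_mul_X_pow, Fin.val_eq_val, eq_comm] using this
  have heTb : (fun i => G.φ (e i)) = fun i => Tb fun jl => G.π (w i jl) := by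
    funext i
    rw [map_mul, G.φ_sum_polyV, Fintype.linearCombination_apply, Fintype.sum_prod_type,
      Finset.mul_sum]
    refine Finset.sum_congr rfl fun j _ => ?_
    rw [Polynomial.map_sum, map_sum, Finset.sum_mul, Finset.mul_sum]
    refine Finset.sum_congr rfl fun l _ => ?_
    simp only [Polynomial.map_mul, map_C, Polynomial.map_pow, map_X, map_mul, aeval_C, map_pow,
      aeval_X, Algebra.smul_def]
    ring
  rw [heTb]
  exact hwli.map' Tb (LinearMap.ker_eq_bot.mpr hTb)

/-- An element of `V` in the span of an orthonormal family reduces into the span of the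
reductions. -/
theorem φ_mem_span {r : ℕ} (e : Fin r → G.V) (he : LinearIndependent k fun i => G.φ (e i))
    {f : G.V} (hf : (f : F) ∈ Submodule.span K (Set.range fun i => (e i : F))) :
    G.φ f ∈ Submodule.span k (Set.range fun i => G.φ (e i)) := by
  obtain ⟨c, hc⟩ := (Submodule.mem_span_range_iff_exists_fun K).mp hf
  by_cases hcA : ∀ i, c i ∈ A
  · have heq : f = ∑ i, G.constV ⟨c i, hcA i⟩ * e i := by
      apply Subtype.ext
      rw [← ValuationSubring.subtype_apply (∑ i, _ * _), map_sum, ← hc]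
      simp [constV_coe, Algebra.smul_def]
    rw [heq, map_sum]
    refine Submodule.sum_mem _ fun i _ => ?_
    rw [map_mul, φ_constV, ← Algebra.smul_def]
    exact Submodule.smul_mem _ _ (Submodule.subset_span ⟨i, rfl⟩)
  exfalso
  push Not at hcA
  obtain ⟨i₀, hi₀⟩ := hcA
  obtain ⟨i, -, hi, hmax⟩ := exists_max_scale (A := A) Finset.univ c
    ⟨i₀, Finset.mem_univ _, fun h => hi₀ (h ▸ A.zero_mem)⟩
  have hci : c i ∉ A := fun h => hi₀ (by
    have := A.mul_mem _ _ h (hmax i₀ (Finset.mem_univ _))
    rwa [mul_div_cancel₀ _ hi] at this)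
  have hinvA : (c i)⁻¹ ∈ A := (A.mem_or_inv_mem _).resolve_left hci
  have hsmall : G.π ⟨(c i)⁻¹, hinvA⟩ = 0 := by
    by_contra hne
    obtain ⟨u, hu⟩ := (map_ne_zero_iff_isUnit G.π G.π_surjective _).mp hne
    apply hci
    have h2 : (u : A) * ((u⁻¹ : Aˣ) : A) = 1 := u.mul_inv
    rw [hu] at h2
    have h3 : (c i)⁻¹ * (((u⁻¹ : Aˣ) : A) : K) = 1 := congrArg Subtype.val h2
    have : c i = (((u⁻¹ : Aˣ) : A) : K) := by
      rw [eq_inv_of_mul_eq_one_right h3, inv_inv]
    exact this ▸ ((u⁻¹ : Aˣ) : A).2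
  have heq : ∑ l, G.constV ⟨c l / c i, hmax l (Finset.mem_univ _)⟩ * e l =
      G.constV ⟨(c i)⁻¹, hinvA⟩ * f := by
    apply Subtype.ext
    rw [← ValuationSubring.subtype_apply (∑ l, _ * _), map_sum, MulMemClass.coe_mul, ← hc,
      Finset.mul_sum]
    simp [constV_coe, Algebra.smul_def, div_eq_inv_mul, mul_assoc]
  have h2 := congrArg G.φ heq
  rw [map_sum, map_mul, φ_constV, hsmall, map_zero, zero_mul] at h2
  simp only [map_mul, φ_constV, ← Algebra.smul_def] at h2
  have h3 := Fintype.linearIndependent_iff.mp he _ h2 i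
  have h4 : (⟨c i / c i, hmax i (Finset.mem_univ _)⟩ : A) = 1 := Subtype.ext (div_self hi)
  rw [h4, map_one] at h3
  exact one_ne_zero h3

end Fermat.Agent.Curve.GaussReduction

end
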