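/-
The genus of the special fibre of a Gauss reduction: `genus(Fb) ≤ genus(F)`, with equality when
both charts `V ∩ (integral closure of K[x^{±1}])` reduce onto the integral closures of `k[x̄^{±1}]`.
-/
import Fermat.Agent.Curve.ModelReduce

set_option autoImplicit false
set_option linter.unusedSectionVars false
set_option linter.style.haveILetI false

noncomputable section

namespace Fermat.Agent.Curve.GaussReduction

open AlgebraicCurve IntermediateField Polynomial ModelAux

universe uK uF uk uFb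

variable {K : Type uK} [Field K] [IsAlgClosed K] {A : ValuationSubring K}
  {F : Type uF} [Field F] [Algebra K F]
  {k : Type uk} [Field k] {Fb : Type uFb} [Field Fb] [Algebra k Fb]
  (G : GaussReduction A F k Fb)

/-- `1/x` as an element of `V`. -/
def xinv : G.V := ⟨(G.x : F)⁻¹, G.x_inv_mem⟩

@[simp] theorem coe_xinv : (G.xinv : F) = (G.x : F)⁻¹ := rfl

@[simp] theorem φ_xinv : G.φ G.xinv = (G.φ G.x)⁻¹ := G.φ_x_inv

theorem coe_sum {ι : Type*} [Fintype ι] (g : ι → G.V) :
    ((∑ j, g j : G.V) : F) = ∑ j, (g j : F) :=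
  map_sum G.V.subtype g Finset.univ

theorem intOver_inv_φ {f : G.V} (hf : IntOver K (G.x : F)⁻¹ (f : F)) :
    IntOver k (G.φ G.x)⁻¹ (G.φ f) := by
  have h := G.swap.intOver_φ (f := f) hf
  rw [← G.φ_x_inv]
  exact h

/-- The reduction respects the Riemann-Roch spaces of the multiples of the pole divisor. -/
theorem φ_mem_L [IsFunctionFieldOne K F] [IsFunctionFieldOne k Fb] {m : ℕ} {f : G.V}
    (hf : (f : F) ∈ riemannRochSpace ((m : ℤ) • poleDivisor K (G.x : F))) :
    G.φ f ∈ riemannRochSpace ((m : ℤ) • poleDivisor k (G.φ G.x)) := by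
  obtain ⟨h1, h2⟩ := (mem_L_poleDivisor_iff G.x_ne_zero m).mp hf
  refine (mem_L_poleDivisor_iff G.φ_x_ne_zero m).mpr ⟨G.intOver_φ h1, ?_⟩
  rw [← G.φ_xinv, ← map_pow, ← map_mul]
  rw [G.φ_xinv]
  exact G.intOver_inv_φ (f := f * G.xinv ^ m) (by simpa using h2)

include G in
/-- The genus does not increase under reduction. -/
theorem genusFF_le : genusFF k Fb ≤ genusFF K F := by
  haveI := G.isFunctionFieldOne_generic
  haveI := G.isFunctionFieldOne_residue
  haveI := G.isAlgClosed_k
  obtain ⟨m₁, hm₁⟩ := exists_finrank_L_poleDivisor G.transcendental_x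
  obtain ⟨m₂, hm₂⟩ := exists_finrank_L_poleDivisor G.x_transcendental
  set m := max m₁ m₂
  set W := riemannRochSpace ((m : ℤ) • poleDivisor K (G.x : F))
  set S := riemannRochSpace ((m : ℤ) • poleDivisor k (G.φ G.x))
  haveI : FiniteDimensional K W := RedAux.finite_L _
  haveI : FiniteDimensional k S := RedAux.finite_L _
  obtain ⟨e, heW, he⟩ := G.exists_orthonormal_basis W
  have hle : Module.finrank K W ≤ Module.finrank k S := by
    have h1 : Submodule.span k (Set.range fun i => G.φ (e i)) ≤ S :=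
      Submodule.span_le.mpr (by rintro _ ⟨i, rfl⟩; exact G.φ_mem_L (heW i))
    have h2 := Submodule.finrank_mono h1
    rwa [finrank_span_eq_card he, Fintype.card_fin] at h2
  have a1 : (Module.finrank K W : ℤ) = _ := hm₁ m (le_max_left _ _)
  have a2 : (Module.finrank k S : ℤ) = _ := hm₂ m (le_max_right _ _)
  rw [G.degree_eq] at a1
  omega

/-- A primitive polynomial without roots in `A` has a unit as constant coefficient. -/
theorem π_coeff_zero_ne_zero {d : A[X]} (hd : d.map G.π ≠ 0) (hroot : ∀ α : A, ¬ d.IsRoot α) :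
    G.π (d.coeff 0) ≠ 0 := by
  have key : ∀ s : Multiset K, (∀ r ∈ s, r ∉ A) → ∃ (c : K) (q : A[X]), q.coeff 0 = 1 ∧
      C c * q.map A.subtype = (s.map fun r => X - C r).prod := by
    intro s
    induction s using Multiset.induction_on with
    | empty => exact fun _ => ⟨1, 1, by simp, by simp⟩
    | cons r s ih =>
      intro hs
      obtain ⟨c, q, hq, hcq⟩ := ih fun y hy => hs y (Multiset.mem_cons_of_mem hy)
      have hr : r ∉ A := hs r (Multiset.mem_cons_self r s)
      have hr0 : r ≠ 0 := fun h => hr (h ▸ A.zero_mem)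
      refine ⟨-r * c, q * (1 - C ⟨r⁻¹, (A.mem_or_inv_mem r).resolve_left hr⟩ * X), ?_, ?_⟩
      · simp [mul_coeff_zero, hq]
      · rw [Multiset.map_cons, Multiset.prod_cons, ← hcq]
        have h1 : (C r * C r⁻¹ : K[X]) = 1 := by rw [← map_mul, mul_inv_cancel₀ hr0, map_one]
        simp only [Polynomial.map_mul, Polynomial.map_sub, Polynomial.map_one, map_C, map_X,
          map_mul, map_neg, ValuationSubring.subtype_apply]
        linear_combination (C c * q.map A.subtype * X) * h1
  intro h0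
  set dK := d.map A.subtype with hdK
  have hnr : ∀ r ∈ dK.roots, r ∉ A := fun r hr hrA => hroot ⟨r, hrA⟩ (by
    have h1 := (mem_roots'.mp hr).2
    rw [IsRoot.def, hdK, show r = A.subtype ⟨r, hrA⟩ from rfl, eval_map, eval₂_at_apply] at h1
    exact A.subtype_injective (by rw [h1, map_zero]))
  obtain ⟨c, q, hq, hcq⟩ := key dK.roots hnr
  have hsplit : dK = C (dK.leadingCoeff * c) * q.map A.subtype := by
    rw [map_mul, mul_assoc, hcq]
    exact (IsAlgClosed.splits dK).eq_prod_roots
  have he : ((d.coeff 0 : A) : K) = dK.leadingCoeff * c := by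
    have h1 := congrArg (fun p => Polynomial.coeff p 0) hsplit
    simp only [coeff_C_mul, coeff_map, hdK, hq, map_one, mul_one,
      ValuationSubring.subtype_apply] at h1
    rw [hdK]
    exact h1
  have heq : d = C (d.coeff 0) * q := by
    apply map_injective A.subtype A.subtype_injective
    rw [Polynomial.map_mul, map_C, ← hdK, ValuationSubring.subtype_apply, he]
    exact hsplit
  apply hd
  rw [heq, Polynomial.map_mul, map_C, h0, map_zero, zero_mul]

variable {ι : Type*} [Fintype ι] (Y : ι → G.V) (hY : PolyIndep k (G.φ G.x) fun j => G.φ (Y j))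
  (hint : ∀ j, IntOver K (G.x : F) (Y j : F))
  (hspan : ∀ b : Fb, IntOver k (G.φ G.x) b →
    ∃ q : ι → k[X], b = ∑ j, aeval (G.φ G.x) (q j) * G.φ (Y j))

theorem intOver_polyV (p : A[X]) : IntOver K (G.x : F) ((G.polyV p : G.V) : F) := by
  rw [coe_polyV]; exact intOver_aeval _ _

include hY hint hspan in
/-- A root in `A` of a denominator is a root of all numerators. -/
theorem cancel_root {d : A[X]} {p : ι → A[X]} {h : G.V} (hh : IntOver K (G.x : F) (h : F)) (α : A)
    (heq : G.polyV ((X - C α) * d) * h = ∑ j, G.polyV (p j) * Y j) :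
    ∃ p' : ι → A[X], G.polyV d * h = ∑ j, G.polyV (p' j) * Y j := by
  classical
  set q : ι → A[X] := fun j => p j /ₘ (X - C α) with hq
  set u : ι → A := fun j => (p j).eval α with hu
  have hp : ∀ j, p j = (X - C α) * q j + C (u j) := fun j => by
    have := modByMonic_add_div (p j) (X - C α)
    rw [modByMonic_X_sub_C_eq_C_eval] at this
    rw [add_comm]
    exact this.symm
  set w : G.V := G.polyV d * h - ∑ j, G.polyV (q j) * Y j with hw
  have hwint : IntOver K (G.x : F) (w : F) := by
    rw [hw, AddSubgroupClass.coe_sub, MulMemClass.coe_mul, ← ValuationSubring.subtype_apply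
      (∑ j, _ * _), map_sum]
    refine ((G.intOver_polyV d).mul hh).sub (IsIntegral.sum _ fun j _ => ?_)
    rw [map_mul]
    exact (G.intOver_polyV (q j)).mul (hint j)
  have hxw : G.polyV (X - C α) * w = ∑ j, G.constV (u j) * Y j := by
    rw [hw, mul_sub, ← mul_assoc, ← map_mul, heq, Finset.mul_sum, ← Finset.sum_sub_distrib]
    refine Finset.sum_congr rfl fun j _ => ?_
    rw [hp j, map_add, map_mul]
    simp only [polyV, coe_eval₂RingHom, eval₂_C]
    ring
  have hmonic : (X - C α : A[X]).map G.π ≠ 0 :=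
    ((monic_X_sub_C α).map G.π).ne_zero
  have hxα : G.φ (G.polyV (X - C α)) ≠ 0 := G.φ_polyV_ne_zero hmonic
  by_cases hu0 : u = 0
  · refine ⟨q, ?_⟩
    have h1 : G.polyV (X - C α) * w = 0 := by rw [hxw]; simp [hu0]
    have h2 : w = 0 := (mul_eq_zero.mp h1).resolve_left fun h => hxα (by rw [h, map_zero])
    exact sub_eq_zero.mp h2
  exfalso
  obtain ⟨j₀, hj₀⟩ := Function.ne_iff.mp hu0
  obtain ⟨i, -, hi, hmax⟩ := exists_max_scale (A := A) Finset.univ (fun j => ((u j : A) : K))
    ⟨j₀, Finset.mem_univ _, fun h => hj₀ (Subtype.ext h)⟩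
  set u' : ι → A := fun j => ⟨(u j : K) / (u i : K), hmax j (Finset.mem_univ _)⟩ with hu'
  set w' : F := algebraMap K F (u i : K)⁻¹ * (w : F) with hw'
  have hxw' : ((G.polyV (X - C α) : G.V) : F) * w' = ((∑ j, G.constV (u' j) * Y j : G.V) : F) := by
    rw [hw', mul_left_comm, ← MulMemClass.coe_mul, hxw, G.coe_sum, G.coe_sum, Finset.mul_sum]
    refine Finset.sum_congr rfl fun j _ => ?_
    simp [hu', constV_coe, div_eq_inv_mul, mul_assoc]
  have hw'V : w' ∈ G.V := G.mem_of_mul_mem hxα (hxw' ▸ Subtype.coe_prop _)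
  have hint' : IntOver K (G.x : F) w' := (intOver_algebraMap _ _).mul hwint
  obtain ⟨r, hr⟩ := hspan _ (G.intOver_φ (f := ⟨w', hw'V⟩) hint')
  have h3 := congrArg G.φ (show G.polyV (X - C α) * ⟨w', hw'V⟩ = ∑ j, G.constV (u' j) * Y j from
    Subtype.ext hxw')
  rw [map_mul, hr, map_sum, Finset.mul_sum, φ_polyV] at h3
  have h4 := hY (fun j => (X - C (G.π α)) * r j - C (G.π (u' j))) (by
    rw [Finset.sum_congr rfl (fun j _ => by rw [map_sub, sub_mul]), Finset.sum_sub_distrib,
      sub_eq_zero]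
    calc ∑ j, aeval (G.φ G.x) ((X - C (G.π α)) * r j) * G.φ (Y j)
        = ∑ j, aeval (G.φ G.x) ((X - C α).map G.π) * (aeval (G.φ G.x) (r j) * G.φ (Y j)) :=
          Finset.sum_congr rfl fun j _ => by simp [mul_assoc]
      _ = ∑ j, G.φ (G.constV (u' j) * Y j) := h3
      _ = _ := Finset.sum_congr rfl fun j _ => by simp [φ_constV])
  have h5 := congrArg (Polynomial.eval (G.π α)) (congrFun h4 i)
  have h6 : u' i = 1 := Subtype.ext (div_self hi)
  simp [h6] at h5

include hY hint hspan in
/-- Functions of the chart have coordinates with a denominator which is a unit at `0`. -/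
theorem exists_coords_unit (hcard : Fintype.card ι = Module.finrank K⟮(G.x : F)⟯ F) {h : G.V}
    (hh : IntOver K (G.x : F) (h : F)) :
    ∃ (d : A[X]) (p : ι → A[X]), G.π (d.coeff 0) ≠ 0 ∧
      G.polyV d * h = ∑ j, G.polyV (p j) * Y j := by
  obtain ⟨d₀, q₀, hd₀, hq₀⟩ := G.exists_coords Y hY hcard (h : F)
  obtain ⟨p₀, -, hp₀⟩ := G.coords_integral Y hY hq₀
  suffices key : ∀ (N : ℕ) (d : A[X]) (p : ι → A[X]), d.natDegree = N → d.map G.π ≠ 0 →
      G.polyV d * h = ∑ j, G.polyV (p j) * Y j →
      ∃ (d : A[X]) (p : ι → A[X]), G.π (d.coeff 0) ≠ 0 ∧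
        G.polyV d * h = ∑ j, G.polyV (p j) * Y j from key _ d₀ p₀ rfl hd₀ hp₀
  intro N
  induction N using Nat.strong_induction_on with
  | _ N ih =>
    intro d p hdeg hd heq
    by_cases hroot : ∀ α : A, ¬ d.IsRoot α
    · exact ⟨d, p, G.π_coeff_zero_ne_zero hd hroot, heq⟩
    push Not at hroot
    obtain ⟨α, hα⟩ := hroot
    obtain ⟨d', rfl⟩ := dvd_iff_isRoot.mpr hα
    obtain ⟨p', hp'⟩ := G.cancel_root Y hY hint hspan hh α heq
    have hd' : d'.map G.π ≠ 0 := fun h0 => hd (by rw [Polynomial.map_mul, h0, mul_zero])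
    refine ih d'.natDegree ?_ d' p' rfl hd' hp'
    have hd'0 : d' ≠ 0 := fun h0 => hd' (by rw [h0, Polynomial.map_zero])
    rw [← hdeg, natDegree_mul (monic_X_sub_C α).ne_zero hd'0, natDegree_X_sub_C]
    omega

/-- `f = u + x ^ m v` with `u`, `v` in the maximal ideal of the two charts. -/
def Splits' (m : ℕ) (f : F) : Prop :=
  ∃ u v : G.V, G.φ u = 0 ∧ G.φ v = 0 ∧ IntOver K (G.x : F) (u : F) ∧
    IntOver K (G.x : F)⁻¹ (v : F) ∧ f = (u : F) + (G.x : F) ^ m * (v : F)

theorem splits'_add {m : ℕ} {f g : F} (hf : G.Splits' m f) (hg : G.Splits' m g) :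
    G.Splits' m (f + g) := by
  obtain ⟨u, v, hu, hv, hu', hv', rfl⟩ := hf
  obtain ⟨u₂, v₂, hu₂, hv₂, hu₂', hv₂', rfl⟩ := hg
  exact ⟨u + u₂, v + v₂, by rw [map_add, hu, hu₂, add_zero],
    by rw [map_add, hv, hv₂, add_zero], hu'.add hu₂', hv'.add hv₂', by push_cast; ring⟩

theorem splits'_zero (m : ℕ) : G.Splits' m 0 :=
  ⟨0, 0, map_zero _, map_zero _, isIntegral_zero, isIntegral_zero, by simp⟩

theorem splits'_sum {m : ℕ} {α : Type*} (s : Finset α) (f : α → F)
    (h : ∀ a ∈ s, G.Splits' m (f a)) : G.Splits' m (∑ a ∈ s, f a) :=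
  Finset.sum_induction f (G.Splits' m) (fun _ _ => G.splits'_add) (G.splits'_zero m) h

include hY hint hspan in
/-- The first cohomology of the reduction vanishes in large degree. -/
theorem splits'_of_φ_eq_zero [IsFunctionFieldOne K F]
    (hcard : Fintype.card ι = Module.finrank K⟮(G.x : F)⟯ F) {a₀ m : ℕ}
    (ha₀ : ∀ j, ∀ a, a₀ ≤ a → IntOver K (G.x : F)⁻¹ ((Y j : F) * (G.x : F)⁻¹ ^ a))
    (hm : a₀ ≤ m) {f : G.V} (hf : G.φ f = 0) {N : ℕ}
    (hN : IntOver K (G.x : F) ((G.x : F) ^ N * (f : F))) : G.Splits' m (f : F) := by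
  classical
  set h : G.V := G.x ^ N * f with hh
  have hhint : IntOver K (G.x : F) (h : F) := by simpa [hh] using hN
  obtain ⟨d, p, hd0, hdp⟩ := G.exists_coords_unit Y hY hint hspan hcard hhint
  have hp : ∀ j, (p j).map G.π = 0 := by
    have h1 := congrArg G.φ hdp
    rw [map_mul, hh, map_mul, hf, mul_zero, mul_zero, G.φ_sum_polyV] at h1
    exact fun j => congrFun (hY _ h1.symm) j
  obtain ⟨e, he⟩ : IsUnit (d.coeff 0) := (map_ne_zero_iff_isUnit G.π G.π_surjective _).mp hd0
  have hcop : IsCoprime (X ^ N) d := by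
    refine IsCoprime.pow_left ⟨-(C ((e⁻¹ : Aˣ) : A) * d.divX), C ((e⁻¹ : Aˣ) : A), ?_⟩
    have h1 := X_mul_divX_add d
    have h2 : C ((e⁻¹ : Aˣ) : A) * C (d.coeff 0) = 1 := by
      rw [← map_mul, ← he, Units.inv_mul, map_one]
    linear_combination (-C ((e⁻¹ : Aˣ) : A)) * h1 + h2
  obtain ⟨a, B, haB⟩ := hcop
  have hx0 := G.x_ne_zero
  have hf_eq : (f : F) = ((G.polyV a * h : G.V) : F) + ∑ j, (G.x : F)⁻¹ ^ N *
      (((G.polyV (B * p j) : G.V) : F) * (Y j : F)) := by
    have h1 := congrArg G.polyV haB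
    rw [map_add, map_mul, map_mul, map_one] at h1
    have hX : G.polyV (X ^ N) = G.x ^ N := by simp [polyV]
    rw [hX] at h1
    have h2 : G.x ^ N * f = G.x ^ N * (G.polyV a * h) + ∑ j, G.polyV (B * p j) * Y j := by
      simp only [map_mul, mul_assoc]
      rw [← Finset.mul_sum, ← hdp, ← hh]
      calc h = (G.polyV a * G.x ^ N + G.polyV B * G.polyV d) * h := by rw [h1, one_mul]
        _ = _ := by ring
    have h3 := congrArg Subtype.val h2
    rw [← Finset.mul_sum]
    apply mul_left_cancel₀ (pow_ne_zero N hx0)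
    rw [mul_add, ← mul_assoc ((G.x : F) ^ N) ((G.x : F)⁻¹ ^ N), ← mul_pow, mul_inv_cancel₀ hx0,
      one_pow, one_mul]
    simpa only [MulMemClass.coe_mul, AddMemClass.coe_add, SubmonoidClass.coe_pow, G.coe_sum]
      using h3
  rw [hf_eq]
  refine G.splits'_add ⟨G.polyV a * h, 0, by rw [map_mul, hh, map_mul, hf]; simp, map_zero _,
    (G.intOver_polyV a).mul hhint, isIntegral_zero, by simp⟩ (G.splits'_sum _ _ fun j _ => ?_)
  set P := B * p j with hPdef
  have hP : ∀ l, G.π (P.coeff l) = 0 := fun l => by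
    have h1 : P.map G.π = 0 := by rw [hPdef, Polynomial.map_mul, hp, mul_zero]
    rw [← coeff_map, h1, coeff_zero]
  rw [coe_polyV, aeval_eq_sum_range, Finset.sum_mul, Finset.mul_sum]
  refine G.splits'_sum _ _ fun l _ => ?_
  rw [coeff_map, ValuationSubring.subtype_apply, Algebra.smul_def]
  rcases le_or_gt N l with hl | hl
  · refine ⟨G.constV (P.coeff l) * G.x ^ (l - N) * Y j, 0, ?_, map_zero _, ?_, isIntegral_zero,
      ?_⟩
    · simp [φ_constV, hP]
    · simp only [MulMemClass.coe_mul, SubmonoidClass.coe_pow, constV_coe]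
      exact ((intOver_algebraMap _ _).mul ((intOver_self _).pow _)).mul (hint j)
    · obtain ⟨t, rfl⟩ := Nat.exists_eq_add_of_le hl
      simp only [Nat.add_sub_cancel_left, MulMemClass.coe_mul, SubmonoidClass.coe_pow, constV_coe,
        ZeroMemClass.coe_zero, mul_zero, add_zero, pow_add, inv_pow]
      field_simp
  · refine ⟨0, G.constV (P.coeff l) * G.xinv ^ (N - l + m) * Y j, map_zero _, ?_, isIntegral_zero,
      ?_, ?_⟩
    · simp [φ_constV, hP]
    · simp only [MulMemClass.coe_mul, SubmonoidClass.coe_pow, constV_coe, coe_xinv, mul_assoc]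
      refine (intOver_algebraMap _ _).mul ?_
      rw [mul_comm]
      exact ha₀ j _ (by omega)
    · obtain ⟨t, rfl⟩ := Nat.exists_eq_add_of_le hl.le
      simp only [Nat.add_sub_cancel_left, MulMemClass.coe_mul, SubmonoidClass.coe_pow, constV_coe,
        coe_xinv, ZeroMemClass.coe_zero, zero_add, pow_add, inv_pow]
      field_simp

/-- Equality of the genus for a Gauss reduction with surjective charts. -/
theorem genusFF_eq_of_chartSurjective (h0 : G.ChartSurjective) (h1 : G.swap.ChartSurjective) :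
    genusFF k Fb = genusFF K F := by
  classical
  refine le_antisymm G.genusFF_le ?_
  haveI := G.isFunctionFieldOne_generic
  haveI := G.isFunctionFieldOne_residue
  haveI := G.isAlgClosed_k
  obtain ⟨b, hbint, hb, hbspan⟩ := exists_integralBasis G.x_transcendental
  choose Y hYint hYb using fun j => h0 (b j) (hbint j)
  have hY : PolyIndep k (G.φ G.x) fun j => G.φ (Y j) := by simpa only [hYb] using hb
  have hspan : ∀ y : Fb, IntOver k (G.φ G.x) y →
      ∃ q : _ → k[X], y = ∑ j, aeval (G.φ G.x) (q j) * G.φ (Y j) := by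
    simpa only [hYb] using hbspan
  have hcard : Fintype.card (Fin (Module.finrank k⟮G.φ G.x⟯ Fb)) =
      Module.finrank K⟮(G.x : F)⟯ F := by simp [G.degree_eq]
  choose a ha using fun j => exists_mem_L_poleDivisor (hYint j)
  set a₀ := Finset.univ.sup a with ha₀def
  have ha₀ : ∀ j, ∀ i, a₀ ≤ i → IntOver K (G.x : F)⁻¹ ((Y j : F) * (G.x : F)⁻¹ ^ i) :=
    fun j i hi => ((mem_L_poleDivisor_iff G.x_ne_zero i).mp
      (ha j i (le_trans (Finset.le_sup (Finset.mem_univ j)) hi))).2
  obtain ⟨m₁, hm₁⟩ := exists_finrank_L_poleDivisor G.transcendental_x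
  obtain ⟨m₂, hm₂⟩ := exists_finrank_L_poleDivisor G.x_transcendental
  set m := max (max m₁ m₂) a₀
  set W := riemannRochSpace ((m : ℤ) • poleDivisor K (G.x : F))
  set S := riemannRochSpace ((m : ℤ) • poleDivisor k (G.φ G.x))
  haveI : FiniteDimensional K W := RedAux.finite_L _
  haveI : FiniteDimensional k S := RedAux.finite_L _
  obtain ⟨e, heW, he⟩ := G.exists_orthonormal_basis W
  have hWspan : W ≤ Submodule.span K (Set.range fun i => (e i : F)) := by
    have hli : LinearIndependent K fun i => (e i : F) := by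
      rw [Fintype.linearIndependent_iff]
      intro c hc
      by_contra hne
      push Not at hne
      obtain ⟨j₀, hj₀⟩ := hne
      obtain ⟨i, -, hi, hmax⟩ := exists_max_scale (A := A) Finset.univ c
        ⟨j₀, Finset.mem_univ _, hj₀⟩
      have heq : ∑ l, G.constV ⟨c l / c i, hmax l (Finset.mem_univ _)⟩ * e l = 0 := by
        apply Subtype.ext
        rw [G.coe_sum, ZeroMemClass.coe_zero]
        simp only [MulMemClass.coe_mul, constV_coe, div_eq_inv_mul, map_mul, mul_assoc]
        rw [← Finset.mul_sum]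
        simp only [Algebra.smul_def] at hc
        rw [hc, mul_zero]
      have h2 := congrArg G.φ heq
      simp only [map_sum, map_mul, φ_constV, ← Algebra.smul_def, map_zero] at h2
      have h3 := Fintype.linearIndependent_iff.mp he _ h2 i
      rw [show (⟨c i / c i, hmax i (Finset.mem_univ _)⟩ : A) = 1 from Subtype.ext (div_self hi),
        map_one] at h3
      exact one_ne_zero h3
    have hle : Submodule.span K (Set.range fun i => (e i : F)) ≤ W :=
      Submodule.span_le.mpr (by rintro _ ⟨i, rfl⟩; exact heW i)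
    exact (Submodule.eq_of_le_of_finrank_le hle
      (by rw [finrank_span_eq_card hli, Fintype.card_fin])).ge
  have hsurj : S ≤ Submodule.span k (Set.range fun i => G.φ (e i)) := by
    intro s hs
    obtain ⟨hs0, hs1⟩ := (mem_L_poleDivisor_iff G.φ_x_ne_zero m).mp hs
    obtain ⟨r₀, hr₀, hr₀s⟩ := h0 s hs0
    obtain ⟨r₁, hr₁, hr₁s⟩ := h1 (s * (G.φ G.x)⁻¹ ^ m) (by
      show IntOver k (G.φ ⟨(G.x : F)⁻¹, G.x_inv_mem⟩) _
      rw [G.φ_x_inv]
      exact hs1)
    let r₁' : G.V := r₁
    have hr₁s' : G.φ r₁' = s * (G.φ G.x)⁻¹ ^ m := hr₁s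
    have hr₁' : IntOver K (G.x : F)⁻¹ (r₁' : F) := hr₁
    set f : G.V := r₀ - G.x ^ m * r₁' with hfdef
    have hf : G.φ f = 0 := by
      rw [hfdef, map_sub, map_mul, map_pow, hr₀s, hr₁s', mul_left_comm, ← mul_pow,
        mul_inv_cancel₀ G.φ_x_ne_zero, one_pow, mul_one, sub_self]
    obtain ⟨N, hN⟩ := exists_mem_L_poleDivisor hr₁'
    have hNint : IntOver K (G.x : F) ((G.x : F) ^ N * (f : F)) := by
      have h2 := ((mem_L_poleDivisor_iff (inv_ne_zero G.x_ne_zero) (N + m)).mp
        (hN (N + m) (Nat.le_add_right _ _))).2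
      rw [inv_inv] at h2
      rw [hfdef, AddSubgroupClass.coe_sub, MulMemClass.coe_mul, SubmonoidClass.coe_pow, mul_sub,
        ← mul_assoc, ← pow_add, mul_comm _ (r₁' : F)]
      exact ((((intOver_self (G.x : F)).pow N)).mul hr₀).sub h2
    obtain ⟨u, v, hu, hv, hu', hv', huv⟩ := G.splits'_of_φ_eq_zero Y hY hYint hspan hcard ha₀
      (le_max_right _ _) hf hNint
    have hr : ((r₀ - u : G.V) : F) ∈ W := by
      refine (mem_L_poleDivisor_iff G.x_ne_zero m).mpr ⟨hr₀.sub hu', ?_⟩
      have h2 : ((r₀ - u : G.V) : F) * (G.x : F)⁻¹ ^ m = (r₁' : F) + (v : F) := by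
        rw [hfdef] at huv
        push_cast at huv ⊢
        have hx0 := G.x_ne_zero
        rw [inv_pow]
        field_simp
        linear_combination huv
      rw [h2]
      exact hr₁'.add hv'
    have h3 := G.φ_mem_span e he (hWspan hr)
    rwa [map_sub, hr₀s, hu, sub_zero] at h3
  have hle : Module.finrank k S ≤ Module.finrank K W := by
    haveI := FiniteDimensional.span_of_finite k (Set.finite_range fun i => G.φ (e i))
    refine le_trans (Submodule.finrank_mono hsurj) ?_
    rw [finrank_span_eq_card he, Fintype.card_fin]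
  have a1 : (Module.finrank K W : ℤ) = _ :=
    hm₁ m (le_trans (le_max_left _ _) (le_max_left _ _))
  have a2 : (Module.finrank k S : ℤ) = _ :=
    hm₂ m (le_trans (le_max_right _ _) (le_max_left _ _))
  rw [G.degree_eq] at a1
  omega

/-- The good reduction attached to a Gauss reduction which preserves the genus. -/
def toGoodReduction (h : genusFF k Fb = genusFF K F) : GoodReduction A F k Fb where
  π := G.π
  π_surjective := G.π_surjective
  V := G.V
  mem_V_iff := G.mem_V_iff
  φ := G.φ
  φ_surjective := G.φ_surjective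
  φ_algebraMap := G.φ_algebraMap
  exists_scale := G.exists_scale
  x := G.x
  x_transcendental := G.x_transcendental
  degree_eq := G.degree_eq
  degree_pos := G.degree_pos
  genus_eq := h

/-- The good reduction attached to a Gauss reduction with surjective charts. -/
def goodReductionOfChartSurjective (h0 : G.ChartSurjective) (h1 : G.swap.ChartSurjective) :
    GoodReduction A F k Fb :=
  G.toGoodReduction (G.genusFF_eq_of_chartSurjective h0 h1)

end Fermat.Agent.Curve.GaussReduction

end
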