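/-
Constant field extension for fields of Laurent series: if `E ⊆ L'((q))` is generated over `L'` by
the images of `F ⊆ L((q))` under the coefficient map, then `E` is the constant field extension of
`F` (linear disjointness is coefficientwise).
-/
import Fermat.Agent.Curve.ConstExtMk
import Fermat.Prelude.Def_ModularCurve_LaurentCoeff

set_option autoImplicit false

noncomputable section

namespace Fermat.Agent.Curve

open AlgebraicCurve ModularCurve TensorProduct

section Laurent

variable {L L' : Type*} [Field L] [Field L'] [Algebra L L']
variable {F : IntermediateField L (LaurentSeries L)} {E : IntermediateField L' (LaurentSeries L')}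

theorem coeff_algebraMap_mul (c : L') (x : LaurentSeries L') (k : ℤ) :
    (algebraMap L' (LaurentSeries L') c * x).coeff k = c * x.coeff k := by
  rw [algebraMap_laurentSeries_eq_single, HahnSeries.coeff_single_zero_mul]

variable [Algebra L E] [IsScalarTower L L' E] [Algebra F E] [IsScalarTower L F E]

/-- Fields of Laurent series related by the coefficient map are constant field extensions. -/
theorem isConstExt_laurent
    (h : ∀ x : F, ((algebraMap F E x : E) : LaurentSeries L') =
      coeffMap (algebraMap L L') (x : LaurentSeries L))
    (hgen : E ≤ IntermediateField.adjoin L'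
      (coeffMap (algebraMap L L') '' (F : Set (LaurentSeries L)))) :
    IsConstExt L F L' E := by
  classical
  refine IsConstExt.of_injective ((injective_iff_map_eq_zero _).mpr fun t ht => ?_) ?_
  · let b := Module.Free.chooseBasis L L'
    -- the `i`-th coordinate, coefficientwise
    have key : ∀ (t : L' ⊗[L] F) (k : ℤ) i,
        b.repr (((extConstMap L F L' E t : E) : LaurentSeries L').coeff k) i =
          ((((b.baseChange F).repr (TensorProduct.comm L L' F t)) i : F) :
            LaurentSeries L).coeff k := by
      intro t k i
      induction t using TensorProduct.induction_on with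
      | zero => simp
      | tmul c f =>
        rw [extConstMap_tmul, MulMemClass.coe_mul, h,
          show ((algebraMap L' E c : E) : LaurentSeries L') = algebraMap L' (LaurentSeries L') c
            from rfl,
          coeff_algebraMap_mul, coeffMap_coeff, mul_comm, ← Algebra.smul_def, map_smul,
          TensorProduct.comm_tmul, Module.Basis.baseChange_repr_tmul, Finsupp.smul_apply,
          smul_eq_mul, IntermediateField.coe_smul, Algebra.smul_def, coeff_algebraMap_mul, mul_comm]
      | add x y hx hy =>
        simp only [map_add, AddMemClass.coe_add, HahnSeries.coeff_add, Finsupp.add_apply, hx, hy]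
    have h0 : ∀ i, (b.baseChange F).repr (TensorProduct.comm L L' F t) i = 0 := by
      intro i
      refine Subtype.ext (HahnSeries.ext (funext fun k => ?_))
      rw [← key, ht]
      simp
    exact (TensorProduct.comm L L' F).injective
      ((b.baseChange F).repr.injective (Finsupp.ext fun i => by simp [h0 i]))
  · apply IntermediateField.lift_injective E
    rw [IntermediateField.lift_top, IntermediateField.lift_adjoin]
    refine le_antisymm (IntermediateField.adjoin_le_iff.mpr ?_) (hgen.trans ?_)
    · rintro _ ⟨y, -, rfl⟩
      exact y.2
    · refine IntermediateField.adjoin.mono _ _ _ ?_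
      rintro _ ⟨x, hx, rfl⟩
      exact ⟨algebraMap F E ⟨x, hx⟩, ⟨⟨x, hx⟩, rfl⟩, h ⟨x, hx⟩⟩

end Laurent

section BaseChange

variable {L L' : Type*} [Field L] [Field L'] [Algebra ℚ L] [Algebra ℚ L'] [Algebra L L']
  [IsScalarTower ℚ L L'] (F₀ : IntermediateField ℚ (LaurentSeries ℚ))

theorem coeffMap_coeffEmb_eq (x : LaurentSeries ℚ) :
    coeffMap (algebraMap L L') (coeffEmb L x) = coeffEmb L' x := by
  rw [coeffEmb, coeffEmb, coeffMap_coeffMap, ← IsScalarTower.algebraMap_eq]

theorem coeffMap_mem_laurentBaseChange_ext {x : LaurentSeries L}
    (hx : x ∈ laurentBaseChange L F₀) :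
    coeffMap (algebraMap L L') x ∈ laurentBaseChange L' F₀ := by
  rw [mem_laurentBaseChange_iff] at hx
  induction hx using Subfield.closure_induction with
  | mem y hy =>
    rcases hy with ⟨a, rfl⟩ | ⟨z, hz, rfl⟩
    · rw [algebraMap_laurentSeries_eq_single, coeffMap_single,
        ← algebraMap_laurentSeries_eq_single]
      exact IntermediateField.algebraMap_mem _ _
    · rw [coeffMap_coeffEmb_eq]
      exact coeffEmb_mem_laurentBaseChange L' hz
  | one => rw [map_one]; exact one_mem _
  | add x y _ _ hx hy => rw [map_add]; exact add_mem hx hy
  | neg x _ hx => rw [map_neg]; exact neg_mem hx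
  | inv x _ hx => rw [map_inv₀]; exact inv_mem hx
  | mul x y _ _ hx hy => rw [map_mul]; exact mul_mem hx hy

variable (L L') in
/-- The map `laurentBaseChange L F₀ → laurentBaseChange L' F₀` given by the coefficient map. -/
def laurentExtHom : laurentBaseChange L F₀ →+* laurentBaseChange L' F₀ :=
  ((coeffMap (algebraMap L L')).comp (laurentBaseChange L F₀).val.toRingHom).codRestrict _
    fun x => coeffMap_mem_laurentBaseChange_ext F₀ x.2

theorem coe_laurentExtHom (x : laurentBaseChange L F₀) :
    (laurentExtHom L L' F₀ x : LaurentSeries L') =
      coeffMap (algebraMap L L') (x : LaurentSeries L) := rfl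

variable (L L') in
/-- The algebra structure given by `laurentExtHom`. -/
abbrev laurentExtAlgebra : Algebra (laurentBaseChange L F₀) (laurentBaseChange L' F₀) :=
  (laurentExtHom L L' F₀).toAlgebra

variable [Algebra L (laurentBaseChange L' F₀)] [IsScalarTower L L' (laurentBaseChange L' F₀)]
  [Algebra (laurentBaseChange L F₀) (laurentBaseChange L' F₀)]
  [IsScalarTower L (laurentBaseChange L F₀) (laurentBaseChange L' F₀)]

theorem isConstExt_laurentBaseChange
    (h : ∀ x : laurentBaseChange L F₀,
      (algebraMap (laurentBaseChange L F₀) (laurentBaseChange L' F₀) x : LaurentSeries L') =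
        coeffMap (algebraMap L L') (x : LaurentSeries L)) :
    IsConstExt L (laurentBaseChange L F₀) L' (laurentBaseChange L' F₀) := by
  refine isConstExt_laurent h ?_
  rw [laurentBaseChange, IntermediateField.adjoin_le_iff]
  rintro _ ⟨z, hz, rfl⟩
  refine IntermediateField.subset_adjoin _ _
    ⟨coeffEmb L z, coeffEmb_mem_laurentBaseChange L hz, ?_⟩
  exact coeffMap_coeffEmb_eq z

end BaseChange

end Fermat.Agent.Curve
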