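/-
Functions with prescribed pole divisor; generators and separating elements.
-/
import Fermat.Agent.Curve.RiemannRochDuality
import Fermat.Agent.Curve.BasicInstances
import Mathlib.GroupTheory.CosetCover
import Mathlib.RingTheory.Unramified.Field

set_option autoImplicit false

noncomputable section

open AlgebraicCurve IntermediateField KaehlerDifferential

namespace Fermat.Agent.Curve

variable {K F : Type*} [Field K] [Field F] [Algebra K F] [IsFunctionFieldOne K F]

theorem mem_riemannRochSpace_of_poleDivisor_le {D : Divisor K F} {f : F}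
    (h : poleDivisor K f ≤ D) : f ∈ riemannRochSpace D :=
  mem_riemannRochSpace_iff'.mpr (Or.inr fun v => by
    have := Finsupp.le_def.mp h v
    rw [poleDivisor_apply] at this
    omega)

/-- A function with a given pole divisor. -/
theorem exists_poleDivisor_eq [Infinite K] [HasFullConstantField K F] {D : Divisor K F}
    (hD : 0 ≤ D)
    (hdeg : ∀ v ∈ D.support, 2 * (genusFF K F : ℤ) - 1 + v.deg ≤ Divisor.degree D) :
    ∃ f : F, poleDivisor K f = D := by
  classical
  let p : Place K F → Submodule K ↥(riemannRochSpace D) := fun v =>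
    (riemannRochSpace (D - Finsupp.single v 1)).comap (Submodule.subtype _)
  have htop : (⊤ : Submodule K ↥(riemannRochSpace D)) ∉ D.support.image p := by
    intro h
    obtain ⟨v, hv, hpv⟩ := Finset.mem_image.mp h
    have hle : riemannRochSpace D ≤ riemannRochSpace (D - Finsupp.single v 1) :=
      Submodule.comap_subtype_eq_top.mp hpv
    have h1 : ellDim D ≤ ellDim (D - Finsupp.single v 1) := Submodule.finrank_mono hle
    have h2 := hdeg v hv
    have h3 := deg_pos v
    have h4 := ellDim_eq_of_degree_ge (D := D) (by omega)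
    have h5 := ellDim_eq_of_degree_ge (D := D - Finsupp.single v 1)
      (by rw [map_sub, Divisor.degree_single]; omega)
    rw [map_sub, Divisor.degree_single] at h5
    omega
  obtain ⟨f, hf⟩ := (Set.ne_univ_iff_exists_notMem _).mp
    (Subspace.biUnion_ne_univ_of_top_notMem htop)
  simp only [Set.mem_iUnion, SetLike.mem_coe, not_exists, Finset.mem_image] at hf
  refine ⟨(f : F), Finsupp.ext fun v => ?_⟩
  rw [poleDivisor_apply]
  have h0 := Finsupp.le_def.mp hD v
  rw [Finsupp.zero_apply] at h0
  by_cases hv : v ∈ D.support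
  · have hnot : (f : F) ∉ riemannRochSpace (D - Finsupp.single v 1) :=
      fun h => hf (p v) ⟨v, hv, rfl⟩ h
    have hf0 : (f : F) ≠ 0 := fun h => hnot (h ▸ zero_mem _)
    have h1 := (mem_riemannRochSpace_iff.mp f.2 v).resolve_left hf0
    suffices v.ord (f : F) ≤ -D v by omega
    by_contra hlt
    refine hnot (mem_riemannRochSpace_iff.mpr fun w => Or.inr ?_)
    rcases eq_or_ne w v with rfl | hw
    · rw [Finsupp.sub_apply, Finsupp.single_eq_same]
      omega
    · rw [Finsupp.sub_apply, Finsupp.single_eq_of_ne hw, sub_zero]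
      exact (mem_riemannRochSpace_iff.mp f.2 w).resolve_left hf0
  · rw [Finsupp.notMem_support_iff.mp hv]
    rcases eq_or_ne (f : F) 0 with hf0 | hf0
    · simp [hf0]
    · have h1 := (mem_riemannRochSpace_iff.mp f.2 v).resolve_left hf0
      rw [Finsupp.notMem_support_iff.mp hv] at h1
      omega

theorem transcendental_of_poleDivisor_ne_zero {f : F} (h : poleDivisor K f ≠ 0) :
    Transcendental K f := by
  obtain ⟨v, hv⟩ : ∃ v, poleDivisor K f v ≠ 0 := by
    by_contra hh
    push Not at hh
    exact h (Finsupp.ext hh)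
  exact transcendental_of_ord_ne_zero v (by rw [poleDivisor_apply] at hv; omega)

theorem degree_poleDivisor_eq_finrank {f : F} {D : Divisor K F} (hf : poleDivisor K f = D)
    (hD : D ≠ 0) : (Module.finrank K⟮f⟯ F : ℤ) = Divisor.degree D := by
  rw [← hf, degree_poleDivisor (transcendental_of_poleDivisor_ne_zero (hf ▸ hD))]

/-- Two functions whose degrees are coprime generate the function field. -/
theorem adjoin_pair_eq_top {f g : F} (hf : Transcendental K f) (hg : Transcendental K g)
    (h : Nat.Coprime (Module.finrank K⟮f⟯ F) (Module.finrank K⟮g⟯ F)) :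
    IntermediateField.adjoin K ({f, g} : Set F) = ⊤ := by
  have := finite_adjoin_of_transcendental hf
  have := finite_adjoin_of_transcendental hg
  rw [← finrank_eq_one_iff_eq_top]
  have h1 : K⟮f⟯ ≤ IntermediateField.adjoin K ({f, g} : Set F) :=
    adjoin_simple_le_iff.mpr (subset_adjoin K _ (by simp))
  have h2 : K⟮g⟯ ≤ IntermediateField.adjoin K ({f, g} : Set F) :=
    adjoin_simple_le_iff.mpr (subset_adjoin K _ (by simp))
  have hd := Nat.dvd_gcd (finrank_dvd_of_le_left h1) (finrank_dvd_of_le_left h2)
  rw [Nat.Coprime] at h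
  rw [h] at hd
  exact Nat.dvd_one.mp hd

omit [IsFunctionFieldOne K F] in
/-- If the differentials of a set of generators vanish, so do all differentials. -/
theorem exists_D_ne_zero_of_adjoin_eq_top [Nontrivial Ω[F⁄K]] {s : Set F}
    (hs : IntermediateField.adjoin K s = ⊤) : ∃ f ∈ s, D K F f ≠ 0 := by
  by_contra h
  push Not at h
  have key : ∀ a : F, D K F a = 0 := by
    intro a
    have ha : a ∈ IntermediateField.adjoin K s := hs ▸ mem_top
    induction ha using IntermediateField.adjoin_induction with
    | mem x hx => exact h x hx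
    | algebraMap x => exact (D K F).map_algebraMap x
    | add x y _ _ hx hy => rw [map_add, hx, hy, add_zero]
    | inv x _ hx => rw [Derivation.leibniz_inv, hx, smul_zero]
    | mul x y _ _ hx hy => rw [Derivation.leibniz, hx, hy, smul_zero, smul_zero, add_zero]
  have h0 : Submodule.span F (Set.range (D K F)) = ⊥ := by
    rw [Submodule.span_eq_bot]
    rintro _ ⟨a, rfl⟩
    exact key a
  rw [span_range_derivation] at h0
  exact top_ne_bot h0

/-- A function with non-zero differential is separating. -/
theorem isSeparable_of_D_ne_zero [IsCurveOver K F] {f : F} (hf : D K F f ≠ 0) :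
    Algebra.IsSeparable K⟮f⟯ F := by
  have hspan : Submodule.span F {D K F f} = (⊤ : Submodule F Ω[F⁄K]) := by
    have : Module.Finite F Ω[F⁄K] :=
      Module.finite_of_finrank_eq_succ (n := 0) IsCurveOver.finrank_kaehler
    exact (finrank_eq_one_iff_of_nonzero (D K F f) hf).mp IsCurveOver.finrank_kaehler
  have hsub : Subsingleton Ω[F⁄K⟮f⟯] := by
    refine subsingleton_iff_forall_eq 0 |>.mpr fun z => ?_
    obtain ⟨w, rfl⟩ := map_surjective K K⟮f⟯ F z
    obtain ⟨c, rfl⟩ : ∃ c : F, c • D K F f = w :=
      Submodule.mem_span_singleton.mp (hspan ▸ Submodule.mem_top)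
    rw [map_smul, map_D]
    have : D K⟮f⟯ F f = 0 := (D K⟮f⟯ F).map_algebraMap (AdjoinSimple.gen K f)
    rw [show algebraMap F F f = f from rfl, this, smul_zero]
  have : Algebra.FormallyUnramified K⟮f⟯ F := ⟨hsub⟩
  have : Algebra.EssFiniteType K⟮f⟯ F := Algebra.EssFiniteType.of_comp K _ _
  exact Algebra.FormallyUnramified.isSeparable _ _

section AlgClosed

variable [IsAlgClosed K]

theorem deg_eq_one (v : Place K F) : v.deg = 1 :=
  haveI := finite_residueField v
  v.deg_eq_one_of_isAlgClosed_of_finite

/-- A function with a given effective pole divisor of degree at least `2g`. -/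
theorem exists_poleDivisor_eq_of_degree_ge {D : Divisor K F} (hD : 0 ≤ D)
    (hdeg : 2 * (genusFF K F : ℤ) ≤ Divisor.degree D) : ∃ f : F, poleDivisor K f = D :=
  exists_poleDivisor_eq hD fun v _ => by rw [deg_eq_one v]; push_cast; omega

/-- A function with a single pole, of given order `n ≥ 2g`. -/
theorem exists_poleDivisor_single (v : Place K F) {n : ℕ} (hn : 2 * genusFF K F ≤ n) :
    ∃ f : F, poleDivisor K f = Finsupp.single v (n : ℤ) :=
  exists_poleDivisor_eq_of_degree_ge (Finsupp.single_nonneg.mpr (Int.natCast_nonneg _))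
    (by rw [Divisor.degree_single, deg_eq_one]; omega)

theorem transcendental_and_finrank_of_poleDivisor_single {v : Place K F} {n : ℕ} (hn : 0 < n)
    {f : F} (hf : poleDivisor K f = Finsupp.single v (n : ℤ)) :
    Transcendental K f ∧ Module.finrank K⟮f⟯ F = n := by
  have hne : Finsupp.single v (n : ℤ) ≠ 0 := by simp; omega
  refine ⟨transcendental_of_poleDivisor_ne_zero (hf ▸ hne), ?_⟩
  have := degree_poleDivisor_eq_finrank hf hne
  rw [Divisor.degree_single, deg_eq_one] at this
  omega

/-- Two functions with poles of orders `n`, `n + 1` at `v` only, generating the field. -/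
theorem exists_poleDivisor_single_pair (v : Place K F) {n : ℕ} (hn : 2 * genusFF K F ≤ n)
    (hn0 : 0 < n) :
    ∃ f g : F, poleDivisor K f = Finsupp.single v (n : ℤ) ∧
      poleDivisor K g = Finsupp.single v ((n + 1 : ℕ) : ℤ) ∧
      IntermediateField.adjoin K ({f, g} : Set F) = ⊤ := by
  obtain ⟨f, hf⟩ := exists_poleDivisor_single v hn
  obtain ⟨g, hg⟩ := exists_poleDivisor_single v (hn.trans (Nat.le_succ n))
  obtain ⟨hft, hfd⟩ := transcendental_and_finrank_of_poleDivisor_single hn0 hf
  obtain ⟨hgt, hgd⟩ := transcendental_and_finrank_of_poleDivisor_single (Nat.succ_pos n) hg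
  refine ⟨f, g, hf, hg, adjoin_pair_eq_top hft hgt ?_⟩
  rw [hfd, hgd]
  exact Nat.coprime_self_add_right.mpr (Nat.coprime_one_right n)

/-- A separating function with a single pole of given large order, of degree that order. -/
theorem exists_separating_poleDivisor_single (v : Place K F) {n : ℕ}
    (hn : 2 * genusFF K F + 3 ≤ n) :
    ∃ f : F, poleDivisor K f = Finsupp.single v (n : ℤ) ∧ Transcendental K f ∧
      Module.finrank K⟮f⟯ F = n ∧ Algebra.IsSeparable K⟮f⟯ F ∧ D K F f ≠ 0 := by
  classical
  have fin : ∀ f : F, poleDivisor K f = Finsupp.single v (n : ℤ) → D K F f ≠ 0 →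
      ∃ f : F, poleDivisor K f = Finsupp.single v (n : ℤ) ∧ Transcendental K f ∧
        Module.finrank K⟮f⟯ F = n ∧ Algebra.IsSeparable K⟮f⟯ F ∧ D K F f ≠ 0 := fun f hf hD =>
    ⟨f, hf, (transcendental_and_finrank_of_poleDivisor_single (by omega) hf).1,
      (transcendental_and_finrank_of_poleDivisor_single (by omega) hf).2,
      isSeparable_of_D_ne_zero hD, hD⟩
  obtain ⟨f, hf⟩ := exists_poleDivisor_single v (n := n) (by omega)
  by_cases hDf : D K F f ≠ 0
  · exact fin f hf hDf
  push Not at hDf
  obtain ⟨a, b, ha, hb, hab⟩ := exists_poleDivisor_single_pair v (n := 2 * genusFF K F + 1)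
    (by omega) (by omega)
  obtain ⟨g, hgs, hDg⟩ := exists_D_ne_zero_of_adjoin_eq_top hab
  have hg : ∀ w, -(poleDivisor K f w) ≤ w.ord g ∧ (w = v → -(n : ℤ) < w.ord g) := by
    intro w
    have h1 : poleDivisor K g ≤ Finsupp.single v ((2 * genusFF K F + 2 : ℕ) : ℤ) := by
      rcases hgs with rfl | hgs
      · rw [ha]; exact Finsupp.single_le_single.mpr (by push_cast; omega)
      · rw [Set.mem_singleton_iff] at hgs
        rw [hgs, hb]
    have h2 := Finsupp.le_def.mp h1 w
    rw [hf, poleDivisor_apply] at *
    rcases eq_or_ne w v with rfl | hw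
    · rw [Finsupp.single_eq_same] at h2 ⊢
      push_cast at h2 ⊢
      exact ⟨by omega, fun _ => by omega⟩
    · rw [Finsupp.single_eq_of_ne hw] at h2 ⊢
      exact ⟨by omega, fun h => absurd h hw⟩
  have hfv : v.ord f = -(n : ℤ) := by
    have := congrArg (fun E : Divisor K F => E v) hf
    simp only [poleDivisor_apply, Finsupp.single_eq_same] at this
    omega
  refine fin (f + g) (Finsupp.ext fun w => ?_) (by rw [map_add, hDf, zero_add]; exact hDg)
  rw [poleDivisor_apply]
  rcases eq_or_ne w v with rfl | hw
  · have hf0 : f ≠ 0 := fun h => by rw [h, Place.ord_zero] at hfv; omega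
    rw [ord_add_eq_left w hf0 (fun _ => hfv ▸ (hg w).2 rfl), hfv, Finsupp.single_eq_same]
    omega
  · rw [Finsupp.single_eq_of_ne hw]
    have h1 := congrArg (fun E : Divisor K F => E w) hf
    simp only [poleDivisor_apply, Finsupp.single_eq_of_ne hw] at h1
    have h2 := (hg w).1
    rw [hf, Finsupp.single_eq_of_ne hw] at h2
    rcases eq_or_ne (f + g) 0 with h0 | h0
    · simp [h0]
    · have := le_ord_add w 0 h0 (fun _ => by omega) (fun _ => by omega)
      omega

end AlgClosed

end Fermat.Agent.Curve

end
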