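/-
Reduction of divisor classes is injective on torsion prime to the residue characteristic.

Idea: if `m D = div f` and `r_* D = 0`, cover the curve by the complements of two places with
different reductions.  A class `G₁ - G₂ = a u` measuring the obstruction to lifting the section
`1` of `O(D)` is killed by `m` after raising to the `m`-th power, hence vanishes; so `L(D) ≠ 0`.
-/
import Fermat.Agent.Curve.ReductionMap
import Fermat.Agent.Curve.BasicFunctionField
import Fermat.Agent.Curve.BasicInstances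

set_option autoImplicit false

noncomputable section

namespace Fermat.Agent.Curve

open AlgebraicCurve IntermediateField WithZero

universe uK uF uk uFb

namespace Connected

section Places

variable {K : Type uK} {F : Type uF} [Field K] [Field F] [Algebra K F]

theorem riemannRochSpace_mono {D D' : Divisor K F} (h : D ≤ D') :
    riemannRochSpace D ≤ riemannRochSpace D' := fun _ hf v =>
  (hf v).trans (exp_le_exp.2 (Finsupp.le_def.1 h v))

theorem one_mem_riemannRochSpace {D : Divisor K F} (h : 0 ≤ D) :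
    (1 : F) ∈ riemannRochSpace D := fun v => by
  rw [map_one, ← exp_zero, exp_le_exp]
  exact Finsupp.le_def.1 h v

theorem mul_mem_riemannRochSpace {D D' : Divisor K F} {f g : F}
    (hf : f ∈ riemannRochSpace D) (hg : g ∈ riemannRochSpace D') :
    f * g ∈ riemannRochSpace (D + D') := fun v => by
  rw [map_mul, Finsupp.add_apply, exp_add]
  exact mul_le_mul' (hf v) (hg v)

theorem pow_mem_riemannRochSpace {D : Divisor K F} {f : F}
    (hf : f ∈ riemannRochSpace D) (n : ℕ) : f ^ n ∈ riemannRochSpace (n • D) := by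
  induction n with
  | zero => rw [pow_zero, zero_smul]; exact one_mem_riemannRochSpace le_rfl
  | succ n ih => rw [pow_succ, succ_nsmul]; exact mul_mem_riemannRochSpace ih hf

/-- Separation of poles. -/
theorem mem_sup_of_disjoint {Q₁ Q₂ : Place K F} (hne : Q₁ ≠ Q₂) {n N : ℕ} {y : F}
    (hy : y ∈ riemannRochSpace (Finsupp.single Q₁ (n : ℤ) + Finsupp.single Q₂ (n : ℤ)))
    (hy' : y ∈ riemannRochSpace (Finsupp.single Q₁ (N : ℤ)) ⊔
      riemannRochSpace (Finsupp.single Q₂ (N : ℤ))) :
    y ∈ riemannRochSpace (Finsupp.single Q₁ (n : ℤ)) ⊔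
      riemannRochSpace (Finsupp.single Q₂ (n : ℤ)) := by
  obtain ⟨a, ha, b, hb, hab⟩ := Submodule.mem_sup.1 hy'
  refine Submodule.mem_sup.2 ⟨a, fun v => ?_, b, fun v => ?_, hab⟩
  · rcases eq_or_ne v Q₁ with rfl | hv
    · rw [Finsupp.single_eq_same]
      have h1 : v.adicValuation y ≤ exp (n : ℤ) := by simpa [hne] using hy v
      have h2 : v.adicValuation b ≤ exp (n : ℤ) := (hb v).trans (by simp [hne, ← exp_zero, exp_le_exp])
      rw [eq_sub_of_add_eq hab]
      exact (Valuation.map_sub _ _ _).trans (max_le h1 h2)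
    · simpa [hv] using ha v
  · rcases eq_or_ne v Q₂ with rfl | hv
    · rw [Finsupp.single_eq_same]
      have h1 : v.adicValuation y ≤ exp (n : ℤ) := by simpa [hne.symm] using hy v
      have h2 : v.adicValuation a ≤ exp (n : ℤ) := (ha v).trans (by simp [hne.symm, ← exp_zero, exp_le_exp])
      rw [eq_sub_of_add_eq' hab]
      exact (Valuation.map_sub _ _ _).trans (max_le h1 h2)
    · simpa [hv] using hb v

theorem eq_zero_of_degree_eq_zero_of_nonneg [IsAlgClosed K] [IsCurveOver K F] {D : Divisor K F}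
    (hD : 0 ≤ D) (hdeg : Divisor.degree D = 0) : D = 0 := by
  ext v
  rw [Finsupp.zero_apply]
  by_contra hv
  have hsum : Divisor.degree D = ∑ w ∈ D.support, D w := by
    simp [Divisor.degree, Finsupp.sum, IsCurveOver.deg_eq_one_of_isAlgClosed]
  have hle : D v ≤ ∑ w ∈ D.support, D w :=
    Finset.single_le_sum (fun w _ => Finsupp.le_def.1 hD w) (Finsupp.mem_support_iff.2 hv)
  have := Finsupp.le_def.1 hD v
  simp only [Finsupp.coe_zero, Pi.zero_apply] at this
  omega

/-- A function without poles is constant. -/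
theorem exists_eq_algebraMap [IsAlgClosed K] [IsFunctionFieldOne K F] {f : F}
    (hf : ∀ v : Place K F, v.adicValuation f ≤ 1) : ∃ c : K, f = algebraMap K F c := by
  have halg : IsAlgebraic K f := isAlgebraic_of_forall_ord_nonneg fun v => by
    rcases v.adicValuation_le_one_iff.1 (hf v) with rfl | h
    · simp
    · exact h
  obtain ⟨c, hc⟩ := (IsAlgClosed.algebraMap_bijective_of_isIntegral
    (k := K) (K := algebraicClosure K F)).2 ⟨f, mem_algebraicClosure_iff.2 halg⟩
  exact ⟨c, (congrArg Subtype.val hc).symm⟩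

/-- Adding one place to a divisor preserves finiteness of the space of functions. -/
theorem finiteDimensional_riemannRochSpace_add_single [IsCurveOver K F] (E : Divisor K F)
    (v : Place K F) [FiniteDimensional K (riemannRochSpace E)] :
    FiniteDimensional K (riemannRochSpace (E + Finsupp.single v 1)) := by
  set W := riemannRochSpace (E + Finsupp.single v 1)
  obtain ⟨t, ht0, ht⟩ := exists_ord_eq v (E v + 1)
  have hmem : ∀ f ∈ W, f * t ∈ v.toValuationSubring := fun f hf => by
    refine mem_of_ord_nonneg v ?_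
    rcases eq_or_ne f 0 with rfl | hf0
    · simp
    have := ((mem_riemannRochSpace_iff.1 hf) v).resolve_left hf0
    rw [Finsupp.add_apply, Finsupp.single_eq_same] at this
    rw [v.ord_mul hf0 ht0, ht]
    omega
  let ev : W →ₗ[K] v.ResidueField :=
    { toFun := fun f => IsLocalRing.residue _ ⟨(f : F) * t, hmem f f.2⟩
      map_add' := fun f g => by
        rw [← map_add]
        exact congrArg _ (Subtype.ext (add_mul (f : F) g t))
      map_smul' := fun a f => by
        rw [RingHom.id_apply, Algebra.smul_def, IsScalarTower.algebraMap_apply K v.toValuationSubring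
          v.ResidueField, IsLocalRing.ResidueField.algebraMap_eq, ← map_mul]
        exact congrArg _ (Subtype.ext (show (((a • f : W) : F) * t) = _ by
          simp [Algebra.smul_def, mul_assoc])) }
  have hker : (LinearMap.ker ev).map W.subtype ≤ riemannRochSpace E := by
    rintro _ ⟨f, hf, rfl⟩ w
    rcases eq_or_ne w v with rfl | hw
    · show w.adicValuation (f : F) ≤ exp (E w)
      rw [Place.adicValuation_le_exp_iff]
      refine or_iff_not_imp_left.2 fun hf0 => ?_
      have hu : ¬IsUnit (⟨(f : F) * t, hmem f f.2⟩ : w.toValuationSubring) :=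
        (IsLocalRing.residue_eq_zero_iff _).1 hf
      rw [← w.adicValuation_coe_eq_one_iff] at hu
      have h1 := ((mem_riemannRochSpace_iff.1 f.2) w).resolve_left hf0
      rw [Finsupp.add_apply, Finsupp.single_eq_same] at h1
      by_contra hlt
      refine hu ?_
      have h2 : w.ord (((f : F) * t)) = 0 := by
        rw [w.ord_mul hf0 ht0, ht]
        omega
      show w.adicValuation ((f : F) * t) = 1
      rw [w.adicValuation_eq_exp_neg_ord (mul_ne_zero hf0 ht0), h2, neg_zero, exp_zero]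
    · have := f.2 w
      rwa [Finsupp.add_apply, Finsupp.single_eq_of_ne hw, add_zero] at this
  haveI := IsCurveOver.finite_residueField v
  have hk : (LinearMap.ker ev).FG := Submodule.fg_of_fg_map_injective W.subtype
    W.injective_subtype (Module.Finite.iff_fg.1
      (Submodule.finiteDimensional_of_le hker))
  have : (⊤ : Submodule K W).FG := Submodule.fg_of_fg_map_of_fg_inf_ker ev
    (IsNoetherian.noetherian _) (by rwa [top_inf_eq])
  exact ⟨this⟩

theorem finiteDimensional_riemannRochSpace [IsAlgClosed K] [IsCurveOver K F]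
    [IsFunctionFieldOne K F] (D : Divisor K F) :
    FiniteDimensional K (riemannRochSpace D) := by
  have h0 : FiniteDimensional K (riemannRochSpace (0 : Divisor K F)) := by
    refine Submodule.finiteDimensional_of_le (S₂ := Submodule.span K {(1 : F)}) fun f hf => ?_
    obtain ⟨c, rfl⟩ := exists_eq_algebraMap (K := K) (f := f) fun v => by simpa using hf v
    rw [Algebra.algebraMap_eq_smul_one]
    exact Submodule.smul_mem _ _ (Submodule.mem_span_singleton_self _)
  have hadd : ∀ (E : Divisor K F) (v : Place K F) (n : ℕ),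
      FiniteDimensional K (riemannRochSpace E) →
      FiniteDimensional K (riemannRochSpace (E + Finsupp.single v (n : ℤ))) := by
    intro E v n hE
    induction n with
    | zero => rwa [Nat.cast_zero, Finsupp.single_zero, add_zero]
    | succ n ih =>
      haveI := ih
      rw [Nat.cast_succ, Finsupp.single_add, ← add_assoc]
      exact finiteDimensional_riemannRochSpace_add_single _ v
  induction D using Finsupp.induction with
  | zero => exact h0
  | single_add v n D _ _ ih =>
    haveI := hadd D v n.toNat ih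
    refine Submodule.finiteDimensional_of_le (riemannRochSpace_mono
      (D := Finsupp.single v n + D) (D' := D + Finsupp.single v (n.toNat : ℤ)) ?_)
    rw [add_comm]
    exact add_le_add le_rfl (Finsupp.single_le_single.2 (Int.self_le_toNat n))

end Places

end Connected

namespace GoodReduction

variable {K : Type uK} [Field K] {A : ValuationSubring K}
  {F : Type uF} [Field F] [Algebra K F]
  {k : Type uk} [Field k] {Fb : Type uFb} [Field Fb] [Algebra k Fb]
  (G : GoodReduction A F k Fb)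

/-- Saturation: if the special fibres meet in no more than the generic ones, the special fibre of
the sum is the sum of the special fibres. -/
theorem reduceSubspace_sup_eq (W₁ W₂ : Submodule K F) [FiniteDimensional K W₁]
    [FiniteDimensional K W₂]
    (h : Module.finrank k (G.reduceSubspace W₁ ⊓ G.reduceSubspace W₂ : Submodule k Fb) ≤
      Module.finrank K (W₁ ⊓ W₂ : Submodule K F)) :
    G.reduceSubspace (W₁ ⊔ W₂) = G.reduceSubspace W₁ ⊔ G.reduceSubspace W₂ := by
  haveI := G.finiteDimensional_reduceSubspace W₁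
  haveI := G.finiteDimensional_reduceSubspace W₂
  haveI := G.finiteDimensional_reduceSubspace (W₁ ⊔ W₂)
  refine (Submodule.eq_of_le_of_finrank_le (sup_le (G.reduceSubspace_mono le_sup_left)
    (G.reduceSubspace_mono le_sup_right)) ?_).symm
  have h1 := Submodule.finrank_sup_add_finrank_inf_eq W₁ W₂
  have h2 := Submodule.finrank_sup_add_finrank_inf_eq (G.reduceSubspace W₁) (G.reduceSubspace W₂)
  rw [G.finrank_reduceSubspace W₁, G.finrank_reduceSubspace W₂] at h2
  rw [G.finrank_reduceSubspace (W₁ ⊔ W₂)]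
  omega

/-- If the special fibres meet in more than the generic ones, the special fibre of the sum is
strictly bigger than the sum of the special fibres. -/
theorem exists_not_mem_sup (W₁ W₂ : Submodule K F) [FiniteDimensional K W₁]
    [FiniteDimensional K W₂]
    (h : Module.finrank K (W₁ ⊓ W₂ : Submodule K F) <
      Module.finrank k (G.reduceSubspace W₁ ⊓ G.reduceSubspace W₂ : Submodule k Fb)) :
    ∃ u : G.V, (u : F) ∈ W₁ ⊔ W₂ ∧ G.φ u ∉ G.reduceSubspace W₁ ⊔ G.reduceSubspace W₂ := by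
  haveI := G.finiteDimensional_reduceSubspace W₁
  haveI := G.finiteDimensional_reduceSubspace W₂
  by_contra hc
  push Not at hc
  have hle : G.reduceSubspace (W₁ ⊔ W₂) ≤ G.reduceSubspace W₁ ⊔ G.reduceSubspace W₂ := by
    rintro y ⟨u, hu, rfl⟩
    exact hc u hu
  have h1 := Submodule.finrank_sup_add_finrank_inf_eq W₁ W₂
  have h2 := Submodule.finrank_sup_add_finrank_inf_eq (G.reduceSubspace W₁) (G.reduceSubspace W₂)
  rw [G.finrank_reduceSubspace W₁, G.finrank_reduceSubspace W₂] at h2
  have h3 := Submodule.finrank_mono hle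
  rw [G.finrank_reduceSubspace (W₁ ⊔ W₂)] at h3
  omega

theorem φ_smul' (a : A) (f : G.V) (g : G.V) (h : (g : F) = (a : K) • (f : F)) :
    G.φ g = G.π a • G.φ f := by
  rw [← G.φ_smul a f]
  exact congrArg G.φ (Subtype.ext h)

/-- A primitive common scaling of two functions. -/
theorem exists_scale_pair {w₁ w₂ : F} (h₁ : w₁ ≠ 0) (h₂ : w₂ ≠ 0) :
    ∃ (c : K) (hc₁ : c • w₁ ∈ G.V) (hc₂ : c • w₂ ∈ G.V),
      G.φ ⟨c • w₁, hc₁⟩ ≠ 0 ∨ G.φ ⟨c • w₂, hc₂⟩ ≠ 0 := by
  obtain ⟨c₁, e₁, n₁⟩ := G.exists_scale w₁ h₁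
  obtain ⟨c₂, e₂, n₂⟩ := G.exists_scale w₂ h₂
  have hc1 : c₁ ≠ 0 := by
    rintro rfl
    exact n₁ ((congrArg G.φ (Subtype.ext (zero_smul K w₁) : (⟨(0 : K) • w₁, e₁⟩ : G.V) = 0)).trans
      (map_zero _))
  have hc2 : c₂ ≠ 0 := by
    rintro rfl
    exact n₂ ((congrArg G.φ (Subtype.ext (zero_smul K w₂) : (⟨(0 : K) • w₂, e₂⟩ : G.V) = 0)).trans
      (map_zero _))
  rcases A.mem_or_inv_mem (c₁ / c₂) with h | h
  · refine ⟨c₁, e₁, ?_, Or.inl n₁⟩
    simpa [smul_smul, div_mul_cancel₀ _ hc2] using G.smul_mem ⟨_, h⟩ e₂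
  · refine ⟨c₂, ?_, e₂, Or.inr n₂⟩
    rw [inv_div] at h
    simpa [smul_smul, div_mul_cancel₀ _ hc1] using G.smul_mem ⟨_, h⟩ e₁

variable [IsAlgClosed K] [IsCurveOver K F] [Algebra.EssFiniteType K F]
  [IsCurveOver k Fb] [Algebra.EssFiniteType k Fb]

/-- The key statement: if `m D` is principal, `m` is invertible in `k` and `r_* D = 0`, then
`D` is principal. -/
theorem mem_principal_of_nsmul_of_divMap_eq_zero {m : ℕ} (hm : (m : k) ≠ 0) {D : Divisor K F}
    (hmD : m • D ∈ Divisor.principal (K := K) (F := F)) (hdeg : Divisor.degree D = 0)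
    (hD : G.divMap D = 0) : D ∈ Divisor.principal (K := K) (F := F) := by
  haveI := G.isAlgClosed_residue
  haveI : IsFunctionFieldOne K F := isFunctionFieldOne_of_isCurveOver
  haveI : IsFunctionFieldOne k Fb := isFunctionFieldOne_of_isCurveOver
  obtain ⟨f₀, hf₀, hDf₀⟩ := hmD
  obtain ⟨s, hs, hφs⟩ := G.exists_scale f₀ hf₀
  set f : G.V := ⟨s • f₀, hs⟩ with hfdef
  have hf : (f : F) ≠ 0 := fun h => hφs (by
    rw [show f = 0 from Subtype.ext h, map_zero])
  have hs0 : s ≠ 0 := fun h => hf (by simp [hfdef, h])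
  have hordf : ∀ P : Place K F, (m • D) P = P.ord (f : F) := by
    intro P
    show _ = P.ord (s • f₀)
    rw [Algebra.smul_def, P.ord_mul (by simpa using hs0) hf₀, ord_algebraMap P, zero_add]
    exact hDf₀ P
  -- `φ f` is a non-zero constant
  obtain ⟨μ, hμ⟩ : ∃ μ : k, G.φ f = algebraMap k Fb μ :=
    Connected.exists_eq_algebraMap fun Q => Q.adicValuation_le_one_iff.2 (Or.inr (by
      rw [← G.divMap_apply_eq_ord f hφs hordf Q, map_nsmul, hD, nsmul_zero, Finsupp.zero_apply]))
  have hμ0 : μ ≠ 0 := fun h => hφs (show G.φ f = 0 by rw [hμ, h, map_zero])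
  -- two places with different reductions
  obtain ⟨Q₁, hQ₁⟩ := exists_place_ord_pos (K := k) G.x_transcendental
  obtain ⟨Q₂, hQ₂⟩ := exists_place_ord_pos (K := k) (transcendental_inv (K := k) G.x_transcendental)
  have hQne : Q₁ ≠ Q₂ := fun h => by
    rw [h] at hQ₁
    rw [Q₂.ord_inv] at hQ₂
    omega
  obtain ⟨P₁, rfl⟩ := G.placeMap_surjective Q₁
  obtain ⟨P₂, rfl⟩ := G.placeMap_surjective Q₂
  have hPne : P₁ ≠ P₂ := fun h => hQne (by rw [h])
  obtain ⟨c, hc⟩ := G.exists_bound_reduceSubspace_eq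
  obtain ⟨n, hn, hnc⟩ : ∃ n : ℕ, 1 ≤ n ∧ c ≤ n := ⟨c.toNat + 1, by omega, by omega⟩
  have hm0 : m ≠ 0 := fun h => hm (by rw [h, Nat.cast_zero])
  have hred : ∀ (P : Place K F) (j : ℕ), 1 ≤ j →
      G.reduceSubspace (riemannRochSpace (Finsupp.single P ((j * n : ℕ) : ℤ) + D)) =
        riemannRochSpace (Finsupp.single (G.placeMap P) ((j * n : ℕ) : ℤ)) := by
    intro P j hj
    rw [hc _ ?_, map_add, hD, add_zero, divMap_single]
    rw [map_add, hdeg, add_zero, Divisor.degree_single,
      IsCurveOver.deg_eq_one_of_isAlgClosed P, Nat.cast_one, mul_one]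
    have : n ≤ j * n := Nat.le_mul_of_pos_left n hj
    omega
  set B₁ : Divisor K F := Finsupp.single P₁ (n : ℤ)
  set B₂ : Divisor K F := Finsupp.single P₂ (n : ℤ)
  -- suppose `L(D) = 0`
  by_contra hnp
  have hLD : riemannRochSpace D = ⊥ := by
    refine (Submodule.eq_bot_iff _).2 fun g hg => by_contra fun hg0 => hnp ?_
    obtain ⟨E, hE, hEdeg⟩ := HasPrincipalDivisors.exists_divisor (K := K) g hg0
    have hle : 0 ≤ E + D := Finsupp.le_def.2 fun v => by
      have := ((mem_riemannRochSpace_iff.1 hg) v).resolve_left hg0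
      simp only [Finsupp.coe_zero, Pi.zero_apply, Finsupp.add_apply, hE v]
      omega
    have h0 : E + D = 0 := Connected.eq_zero_of_degree_eq_zero_of_nonneg hle
      (by rw [map_add, hEdeg, hdeg, add_zero])
    refine ⟨g⁻¹, inv_ne_zero hg0, fun v => ?_⟩
    have := DFunLike.congr_fun h0 v
    rw [Finsupp.add_apply, hE v, Finsupp.zero_apply] at this
    rw [v.ord_inv]
    omega
  set W₁ := riemannRochSpace (B₁ + D) with hW₁
  set W₂ := riemannRochSpace (B₂ + D) with hW₂
  have hR₁ : G.reduceSubspace W₁ = riemannRochSpace (Finsupp.single (G.placeMap P₁) (n : ℤ)) := by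
    have := hred P₁ 1 le_rfl
    rwa [one_mul] at this
  have hR₂ : G.reduceSubspace W₂ = riemannRochSpace (Finsupp.single (G.placeMap P₂) (n : ℤ)) := by
    have := hred P₂ 1 le_rfl
    rwa [one_mul] at this
  haveI : FiniteDimensional K W₁ := Connected.finiteDimensional_riemannRochSpace _
  haveI : FiniteDimensional K W₂ := Connected.finiteDimensional_riemannRochSpace _
  have hW : W₁ ⊓ W₂ = ⊥ := by
    rw [eq_bot_iff, ← hLD]
    rintro g ⟨hg₁, hg₂⟩ v
    rcases eq_or_ne v P₁ with rfl | hv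
    · simpa [B₂, hPne] using hg₂ v
    · simpa [B₁, hv] using hg₁ v
  have hpos : 0 < Module.finrank k
      (G.reduceSubspace W₁ ⊓ G.reduceSubspace W₂ : Submodule k Fb) := by
    haveI := G.finiteDimensional_reduceSubspace W₁
    rw [Module.finrank_pos_iff_exists_ne_zero]
    refine ⟨⟨1, ?_, ?_⟩, fun h => one_ne_zero (congrArg Subtype.val h)⟩
    · rw [hR₁]; exact Connected.one_mem_riemannRochSpace (Finsupp.single_nonneg.2 (by positivity))
    · rw [hR₂]; exact Connected.one_mem_riemannRochSpace (Finsupp.single_nonneg.2 (by positivity))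
  obtain ⟨u, hu, huR⟩ := G.exists_not_mem_sup W₁ W₂ (by rw [hW, finrank_bot]; exact hpos)
  obtain ⟨w₁, hw₁, w₂, hw₂, hsum⟩ := Submodule.mem_sup.1 hu
  have hw₁0 : w₁ ≠ 0 := fun h => huR (Submodule.mem_sup_right
    ⟨u, by rwa [← hsum, h, zero_add], rfl⟩)
  have hw₂0 : w₂ ≠ 0 := fun h => huR (Submodule.mem_sup_left
    ⟨u, by rwa [← hsum, h, add_zero], rfl⟩)
  obtain ⟨a, ha₁, ha₂, hne⟩ := G.exists_scale_pair hw₁0 hw₂0
  set g₁ : G.V := ⟨a • w₁, ha₁⟩ with hg₁def
  set g₂ : G.V := ⟨a • w₂, ha₂⟩ with hg₂def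
  have hsum' : ((g₁ + g₂ : G.V) : F) = a • (u : F) := by
    simp [hg₁def, hg₂def, ← hsum]
  have ha0 : a ≠ 0 := by
    rintro rfl
    rcases hne with h | h <;> apply h
    · rw [show g₁ = 0 from Subtype.ext (zero_smul _ _), map_zero]
    · rw [show g₂ = 0 from Subtype.ext (zero_smul _ _), map_zero]
  have haA : a ∈ A := by
    by_contra haA
    have hai : a⁻¹ ∈ A := (A.mem_or_inv_mem a).resolve_left haA
    have hπ : G.π ⟨a⁻¹, hai⟩ = 0 := (G.π_eq_zero_iff _).2 fun hu' => by
      obtain ⟨b, hb⟩ := hu'.exists_right_inv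
      have hb' : a⁻¹ * (b : K) = 1 := congrArg Subtype.val hb
      exact haA (by rw [← inv_inv a, ← eq_inv_of_mul_eq_one_right hb']; exact b.2)
    refine huR ?_
    rw [G.φ_smul' ⟨a⁻¹, hai⟩ (g₁ + g₂) u (by rw [hsum', smul_smul, inv_mul_cancel₀ ha0, one_smul]),
      hπ, zero_smul]
    exact Submodule.zero_mem _
  have hπa : G.π ⟨a, haA⟩ = 0 := by
    by_contra hπ
    refine huR ?_
    have h := G.φ_smul' ⟨a, haA⟩ u (g₁ + g₂) hsum'
    rw [map_add] at h
    have hmem : G.φ g₁ + G.φ g₂ ∈ G.reduceSubspace W₁ ⊔ G.reduceSubspace W₂ :=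
      Submodule.add_mem_sup ⟨g₁, W₁.smul_mem a hw₁, rfl⟩ ⟨g₂, W₂.smul_mem a hw₂, rfl⟩
    rw [h] at hmem
    exact (Submodule.smul_mem_iff _ hπ).1 hmem
  have hopp : G.φ g₁ = -G.φ g₂ := by
    rw [eq_neg_iff_add_eq_zero, ← map_add, G.φ_smul' ⟨a, haA⟩ u (g₁ + g₂) hsum', hπa, zero_smul]
  have hg₁0 : G.φ g₁ ≠ 0 := by
    rcases hne with h | h
    · exact h
    · exact fun h' => h (by rwa [hopp, neg_eq_zero] at h')
  obtain ⟨lam, hlam⟩ : ∃ lam : k, G.φ g₁ = algebraMap k Fb lam := by
    have m₁ : G.φ g₁ ∈ G.reduceSubspace W₁ := ⟨g₁, W₁.smul_mem a hw₁, rfl⟩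
    have m₂ : G.φ g₁ ∈ G.reduceSubspace W₂ := by
      rw [hopp]; exact neg_mem ⟨g₂, W₂.smul_mem a hw₂, rfl⟩
    rw [hR₁] at m₁
    rw [hR₂] at m₂
    refine Connected.exists_eq_algebraMap (K := k) (fun v => ?_)
    rcases eq_or_ne v (G.placeMap P₁) with rfl | hv
    · simpa [hQne] using m₂ (G.placeMap P₁)
    · simpa [hv] using m₁ v
  obtain ⟨l, hl⟩ := G.π_surjective lam⁻¹
  have hlam0 : lam ≠ 0 := fun h => hg₁0 (by rw [hlam, h, map_zero])
  set G₁ : G.V := ⟨(l : K) • (g₁ : F), G.smul_mem l g₁.2⟩ with hG₁def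
  set G₂ : G.V := ⟨(l : K) • (g₂ : F), G.smul_mem l g₂.2⟩ with hG₂def
  have hG₁ : G.φ G₁ = 1 := by
    rw [hG₁def, G.φ_smul, hl, hlam, Algebra.smul_def, ← map_mul, inv_mul_cancel₀ hlam0, map_one]
  have hG₂ : G.φ (-G₂) = 1 := by
    rw [map_neg, hG₂def, G.φ_smul, ← smul_neg, ← hopp, hl, hlam, Algebra.smul_def, ← map_mul,
      inv_mul_cancel₀ hlam0, map_one]
  -- the obstruction, after taking `m`-th powers
  set S : G.V := ∑ i ∈ Finset.range m, G₁ ^ i * (-G₂) ^ (m - 1 - i) with hSdef
  have hS : G.φ S = (m : Fb) := by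
    simp [hSdef, map_sum, map_mul, map_pow, hG₁, hG₂]
  set u' : G.V := f * (u * S) with hu'def
  have key : ((l : K) * a) • (u' : F) =
      (f : F) * (G₁ : F) ^ m - (f : F) * (-(G₂ : F)) ^ m := by
    have hgeom : (S : F) * ((G₁ : F) - -(G₂ : F)) = (G₁ : F) ^ m - (-(G₂ : F)) ^ m := by
      rw [← geom_sum₂_mul]
      simp [hSdef]
    have hdiff : (G₁ : F) - -(G₂ : F) = ((l : K) * a) • (u : F) := by
      rw [sub_neg_eq_add, hG₁def, hG₂def, mul_smul, ← hsum']
      simp [smul_add]
    rw [← mul_sub, ← hgeom, hdiff]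
    simp only [hu'def, MulMemClass.coe_mul, Algebra.smul_def]
    ring
  have hla : (l : K) * a ≠ 0 := mul_ne_zero (fun h => inv_ne_zero hlam0 (by
    rw [← hl, show l = 0 from Subtype.ext h, map_zero])) ha0
  have hpowmem : ∀ (g : F) (P : Place K F), g ∈ riemannRochSpace (Finsupp.single P (n : ℤ) + D) →
      (f : F) * g ^ m ∈ riemannRochSpace (Finsupp.single P ((m * n : ℕ) : ℤ)) := by
    intro g P hg
    have hfm : (f : F) ∈ riemannRochSpace (-(m • D)) := mem_riemannRochSpace_iff.2 fun v =>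
      Or.inr (by rw [Finsupp.neg_apply, neg_neg, hordf v])
    have h := Connected.mul_mem_riemannRochSpace hfm (Connected.pow_mem_riemannRochSpace hg m)
    rwa [smul_add, ← add_assoc, add_comm (-(m • D)), add_assoc, neg_add_cancel, add_zero,
      Finsupp.smul_single, nsmul_eq_mul, ← Nat.cast_mul] at h
  set W₁' := riemannRochSpace (Finsupp.single P₁ ((m * n : ℕ) : ℤ)) with hW₁'
  set W₂' := riemannRochSpace (Finsupp.single P₂ ((m * n : ℕ) : ℤ)) with hW₂'
  have hu'W : (u' : F) ∈ W₁' ⊔ W₂' := by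
    rw [← Submodule.smul_mem_iff _ hla, key]
    refine Submodule.sub_mem _ (Submodule.mem_sup_left (hpowmem _ P₁ ?_))
      (Submodule.mem_sup_right (hpowmem _ P₂ ?_))
    · exact Submodule.smul_mem _ _ (Submodule.smul_mem _ _ hw₁)
    · exact neg_mem (Submodule.smul_mem _ _ (Submodule.smul_mem _ _ hw₂))
  haveI : FiniteDimensional K W₁' := Connected.finiteDimensional_riemannRochSpace _
  haveI : FiniteDimensional K W₂' := Connected.finiteDimensional_riemannRochSpace _
  have hle₁ : G.reduceSubspace W₁' ≤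
      riemannRochSpace (Finsupp.single (G.placeMap P₁) ((m * n : ℕ) : ℤ)) := by
    have := G.reduceSubspace_riemannRochSpace_le (Finsupp.single P₁ ((m * n : ℕ) : ℤ))
    rwa [divMap_single] at this
  have hle₂ : G.reduceSubspace W₂' ≤
      riemannRochSpace (Finsupp.single (G.placeMap P₂) ((m * n : ℕ) : ℤ)) := by
    have := G.reduceSubspace_riemannRochSpace_le (Finsupp.single P₂ ((m * n : ℕ) : ℤ))
    rwa [divMap_single] at this
  have hsat : G.reduceSubspace (W₁' ⊔ W₂') = G.reduceSubspace W₁' ⊔ G.reduceSubspace W₂' := by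
    refine G.reduceSubspace_sup_eq _ _ ?_
    have h1 : (G.reduceSubspace W₁' ⊓ G.reduceSubspace W₂' : Submodule k Fb) ≤
        Submodule.span k {1} := by
      rintro y ⟨hy₁, hy₂⟩
      obtain ⟨t, rfl⟩ := Connected.exists_eq_algebraMap (K := k) (f := y) (fun v => by
        rcases eq_or_ne v (G.placeMap P₁) with rfl | hv
        · simpa [hQne] using hle₂ hy₂ (G.placeMap P₁)
        · simpa [hv] using hle₁ hy₁ v)
      rw [Algebra.algebraMap_eq_smul_one]
      exact Submodule.smul_mem _ _ (Submodule.mem_span_singleton_self _)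
    refine (Submodule.finrank_mono h1).trans ?_
    rw [finrank_span_singleton one_ne_zero, Nat.one_le_iff_ne_zero]
    haveI : FiniteDimensional K (W₁' ⊓ W₂' : Submodule K F) :=
      Submodule.finiteDimensional_inf_left W₁' W₂'
    rw [← Nat.pos_iff_ne_zero, Module.finrank_pos_iff_exists_ne_zero]
    exact ⟨⟨1, Connected.one_mem_riemannRochSpace (Finsupp.single_nonneg.2 (by positivity)),
      Connected.one_mem_riemannRochSpace (Finsupp.single_nonneg.2 (by positivity))⟩,
      fun h => one_ne_zero (congrArg Subtype.val h)⟩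
  have hφu' : G.φ u' ∈ riemannRochSpace (Finsupp.single (G.placeMap P₁) ((m * n : ℕ) : ℤ)) ⊔
      riemannRochSpace (Finsupp.single (G.placeMap P₂) ((m * n : ℕ) : ℤ)) := by
    refine sup_le_sup hle₁ hle₂ ?_
    rw [← hsat]
    exact ⟨u', hu'W, rfl⟩
  have hφu'eq : G.φ u' = (μ * m) • G.φ u := by
    rw [hu'def, map_mul, map_mul, hS, hμ, Algebra.smul_def, map_mul, map_natCast]
    ring
  rw [hφu'eq, Submodule.smul_mem_iff _ (mul_ne_zero hμ0 hm)] at hφu'
  refine huR ?_
  rw [hR₁, hR₂]
  refine Connected.mem_sup_of_disjoint hQne ?_ hφu'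
  have hu12 : (u : F) ∈ riemannRochSpace (B₁ + B₂ + D) := by
    refine sup_le (Connected.riemannRochSpace_mono ?_) (Connected.riemannRochSpace_mono ?_) hu
    · exact add_le_add (le_add_of_nonneg_right (Finsupp.single_nonneg.2 (Int.natCast_nonneg n)))
        le_rfl
    · exact add_le_add (le_add_of_nonneg_left (Finsupp.single_nonneg.2 (Int.natCast_nonneg n)))
        le_rfl
  have := G.φ_mem_riemannRochSpace u hu12
  rwa [map_add, map_add, hD, add_zero, divMap_single, divMap_single] at this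

/-- Reduction of divisor classes is injective on torsion prime to the residue characteristic. -/
theorem eq_zero_of_reductionPic0_eq_zero_of_nsmul_eq_zero {m : ℕ} (hm : (m : k) ≠ 0)
    {z : Pic0 K F} (hmz : m • z = 0) (hz : G.reductionPic0 z = 0) : z = 0 := by
  obtain ⟨⟨D, hD0⟩, rfl⟩ := Pic0.mk_surjective z
  rw [reductionPic0_mk, Pic0.mk, QuotientAddGroup.eq_zero_iff, AddSubgroup.mem_addSubgroupOf,
    coe_reductionDegZero] at hz
  rw [Pic0.mk, ← QuotientAddGroup.mk_nsmul, QuotientAddGroup.eq_zero_iff,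
    AddSubgroup.mem_addSubgroupOf] at hmz
  rw [Pic0.mk, QuotientAddGroup.eq_zero_iff, AddSubgroup.mem_addSubgroupOf]
  obtain ⟨g, hg0, hg⟩ := hz
  obtain ⟨g₀, hg₀⟩ := G.φ_surjective g
  have hg₀0 : (g₀ : F) ≠ 0 := fun h => hg0 (by
    rw [← hg₀, show g₀ = 0 from Subtype.ext h, map_zero])
  obtain ⟨E, hE, hEdeg⟩ := HasPrincipalDivisors.exists_divisor (K := K) (g₀ : F) hg₀0
  have hEp : E ∈ Divisor.principal (K := K) (F := F) := ⟨g₀, hg₀0, hE⟩
  have hr : G.divMap (D - E) = 0 := by
    rw [map_sub, sub_eq_zero]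
    ext Q
    rw [G.divMap_apply_eq_ord g₀ (by rwa [hg₀]) hE Q, hg₀, ← hg Q]
  have := G.mem_principal_of_nsmul_of_divMap_eq_zero hm (D := D - E)
    (by
      rw [nsmul_sub]
      exact sub_mem hmz (AddSubgroup.nsmul_mem _ hEp m))
    (by rw [map_sub, hEdeg, sub_zero]; exact hD0) hr
  simpa using add_mem this hEp

/-- Reduction is injective on `m`-torsion for `m` invertible in the residue field. -/
theorem reductionPic0_injOn_torsion {m : ℕ} (hm : (m : k) ≠ 0) :
    Set.InjOn G.reductionPic0 (Pic0.torsion K F m : Set (Pic0 K F)) := by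
  intro x hx y hy hxy
  rw [SetLike.mem_coe, Pic0.mem_torsion, natCast_zsmul] at hx hy
  rw [← sub_eq_zero]
  exact G.eq_zero_of_reductionPic0_eq_zero_of_nsmul_eq_zero hm
    (by rw [nsmul_sub, hx, hy, sub_zero]) (by rw [map_sub, hxy, sub_self])

/-- Kummer form of the injectivity: a function whose divisor is divisible by `m` and whose
reduction is an `m`-th power is an `m`-th power. -/
theorem exists_eq_pow_of_φ_eq_pow {m : ℕ} (hm : (m : k) ≠ 0) {f : F} (hf : f ≠ 0)
    (hdvd : ∀ P : Place K F, (m : ℤ) ∣ P.ord f) (hfV : f ∈ G.V)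
    (hpow : ∃ g : Fb, g ≠ 0 ∧ G.φ ⟨f, hfV⟩ = g ^ m) : ∃ u : F, f = u ^ m := by
  haveI : IsFunctionFieldOne K F := isFunctionFieldOne_of_isCurveOver
  obtain ⟨g, hg0, hg⟩ := hpow
  have hm0 : m ≠ 0 := fun h => hm (by rw [h, Nat.cast_zero])
  obtain ⟨E, hE, hEdeg⟩ := HasPrincipalDivisors.exists_divisor (K := K) f hf
  let D : Divisor K F := E.mapRange (fun a => a / (m : ℤ)) (Int.zero_ediv _)
  have hDE : m • D = E := by
    ext P
    rw [Finsupp.smul_apply, Finsupp.mapRange_apply, nsmul_eq_mul, hE P,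
      Int.mul_ediv_cancel' (hdvd P)]
  have hDdeg : Divisor.degree D = 0 := by
    have := congrArg Divisor.degree hDE
    rw [map_nsmul, hEdeg, nsmul_eq_mul] at this
    exact (mul_eq_zero.1 this).resolve_left (by exact_mod_cast hm0)
  have hmz : m • Pic0.mk (⟨D, hDdeg⟩ : Divisor.degZero (K := K) (F := F)) = 0 := by
    rw [Pic0.mk, ← QuotientAddGroup.mk_nsmul, QuotientAddGroup.eq_zero_iff,
      AddSubgroup.mem_addSubgroupOf]
    exact ⟨f, hf, fun P => by rw [← hE P, ← hDE]; rfl⟩
  have hφ : G.φ ⟨f, hfV⟩ ≠ 0 := by rw [hg]; exact pow_ne_zero _ hg0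
  have hr : ∀ Q, G.divMap D Q = Q.ord g := fun Q => by
    have h1 := G.divMap_apply_eq_ord ⟨f, hfV⟩ hφ hE Q
    rw [← hDE, map_nsmul, Finsupp.smul_apply, hg, ord_pow, nsmul_eq_mul] at h1
    exact mul_left_cancel₀ (by exact_mod_cast hm0) h1
  have hz := G.eq_zero_of_reductionPic0_eq_zero_of_nsmul_eq_zero hm hmz (by
    rw [reductionPic0_mk, Pic0.mk, QuotientAddGroup.eq_zero_iff, AddSubgroup.mem_addSubgroupOf,
      coe_reductionDegZero]
    exact ⟨g, hg0, hr⟩)
  rw [Pic0.mk, QuotientAddGroup.eq_zero_iff, AddSubgroup.mem_addSubgroupOf] at hz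
  obtain ⟨u, hu0, hu⟩ := hz
  obtain ⟨c, hc⟩ := Connected.exists_eq_algebraMap (K := K) (f := f / u ^ m) fun P =>
    P.adicValuation_le_one_iff.2 (Or.inr (by
      rw [ord_div P hf (pow_ne_zero _ hu0), ord_pow, ← hE P, ← hDE, Finsupp.smul_apply,
        nsmul_eq_mul, hu P, sub_self]))
  obtain ⟨d, hd⟩ := IsAlgClosed.exists_pow_nat_eq c (Nat.pos_of_ne_zero hm0)
  exact ⟨algebraMap K F d * u, by
    rw [mul_pow, ← map_pow, hd, ← hc, div_mul_cancel₀ _ (pow_ne_zero _ hu0)]⟩

end GoodReduction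

end Fermat.Agent.Curve

end
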