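/-
Naturality of the reduction map: semilinear automorphisms and finite extensions.
-/
import Fermat.Agent.Curve.ReductionMap
import Fermat.Agent.Curve.BasicExtension
import Fermat.Prelude.Def_AlgebraicCurve_BaseChangeGalois
import Fermat.Prelude.Def_AlgebraicCurve_Correspondence

set_option autoImplicit false

noncomputable section

namespace Fermat.Agent.Curve.GoodReduction

open AlgebraicCurve IntermediateField

universe uK uF uF' uk uFb uFb'

variable {K : Type uK} [Field K] {A : ValuationSubring K}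
  {F : Type uF} [Field F] [Algebra K F]
  {k : Type uk} [Field k] {Fb : Type uFb} [Field Fb] [Algebra k Fb]
  (G : GoodReduction A F k Fb)
  [IsAlgClosed K]

section Semilinear

variable (g : SemilinearAut K F) (gb : SemilinearAut k Fb)
  (hV : ∀ f : G.V, g • (f : F) ∈ G.V)
  (hφ : ∀ f : G.V, G.φ ⟨g • (f : F), hV f⟩ = gb • G.φ f)

include hφ

theorem placeMap_smul (P : Place K F) : G.placeMap (g • P) = gb • G.placeMap P := by
  haveI := G.isFunctionFieldOne
  have H : G.IsReductionMap (fun P => gb⁻¹ • G.placeMap (g • P)) := by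
    intro f hf D hD Q
    have hgf : G.φ ⟨g • (f : F), hV f⟩ ≠ 0 := by
      rw [hφ, SemilinearAut.smul_def]
      simpa using hf
    have hgD : ∀ P, (g • D) P = P.ord (g • (f : F)) := fun P => by
      have h := SemilinearAut.ord_smul g (g⁻¹ • P) (f : F)
      rw [smul_inv_smul] at h
      rw [SemilinearAut.divisor_smul_apply, hD, h]
    have h := G.divMap_apply_eq_ord ⟨g • (f : F), hV f⟩ hgf hgD (gb • Q)
    rw [hφ, SemilinearAut.ord_smul] at h
    rw [← h, show (fun P => gb⁻¹ • G.placeMap (g • P)) =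
        (fun R => gb⁻¹ • R) ∘ G.placeMap ∘ (fun P => g • P) from rfl,
      Finsupp.mapDomain_comp, Finsupp.mapDomain_comp, ← SemilinearAut.divisor_smul_def g,
      ← SemilinearAut.divisor_smul_def gb⁻¹, SemilinearAut.divisor_smul_apply, inv_inv,
      divMap_apply]
  have h := congrFun H.eq_placeMap P
  rw [← h, smul_inv_smul]

theorem divMap_smul (D : Divisor K F) : G.divMap (g • D) = gb • G.divMap D := by
  induction D using Finsupp.induction with
  | zero => simp
  | single_add P n D _ _ ih =>
    rw [smul_add, map_add, map_add, smul_add, ih, SemilinearAut.smul_single, divMap_single,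
      divMap_single, SemilinearAut.smul_single, G.placeMap_smul g gb hV hφ]

theorem reductionPic0_smul (x : Pic0 K F) :
    G.reductionPic0 (g • x) = gb • G.reductionPic0 x := by
  obtain ⟨D, rfl⟩ := Pic0.mk_surjective x
  rw [SemilinearAut.pic0_smul_mk, reductionPic0_mk, reductionPic0_mk, SemilinearAut.pic0_smul_mk]
  refine congrArg Pic0.mk (Subtype.ext ?_)
  rw [coe_reductionDegZero, SemilinearAut.coe_degZeroSMulHom, SemilinearAut.coe_degZeroSMulHom,
    coe_reductionDegZero, G.divMap_smul g gb hV hφ]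

end Semilinear

section Extension

variable {F' : Type uF'} [Field F'] [Algebra K F'] {Fb' : Type uFb'} [Field Fb'] [Algebra k Fb']
  [HasPrincipalDivisors K F'] [HasPrincipalDivisors k Fb']
  (G' : GoodReduction A F' k Fb')
  (ι : F →ₐ[K] F') (ιb : Fb →ₐ[k] Fb')
  (hι : ι.toRingHom.IsIntegral) (hιb : ιb.toRingHom.IsIntegral)
  (hV : ∀ f : G.V, ι (f : F) ∈ G'.V)
  (hφ : ∀ f : G.V, G'.φ ⟨ι (f : F), hV f⟩ = ιb (G.φ f))
  (hdeg : finrankAlong K ι = finrankAlong k ιb)

omit [IsAlgClosed K] [HasPrincipalDivisors k Fb'] in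
theorem pullbackAlong_poleDivisor [IsFunctionFieldOne K F] [IsFunctionFieldOne K F'] (f : F) :
    Divisor.pullbackAlong ι hι (poleDivisor K f) = poleDivisor K (ι f) := by
  ext w
  rw [Divisor.pullbackAlong_apply, poleDivisor_apply, poleDivisor_apply,
    Place.ord_restrictAlong ι hι, mul_max_of_nonneg _ _ (Int.natCast_nonneg _), mul_zero,
    mul_neg]

include hφ hdeg

theorem divMap_pullbackAlong_single (P : Place K F) :
    G'.divMap (Divisor.pullbackAlong ι hι (Finsupp.single P 1)) =
      Divisor.pullbackAlong ιb hιb (Finsupp.single (G.placeMap P) 1) := by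
  classical
  haveI := G.isAlgClosed_residue
  haveI := G.isFunctionFieldOne
  haveI := G.isFunctionFieldOne_special
  haveI := G'.isFunctionFieldOne
  haveI := G'.isFunctionFieldOne_special
  obtain ⟨c, q, hc, hq⟩ := G.exists_point_map
  obtain ⟨y, hy, hy0, hyE⟩ := G.exists_mem_redDiv (single_nonneg' P hc.le)
  rw [hq P c le_rfl] at hyE
  obtain ⟨f, hf, rfl⟩ := hy
  have hle : poleDivisor k (G.φ f) ≤ Finsupp.single (G.placeMap P) c := by
    rw [← G.divMap_single, RedAux.poleDivisor_le_iff (by
      simpa using G.divMap_mono (single_nonneg' P hc.le))]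
    exact G.φ_mem_riemannRochSpace f hf
  have hqP : q P = G.placeMap P := by
    by_contra hne
    have h := Finsupp.le_def.1 hle (q P)
    rw [hyE, Finsupp.single_eq_same, Finsupp.single_eq_of_ne hne] at h
    omega
  rw [hqP] at hyE
  have hpole : poleDivisor K (f : F) = Finsupp.single P c := by
    refine RedAux.eq_of_le_of_degree_le
      ((RedAux.poleDivisor_le_iff (single_nonneg' P hc.le)).2 hf) ?_
    have h := G.degree_poleDivisor_φ_le f
    rw [hyE, Divisor.degree_single, RedAux.deg_one] at h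
    rw [Divisor.degree_single, RedAux.deg_one]
    exact h
  have hFI : FundamentalIdentityAlong K ι hι := fundamentalIdentityAlong ι hι (finiteAlong ι)
  have hFIb : FundamentalIdentityAlong k ιb hιb :=
    fundamentalIdentityAlong ιb hιb (finiteAlong ιb)
  have hM : (0 : Divisor K F') ≤ poleDivisor K (ι (f : F)) := RedAux.poleDivisor_nonneg _
  have key : poleDivisor k (ιb (G.φ f)) = G'.divMap (poleDivisor K (ι (f : F))) := by
    refine RedAux.eq_of_le_of_degree_le ?_ ?_
    · rw [RedAux.poleDivisor_le_iff (by simpa using G'.divMap_mono hM), ← hφ f]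
      exact G'.φ_mem_riemannRochSpace ⟨_, hV f⟩ (RedAux.mem_L_poleDivisor _)
    · rw [G'.degree_divMap, ← pullbackAlong_poleDivisor ι hι, ← pullbackAlong_poleDivisor ιb hιb,
        Divisor.degree_pullbackAlong ι hι hFI, Divisor.degree_pullbackAlong ιb hιb hFIb,
        hpole, hyE, hdeg, Divisor.degree_single, Divisor.degree_single, RedAux.deg_one,
        RedAux.deg_one]
  rw [← pullbackAlong_poleDivisor ιb hιb, ← pullbackAlong_poleDivisor ι hι, hpole, hyE,
    show Finsupp.single P c = c • Finsupp.single P (1 : ℤ) by rw [Finsupp.smul_single, smul_eq_mul, mul_one],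
    show Finsupp.single (G.placeMap P) c = c • Finsupp.single (G.placeMap P) (1 : ℤ) by
      rw [Finsupp.smul_single, smul_eq_mul, mul_one],
    map_zsmul, map_zsmul, map_zsmul] at key
  exact (smul_right_injective _ hc.ne' key).symm

theorem placeMap_restrictAlong (P' : Place K F') :
    (G'.placeMap P').restrictAlong ιb hιb = G.placeMap (P'.restrictAlong ι hι) := by
  classical
  haveI := G'.isFunctionFieldOne
  set P := P'.restrictAlong ι hι with hP
  have h := G.divMap_pullbackAlong_single G' ι ιb hι hιb hV hφ hdeg P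
  have hnn : Finsupp.single P' (1 : ℤ) ≤ Divisor.pullbackAlong ι hι (Finsupp.single P 1) := by
    refine Finsupp.le_def.2 fun w => ?_
    rw [Divisor.pullbackAlong_apply]
    by_cases hw : w = P'
    · subst hw
      rw [Finsupp.single_eq_same, ← hP, Finsupp.single_eq_same, mul_one]
      have : 0 < w.ramificationIndexAlong ι := by
        letI := algebraAlong ι
        haveI := isScalarTower_along ι
        haveI := isIntegral_along ι hι
        exact w.ramificationIndex_pos (F := F)
      exact_mod_cast this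
    · rw [Finsupp.single_eq_of_ne hw, Finsupp.single_apply]
      split_ifs <;> simp
  have h1 := Finsupp.le_def.1 (G'.divMap_mono hnn) (G'.placeMap P')
  rw [G'.divMap_single, Finsupp.single_eq_same, h, Divisor.pullbackAlong_apply] at h1
  by_contra hne
  rw [Finsupp.single_eq_of_ne hne, mul_zero] at h1
  omega

theorem divMap_pullbackAlong (D : Divisor K F) :
    G'.divMap (Divisor.pullbackAlong ι hι D) = Divisor.pullbackAlong ιb hιb (G.divMap D) := by
  induction D using Finsupp.induction with
  | zero => simp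
  | single_add P n D _ _ ih =>
    rw [map_add, map_add, map_add, map_add, ih, G.divMap_single,
      show Finsupp.single P n = n • Finsupp.single P (1 : ℤ) by rw [Finsupp.smul_single, smul_eq_mul, mul_one],
      map_zsmul, map_zsmul, G.divMap_pullbackAlong_single G' ι ιb hι hιb hV hφ hdeg P,
      ← map_zsmul, Finsupp.smul_single, smul_eq_mul, mul_one]

theorem divMap_pushforwardAlong (D : Divisor K F') :
    G.divMap (Divisor.pushforwardAlong ι hι D) =
      Divisor.pushforwardAlong ιb hιb (G'.divMap D) := by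
  haveI := G.isAlgClosed_residue
  haveI := G.isFunctionFieldOne
  haveI := G.isFunctionFieldOne_special
  haveI := G'.isFunctionFieldOne
  haveI := G'.isFunctionFieldOne_special
  have e1 : ∀ w : Place K F', w.inertiaDegAlong ι hι = 1 := fun w => by
    letI := algebraAlong ι
    haveI := isScalarTower_along ι
    haveI := isIntegral_along ι hι
    show w.inertiaDeg F = 1
    have h := w.deg_restrict_mul_inertiaDeg (F := F)
    rw [RedAux.deg_one, RedAux.deg_one, one_mul] at h
    exact h
  have e2 : ∀ w : Place k Fb', w.inertiaDegAlong ιb hιb = 1 := fun w => by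
    letI := algebraAlong ιb
    haveI := isScalarTower_along ιb
    haveI := isIntegral_along ιb hιb
    show w.inertiaDeg Fb = 1
    have h := w.deg_restrict_mul_inertiaDeg (F := Fb)
    rw [RedAux.deg_one, RedAux.deg_one, one_mul] at h
    exact h
  induction D using Finsupp.induction with
  | zero => simp
  | single_add P n D _ _ ih =>
    rw [map_add, map_add, map_add, map_add, ih, Divisor.pushforwardAlong_single, G'.divMap_single,
      Divisor.pushforwardAlong_single, G.divMap_single, e1, e2,
      G.placeMap_restrictAlong G' ι ιb hι hιb hV hφ hdeg]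

end Extension

section Correspondence

variable {F' : Type uF'} [Field F'] [Algebra K F'] {Fb' : Type uFb'} [Field Fb'] [Algebra k Fb']
  [HasPrincipalDivisors K F'] [HasPrincipalDivisors k Fb']
  (G' : GoodReduction A F' k Fb')
  (ι₁ ι₂ : F →ₐ[K] F') (ιb₁ ιb₂ : Fb →ₐ[k] Fb')
  (h₁ : ι₁.toRingHom.IsIntegral) (h₂ : ι₂.toRingHom.IsIntegral)
  (hb₁ : ιb₁.toRingHom.IsIntegral) (hb₂ : ιb₂.toRingHom.IsIntegral)
  (hV₁ : ∀ f : G.V, ι₁ (f : F) ∈ G'.V)
  (hφ₁ : ∀ f : G.V, G'.φ ⟨ι₁ (f : F), hV₁ f⟩ = ιb₁ (G.φ f))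
  (hdeg₁ : finrankAlong K ι₁ = finrankAlong k ιb₁)
  (hV₂ : ∀ f : G.V, ι₂ (f : F) ∈ G'.V)
  (hφ₂ : ∀ f : G.V, G'.φ ⟨ι₂ (f : F), hV₂ f⟩ = ιb₂ (G.φ f))
  (hdeg₂ : finrankAlong K ι₂ = finrankAlong k ιb₂)

include G' hφ₁ hdeg₁ hφ₂ hdeg₂

theorem divMap_correspondence (D : Divisor K F) :
    G.divMap (Divisor.correspondence ι₁ ι₂ h₁ h₂ D) =
      Divisor.correspondence ιb₁ ιb₂ hb₁ hb₂ (G.divMap D) := by
  rw [Divisor.correspondence_apply, Divisor.correspondence_apply,
    G.divMap_pushforwardAlong G' ι₂ ιb₂ h₂ hb₂ hV₂ hφ₂ hdeg₂,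
    G.divMap_pullbackAlong G' ι₁ ιb₁ h₁ hb₁ hV₁ hφ₁ hdeg₁]

theorem reductionPic0_correspondence
    (hFI : FundamentalIdentityAlong K ι₁ h₁)
    (hfin : FiniteAlong K ι₂) (hN : NormFormulaAlong K ι₂ hfin)
    (hFIb : FundamentalIdentityAlong k ιb₁ hb₁)
    (hfinb : FiniteAlong k ιb₂) (hNb : NormFormulaAlong k ιb₂ hfinb) (x : Pic0 K F) :
    G.reductionPic0 (Pic0.correspondence ι₁ ι₂ h₁ h₂ hFI hfin hN x) =
      Pic0.correspondence ιb₁ ιb₂ hb₁ hb₂ hFIb hfinb hNb (G.reductionPic0 x) := by
  obtain ⟨D, rfl⟩ := Pic0.mk_surjective x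
  rw [Pic0.correspondence_mk, reductionPic0_mk, reductionPic0_mk, Pic0.correspondence_mk]
  refine congrArg Pic0.mk (Subtype.ext ?_)
  rw [coe_reductionDegZero, Pic0.coe_degZeroCorrespondence, Pic0.coe_degZeroCorrespondence,
    coe_reductionDegZero, G.divMap_correspondence G' ι₁ ι₂ ιb₁ ιb₂ h₁ h₂ hb₁ hb₂ hV₁ hφ₁ hdeg₁
      hV₂ hφ₂ hdeg₂]

end Correspondence

end Fermat.Agent.Curve.GoodReduction

end
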