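/-
Formal logarithmic derivatives, and the combinatorics of point counts which enter the
rationality of the zeta function of a function field over a finite field.
-/
import Mathlib.RingTheory.PowerSeries.Derivative
import Mathlib.RingTheory.PowerSeries.Expand
import Mathlib.RingTheory.PowerSeries.NoZeroDivisors
import Mathlib.RingTheory.PowerSeries.Trunc
import Mathlib.Algebra.Polynomial.Derivative
import Mathlib.Algebra.Polynomial.Expand
import Mathlib.Analysis.Complex.Basic
import Mathlib.Tactic

set_option autoImplicit false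

noncomputable section

open PowerSeries

namespace Fermat.Agent.Curve.ZetaSeries

/-- `HasLD f S` says that `S` is the logarithmic derivative `T f'/f` of `f`. -/
def HasLD (f S : PowerSeries ℂ) : Prop := X * d⁄dX ℂ f = f * S

theorem coeff_X_mul_derivative (f : PowerSeries ℂ) (n : ℕ) :
    coeff n (X * d⁄dX ℂ f) = n * coeff n f := by
  cases n with
  | zero => simp
  | succ n => rw [coeff_succ_X_mul, coeff_derivative]; push_cast; ring

theorem HasLD.mul {f g S T : PowerSeries ℂ} (hf : HasLD f S) (hg : HasLD g T) :
    HasLD (f * g) (S + T) := by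
  unfold HasLD at *
  rw [Derivation.leibniz, smul_eq_mul, smul_eq_mul]
  linear_combination f * hg + g * hf

theorem HasLD.one : HasLD 1 0 := by
  simp [HasLD, Derivation.map_one_eq_zero]

theorem HasLD.pow {f S : PowerSeries ℂ} (hf : HasLD f S) (n : ℕ) :
    HasLD (f ^ n) (n • S) := by
  induction n with
  | zero => simpa using HasLD.one
  | succ n ih => rw [pow_succ, succ_nsmul]; exact ih.mul hf

theorem HasLD.prod {ι : Type*} {f S : ι → PowerSeries ℂ} (s : Multiset ι)
    (h : ∀ i ∈ s, HasLD (f i) (S i)) : HasLD (s.map f).prod (s.map S).sum := by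
  induction s using Multiset.induction_on with
  | empty => simpa using HasLD.one
  | cons a s ih =>
      simp only [Multiset.map_cons, Multiset.prod_cons, Multiset.sum_cons]
      exact (h a (Multiset.mem_cons_self a s)).mul
        (ih fun i hi => h i (Multiset.mem_cons_of_mem hi))

/-- Two series with the same constant term and the same logarithmic derivative agree. -/
theorem HasLD.unique {f g S : PowerSeries ℂ} (hf : HasLD f S) (hg : HasLD g S)
    (hS : constantCoeff S = 0) (h0 : constantCoeff f = constantCoeff g) : f = g := by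
  ext n
  induction n using Nat.strong_induction_on with
  | _ n ih =>
    rcases Nat.eq_zero_or_pos n with rfl | hn
    · simpa using h0
    have e1 := congrArg (coeff n) hf
    have e2 := congrArg (coeff n) hg
    rw [coeff_X_mul_derivative, coeff_mul] at e1 e2
    have : (∑ p ∈ Finset.antidiagonal n, coeff p.1 f * coeff p.2 S) =
        ∑ p ∈ Finset.antidiagonal n, coeff p.1 g * coeff p.2 S := by
      refine Finset.sum_congr rfl fun p hp => ?_
      rw [Finset.HasAntidiagonal.mem_antidiagonal] at hp
      rcases Nat.eq_zero_or_pos p.2 with h2 | h2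
      · simp [h2, hS]
      · rw [ih p.1 (by omega)]
    exact mul_left_cancel₀ (Nat.cast_ne_zero.2 hn.ne' : (n : ℂ) ≠ 0)
      (e1.trans (this.trans e2.symm))

/-- The logarithmic derivative is unique. -/
theorem HasLD.unique_right {f S T : PowerSeries ℂ} (h1 : HasLD f S) (h2 : HasLD f T)
    (hf : f ≠ 0) : S = T :=
  mul_left_cancel₀ hf (h1.symm.trans h2)

/-- The series `α T + α² T² + ...`. -/
def geom (α : ℂ) : PowerSeries ℂ := mk fun m => if m = 0 then 0 else α ^ m

theorem constantCoeff_geom (α : ℂ) : constantCoeff (geom α) = 0 := by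
  simp [geom, ← coeff_zero_eq_constantCoeff]

theorem hasLD_one_sub (α : ℂ) : HasLD (1 - C α * X) (-geom α) := by
  ext n
  rw [coeff_X_mul_derivative, sub_mul, one_mul, map_sub, map_sub, mul_assoc, coeff_C_mul]
  cases n with
  | zero => simp [geom]
  | succ n =>
      rw [coeff_one, if_neg (Nat.succ_ne_zero n), coeff_C_mul, coeff_succ_X_mul]
      cases n with
      | zero => simp [geom]
      | succ m =>
          rw [coeff_X]
          simp [geom, pow_succ]
          ring

/-- The series of the numbers `N m`, with zero constant term. -/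
def pointSeries (N : ℕ → ℕ) : PowerSeries ℂ := mk fun j => if j = 0 then 0 else (N j : ℂ)

/-- The series of the numbers `A d`. -/
def countSeries (A : ℕ → ℕ) : PowerSeries ℂ := mk fun d => (A d : ℂ)

theorem constantCoeff_pointSeries (N : ℕ → ℕ) : constantCoeff (pointSeries N) = 0 := by
  simp [pointSeries, ← coeff_zero_eq_constantCoeff]

/-- The counting facts about effective divisors which determine the zeta function:
`A d` effective divisors of degree `d`, `N m` rational places over the degree `m` extension,
`δ` the least positive degree, `h` the class number. -/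
structure ZetaData (q g δ h : ℕ) (A N : ℕ → ℕ) : Prop where
  one_lt : 1 < q
  delta_pos : 0 < δ
  h_pos : 0 < h
  A_zero : A 0 = 1
  dvd : ∀ d, A d ≠ 0 → δ ∣ d
  recur : ∀ d, d * A d =
    ∑ x ∈ Finset.antidiagonal d, if x.2 = 0 then 0 else A x.1 * N x.2
  large : ∀ d, 2 * g ≤ d + 1 → δ ∣ d → (q - 1) * A d + h = h * q ^ (d + 1 - g)
  canonical : 1 ≤ g → (q - 1) * A (2 * g - 2) + h = h * q ^ (g - 1) + (q - 1) * q ^ (g - 1)

variable {q g δ h : ℕ} {A N : ℕ → ℕ}

theorem ZetaData.hasLD (D : ZetaData q g δ h A N) :
    HasLD (countSeries A) (pointSeries N) := by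
  ext d
  rw [coeff_X_mul_derivative, countSeries, coeff_mk, coeff_mul, ← Nat.cast_mul, D.recur,
    Nat.cast_sum]
  refine Finset.sum_congr rfl fun x _ => ?_
  rw [pointSeries, coeff_mk, coeff_mk]
  split_ifs <;> simp

theorem ZetaData.constantCoeff_count (D : ZetaData q g δ h A N) :
    constantCoeff (countSeries A) = 1 := by
  simp [countSeries, ← coeff_zero_eq_constantCoeff, D.A_zero]

/-- Only the multiples of `δ` matter: the recursion of the contracted series. -/
theorem ZetaData.hasLD_contract (D : ZetaData q g δ h A N) :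
    HasLD (countSeries (fun m => A (δ * m)) ^ δ) (pointSeries (fun m => N (δ * m))) := by
  set f := countSeries (fun m => A (δ * m)) with hf
  set S := pointSeries (fun m => N (δ * m)) with hS
  have key : (δ : PowerSeries ℂ) * (X * d⁄dX ℂ f) = f * S := by
    ext m
    rw [show (δ : PowerSeries ℂ) = C (δ : ℂ) by simp, coeff_C_mul, coeff_X_mul_derivative,
      coeff_mul, hf, countSeries, coeff_mk, ← mul_assoc, ← Nat.cast_mul, ← Nat.cast_mul,
      D.recur]
    have hsub : (Finset.antidiagonal m).image (fun x => (δ * x.1, δ * x.2)) ⊆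
        Finset.antidiagonal (δ * m) := by
      intro y hy
      rw [Finset.mem_image] at hy
      obtain ⟨x, hx, rfl⟩ := hy
      rw [Finset.HasAntidiagonal.mem_antidiagonal] at hx ⊢
      rw [← mul_add, hx]
    rw [← Finset.sum_subset hsub, Finset.sum_image, Nat.cast_sum]
    · refine Finset.sum_congr rfl fun x _ => ?_
      rw [hS, pointSeries, coeff_mk, coeff_mk]
      by_cases h2 : x.2 = 0
      · simp [h2]
      · rw [if_neg h2, if_neg (Nat.mul_ne_zero D.delta_pos.ne' h2)]
        push_cast
        ring
    · intro x _ y _ hxy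
      simp only [Prod.mk.injEq] at hxy
      exact Prod.ext (Nat.eq_of_mul_eq_mul_left D.delta_pos hxy.1)
        (Nat.eq_of_mul_eq_mul_left D.delta_pos hxy.2)
    · intro y hy hny
      rw [Finset.HasAntidiagonal.mem_antidiagonal] at hy
      split_ifs with h2
      · rfl
      · refine Nat.mul_eq_zero.2 (Or.inl ?_)
        by_contra hA
        apply hny
        obtain ⟨a, ha⟩ := D.dvd _ hA
        obtain ⟨b, hb⟩ : δ ∣ y.2 := by
          have hd : δ ∣ y.1 + y.2 := hy ▸ Dvd.intro m rfl
          rw [ha] at hd
          exact (Nat.dvd_add_right (Dvd.intro a rfl)).1 hd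
        refine Finset.mem_image.2 ⟨(a, b), ?_, ?_⟩
        · rw [Finset.HasAntidiagonal.mem_antidiagonal]
          rw [ha, hb, ← mul_add] at hy
          exact Nat.eq_of_mul_eq_mul_left D.delta_pos hy
        · exact Prod.ext ha.symm hb.symm
  obtain ⟨k, hk⟩ : ∃ k, δ = k + 1 := ⟨δ - 1, by have := D.delta_pos; omega⟩
  unfold HasLD
  rw [Derivation.leibniz_pow, smul_eq_mul, nsmul_eq_mul]
  rw [hk] at key ⊢
  simp only [Nat.add_sub_cancel]
  linear_combination f ^ k * key

/-- The numbers `e d = A d - q^δ A (d - δ)` of the contracted series, and their behaviour. -/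
theorem exists_polynomial_of_eventually {Q E : ℂ} {B : ℕ → ℕ} {k : ℕ}
    (hE : ∀ m, k ≤ m → (B m : ℂ) - (if m = 0 then 0 else Q * B (m - 1)) = E) :
    ∃ P : Polynomial ℂ,
      (P : PowerSeries ℂ) = (1 - X) * (1 - C Q * X) * countSeries B ∧
      P.natDegree ≤ k ∧ P.eval 1 = E ∧
      P.coeff k = E - (if k = 0 then 0 else
        ((B (k - 1) : ℂ) - (if k - 1 = 0 then 0 else Q * B (k - 1 - 1)))) := by
  set e : ℕ → ℂ := fun m => (B m : ℂ) - (if m = 0 then 0 else Q * B (m - 1)) with he
  set c : ℕ → ℂ := fun m => e m - (if m = 0 then 0 else e (m - 1)) with hc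
  have hser : (1 - X) * (1 - C Q * X) * countSeries B = mk c := by
    have h1 : (1 - C Q * X) * countSeries B = mk e := by
      ext m
      rw [sub_mul, one_mul, map_sub, mul_assoc, coeff_C_mul]
      cases m with
      | zero => simp [he, countSeries]
      | succ m => simp [he, countSeries, coeff_succ_X_mul]
    rw [mul_assoc, h1]
    ext m
    rw [sub_mul, one_mul, map_sub]
    cases m with
    | zero => simp [hc]
    | succ m => simp [hc, coeff_succ_X_mul]
  refine ⟨trunc (k + 1) (mk c), ?_, ?_, ?_, ?_⟩
  · rw [hser]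
    ext m
    rw [Polynomial.coeff_coe, coeff_trunc]
    split_ifs with hm
    · rfl
    · rw [coeff_mk, hc]
      show (0 : ℂ) = e m - (if m = 0 then 0 else e (m - 1))
      rw [if_neg (by omega)]
      rw [he]
      simp only
      rw [hE m (by omega), hE (m - 1) (by omega), sub_self]
  · rw [Polynomial.natDegree_le_iff_coeff_eq_zero]
    intro m hm
    rw [coeff_trunc, if_neg (by omega)]
  · rw [Polynomial.eval, eval₂_trunc_eq_sum_range]
    simp only [RingHom.id_apply, one_pow, mul_one, coeff_mk]
    have : ∀ j, ∑ i ∈ Finset.range (j + 1), c i = e j := by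
      intro j
      induction j with
      | zero => simp [hc]
      | succ j ih =>
          rw [Finset.sum_range_succ, ih, hc]
          simp
    rw [this]
    exact hE k le_rfl
  · rw [coeff_trunc, if_pos (Nat.lt_succ_self k), coeff_mk, hc]
    simp only
    rw [show e k = E from hE k le_rfl]

theorem ZetaData.large_eq (D : ZetaData q g δ h A N) (Q : ℕ) (hQ : Q = q ^ δ) (m : ℕ)
    (hm : 2 * g ≤ m) (h0 : m = 0 → δ = 1) :
    (q - 1 : ℂ) * ((A (δ * m) : ℂ) - (if m = 0 then 0 else (Q : ℂ) * A (δ * (m - 1)))) =
      (h : ℂ) * ((Q : ℂ) - 1) := by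
  have hq : ((q - 1 : ℕ) : ℂ) = (q : ℂ) - 1 := by
    rw [Nat.cast_sub D.one_lt.le, Nat.cast_one]
  cases m with
  | zero =>
      obtain rfl : g = 0 := by omega
      simp only [mul_zero, if_true, sub_zero]
      rw [D.A_zero, Nat.cast_one, mul_one]
      have hl := D.large 0 (by omega) (dvd_zero δ)
      rw [D.A_zero, Nat.sub_zero, zero_add, pow_one] at hl
      have hh : h = 1 := by
        have h1 := D.one_lt
        obtain ⟨r, rfl⟩ : ∃ r, q = r + 2 := ⟨q - 2, by omega⟩
        have : (r + 1) * 1 + h = h * (r + 2) := by simpa using hl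
        have : (r + 1) * h = (r + 1) * 1 := by linarith
        exact Nat.eq_of_mul_eq_mul_left (Nat.succ_pos r) this
      subst hh
      obtain rfl := h0 rfl
      simp [hQ]
  | succ m =>
      simp only [Nat.succ_ne_zero, if_false, Nat.add_sub_cancel]
      have hδ := D.delta_pos
      have h1 := D.large (δ * (m + 1)) (by nlinarith) (dvd_mul_right δ _)
      have hle : 2 * g ≤ δ * m + 1 := by nlinarith
      have h2 := D.large (δ * m) hle (dvd_mul_right δ _)
      have e : δ * (m + 1) + 1 - g = δ + (δ * m + 1 - g) := by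
        have : g ≤ δ * m + 1 := by omega
        rw [Nat.mul_succ]; omega
      rw [e, pow_add, ← hQ] at h1
      have c1 := congrArg (Nat.cast (R := ℂ)) h1
      have c2 := congrArg (Nat.cast (R := ℂ)) h2
      push_cast at c1 c2
      rw [hq] at c1 c2
      linear_combination c1 - (Q : ℂ) * c2

end Fermat.Agent.Curve.ZetaSeries
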