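/-
Counting effective divisors fixed by a Frobenius: the recursion with the numbers of fixed places,
and the class number formulas coming from the Riemann–Roch theorem.
-/
import Fermat.Agent.Curve.ZetaFrobenius
import Fermat.Agent.Curve.ZetaSeries
import Mathlib.Dynamics.PeriodicPts.Defs
import Mathlib.Tactic

set_option autoImplicit false

noncomputable section

namespace Fermat.Agent.Curve.ZetaFrob

open AlgebraicCurve AlgebraicCurve.SemilinearAut

variable {K F : Type*} [Field K] [Field F] [Algebra K F]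

/-- What the counting uses from the theorem of Riemann and Roch. -/
structure RRFacts (K F : Type*) [Field K] [Field F] [Algebra K F] (g : ℕ) : Prop where
  finite : ∀ D : Divisor K F, Module.Finite K (riemannRochSpace D)
  large : ∀ D : Divisor K F, 2 * (g : ℤ) - 1 ≤ Divisor.degree D →
    (Module.finrank K (riemannRochSpace D) : ℤ) = Divisor.degree D + 1 - g
  canonical : ∃ W : Divisor K F, Divisor.degree W = 2 * (g : ℤ) - 2 ∧
    Module.finrank K (riemannRochSpace W) = g ∧
    ∀ D : Divisor K F, Divisor.degree D = 2 * (g : ℤ) - 2 →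
      D - W ∉ Divisor.principal (K := K) (F := F) →
      (Module.finrank K (riemannRochSpace D) : ℤ) = (g : ℤ) - 1

variable (σ : SemilinearAut K F)

/-- The effective divisors of degree `d` fixed by `σ`. -/
def effSet (d : ℕ) : Set (Divisor K F) :=
  {E | (∀ v, 0 ≤ E v) ∧ Divisor.degree E = d ∧ σ • E = E}

/-- The places fixed by `σ ^ b`. -/
def fixSet (b : ℕ) : Set (Place K F) := {v | σ ^ b • v = v}

/-- The size of the orbit of a place. -/
def orbLen (v : Place K F) : ℕ := Function.minimalPeriod (fun w => σ • w) v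

/-- The sum of the orbit of a place. -/
def orbDiv (v : Place K F) : Divisor K F :=
  ∑ i ∈ Finset.range (orbLen σ v), Finsupp.single (σ ^ i • v) 1

variable {σ} {q : ℕ}

theorem smul_zsmul_divisor (n : ℤ) (D : Divisor K F) : σ • (n • D) = n • (σ • D) :=
  map_zsmul (DistribSMul.toAddMonoidHom (Divisor K F) σ) n D

theorem smul_iterate_eq (i : ℕ) (v : Place K F) : (fun w => σ • w)^[i] v = σ ^ i • v := by
  induction i with
  | zero => rw [Function.iterate_zero_apply, pow_zero, one_smul]
  | succ i ih => rw [Function.iterate_succ_apply', ih, pow_succ', mul_smul]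

theorem orbLen_smul_self (v : Place K F) : σ ^ orbLen σ v • v = v := by
  rw [← smul_iterate_eq]; exact Function.iterate_minimalPeriod

theorem orbLen_dvd {v : Place K F} {b : ℕ} (h : σ ^ b • v = v) : orbLen σ v ∣ b :=
  Function.IsPeriodicPt.minimalPeriod_dvd
    (show Function.IsPeriodicPt (fun w => σ • w) b v by
      rw [Function.IsPeriodicPt, Function.IsFixedPt, smul_iterate_eq]; exact h)

theorem pow_smul_eq_of_dvd {v : Place K F} {b : ℕ} (h : orbLen σ v ∣ b) : σ ^ b • v = v := by
  obtain ⟨c, rfl⟩ := h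
  exact pow_mul_smul_eq (orbLen_smul_self v) c

theorem injOn_orbit (v : Place K F) :
    Set.InjOn (fun i => σ ^ i • v) (Set.Iio (orbLen σ v)) := by
  intro a ha b hb e
  refine Function.iterate_injOn_Iio_minimalPeriod (f := fun w => σ • w) (x := v) ha hb ?_
  simp only at e ⊢
  rw [smul_iterate_eq, smul_iterate_eq]
  exact e

theorem orbDiv_nonneg (v w : Place K F) : 0 ≤ orbDiv σ v w := by
  classical
  rw [orbDiv, Finsupp.finsetSum_apply]
  exact Finset.sum_nonneg fun i _ => by rw [Finsupp.single_apply]; split_ifs <;> norm_num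

theorem apply_pow_smul {E : Divisor K F} (hE : σ • E = E) (i : ℕ) (v : Place K F) :
    E (σ ^ i • v) = E v := by
  induction i with
  | zero => rw [pow_zero, one_smul]
  | succ i ih =>
      rw [pow_succ', mul_smul, ← ih]
      conv_lhs => rw [← hE]
      rw [divisor_smul_apply_smul]

theorem orbDiv_apply_orbit (v : Place K F) {i : ℕ} (hi : i < orbLen σ v) :
    orbDiv σ v (σ ^ i • v) = 1 := by
  classical
  rw [orbDiv, Finsupp.finsetSum_apply, Finset.sum_eq_single i]
  · rw [Finsupp.single_eq_same]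
  · intro j hj hji
    rw [Finsupp.single_apply, if_neg]
    exact fun e => hji (injOn_orbit v (Finset.mem_range.1 hj) hi e)
  · intro h; exact absurd (Finset.mem_range.2 hi) h

theorem orbDiv_apply_self {v : Place K F} (hv : 0 < orbLen σ v) : orbDiv σ v v = 1 := by
  simpa using orbDiv_apply_orbit v hv

theorem orbDiv_apply_of_notMem (v w : Place K F)
    (hw : ∀ i, i < orbLen σ v → σ ^ i • v ≠ w) : orbDiv σ v w = 0 := by
  classical
  rw [orbDiv, Finsupp.finsetSum_apply]
  exact Finset.sum_eq_zero fun i hi => by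
    rw [Finsupp.single_apply, if_neg (hw i (Finset.mem_range.1 hi))]

/-- A fixed effective divisor dominates the orbits of the places where it is large. -/
theorem smul_orbDiv_le {E : Divisor K F} (hE : σ • E = E) (hpos : ∀ w, 0 ≤ E w)
    {v : Place K F} {j : ℕ} (hj : (j : ℤ) ≤ E v) (w : Place K F) :
    (j : ℤ) * orbDiv σ v w ≤ E w := by
  by_cases h : ∃ i, i < orbLen σ v ∧ σ ^ i • v = w
  · obtain ⟨i, hi, rfl⟩ := h
    rw [orbDiv_apply_orbit v hi, mul_one, apply_pow_smul hE]
    exact hj
  · push Not at h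
    rw [orbDiv_apply_of_notMem v w h, mul_zero]
    exact hpos w

theorem smul_orbDiv (v : Place K F) : σ • orbDiv σ v = orbDiv σ v := by
  rw [orbDiv, Finset.smul_sum]
  simp only [SemilinearAut.smul_single, ← mul_smul, ← pow_succ']
  have e1 := Finset.sum_range_succ' (fun i => Finsupp.single (σ ^ i • v) (1 : ℤ)) (orbLen σ v)
  rw [Finset.sum_range_succ, orbLen_smul_self, pow_zero, one_smul] at e1
  exact (add_right_cancel e1).symm

variable [IsAlgClosed K] [IsCurveOver K F]

omit σ q in
theorem degree_eq_sum (D : Divisor K F) : Divisor.degree D = D.sum fun _ n => n := by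
  induction D using Finsupp.induction with
  | zero => simp
  | single_add v n D hv _ ih =>
      rw [map_add, Divisor.degree_single, ih, IsCurveOver.deg_eq_one_of_isAlgClosed v,
        Finsupp.sum_add_index' (fun _ => rfl) (fun _ _ _ => rfl), Finsupp.sum_single_index rfl]
      simp

theorem degree_orbDiv (v : Place K F) : Divisor.degree (orbDiv σ v) = orbLen σ v := by
  rw [orbDiv, map_sum]
  simp [IsCurveOver.deg_eq_one_of_isAlgClosed]

omit σ q in
theorem le_degree {E : Divisor K F} (hpos : ∀ w, 0 ≤ E w) (v : Place K F) :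
    E v ≤ Divisor.degree E := by
  rw [degree_eq_sum, Finsupp.sum]
  by_cases hv : v ∈ E.support
  · exact Finset.single_le_sum (fun w _ => hpos w) hv
  · rw [Finsupp.notMem_support_iff.1 hv]
    exact Finset.sum_nonneg fun w _ => hpos w

theorem IsFrob.orbLen_pos (h : IsFrob σ q) (v : Place K F) : 0 < orbLen σ v := by
  obtain ⟨n, hn, e⟩ := h.periodic_place v
  exact Function.minimalPeriod_pos_iff_mem_periodicPts.2
    ⟨n, hn, by rw [Function.IsPeriodicPt, Function.IsFixedPt, smul_iterate_eq]; exact e⟩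

theorem IsFrob.finite_fixSet (h : IsFrob σ q) {b : ℕ} (hb : 0 < b) : (fixSet σ b).Finite :=
  (h.pow hb).finite_fixed_places

theorem mul_orbLen_le {E : Divisor K F} {d j : ℕ} (hE : E ∈ effSet σ d) {v : Place K F}
    (hj : (j : ℤ) ≤ E v) : j * orbLen σ v ≤ d := by
  have h0 : ∀ w, 0 ≤ (E - (j : ℤ) • orbDiv σ v) w := fun w => by
    rw [Finsupp.sub_apply, Finsupp.smul_apply, smul_eq_mul]
    linarith [smul_orbDiv_le hE.2.2 hE.1 hj w]
  have := (Finsupp.sum (E - (j : ℤ) • orbDiv σ v) fun _ n => n)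
  have hd : 0 ≤ Divisor.degree (E - (j : ℤ) • orbDiv σ v) := by
    rw [degree_eq_sum]; exact Finset.sum_nonneg fun w _ => h0 w
  rw [map_sub, map_zsmul, degree_orbDiv, hE.2.1, smul_eq_mul] at hd
  omega

theorem IsFrob.finite_effSet (h : IsFrob σ q) (d : ℕ) : (effSet σ d).Finite := by
  classical
  set B := (h.finite_fixSet (b := d.factorial) (Nat.factorial_pos d)).toFinset with hB
  have := Finset.finite_toSet (B.pi fun _ => Finset.Icc (0 : ℤ) d)
  refine Set.Finite.of_injOn (f := fun E => fun v (_ : v ∈ B) => E v)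
    (t := ↑(B.pi fun _ => Finset.Icc (0 : ℤ) d)) ?_ ?_ this
  · intro E hE
    rw [Finset.mem_coe, Finset.mem_pi]
    intro v _
    exact Finset.mem_Icc.2 ⟨hE.1 v, hE.2.1 ▸ le_degree hE.1 v⟩
  · intro E hE E' hE' e
    ext v
    by_cases hv : v ∈ B
    · exact congrFun (congrFun e v) hv
    · have key : ∀ D ∈ effSet σ d, D v = 0 := fun D hD => by
        by_contra hne
        refine hv ?_
        rw [hB, Set.Finite.mem_toFinset]
        have h1 : (1 : ℕ) ≤ (D v).toNat := by have := hD.1 v; omega
        have := mul_orbLen_le hD (j := 1) (v := v) (by omega)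
        exact pow_smul_eq_of_dvd (Nat.dvd_factorial (h.orbLen_pos v) (by omega))
      rw [key E hE, key E' hE']

theorem IsFrob.finite_effSubtype (h : IsFrob σ q) (d : ℕ) : Finite (effSet σ d) :=
  (h.finite_effSet d).to_subtype

/-- `d A_d = ∑ A_(d-b) N_b`. -/
theorem IsFrob.recursion (h : IsFrob σ q) (d : ℕ) :
    d * (effSet σ d).ncard = ∑ x ∈ Finset.antidiagonal d,
      if x.2 = 0 then 0 else (effSet σ x.1).ncard * (fixSet σ x.2).ncard := by
  classical
  set Ef : ℕ → Finset (Divisor K F) := fun n => (h.finite_effSet n).toFinset with hEf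
  set Fx : ℕ → Finset (Place K F) := fun b =>
    if hb : 0 < b then (h.finite_fixSet hb).toFinset else ∅ with hFx
  have hA : ∀ n, (effSet σ n).ncard = (Ef n).card := fun n =>
    Set.ncard_eq_toFinset_card _ (h.finite_effSet n)
  set L := (Ef d).sigma fun E => E.support.sigma fun v => Finset.Icc 1 (E v).toNat with hL
  set R := ((Finset.antidiagonal d).filter fun x : ℕ × ℕ => x.2 ≠ 0).sigma
    fun x => Ef x.1 ×ˢ Fx x.2 with hR
  have hLc : L.card = d * (effSet σ d).ncard := by
    rw [hL, Finset.card_sigma, hA, mul_comm, ← smul_eq_mul, ← Finset.sum_const]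
    refine Finset.sum_congr rfl fun E hE => ?_
    rw [hEf, Set.Finite.mem_toFinset] at hE
    rw [Finset.card_sigma]
    have := hE.2.1
    rw [degree_eq_sum, Finsupp.sum] at this
    zify
    rw [← this]
    refine Finset.sum_congr rfl fun v _ => ?_
    have := hE.1 v
    rw [Nat.card_Icc]
    omega
  have hRc : R.card = ∑ x ∈ Finset.antidiagonal d,
      if x.2 = 0 then 0 else (effSet σ x.1).ncard * (fixSet σ x.2).ncard := by
    rw [hR, Finset.card_sigma, Finset.sum_filter]
    refine Finset.sum_congr rfl fun x _ => ?_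
    by_cases hx : x.2 = 0
    · simp [hx]
    · rw [if_pos hx, if_neg hx, Finset.card_product, hA, hFx]
      simp only [dif_pos (Nat.pos_of_ne_zero hx)]
      rw [Set.ncard_eq_toFinset_card _ (h.finite_fixSet (Nat.pos_of_ne_zero hx))]
  rw [← hLc, ← hRc]
  refine Finset.card_nbij'
    (i := fun z => ⟨(d - z.2.2 * orbLen σ z.2.1, z.2.2 * orbLen σ z.2.1),
      (z.1 - (z.2.2 : ℤ) • orbDiv σ z.2.1, z.2.1)⟩)
    (j := fun z => ⟨z.2.1 + ((z.1.2 / orbLen σ z.2.2 : ℕ) : ℤ) • orbDiv σ z.2.2,
      z.2.2, z.1.2 / orbLen σ z.2.2⟩) ?_ ?_ ?_ ?_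
  · rintro ⟨E, v, j⟩ hz
    simp only [hL, hEf, Finset.mem_coe, Finset.mem_sigma, Set.Finite.mem_toFinset,
      Finset.mem_Icc] at hz
    obtain ⟨hE, hv, hj1, hj2⟩ := hz
    have hj : (j : ℤ) ≤ E v := by have := hE.1 v; omega
    have hle := mul_orbLen_le hE hj
    have he := h.orbLen_pos v
    have hpos : 0 < j * orbLen σ v := Nat.mul_pos (by omega) he
    simp only [hR, hEf, hFx, Finset.mem_coe, Finset.mem_sigma, Finset.mem_filter,
      Finset.HasAntidiagonal.mem_antidiagonal, Finset.mem_product, Set.Finite.mem_toFinset,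
      dif_pos hpos]
    refine ⟨⟨by omega, hpos.ne'⟩, ⟨fun w => ?_, ?_, ?_⟩, pow_smul_eq_of_dvd (dvd_mul_left _ _)⟩
    · rw [Finsupp.sub_apply, Finsupp.smul_apply, smul_eq_mul]
      linarith [smul_orbDiv_le hE.2.2 hE.1 hj w]
    · rw [map_sub, map_zsmul, degree_orbDiv, hE.2.1, smul_eq_mul, Nat.cast_sub hle]
      push_cast; rfl
    · rw [smul_sub, hE.2.2, smul_zsmul_divisor, smul_orbDiv]
  · rintro ⟨⟨a, b⟩, E', v⟩ hz
    simp only [hR, Finset.mem_coe, Finset.mem_sigma, Finset.mem_filter,
      Finset.HasAntidiagonal.mem_antidiagonal, Finset.mem_product] at hz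
    obtain ⟨⟨hab, hb⟩, hE', hv⟩ := hz
    simp only [hFx, dif_pos (Nat.pos_of_ne_zero hb), Set.Finite.mem_toFinset] at hv
    simp only [hEf, Set.Finite.mem_toFinset] at hE'
    obtain ⟨c, rfl⟩ := orbLen_dvd hv
    have he := h.orbLen_pos v
    simp only [Nat.mul_div_cancel_left c he]
    have hc : 0 < c := Nat.pos_of_ne_zero fun e => hb (by rw [e, mul_zero])
    simp only [hL, hEf, Finset.mem_coe, Finset.mem_sigma, Set.Finite.mem_toFinset,
      Finset.mem_Icc, Finsupp.mem_support_iff]
    have hval : ((E' + (c : ℤ) • orbDiv σ v) v) = E' v + c := by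
      rw [Finsupp.add_apply, Finsupp.smul_apply, orbDiv_apply_self he, smul_eq_mul, mul_one]
    have := hE'.1 v
    refine ⟨⟨fun w => ?_, ?_, ?_⟩, ?_, hc, ?_⟩
    · rw [Finsupp.add_apply, Finsupp.smul_apply, smul_eq_mul]
      exact add_nonneg (hE'.1 w) (mul_nonneg (Int.natCast_nonneg c) (orbDiv_nonneg v w))
    · rw [map_add, map_zsmul, degree_orbDiv, hE'.2.1, smul_eq_mul, ← hab]
      push_cast; ring
    · rw [smul_add, hE'.2.2, smul_zsmul_divisor, smul_orbDiv]
    · rw [hval]; omega
    · rw [hval]; omega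
  · rintro ⟨E, v, j⟩ hz
    have he := h.orbLen_pos v
    simp only [Nat.mul_div_cancel _ he, sub_add_cancel]
  · rintro ⟨⟨a, b⟩, E', v⟩ hz
    simp only [hR, Finset.mem_coe, Finset.mem_sigma, Finset.mem_filter,
      Finset.HasAntidiagonal.mem_antidiagonal, Finset.mem_product] at hz
    obtain ⟨⟨hab, hb⟩, -, hv⟩ := hz
    simp only [hFx, dif_pos (Nat.pos_of_ne_zero hb), Set.Finite.mem_toFinset] at hv
    obtain ⟨c, rfl⟩ := orbLen_dvd hv
    simp only [Nat.mul_div_cancel_left c (h.orbLen_pos v), add_sub_cancel_right]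
    rw [mul_comm c, show d - orbLen σ v * c = a by omega]

end Fermat.Agent.Curve.ZetaFrob
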