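/-
Classes fixed by a Frobenius: invariant representatives, the number of effective divisors in a
class, and the counting data of the zeta function.
-/
import Fermat.Agent.Curve.ZetaCount
import Mathlib.RingTheory.Algebraic.Basic

set_option autoImplicit false

noncomputable section

namespace Fermat.Agent.Curve.ZetaFrob

open AlgebraicCurve AlgebraicCurve.SemilinearAut

variable {K F : Type*} [Field K] [Field F] [Algebra K F] {σ : SemilinearAut K F} {q g : ℕ}

theorem apply_eq_of_smul_self {D : Divisor K F} (h : σ • D = D) (v : Place K F) :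
    D (σ • v) = D v := by
  conv_lhs => rw [← h]
  rw [divisor_smul_apply_smul]

theorem pow_smul_divisor {D : Divisor K F} (h : σ • D = D) (n : ℕ) : σ ^ n • D = D :=
  pow_smul_eq_self h n

theorem smul_mem_riemannRochSpace {D : Divisor K F} {f : F} (hf : f ∈ riemannRochSpace D) :
    σ • f ∈ riemannRochSpace (σ • D) := by
  rw [mem_riemannRochSpace_iff] at hf ⊢
  intro w
  rcases hf (σ⁻¹ • w) with h | h
  · exact Or.inl (by rw [h, smul_zero])
  · refine Or.inr ?_
    have e := SemilinearAut.ord_smul σ (σ⁻¹ • w) f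
    rw [smul_inv_smul] at e
    rw [e, divisor_smul_apply]
    exact h

theorem finrank_riemannRochSpace_smul (D : Divisor K F) :
    Module.finrank K (riemannRochSpace (σ • D)) = Module.finrank K (riemannRochSpace D) := by
  set e : riemannRochSpace D ≃+ riemannRochSpace (σ • D) :=
    { toFun := fun f => ⟨σ • (f : F), smul_mem_riemannRochSpace f.2⟩
      invFun := fun f => ⟨σ⁻¹ • (f : F), by
        simpa using smul_mem_riemannRochSpace (σ := σ⁻¹) f.2⟩
      left_inv := fun f => Subtype.ext (inv_smul_smul σ (f : F))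
      right_inv := fun f => Subtype.ext (smul_inv_smul σ (f : F))
      map_add' := fun a b => Subtype.ext (smul_add σ (a : F) b) }
  have h := rank_eq_of_equiv_equiv (baseAut σ) e (RingEquiv.bijective _)
    (fun r m => Subtype.ext (by
      show σ • (r • (m : F)) = baseAut σ r • (σ • (m : F))
      rw [Algebra.smul_def, Algebra.smul_def, smul_mul', SemilinearAut.smul_algebraMap]))
  exact (congrArg Cardinal.toNat h).symm

variable [IsAlgClosed K] [IsCurveOver K F]

/-- The divisor of a non-zero function. -/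
def divisorFun {f : F} (hf : f ≠ 0) : Divisor K F :=
  (HasPrincipalDivisors.exists_divisor (K := K) f hf).choose

omit [IsAlgClosed K] in
theorem divisorFun_apply {f : F} (hf : f ≠ 0) (v : Place K F) :
    divisorFun (K := K) hf v = v.ord f :=
  (HasPrincipalDivisors.exists_divisor (K := K) f hf).choose_spec.1 v

omit [IsAlgClosed K] in
theorem degree_divisorFun {f : F} (hf : f ≠ 0) : Divisor.degree (divisorFun (K := K) hf) = 0 :=
  (HasPrincipalDivisors.exists_divisor (K := K) f hf).choose_spec.2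

omit [IsAlgClosed K] in
theorem degree_eq_zero_of_principal {P : Divisor K F}
    (hP : P ∈ Divisor.principal (K := K) (F := F)) : Divisor.degree P = 0 := by
  obtain ⟨f, hf, h⟩ := hP
  rw [show P = divisorFun hf from Finsupp.ext fun v => by rw [h, divisorFun_apply]]
  exact degree_divisorFun hf

omit [IsAlgClosed K] in
theorem divisorFun_mem {f : F} (hf : f ≠ 0) :
    divisorFun (K := K) hf ∈ Divisor.principal (K := K) (F := F) :=
  ⟨f, hf, divisorFun_apply hf⟩

omit σ q in
/-- Functions with trivial divisor are constants. -/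
theorem exists_const_of_ord_eq_zero (R : RRFacts K F g) {u : F} (hu : ∀ v : Place K F, v.ord u = 0) :
    ∃ c : K, u = algebraMap K F c := by
  by_contra hcon
  have ht : Transcendental K u := fun halg => by
    have hirr := minpoly.irreducible halg.isIntegral
    have hdeg := IsAlgClosed.degree_eq_one_of_irreducible K hirr
    obtain ⟨c, hc⟩ := minpoly.degree_eq_one_iff.1 hdeg
    exact hcon ⟨c, hc.symm⟩
  have := R.finite 0
  have hmem : ∀ n : ℕ, u ^ n ∈ riemannRochSpace (0 : Divisor K F) := fun n => by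
    rw [mem_riemannRochSpace_iff]
    intro v
    right
    rw [ord_pow, hu v, mul_zero, Finsupp.zero_apply, neg_zero]
  have hli : LinearIndependent K fun n : ℕ => u ^ n := by
    rw [linearIndependent_iff]
    intro l hl
    have hinj := transcendental_iff_injective.1 ht
    have : Polynomial.ofFinsupp (AddMonoidAlgebra.ofCoeff l) = (0 : Polynomial K) := by
      apply hinj
      rw [map_zero, ← hl]
      simp [Polynomial.aeval_def, Polynomial.eval₂_eq_sum, Polynomial.sum_def,
        Finsupp.linearCombination_apply, Finsupp.sum, Algebra.smul_def, Polynomial.support,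
        Polynomial.coeff]
    simpa using this
  have h2 : LinearIndependent K fun n : ℕ => (⟨u ^ n, hmem n⟩ : riemannRochSpace (0 : Divisor K F)) :=
    LinearIndependent.of_comp (Submodule.subtype _) hli
  exact h2.finite.false

omit σ q in
theorem exists_nonempty_place (R : RRFacts K F g) (hF : ∃ x : F, Transcendental K x) :
    Nonempty (Place K F) := by
  by_contra hcon
  obtain ⟨x, hx⟩ := hF
  obtain ⟨c, hc⟩ := exists_const_of_ord_eq_zero R (u := x) fun v => (hcon ⟨v⟩).elim
  exact hx (hc ▸ isAlgebraic_algebraMap c)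

theorem IsFrob.exists_period_divisor (h : IsFrob σ q) (D : Divisor K F) :
    ∃ N, 0 < N ∧ σ ^ N • D = D := by
  induction D using Finsupp.induction with
  | zero => exact ⟨1, one_pos, smul_zero _⟩
  | single_add v n D _ _ ih =>
      obtain ⟨N, hN, e⟩ := ih
      refine ⟨orbLen σ v * N, Nat.mul_pos (h.orbLen_pos v) hN, ?_⟩
      rw [smul_add, SemilinearAut.smul_single, pow_mul_smul_eq (orbLen_smul_self v),
        mul_comm, pow_mul_smul_eq e]

theorem exists_pow_eq_of_alg (c : K) {n : ℕ} (hn : 0 < n) : ∃ a : K, a ^ n = c :=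
  IsAlgClosed.exists_pow_nat_eq c hn

/-- A fixed class has a fixed divisor in it. -/
theorem IsFrob.exists_fixed_rep (h : IsFrob σ q) (R : RRFacts K F g) (D : Divisor K F)
    (hD : σ • D - D ∈ Divisor.principal (K := K) (F := F)) :
    ∃ D' : Divisor K F, D' - D ∈ Divisor.principal (K := K) (F := F) ∧ σ • D' = D' := by
  obtain ⟨f, hf, hfD⟩ := hD
  obtain ⟨N, hN, hND⟩ := h.exists_period_divisor D
  set P := ∏ i ∈ Finset.range N, σ ^ i • f with hP
  have hP0 : P ≠ 0 := Finset.prod_ne_zero_iff.2 fun i _ => smul_ne_zero_iff_ne (σ ^ i) |>.2 hf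
  have hordP : ∀ v : Place K F, v.ord P = 0 := by
    intro v
    rw [hP, ord_prod v _ fun i _ => smul_ne_zero_iff_ne (σ ^ i) |>.2 hf]
    have e : ∀ i, v.ord (σ ^ i • f) = (σ ^ (i + 1) • D) v - (σ ^ i • D) v := by
      intro i
      have := SemilinearAut.ord_smul (σ ^ i) ((σ ^ i)⁻¹ • v) f
      rw [smul_inv_smul] at this
      rw [this, ← hfD, Finsupp.sub_apply, pow_succ, mul_smul, divisor_smul_apply (σ ^ i) (σ • D),
        divisor_smul_apply (σ ^ i) D]
    rw [Finset.sum_congr rfl fun i _ => e i, Finset.sum_range_sub fun i => (σ ^ i • D) v, hND,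
      pow_zero, one_smul, sub_self]
  obtain ⟨c, hc⟩ := exists_const_of_ord_eq_zero R hordP
  have hc0 : c ≠ 0 := fun e => hP0 (by rw [hc, e, map_zero])
  obtain ⟨a, ha⟩ := exists_pow_eq_of_alg c⁻¹ (n := ∑ i ∈ Finset.range N, q ^ i)
    (Finset.sum_pos (fun i _ => pow_pos (Nat.zero_lt_of_lt h.one_lt) i) ⟨0, by simpa using hN⟩)
  have ha0 : a ≠ 0 := by
    rintro rfl
    rw [zero_pow] at ha
    · exact inv_ne_zero hc0 ha.symm
    · exact (Finset.sum_pos (fun i _ => pow_pos (Nat.zero_lt_of_lt h.one_lt) i)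
        ⟨0, by simpa using hN⟩).ne'
  obtain ⟨u, hu, hσu⟩ := h.exists_smul_eq_div (f := algebraMap K F a * f) hN (by
    simp only [smul_mul', h.pow_smul_algebraMap, Finset.prod_mul_distrib]
    rw [← map_prod, Finset.prod_pow_eq_pow_sum, ha, ← hP, hc, ← map_mul, inv_mul_cancel₀ hc0,
      map_one])
  refine ⟨D + divisorFun hu, by rw [add_sub_cancel_left]; exact divisorFun_mem hu, ?_⟩
  ext v
  have e1 := SemilinearAut.ord_smul σ (σ⁻¹ • v) u
  rw [smul_inv_smul, hσu, ord_div v hu (mul_ne_zero ((map_ne_zero _).2 ha0) hf),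
    v.ord_mul ((map_ne_zero _).2 ha0) hf, ord_algebraMap] at e1
  rw [smul_add, Finsupp.add_apply, Finsupp.add_apply, divisor_smul_apply σ (divisorFun hu),
    divisorFun_apply, divisorFun_apply, ← e1]
  have := hfD v
  rw [Finsupp.sub_apply] at this
  linarith

/-- The effective fixed divisors in the class of a fixed divisor. -/
def classFibre (σ : SemilinearAut K F) (D : Divisor K F) (d : ℕ) : Set (Divisor K F) :=
  {E | E ∈ effSet σ d ∧ E - D ∈ Divisor.principal (K := K) (F := F)}

theorem IsFrob.natCard_classFibre (h : IsFrob σ q) (R : RRFacts K F g) {D : Divisor K F}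
    (hD : σ • D = D) {d : ℕ} (hd : Divisor.degree D = d) :
    (q - 1) * Nat.card (classFibre σ D d) + 1 =
      q ^ Module.finrank K (riemannRochSpace D) := by
  classical
  set V := riemannRochSpace D with hV
  have : Module.Finite K V := R.finite D
  have hstab : ∀ f ∈ V, σ • f ∈ V := fun f hf => by
    have := smul_mem_riemannRochSpace (σ := σ) hf
    rwa [hD] at this
  set W := {f : F // f ∈ V ∧ σ • f = f} with hW
  have hWcard : Nat.card W = q ^ Module.finrank K V := h.natCard_fixed V hstab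
  have : Finite W := Nat.finite_of_card_ne_zero
    (by rw [hWcard]; exact pow_ne_zero _ (Nat.ne_zero_of_lt h.one_lt))
  set C := {c : K // c ^ q = c} with hC
  have : Finite C := h.finite_const
  have := h.finite_effSubtype d
  have : Finite (classFibre σ D d) :=
    Finite.of_injective (fun E => (⟨E.1, E.2.1⟩ : effSet σ d))
      fun a b e => Subtype.ext (congrArg Subtype.val e : (_ : Divisor K F) = _)
  -- a fixed function for each effective divisor in the class
  have hsec : ∀ E : classFibre σ D d, ∃ f : F, f ≠ 0 ∧ σ • f = f ∧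
      ∀ v : Place K F, v.ord f = E.1 v - D v := by
    rintro ⟨E, hE, f, hf, hfE⟩
    have hord : ∀ v : Place K F, v.ord (σ • f / f) = 0 := fun v => by
      have e := SemilinearAut.ord_smul σ (σ⁻¹ • v) f
      rw [smul_inv_smul, ← hfE, Finsupp.sub_apply] at e
      rw [ord_div v ((smul_ne_zero_iff_ne σ).2 hf) hf, e, ← hfE, Finsupp.sub_apply,
        ← apply_eq_of_smul_self hE.2.2 (σ⁻¹ • v), ← apply_eq_of_smul_self hD (σ⁻¹ • v),
        smul_inv_smul, sub_self]
    obtain ⟨c, hc⟩ := exists_const_of_ord_eq_zero R hord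
    have hc0 : c ≠ 0 := by
      rintro rfl
      rw [map_zero, div_eq_zero_iff] at hc
      exact hc.elim ((smul_ne_zero_iff_ne σ).2 hf) hf
    have h1 : q - 1 ≠ 0 := by have := h.one_lt; omega
    obtain ⟨a, ha⟩ := exists_pow_eq_of_alg c⁻¹ (Nat.pos_of_ne_zero h1)
    have ha0 : a ≠ 0 := fun e => by
      rw [e, zero_pow h1] at ha; exact inv_ne_zero hc0 ha.symm
    refine ⟨algebraMap K F a * f, mul_ne_zero ((map_ne_zero _).2 ha0) hf, ?_, fun v => ?_⟩
    · rw [smul_mul', h.smul_algebraMap', (div_eq_iff hf).1 hc, ← mul_assoc, ← map_mul]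
      congr 2
      rw [show a ^ q = a ^ (q - 1) * a by rw [← pow_succ]; congr 1; omega, ha]
      field_simp
    · rw [v.ord_mul ((map_ne_zero _).2 ha0) hf, ord_algebraMap, zero_add, ← hfE,
        Finsupp.sub_apply]
  choose s hs0 hsfix hsord using hsec
  set zeroW : W := ⟨0, V.zero_mem, smul_zero _⟩
  set zeroC : C := ⟨0, zero_pow (Nat.ne_zero_of_lt h.one_lt)⟩
  have hbij : Nat.card ({c : C // c ≠ zeroC} × classFibre σ D d) =
      Nat.card {f : W // f ≠ zeroW} := by
    refine Nat.card_congr (Equiv.ofBijective (fun p => ⟨⟨algebraMap K F p.1.1.1 * s p.2,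
      ?_, ?_⟩, ?_⟩) ⟨?_, ?_⟩)
    · rw [hV, mem_riemannRochSpace_iff]
      intro v
      right
      have hc : p.1.1.1 ≠ 0 := fun e => p.1.2 (Subtype.ext e)
      rw [v.ord_mul ((map_ne_zero _).2 hc) (hs0 _), ord_algebraMap, hsord, zero_add]
      linarith [p.2.2.1.1 v]
    · rw [smul_mul', h.smul_algebraMap', p.1.1.2, hsfix]
    · intro e
      exact mul_ne_zero ((map_ne_zero _).2 fun e' => p.1.2 (Subtype.ext e')) (hs0 _)
        (congrArg Subtype.val e)
    · rintro ⟨⟨⟨c, hc⟩, hcne⟩, E⟩ ⟨⟨⟨c', hc'⟩, hcne'⟩, E'⟩ e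
      have e' : algebraMap K F c * s E = algebraMap K F c' * s E' :=
        congrArg (fun z : {f : W // f ≠ zeroW} => z.1.1) e
      have hc0 : c ≠ 0 := fun e0 => hcne (Subtype.ext e0)
      have hc0' : c' ≠ 0 := fun e0 => hcne' (Subtype.ext e0)
      have hE : E = E' := by
        apply Subtype.ext
        ext v
        have e2 := congrArg v.ord e'
        rw [v.ord_mul ((map_ne_zero _).2 hc0) (hs0 _), v.ord_mul ((map_ne_zero _).2 hc0') (hs0 _),
          ord_algebraMap, ord_algebraMap, hsord, hsord] at e2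
        linarith
      subst hE
      have := (algebraMap K F).injective (mul_right_cancel₀ (hs0 E) e')
      subst this
      rfl
    · rintro ⟨⟨f, hfV, hffix⟩, hfne⟩
      have hf : f ≠ 0 := fun e => hfne (Subtype.ext e)
      set E := D + divisorFun hf with hEdef
      have hEv : ∀ v : Place K F, E v = D v + v.ord f := fun v => by
        rw [hEdef, Finsupp.add_apply, divisorFun_apply]
      have hE : E ∈ classFibre σ D d := by
        refine ⟨⟨fun v => ?_, ?_, ?_⟩, ?_⟩
        · rw [hEv]
          rcases (mem_riemannRochSpace_iff.1 hfV v) with h0 | h0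
          · exact absurd h0 hf
          · linarith
        · rw [hEdef, map_add, degree_divisorFun, hd, add_zero]
        · ext v
          have e := SemilinearAut.ord_smul σ (σ⁻¹ • v) f
          rw [smul_inv_smul, hffix] at e
          rw [divisor_smul_apply, hEv, hEv, ← e, ← apply_eq_of_smul_self hD (σ⁻¹ • v),
            smul_inv_smul]
        · rw [hEdef, add_sub_cancel_left]; exact divisorFun_mem hf
      have hord : ∀ v : Place K F, v.ord (f / s ⟨E, hE⟩) = 0 := fun v => by
        rw [ord_div v hf (hs0 _), hsord, hEv]; ring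
      obtain ⟨c, hc⟩ := exists_const_of_ord_eq_zero R hord
      rw [div_eq_iff (hs0 _)] at hc
      have hcq : c ^ q = c := by
        have e : σ • f = f := hffix
        rw [hc, smul_mul', h.smul_algebraMap', hsfix] at e
        exact (algebraMap K F).injective (mul_right_cancel₀ (hs0 _) e)
      have hcne : (⟨c, hcq⟩ : C) ≠ zeroC := fun e => hf (by
        have : c = 0 := congrArg Subtype.val e
        rw [hc, this, map_zero, zero_mul])
      exact ⟨(⟨⟨c, hcq⟩, hcne⟩, ⟨E, hE⟩), Subtype.ext (Subtype.ext hc.symm)⟩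
  have hC1 : Nat.card {c : C // c ≠ zeroC} = q - 1 := by
    have := Fintype.ofFinite C
    rw [Nat.card_eq_fintype_card, Fintype.card_subtype_compl, Fintype.card_subtype_eq,
      ← Nat.card_eq_fintype_card]
    exact congrArg (· - 1) h.natCard_const
  have hW1 : Nat.card {f : W // f ≠ zeroW} + 1 = q ^ Module.finrank K V := by
    have := Fintype.ofFinite W
    rw [Nat.card_eq_fintype_card, Fintype.card_subtype_compl, Fintype.card_subtype_eq,
      ← hWcard, Nat.card_eq_fintype_card]
    have : 0 < Fintype.card W := Fintype.card_pos_iff.2 ⟨zeroW⟩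
    omega
  rw [Nat.card_prod, hC1] at hbij
  rw [hbij, hW1]

/-- The classes of degree zero fixed by `σ`. -/
def fixClass (σ : SemilinearAut K F) : Set (Pic0 K F) := {x | σ • x = x}

omit [IsAlgClosed K] [IsCurveOver K F] σ q g in
theorem mk_eq_iff {a b : Divisor.degZero (K := K) (F := F)} :
    Pic0.mk a = Pic0.mk b ↔
      (a : Divisor K F) - b ∈ Divisor.principal (K := K) (F := F) := by
  refine (QuotientAddGroup.eq_iff_sub_mem).trans ?_
  rw [AddSubgroup.mem_addSubgroupOf, AddSubgroupClass.coe_sub]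

omit [IsAlgClosed K] [IsCurveOver K F] in
theorem zero_mem_fixClass : (0 : Pic0 K F) ∈ fixClass σ := smul_zero (A := Pic0 K F) σ

theorem IsFrob.exists_rep (h : IsFrob σ q) (R : RRFacts K F g) {x : Pic0 K F}
    (hx : x ∈ fixClass σ) :
    ∃ D : Divisor K F, ∃ hD : Divisor.degree D = 0,
      σ • D = D ∧ Pic0.mk ⟨D, hD⟩ = x := by
  obtain ⟨⟨D, hD⟩, rfl⟩ := Pic0.mk_surjective x
  rw [fixClass, Set.mem_ofPred_eq, pic0_smul_mk, mk_eq_iff] at hx
  obtain ⟨D', h1, h2⟩ := h.exists_fixed_rep R D (by simpa using hx)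
  have hdeg : Divisor.degree D' = 0 := by
    have := degree_eq_zero_of_principal h1
    rwa [map_sub, Divisor.mem_degZero.1 hD, sub_zero] at this
  exact ⟨D', hdeg, h2, mk_eq_iff.2 h1⟩

theorem IsFrob.exists_delta (h : IsFrob σ q) (R : RRFacts K F g) :
    ∃ δ : ℕ, 0 < δ ∧ (∃ D : Divisor K F, σ • D = D ∧ Divisor.degree D = δ) ∧
      ∀ D : Divisor K F, σ • D = D → (δ : ℤ) ∣ Divisor.degree D := by
  classical
  obtain ⟨x, hx, -⟩ := h.exists_fixed
  obtain ⟨v⟩ := exists_nonempty_place R ⟨x, hx⟩
  have hex : ∃ n : ℕ, 0 < n ∧ ∃ D : Divisor K F, σ • D = D ∧ Divisor.degree D = n :=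
    ⟨orbLen σ v, h.orbLen_pos v, orbDiv σ v, smul_orbDiv v, degree_orbDiv v⟩
  obtain ⟨hpos, D₁, hD₁, hdeg₁⟩ := Nat.find_spec hex
  refine ⟨Nat.find hex, hpos, ⟨D₁, hD₁, hdeg₁⟩, fun D hD => ?_⟩
  set δ := Nat.find hex with hδ
  by_contra hnd
  have hr : Divisor.degree (D - (Divisor.degree D / (δ : ℤ)) • D₁) = Divisor.degree D % δ := by
    rw [map_sub, map_zsmul, hdeg₁, smul_eq_mul, Int.emod_def]; ring
  have h0 := Int.emod_nonneg (Divisor.degree D) (show (δ : ℤ) ≠ 0 by omega)
  have h1 := Int.emod_lt_of_pos (Divisor.degree D) (show (0 : ℤ) < δ by omega)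
  have h2 : Divisor.degree D % δ ≠ 0 := fun e => hnd (Int.dvd_of_emod_eq_zero e)
  refine Nat.find_min hex (m := (Divisor.degree D % (δ : ℤ)).toNat) (by omega) ⟨by omega,
    D - (Divisor.degree D / (δ : ℤ)) • D₁, ?_, by rw [hr, Int.toNat_of_nonneg h0]⟩
  rw [smul_sub, hD, smul_zsmul_divisor, hD₁]

variable (σ) in
/-- The fibre of effective divisors over a fixed class, shifted by a fixed divisor. -/
def shiftFibre (D₀ : Divisor K F) (d : ℕ) (x : Pic0 K F) : Set (Divisor K F) :=
  {E | E ∈ effSet σ d ∧ ∃ hd : Divisor.degree (E - D₀) = 0, Pic0.mk ⟨E - D₀, hd⟩ = x}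

theorem IsFrob.natCard_shiftFibre (h : IsFrob σ q) (R : RRFacts K F g) {D₀ : Divisor K F}
    {d : ℕ} (hD₀ : σ • D₀ = D₀) (hd : Divisor.degree D₀ = d) {D : Divisor K F}
    (hD : Divisor.degree D = 0) (hDfix : σ • D = D) :
    (q - 1) * Nat.card (shiftFibre σ D₀ d (Pic0.mk ⟨D, hD⟩)) + 1 =
      q ^ Module.finrank K (riemannRochSpace (D + D₀)) := by
  rw [← h.natCard_classFibre R (D := D + D₀) (by rw [smul_add, hDfix, hD₀])
    (by rw [map_add, hD, hd, zero_add] : Divisor.degree (D + D₀) = d)]
  congr 2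
  refine Nat.card_congr (Equiv.subtypeEquivRight fun E => ?_)
  simp only [shiftFibre, classFibre, Set.mem_ofPred_eq]
  constructor
  · rintro ⟨hE, hdeg, e⟩
    refine ⟨hE, ?_⟩
    rw [mk_eq_iff] at e
    rwa [show E - (D + D₀) = E - D₀ - D by abel]
  · rintro ⟨hE, e⟩
    refine ⟨hE, by rw [map_sub, hE.2.1, hd, sub_self], ?_⟩
    rw [mk_eq_iff]
    rwa [show E - D₀ - D = E - (D + D₀) by abel]

theorem IsFrob.sum_shiftFibre (h : IsFrob σ q) {D₀ : Divisor K F} {d : ℕ}
    (hD₀ : σ • D₀ = D₀) (hd : Divisor.degree D₀ = d) [Fintype (fixClass σ)] :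
    (effSet σ d).ncard = ∑ x : fixClass σ, Nat.card (shiftFibre σ D₀ d x.1) := by
  classical
  have := h.finite_effSubtype d
  have : ∀ x : fixClass σ, Finite (shiftFibre σ D₀ d x.1) := fun x =>
    Finite.of_injective (fun E => (⟨E.1, E.2.1⟩ : effSet σ d))
      fun a b e => Subtype.ext (congrArg Subtype.val e : (_ : Divisor K F) = _)
  rw [← Nat.card_sigma, ← Nat.card_coe_set_eq]
  have hdeg : ∀ E : effSet σ d, Divisor.degree (E.1 - D₀) = 0 := fun E => by
    rw [map_sub, E.2.2.1, hd, sub_self]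
  refine Nat.card_congr
    { toFun := fun E => ⟨⟨Pic0.mk ⟨E.1 - D₀, hdeg E⟩, ?_⟩, ⟨E.1, E.2, hdeg E, rfl⟩⟩
      invFun := fun z => ⟨z.2.1, z.2.2.1⟩
      left_inv := fun E => rfl
      right_inv := ?_ }
  · show σ • _ = _
    rw [pic0_smul_mk]
    congr 1
    exact Subtype.ext (by rw [coe_degZeroSMulHom, smul_sub, E.2.2.2, hD₀])
  · rintro ⟨⟨x, hx⟩, E, hE, hd', e⟩
    dsimp only at e
    subst e
    rfl

theorem IsFrob.finite_fixClass (h : IsFrob σ q) (R : RRFacts K F g) :
    Finite (fixClass σ) := by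
  classical
  obtain ⟨δ, hδ, ⟨D₁, hD₁, hdeg₁⟩, -⟩ := h.exists_delta R
  set d := δ * (2 * g + 1) with hd
  set D₀ := ((2 * g + 1 : ℕ) : ℤ) • D₁ with hD₀def
  have hD₀ : σ • D₀ = D₀ := by rw [hD₀def, smul_zsmul_divisor, hD₁]
  have hdeg : Divisor.degree D₀ = d := by
    rw [hD₀def, map_zsmul, hdeg₁, smul_eq_mul, hd]; push_cast; ring
  have := h.finite_effSubtype d
  have hmem : ∀ E : effSet σ d, Divisor.degree (E.1 - D₀) = 0 := fun E => by
    rw [map_sub, E.2.2.1, hdeg, sub_self]
  have hfix : ∀ E : effSet σ d, Pic0.mk ⟨E.1 - D₀, hmem E⟩ ∈ fixClass σ := fun E => by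
    show σ • _ = _
    rw [pic0_smul_mk]
    congr 1
    exact Subtype.ext (by rw [coe_degZeroSMulHom, smul_sub, E.2.2.2, hD₀])
  refine Finite.of_surjective (fun E : effSet σ d => (⟨_, hfix E⟩ : fixClass σ)) fun ⟨x, hx⟩ => ?_
  obtain ⟨D, hD, hDfix, rfl⟩ := h.exists_rep R hx
  have hl := R.large (D + D₀) (by rw [map_add, hD, hdeg, hd]; push_cast; nlinarith)
  have key := h.natCard_shiftFibre R hD₀ hdeg hD hDfix
  have hne : Nat.card (shiftFibre σ D₀ d (Pic0.mk ⟨D, hD⟩)) ≠ 0 := by
    intro e
    rw [e, mul_zero, zero_add] at key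
    have : Module.finrank K (riemannRochSpace (D + D₀)) = 0 := by
      by_contra hne
      exact (Nat.one_lt_pow hne h.one_lt).ne key
    rw [this, map_add, hD, hdeg, hd] at hl
    push_cast at hl
    nlinarith
  obtain ⟨⟨E, hE, hd', e⟩⟩ := (Nat.card_ne_zero.1 hne).1
  exact ⟨⟨E, hE⟩, Subtype.ext e⟩

/-- The counting data of the zeta function. -/
theorem IsFrob.zetaData (h : IsFrob σ q) (R : RRFacts K F g) :
    ∃ δ : ℕ, ZetaSeries.ZetaData q g δ (fixClass σ).ncard (fun d => (effSet σ d).ncard)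
      (fun m => (fixSet σ m).ncard) := by
  classical
  obtain ⟨δ, hδ, ⟨D₁, hD₁, hdeg₁⟩, hdvd⟩ := h.exists_delta R
  have := h.finite_fixClass R
  have : Fintype (fixClass σ) := Fintype.ofFinite _
  choose rep hrep0 hrepfix hrep using fun x : fixClass σ => h.exists_rep R x.2
  have hcard : (fixClass σ).ncard = Fintype.card (fixClass σ) := by
    rw [← Nat.card_coe_set_eq, Nat.card_eq_fintype_card]
  have key : ∀ {D₀ : Divisor K F} {d : ℕ}, σ • D₀ = D₀ → Divisor.degree D₀ = (d : ℤ) →
      (q - 1) * (effSet σ d).ncard + (fixClass σ).ncard =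
        ∑ x, q ^ Module.finrank K (riemannRochSpace (rep x + D₀)) := by
    intro D₀ d hD₀ hd
    rw [h.sum_shiftFibre hD₀ hd, hcard, Finset.mul_sum, ← Finset.card_univ,
      Finset.card_eq_sum_ones, ← Finset.sum_add_distrib]
    refine Finset.sum_congr rfl fun x _ => ?_
    conv_lhs => rw [← hrep x]
    exact h.natCard_shiftFibre R hD₀ hd (hrep0 x) (hrepfix x)
  refine ⟨δ, h.one_lt, hδ, ?_, ?_, ?_, h.recursion, ?_, ?_⟩
  · rw [hcard]
    exact Fintype.card_pos_iff.2 ⟨⟨0, zero_mem_fixClass⟩⟩
  · show (effSet σ 0).ncard = 1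
    rw [Set.ncard_eq_one]
    refine ⟨0, Set.eq_singleton_iff_unique_mem.2 ⟨⟨fun v => le_rfl, by simp, smul_zero _⟩,
      fun E hE => ?_⟩⟩
    ext v
    have h1 := hE.1 v
    have h2 := le_degree hE.1 v
    rw [hE.2.1] at h2
    simp only [Finsupp.zero_apply] at *
    omega
  · intro d hA
    obtain ⟨E, hE⟩ := Set.nonempty_of_ncard_ne_zero hA
    have := hdvd E hE.2.2
    rw [hE.2.1] at this
    exact_mod_cast this
  · intro d hd hdiv
    obtain ⟨m, rfl⟩ := hdiv
    have hD₀ : σ • ((m : ℤ) • D₁) = (m : ℤ) • D₁ := by rw [smul_zsmul_divisor, hD₁]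
    have hdeg : Divisor.degree ((m : ℤ) • D₁) = ((δ * m : ℕ) : ℤ) := by
      rw [map_zsmul, hdeg₁, smul_eq_mul]; push_cast; ring
    rw [key hD₀ hdeg, hcard, ← Finset.card_univ, ← smul_eq_mul, ← Finset.sum_const]
    refine Finset.sum_congr rfl fun x _ => ?_
    have hl := R.large (rep x + (m : ℤ) • D₁) (by rw [map_add, hrep0, hdeg]; omega)
    rw [map_add, hrep0, hdeg] at hl
    congr 1
    omega
  · intro hg
    obtain ⟨W, hWdeg, hWl, hW⟩ := R.canonical
    have hσW : σ • W - W ∈ Divisor.principal (K := K) (F := F) := by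
      by_contra hne
      have e := hW (σ • W) (by rw [SemilinearAut.degree_smul, hWdeg]) hne
      rw [finrank_riemannRochSpace_smul, hWl] at e
      omega
    obtain ⟨W', hW'W, hW'⟩ := h.exists_fixed_rep R W hσW
    have hW'deg : Divisor.degree W' = ((2 * g - 2 : ℕ) : ℤ) := by
      have := degree_eq_zero_of_principal hW'W
      rw [map_sub, hWdeg] at this
      omega
    have hsame : ∀ D, D - W ∈ Divisor.principal (K := K) (F := F) →
        Module.finrank K (riemannRochSpace D) = g := by
      intro D hD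
      obtain ⟨f, hf, hfD⟩ := hD
      rw [← hWl]
      refine LinearEquiv.finrank_eq (LinearEquiv.ofSubmodules
        ({ LinearMap.mulLeft K f with
            invFun := fun x => f⁻¹ * x
            left_inv := fun x => inv_mul_cancel_left₀ hf x
            right_inv := fun x => mul_inv_cancel_left₀ hf x } : F ≃ₗ[K] F) _ _ ?_)
      ext y
      simp only [Submodule.mem_map, mem_riemannRochSpace_iff]
      constructor
      · rintro ⟨x, hx, rfl⟩ v
        show f * x = 0 ∨ _
        rcases eq_or_ne x 0 with rfl | hx0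
        · exact Or.inl (mul_zero f)
        rcases hx v with h0 | h0
        · exact absurd h0 hx0
        · right
          have := hfD v
          rw [Finsupp.sub_apply] at this
          show _ ≤ v.ord (f * x)
          rw [v.ord_mul hf hx0]
          linarith
      · intro hy
        refine ⟨f⁻¹ * y, fun v => ?_, mul_inv_cancel_left₀ hf y⟩
        rcases eq_or_ne y 0 with rfl | hy0
        · exact Or.inl (mul_zero _)
        rcases hy v with h0 | h0
        · exact absurd h0 hy0
        · right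
          have := hfD v
          rw [Finsupp.sub_apply] at this
          rw [v.ord_mul (inv_ne_zero hf) hy0, v.ord_inv]
          linarith
    set x₀ : fixClass σ := ⟨0, zero_mem_fixClass⟩
    rw [key hW' hW'deg, ← Finset.add_sum_erase _ _ (Finset.mem_univ x₀)]
    have e0 : Module.finrank K (riemannRochSpace (rep x₀ + W')) = g := by
      refine hsame _ ?_
      rw [add_sub_assoc]
      refine add_mem ?_ hW'W
      have := hrep x₀
      rw [show (x₀ : Pic0 K F) = Pic0.mk 0 from rfl, mk_eq_iff] at this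
      simpa using this
    have e1 : ∀ x ∈ Finset.univ.erase x₀,
        Module.finrank K (riemannRochSpace (rep x + W')) = g - 1 := by
      intro x hx
      have hne : rep x + W' - W ∉ Divisor.principal (K := K) (F := F) := by
        intro hmem
        refine Finset.ne_of_mem_erase hx (Subtype.ext ?_)
        rw [← hrep x, show (x₀ : Pic0 K F) = Pic0.mk 0 from rfl, mk_eq_iff]
        have := sub_mem hmem hW'W
        simpa using this
      have := hW (rep x + W') (by
        rw [map_add, hrep0, hW'deg]; omega) hne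
      omega
    rw [e0, Finset.sum_congr rfl fun x hx => by rw [e1 x hx], Finset.sum_const, smul_eq_mul,
      Finset.card_erase_of_mem (Finset.mem_univ x₀), Finset.card_univ, hcard]
    have hpos : 0 < Fintype.card (fixClass σ) := Fintype.card_pos_iff.2 ⟨x₀⟩
    obtain ⟨k, hk⟩ : ∃ k, Fintype.card (fixClass σ) = k + 1 :=
      ⟨Fintype.card (fixClass σ) - 1, by omega⟩
    obtain ⟨r, rfl⟩ : ∃ r, g = r + 1 := ⟨g - 1, by omega⟩
    obtain ⟨s, hs⟩ : ∃ s, q = s + 1 := ⟨q - 1, by have := h.one_lt; omega⟩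
    rw [hk, hs]
    simp only [Nat.add_sub_cancel, pow_succ]
    ring

end Fermat.Agent.Curve.ZetaFrob
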