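/-
The `ℓ`-adic growth of `det (1 - M ^ n)` for an integral matrix invertible modulo `ℓ`.
-/
import Mathlib.LinearAlgebra.Matrix.Determinant.Basic
import Mathlib.LinearAlgebra.Matrix.NonsingularInverse
import Mathlib.Data.ZMod.Basic
import Mathlib.NumberTheory.Padics.PadicVal.Basic
import Mathlib.Tactic

set_option autoImplicit false

namespace Fermat.Agent.Curve.ZetaDet

open Matrix

variable {d : ℕ}

theorem exists_one_add_pow (Y : Matrix (Fin d) (Fin d) ℤ) (m : ℕ) :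
    ∃ W, (1 + Y) ^ m = 1 + (m : ℤ) • Y + Y * Y * W := by
  induction m with
  | zero => exact ⟨0, by simp⟩
  | succ m ih =>
      obtain ⟨W, hW⟩ := ih
      refine ⟨(m : ℤ) • 1 + W + W * Y, ?_⟩
      rw [pow_succ, hW]
      simp only [mul_add, add_mul, mul_one, one_mul, Nat.cast_succ, add_smul, one_smul,
        smul_mul_assoc, mul_smul_comm, mul_assoc]
      abel

theorem not_dvd_det_unit {ℓ : ℕ} [Fact ℓ.Prime] {m : ℕ} (hm : ¬ ℓ ∣ m)
    (Z : Matrix (Fin d) (Fin d) ℤ) :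
    ¬ (ℓ : ℤ) ∣ ((m : ℤ) • (1 : Matrix (Fin d) (Fin d) ℤ) + (ℓ : ℤ) • Z).det := by
  intro hdvd
  rw [← ZMod.intCast_zmod_eq_zero_iff_dvd] at hdvd
  have e := RingHom.map_det (Int.castRingHom (ZMod ℓ))
    ((m : ℤ) • (1 : Matrix (Fin d) (Fin d) ℤ) + (ℓ : ℤ) • Z)
  have e2 : (Int.castRingHom (ZMod ℓ)).mapMatrix
      ((m : ℤ) • (1 : Matrix (Fin d) (Fin d) ℤ) + (ℓ : ℤ) • Z) =
      (m : ZMod ℓ) • (1 : Matrix (Fin d) (Fin d) (ZMod ℓ)) := by
    rw [map_add, map_zsmul, map_zsmul, map_one]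
    ext i j
    rw [Matrix.add_apply, Matrix.smul_apply, Matrix.smul_apply, Matrix.smul_apply,
      zsmul_eq_mul, zsmul_eq_mul, Int.cast_natCast, Int.cast_natCast, ZMod.natCast_self,
      zero_mul, add_zero, smul_eq_mul]
  rw [eq_intCast, hdvd, e2, Matrix.det_smul, Matrix.det_one, mul_one, eq_comm] at e
  exact hm ((ZMod.natCast_eq_zero_iff m ℓ).1 (eq_zero_of_pow_eq_zero e))

/-- Raising `1 + ℓ² Y` to the power `ℓ ^ j * m` (with `ℓ ∤ m`). -/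
theorem exists_pow_eq {ℓ : ℕ} [Fact ℓ.Prime] (Y : Matrix (Fin d) (Fin d) ℤ) {m : ℕ}
    (hm : ¬ ℓ ∣ m) (j : ℕ) :
    ∃ U : Matrix (Fin d) (Fin d) ℤ, ¬ (ℓ : ℤ) ∣ U.det ∧
      (1 + (ℓ : ℤ) ^ 2 • Y) ^ (ℓ ^ j * m) = 1 + (ℓ : ℤ) ^ (j + 2) • (Y * U) := by
  induction j with
  | zero =>
      obtain ⟨W, hW⟩ := exists_one_add_pow ((ℓ : ℤ) ^ 2 • Y) m
      refine ⟨(m : ℤ) • 1 + (ℓ : ℤ) • ((ℓ : ℤ) • (Y * W)), not_dvd_det_unit hm _, ?_⟩
      rw [pow_zero, one_mul, hW]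
      simp only [smul_mul_assoc, mul_smul_comm, smul_smul, mul_add, mul_one, smul_add,
        mul_assoc, zero_add]
      rw [add_assoc]
      ring_nf
  | succ j ih =>
      obtain ⟨U, hU, hUe⟩ := ih
      obtain ⟨W, hW⟩ := exists_one_add_pow ((ℓ : ℤ) ^ (j + 2) • (Y * U)) ℓ
      refine ⟨U * (1 + (ℓ : ℤ) • ((ℓ : ℤ) ^ j • (Y * (U * W)))), ?_, ?_⟩
      · rw [Matrix.det_mul]
        intro h
        rcases (Nat.prime_iff_prime_int.1 Fact.out).dvd_or_dvd h with h | h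
        · exact hU h
        · refine not_dvd_det_unit (ℓ := ℓ) (m := 1) ?_ _ (by simpa using h)
          exact (Fact.out : ℓ.Prime).not_dvd_one
      · rw [show ℓ ^ (j + 1) * m = ℓ ^ j * m * ℓ by ring, pow_mul, hUe, hW]
        simp only [smul_mul_assoc, mul_smul_comm, smul_smul, mul_add, mul_one, smul_add,
          mul_assoc]
        rw [add_assoc]
        ring_nf

/-- `v_ℓ (det (1 - M ^ (n₀ m))) = c + d v_ℓ (m)` for a suitable `n₀`. -/
theorem exists_padicValInt_det {ℓ : ℕ} [Fact ℓ.Prime] (M : Matrix (Fin d) (Fin d) ℤ)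
    (hM : ¬ (ℓ : ℤ) ∣ M.det) (h0 : ∀ n, 0 < n → (1 - M ^ n).det ≠ 0) :
    ∃ n₀ c, 0 < n₀ ∧ ∀ m, 0 < m →
      padicValInt ℓ (1 - M ^ (n₀ * m)).det = c + d * padicValNat ℓ m := by
  have hℓ : ℓ.Prime := Fact.out
  have : NeZero (ℓ ^ 2) := ⟨pow_ne_zero 2 hℓ.ne_zero⟩
  set f := (Int.castRingHom (ZMod (ℓ ^ 2))).mapMatrix (m := Fin d) with hf
  have hu : IsUnit (f M) := by
    rw [Matrix.isUnit_iff_isUnit_det, hf, ← RingHom.map_det, eq_intCast]
    have hco : IsCoprime M.det ((ℓ ^ 2 : ℕ) : ℤ) := by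
      push_cast
      exact ((Nat.prime_iff_prime_int.1 hℓ).coprime_iff_not_dvd.2 hM).symm.pow_right
    obtain ⟨a, b, hab⟩ := hco
    refine IsUnit.of_mul_eq_one (a : ZMod (ℓ ^ 2)) ?_
    have := congrArg (Int.cast (R := ZMod (ℓ ^ 2))) hab
    rw [Int.cast_add, Int.cast_mul, Int.cast_mul, Int.cast_natCast, ZMod.natCast_self, mul_zero,
      add_zero, Int.cast_one] at this
    rw [mul_comm]; exact this
  obtain ⟨n₀, hn₀, hpow⟩ : ∃ n₀, 0 < n₀ ∧ (f M) ^ n₀ = 1 := by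
    refine ⟨orderOf hu.unit, orderOf_pos _, ?_⟩
    have := congrArg Units.val (pow_orderOf_eq_one hu.unit)
    rw [Units.val_pow_eq_pow_val, IsUnit.unit_spec, Units.val_one] at this
    exact this
  obtain ⟨Y, hY⟩ : ∃ Y : Matrix (Fin d) (Fin d) ℤ, M ^ n₀ = 1 + (ℓ : ℤ) ^ 2 • Y := by
    have hdiv : ∀ i j, ((ℓ : ℤ) ^ 2) ∣ (M ^ n₀ - 1) i j := fun i j => by
      have e : f (M ^ n₀ - 1) = 0 := by rw [map_sub, map_pow, hpow, map_one, sub_self]
      have := congrFun (congrFun e i) j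
      simp only [hf, RingHom.mapMatrix_apply, Matrix.map_apply, eq_intCast,
        Matrix.zero_apply] at this
      rw [ZMod.intCast_zmod_eq_zero_iff_dvd] at this
      exact_mod_cast this
    refine ⟨Matrix.of fun i j => (M ^ n₀ - 1) i j / (ℓ : ℤ) ^ 2, ?_⟩
    ext i j
    rw [Matrix.add_apply, Matrix.smul_apply, smul_eq_mul, Matrix.of_apply]
    exact (by rw [Int.mul_ediv_cancel' (hdiv i j), Matrix.sub_apply]; ring)
  have hY0 : Y.det ≠ 0 := by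
    intro h
    refine h0 n₀ hn₀ ?_
    rw [hY, sub_add_cancel_left, ← neg_smul, Matrix.det_smul, h, mul_zero]
  refine ⟨n₀, 2 * d + padicValInt ℓ Y.det, hn₀, fun m hm => ?_⟩
  obtain ⟨j, m', hm', rfl⟩ := Nat.exists_eq_pow_mul_and_not_dvd hm.ne' ℓ hℓ.ne_one
  obtain ⟨U, hU, hUe⟩ := exists_pow_eq Y hm' j
  have hU0 : U.det ≠ 0 := fun h => hU (h ▸ dvd_zero _)
  have hm'0 : m' ≠ 0 := fun h => hm' (h ▸ dvd_zero _)
  rw [pow_mul, hY, hUe, sub_add_cancel_left, ← neg_smul, Matrix.det_smul, Matrix.det_mul,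
    Fintype.card_fin, neg_pow, padicValNat.mul (pow_ne_zero j hℓ.ne_zero) hm'0,
    padicValNat.prime_pow, padicValNat.eq_zero_of_not_dvd hm']
  rw [← pow_mul]
  simp only [padicValInt, Int.natAbs_mul, Int.natAbs_pow, Int.natAbs_neg, Int.natAbs_one,
    one_pow, one_mul, Int.natAbs_natCast]
  rw [padicValNat.mul (pow_ne_zero _ hℓ.ne_zero)
      (Nat.mul_ne_zero (Int.natAbs_ne_zero.2 hY0) (Int.natAbs_ne_zero.2 hU0)),
    padicValNat.mul (Int.natAbs_ne_zero.2 hY0) (Int.natAbs_ne_zero.2 hU0),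
    padicValNat.prime_pow,
    padicValNat.eq_zero_of_not_dvd (mt Int.natCast_dvd.2 hU)]
  ring

end Fermat.Agent.Curve.ZetaDet
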