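/-
An abelian group with a locally finite automorphism whose fixed points are counted by
`det (1 - M ^ n)`: it is torsion, its prime to `det M` torsion is finite, and if it is
`ℓ`-divisible then its `ℓ ^ k`-torsion has `ℓ ^ (d k)` elements.
-/
import Fermat.Agent.Curve.ZetaDet
import Mathlib.GroupTheory.Sylow
import Mathlib.Algebra.CharP.Lemmas
import Mathlib.Algebra.Module.End
import Mathlib.Tactic

set_option autoImplicit false

noncomputable section

namespace Fermat.Agent.Curve.ZetaGroup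

variable {A : Type*} [AddCommGroup A]

/-- The elements killed by `m`. -/
def tor (A : Type*) [AddCommGroup A] (m : ℕ) : AddSubgroup A := (nsmulAddMonoidHom m).ker

theorem mem_tor {m : ℕ} {x : A} : x ∈ tor A m ↔ m • x = 0 := Iff.rfl

/-- The elements killed by a power of `ℓ`. -/
def prim (A : Type*) [AddCommGroup A] (ℓ : ℕ) : AddSubgroup A where
  carrier := {x | ∃ k, ℓ ^ k • x = 0}
  zero_mem' := ⟨0, smul_zero _⟩
  add_mem' := by
    rintro a b ⟨i, hi⟩ ⟨j, hj⟩
    refine ⟨i + j, ?_⟩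
    rw [smul_add, pow_add, mul_smul (ℓ ^ i) (ℓ ^ j) b, hj, smul_zero, add_zero,
      mul_comm, mul_smul, hi, smul_zero]
  neg_mem' := by
    rintro a ⟨i, hi⟩
    exact ⟨i, by rw [smul_neg, hi, neg_zero]⟩

/-- The points fixed by `φ ^ n`. -/
def fixedBy (φ : AddMonoid.End A) (n : ℕ) : AddSubgroup A :=
  AddMonoidHom.eqLocus (φ ^ n : AddMonoid.End A) (AddMonoidHom.id A)

theorem mem_fixedBy {φ : AddMonoid.End A} {n : ℕ} {x : A} :
    x ∈ fixedBy φ n ↔ (φ ^ n) x = x := Iff.rfl

theorem end_mul_apply (f g : AddMonoid.End A) (x : A) : (f * g) x = f (g x) := rfl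

theorem fixedBy_dvd {φ : AddMonoid.End A} {a b : ℕ} (h : a ∣ b) :
    fixedBy φ a ≤ fixedBy φ b := by
  obtain ⟨c, rfl⟩ := h
  intro x hx
  induction c with
  | zero => rw [mem_fixedBy, mul_zero, pow_zero]; rfl
  | succ c ih =>
      rw [mem_fixedBy, Nat.mul_succ, pow_add, end_mul_apply, mem_fixedBy.1 hx]
      exact ih

theorem exists_common_period {φ : AddMonoid.End A} (hper : ∀ x, ∃ n, 0 < n ∧ (φ ^ n) x = x)
    (s : Finset A) : ∃ n, 0 < n ∧ ∀ x ∈ s, x ∈ fixedBy φ n := by
  classical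
  induction s using Finset.induction_on with
  | empty => exact ⟨1, one_pos, by simp⟩
  | insert a s _ ih =>
      obtain ⟨n, hn, hs⟩ := ih
      obtain ⟨m, hm, ha⟩ := hper a
      refine ⟨n * m, Nat.mul_pos hn hm, fun x hx => ?_⟩
      rcases Finset.mem_insert.1 hx with rfl | hx
      · exact fixedBy_dvd (dvd_mul_left m n) ha
      · exact fixedBy_dvd (dvd_mul_right n m) (hs x hx)

/-- The kernel of `f ^ i`. -/
def kerPow (f : AddMonoid.End A) (i : ℕ) : AddSubgroup A :=
  AddMonoidHom.ker (f ^ i : AddMonoid.End A)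

theorem mem_kerPow {f : AddMonoid.End A} {i : ℕ} {x : A} :
    x ∈ kerPow f i ↔ (f ^ i) x = 0 := Iff.rfl

variable (φ : AddMonoid.End A) (ℓ : ℕ) [hℓ : Fact ℓ.Prime]

/-- The `ℓ`-primary part of a finite subgroup has the expected order. -/
theorem natCard_inf_prim (H : AddSubgroup A) [Finite H] :
    Nat.card ↥(H ⊓ prim A ℓ) = ℓ ^ padicValNat ℓ (Nat.card H) := by
  set P : AddSubgroup H := (prim A ℓ).addSubgroupOf H with hP
  have hcard : Nat.card ↥(H ⊓ prim A ℓ) = Nat.card P := by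
    refine Nat.card_congr ⟨fun x => ⟨⟨x.1, x.2.1⟩, x.2.2⟩, fun x => ⟨x.1.1, ⟨x.1.2, x.2⟩⟩,
      fun _ => rfl, fun _ => rfl⟩
  have hPG : IsPGroup ℓ (Multiplicative P) := by
    intro x
    obtain ⟨k, hk⟩ := (Multiplicative.toAdd x).2
    refine ⟨k, Multiplicative.toAdd.injective (Subtype.ext (Subtype.ext ?_))⟩
    simpa using hk
  obtain ⟨a, ha⟩ := IsPGroup.iff_card.1 hPG
  rw [show Nat.card (Multiplicative P) = Nat.card P from Nat.card_congr Multiplicative.toAdd] at ha
  obtain ⟨K, hK⟩ := Sylow.exists_subgroup_card_pow_prime (G := Multiplicative H) ℓ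
    (n := padicValNat ℓ (Nat.card H))
    (by rw [Nat.card_congr Multiplicative.toAdd]; exact pow_padicValNat_dvd)
  have hle : Subgroup.toAddSubgroup' K ≤ P := by
    intro x hx
    rw [hP, AddSubgroup.mem_addSubgroupOf]
    refine ⟨padicValNat ℓ (Nat.card H), ?_⟩
    have h1 : (⟨Multiplicative.ofAdd x, hx⟩ : K) ^ Nat.card K = 1 := pow_card_eq_one'
    have h2 := congrArg (fun z : K => ((Multiplicative.toAdd (z : Multiplicative H) : H) : A)) h1
    simpa [hK] using h2
  have hdvd : Nat.card P ∣ Nat.card H := AddSubgroup.card_addSubgroup_dvd_card P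
  rw [ha, padicValNat_dvd_iff_le Nat.card_pos.ne'] at hdvd
  have h3 : Nat.card (Subgroup.toAddSubgroup' K) ∣ Nat.card P := AddSubgroup.card_dvd_of_le hle
  rw [show Nat.card (Subgroup.toAddSubgroup' K) = Nat.card K from rfl, hK, ha,
    Nat.pow_dvd_pow_iff_le_right hℓ.out.one_lt] at h3
  rw [hcard, ha, le_antisymm hdvd h3]

/-- `H' = ℓ⁻¹ H` in an `ℓ`-divisible group. -/
theorem natCard_eq_mul {H H' : AddSubgroup A} (hdiv : ∀ x : A, ∃ y, ℓ • y = x)
    (hH : ∀ x, x ∈ H' ↔ ℓ • x ∈ H) :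
    Nat.card H' = Nat.card (tor A ℓ) * Nat.card H := by
  set f : H' →+ H :=
    { toFun := fun x => ⟨ℓ • (x : A), (hH _).1 x.2⟩
      map_zero' := Subtype.ext (smul_zero _)
      map_add' := fun x y => Subtype.ext (smul_add _ _ _) }
  have hf : Function.Surjective f := fun y => by
    obtain ⟨x, hx⟩ := hdiv y
    exact ⟨⟨x, (hH x).2 (hx.symm ▸ y.2)⟩, Subtype.ext hx⟩
  have hker : Nat.card f.ker = Nat.card (tor A ℓ) := by
    refine Nat.card_congr ⟨fun x => ⟨x.1.1, mem_tor.2 (congrArg Subtype.val x.2)⟩,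
      fun x => ⟨⟨x.1, (hH _).2 (by rw [mem_tor.1 x.2]; exact zero_mem _)⟩,
        Subtype.ext (mem_tor.1 x.2)⟩, fun _ => rfl, fun _ => rfl⟩
  rw [AddSubgroup.card_eq_card_quotient_mul_card_addSubgroup f.ker, hker,
    Nat.card_congr (QuotientAddGroup.quotientKerEquivOfSurjective f hf).toEquiv, mul_comm]

/-- Above a `ψ` fixing the `ℓ²`-torsion, `ψ ^ ℓ` fixes exactly the `x` with `ψ` fixing `ℓ x`. -/
theorem mem_fixedBy_mul_iff {N : ℕ} (hN : tor A (ℓ ^ 2) ≤ fixedBy φ N) (x : A) :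
    x ∈ fixedBy φ (N * ℓ) ⊓ prim A ℓ ↔ ℓ • x ∈ fixedBy φ N ⊓ prim A ℓ := by
  set ψ : AddMonoid.End A := φ ^ N with hψ
  set y := ψ x - x with hy
  have htel : (ψ ^ ℓ) x - x = ∑ i ∈ Finset.range ℓ, (ψ ^ i) y := by
    simp only [hy, map_sub, ← end_mul_apply, ← pow_succ]
    rw [Finset.sum_range_sub fun i => (ψ ^ i) x]
    rfl
  have hfix : ∀ z : A, z ∈ tor A (ℓ ^ 2) → ∀ i, (ψ ^ i) z = z := fun z hz i => by
    have := fixedBy_dvd (φ := φ) (dvd_mul_right N i) (hN hz)
    rwa [mem_fixedBy, pow_mul] at this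
  constructor
  · rintro ⟨hx, k, hk⟩
    have hx' : (ψ ^ ℓ) x = x := by rw [hψ, ← pow_mul]; exact mem_fixedBy.1 hx
    rw [hx', sub_self] at htel
    have hky : ℓ ^ k • y = 0 := by rw [hy, smul_sub, ← map_nsmul, hk, map_zero, sub_zero]
    classical
    have hex : ∃ a, ℓ ^ a • y = 0 := ⟨k, hky⟩
    have ha := Nat.find_spec hex
    have hℓy : ℓ • y = 0 := by
      rcases Nat.lt_or_ge (Nat.find hex) 2 with h | h
      · interval_cases h' : Nat.find hex
        · rw [pow_zero, one_smul] at ha; rw [ha, smul_zero]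
        · rwa [pow_one] at ha
      · exfalso
        obtain ⟨a, ha2⟩ : ∃ a, Nat.find hex = a + 2 := ⟨Nat.find hex - 2, by omega⟩
        set z := ℓ ^ a • y with hz
        have hz2 : z ∈ tor A (ℓ ^ 2) := by
          rw [mem_tor, hz, ← mul_smul, ← pow_add, Nat.add_comm, ← ha2]; exact ha
        have e : ℓ • z = 0 := by
          have : ∑ i ∈ Finset.range ℓ, (ψ ^ i) z = 0 := by
            simp only [hz, map_nsmul]
            rw [← Finset.smul_sum, ← htel, smul_zero]
          simpa [hfix z hz2] using this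
        rw [hz, ← mul_smul, ← pow_succ'] at e
        exact Nat.find_min hex (show a + 1 < Nat.find hex by omega) e
    refine ⟨?_, k, ?_⟩
    · show ℓ • x ∈ fixedBy φ N
      rw [mem_fixedBy, ← hψ, map_nsmul, ← sub_eq_zero, ← smul_sub, ← hy, hℓy]
    · rw [smul_comm, hk, smul_zero]
  · rintro ⟨hx, k, hk⟩
    refine ⟨?_, k + 1, by rw [pow_succ, mul_smul, hk]⟩
    have hℓy : ℓ • y = 0 := by
      rw [hy, smul_sub, ← map_nsmul, sub_eq_zero]; exact mem_fixedBy.1 hx
    have hy2 : y ∈ tor A (ℓ ^ 2) := by rw [mem_tor, pow_two, mul_smul, hℓy, smul_zero]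
    simp only [hfix y hy2, Finset.sum_const, Finset.card_range, hℓy, sub_eq_zero] at htel
    show (φ ^ (N * ℓ)) x = x
    rw [pow_mul]
    exact htel

omit hℓ in
theorem subsingleton_tor_pow_zero : Subsingleton (tor A (ℓ ^ 0)) :=
  ⟨fun a b => Subtype.ext (by
    have ha : (ℓ ^ 0) • (a : A) = 0 := a.2
    have hb : (ℓ ^ 0) • (b : A) = 0 := b.2
    simp only [pow_zero, one_smul] at ha hb
    rw [ha, hb])⟩

theorem natCard_tor_pow (hdiv : ∀ x : A, ∃ y, ℓ • y = x) (k : ℕ) :
    Nat.card (tor A (ℓ ^ k)) = Nat.card (tor A ℓ) ^ k := by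
  induction k with
  | zero =>
      have := subsingleton_tor_pow_zero (A := A) ℓ
      rw [pow_zero (Nat.card (tor A ℓ))]
      exact Nat.card_of_subsingleton (0 : tor A (ℓ ^ 0))
  | succ k ih =>
      rw [pow_succ' (Nat.card (tor A ℓ)), ← ih]
      refine natCard_eq_mul ℓ hdiv fun x => ?_
      rw [mem_tor, mem_tor, ← mul_smul, pow_succ]

theorem finite_tor_mul (a b : ℕ) [Finite (tor A a)] [Finite (tor A b)] :
    Finite (tor A (a * b)) := by
  have e : (tor A (a * b) : Set A) = ⋃ z ∈ (tor A b : Set A), {x | a • x = z ∧ b • z = 0} := by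
    ext x
    simp only [SetLike.mem_coe, mem_tor, Set.mem_iUnion, Set.mem_ofPred_eq, exists_prop]
    constructor
    · intro h
      rw [mul_comm, mul_smul] at h
      exact ⟨a • x, h, rfl, h⟩
    · rintro ⟨z, hz, rfl, -⟩
      rw [mul_comm, mul_smul, hz]
  refine Set.Finite.to_subtype (s := (tor A (a * b) : Set A)) ?_
  rw [e]
  refine (Set.toFinite _).biUnion fun z _ => ?_
  by_cases h : ∃ x₀, a • x₀ = z
  · obtain ⟨x₀, hx₀⟩ := h
    refine ((Set.toFinite (tor A a : Set A)).image fun t => x₀ + t).subset ?_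
    rintro x ⟨hx, -⟩
    exact ⟨x - x₀, by rw [SetLike.mem_coe, mem_tor, smul_sub, hx, hx₀, sub_self],
      add_sub_cancel x₀ x⟩
  · refine Set.finite_empty.subset ?_
    rintro x ⟨hx, -⟩
    exact absurd ⟨x, hx⟩ h

variable {d : ℕ} (M : Matrix (Fin d) (Fin d) ℤ) (h : ℕ → ℕ)

/-- The hypotheses on `(A, φ)`. -/
structure IsCountedBy : Prop where
  periodic : ∀ x, ∃ n, 0 < n ∧ (φ ^ n) x = x
  natCard_fixed : ∀ n, 0 < n → Nat.card (fixedBy φ n) = h n
  pos : ∀ n, 0 < n → 0 < h n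
  eq_det : ∀ n, 0 < n → (h n : ℤ) = (1 - M ^ n).det

variable {φ M h}

theorem IsCountedBy.finite (H : IsCountedBy φ M h) {n : ℕ} (hn : 0 < n) :
    Finite (fixedBy φ n) :=
  Nat.finite_of_card_ne_zero (by rw [H.natCard_fixed n hn]; exact (H.pos n hn).ne')

theorem IsCountedBy.isTorsion (H : IsCountedBy φ M h) (x : A) :
    ∃ N : ℕ, 0 < N ∧ N • x = 0 := by
  obtain ⟨n, hn, hx⟩ := H.periodic x
  refine ⟨h n, H.pos n hn, ?_⟩
  have := H.finite hn
  have e := card_nsmul_eq_zero' (G := fixedBy φ n) (x := ⟨x, mem_fixedBy.2 hx⟩)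
  rw [H.natCard_fixed n hn] at e
  exact congrArg Subtype.val e

theorem IsCountedBy.exists_natCard_inf_prim (H : IsCountedBy φ M h) (hM : ¬ (ℓ : ℤ) ∣ M.det) :
    ∃ n₀ c, 0 < n₀ ∧ ∀ m, 0 < m →
      Nat.card ↥(fixedBy φ (n₀ * m) ⊓ prim A ℓ) = ℓ ^ (c + d * padicValNat ℓ m) := by
  obtain ⟨n₀, c, hn₀, hc⟩ := ZetaDet.exists_padicValInt_det (ℓ := ℓ) M hM fun n hn => by
    rw [← H.eq_det n hn]; exact_mod_cast (H.pos n hn).ne'
  refine ⟨n₀, c, hn₀, fun m hm => ?_⟩
  have hpos := Nat.mul_pos hn₀ hm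
  have := H.finite hpos
  rw [natCard_inf_prim, H.natCard_fixed _ hpos, ← hc m hm, ← H.eq_det _ hpos,
    padicValInt.of_nat]

/-- The finiteness of the `ℓ`-torsion, from the growth of the fixed points. -/
theorem IsCountedBy.finite_tor (H : IsCountedBy φ M h) (hM : ¬ (ℓ : ℤ) ∣ M.det) :
    Finite (tor A ℓ) := by
  classical
  obtain ⟨n₀, c, hn₀, hc⟩ := H.exists_natCard_inf_prim ℓ hM
  obtain ⟨j₀, hj₀⟩ : ∃ j, ℓ * (c + d * j) < ℓ ^ j := by
    -- compare a linear function with an exponential one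
    obtain ⟨t, ht⟩ : ∃ t, t = ℓ * (c + 2 * d) + 1 := ⟨_, rfl⟩
    refine ⟨2 * t, ?_⟩
    have h1 : t + 1 ≤ ℓ ^ t := Nat.lt_pow_self hℓ.out.one_lt
    have h2 : (t + 1) * (t + 1) ≤ ℓ ^ (2 * t) := by
      rw [two_mul, pow_add]; exact Nat.mul_le_mul h1 h1
    refine lt_of_lt_of_le ?_ h2
    have h4 : ℓ * (c + 2 * d) * t ≤ t * t := Nat.mul_le_mul_right t (by omega)
    have h5 : ℓ * c ≤ t := by nlinarith
    have h6 : ℓ * (c + d * (2 * t)) ≤ ℓ * c + ℓ * (c + 2 * d) * t := by
      nlinarith [Nat.zero_le (ℓ * c * t)]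
    linarith
  set B := ℓ ^ (c + d * j₀) with hB
  have hprim : tor A ℓ ≤ prim A ℓ := fun x hx => ⟨1, by rw [pow_one]; exact hx⟩
  have key : ∀ n, 0 < n → Finite ↥(fixedBy φ n ⊓ tor A ℓ) ∧
      Nat.card ↥(fixedBy φ n ⊓ tor A ℓ) ≤ B := by
    intro n hn
    obtain ⟨j, m', hm', rfl⟩ := Nat.exists_eq_pow_mul_and_not_dvd hn.ne' ℓ hℓ.out.ne_one
    have hm'0 : m' ≠ 0 := fun e => hm' (e ▸ dvd_zero _)
    set ψ : AddMonoid.End A := φ ^ (n₀ * m') with hψ
    set K : ℕ → AddSubgroup A := fun i =>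
      kerPow (ψ - 1) i ⊓ tor A ℓ with hK
    have hKj : ∀ i, K (ℓ ^ i) = fixedBy φ (n₀ * m' * ℓ ^ i) ⊓ tor A ℓ := by
      intro i
      ext x
      simp only [hK, AddSubgroup.mem_inf, mem_kerPow, mem_fixedBy, and_congr_left_iff,
        mem_tor]
      intro hx
      obtain ⟨r, hr⟩ := ((Commute.one_right (ψ - 1)).exists_add_pow_prime_pow_eq hℓ.out i)
      rw [sub_add_cancel, one_pow, mul_one, mul_assoc] at hr
      rw [pow_mul, ← hψ, hr]
      have e : ((ℓ : AddMonoid.End A) * ((ψ - 1) * r)) x = 0 := by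
        rw [end_mul_apply, AddMonoid.End.natCast_apply, ← map_nsmul, hx, map_zero]
      show _ ↔ ((ψ - 1) ^ ℓ ^ i) x + x + ((ℓ : AddMonoid.End A) * ((ψ - 1) * r)) x = x
      rw [e, add_zero, add_eq_right]
    have hKfin : ∀ i, Finite (K (ℓ ^ i)) ∧ Nat.card (K (ℓ ^ i)) ≤ ℓ ^ (c + d * i) := by
      intro i
      have hpos : 0 < n₀ * (m' * ℓ ^ i) := by have := hℓ.out.pos; positivity
      have := H.finite hpos
      have e := hc (m' * ℓ ^ i) (by have := hℓ.out.pos; positivity)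
      rw [padicValNat.mul hm'0 (pow_ne_zero i hℓ.out.ne_zero), padicValNat.prime_pow,
        padicValNat.eq_zero_of_not_dvd hm', zero_add] at e
      have hle : K (ℓ ^ i) ≤ fixedBy φ (n₀ * (m' * ℓ ^ i)) ⊓ prim A ℓ := by
        rw [hKj, mul_assoc]; exact inf_le_inf_left _ hprim
      have hfin : Finite ↥(fixedBy φ (n₀ * (m' * ℓ ^ i)) ⊓ prim A ℓ) :=
        Finite.of_injective _ (AddSubgroup.inclusion_injective inf_le_left)
      have hfin' : Finite (K (ℓ ^ i)) :=
        Finite.of_injective _ (AddSubgroup.inclusion_injective hle)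
      exact ⟨hfin', e ▸ Nat.card_le_card_of_injective _ (AddSubgroup.inclusion_injective hle)⟩
    have hmono : Monotone K := monotone_nat_of_le_succ fun i x hx => by
      refine ⟨?_, hx.2⟩
      show _ ∈ kerPow _ _
      rw [mem_kerPow, pow_succ', end_mul_apply, mem_kerPow.1 hx.1, map_zero]
    obtain ⟨i₀, hi₀, hstab⟩ : ∃ i, i < ℓ ^ j₀ ∧ K (i + 1) = K i := by
      by_contra hcon
      have hgrow : ∀ i, i ≤ ℓ ^ j₀ → 2 ^ i ≤ Nat.card (K i) := by
        intro i hi
        induction i with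
        | zero =>
            have := (hKfin 0).1
            have : Finite (K 0) :=
              Finite.of_injective _ (AddSubgroup.inclusion_injective (hmono (Nat.zero_le _) :
                K 0 ≤ K (ℓ ^ 0)))
            rw [pow_zero]
            exact Nat.card_pos
        | succ i ih =>
            have hne : K (i + 1) ≠ K i := fun e => hcon ⟨i, by omega, e⟩
            have := (hKfin j₀).1
            have hf1 : Finite (K (i + 1)) :=
              Finite.of_injective _ (AddSubgroup.inclusion_injective (hmono hi))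
            have hf0 : Finite (K i) :=
              Finite.of_injective _ (AddSubgroup.inclusion_injective (hmono (Nat.le_succ i)))
            obtain ⟨r, hr⟩ := AddSubgroup.card_dvd_of_le (hmono (Nat.le_succ i))
            have hr2 : 2 ≤ r := by
              rcases Nat.lt_or_ge r 2 with hr' | hr'
              · interval_cases r
                · rw [mul_zero] at hr; exact absurd hr Nat.card_pos.ne'
                · rw [mul_one] at hr
                  exact absurd (AddSubgroup.eq_of_le_of_card_ge (hmono (Nat.le_succ i)) hr.le).symm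
                    hne
              · exact hr'
            rw [hr, pow_succ]
            exact Nat.mul_le_mul (ih (by omega)) hr2
      have h1 := (hgrow _ le_rfl).trans (hKfin j₀).2
      have h2 : ℓ ^ (c + d * j₀) ≤ 2 ^ (ℓ * (c + d * j₀)) := by
        rw [pow_mul]; exact Nat.pow_le_pow_left Nat.lt_two_pow_self.le _
      have h3 := (Nat.pow_le_pow_iff_right (by norm_num)).1 (h1.trans h2)
      omega
    have hst : ∀ i, i₀ ≤ i → K i = K i₀ := by
      intro i hi
      induction i, hi using Nat.le_induction with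
      | base => rfl
      | succ i hi ih =>
          refine le_antisymm (fun x hx => ?_) (hmono (by omega))
          have h1 : (ψ - 1 : AddMonoid.End A) x ∈ K i := by
            refine ⟨?_, ?_⟩
            · show _ ∈ kerPow _ _
              rw [mem_kerPow, ← end_mul_apply, ← pow_succ]
              exact hx.1
            · show _ ∈ tor A ℓ
              rw [mem_tor, ← map_nsmul, mem_tor.1 hx.2, map_zero]
          rw [ih] at h1
          rw [← hstab]
          refine ⟨?_, hx.2⟩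
          show _ ∈ kerPow _ _
          rw [mem_kerPow, pow_succ, end_mul_apply]
          exact h1.1
    have hsub : fixedBy φ (ℓ ^ j * m') ⊓ tor A ℓ ≤ K (ℓ ^ j₀) := by
      refine le_trans (inf_le_inf_right _ (fixedBy_dvd ?_)) ((hKj j).symm.le.trans ?_)
      · exact ⟨n₀, by ring⟩
      · rcases le_total i₀ (ℓ ^ j) with hij | hij
        · rw [hst _ hij]; exact hmono hi₀.le
        · exact hmono (hij.trans hi₀.le)
    have := (hKfin j₀).1
    exact ⟨Finite.of_injective _ (AddSubgroup.inclusion_injective hsub),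
      (Nat.card_le_card_of_injective _ (AddSubgroup.inclusion_injective hsub)).trans (hKfin j₀).2⟩
  by_contra hinf
  have hinf' : (tor A ℓ : Set A).Infinite := fun hf => hinf hf.to_subtype
  obtain ⟨s, hs, hcard⟩ := hinf'.exists_subset_card_eq (B + 1)
  obtain ⟨n, hn, hsn⟩ := exists_common_period H.periodic s
  obtain ⟨hf, hle⟩ := key n hn
  have := Nat.card_le_card_of_injective
    (fun x : s => (⟨x.1, hsn _ x.2, hs x.2⟩ : ↥(fixedBy φ n ⊓ tor A ℓ)))
    fun a b e => Subtype.ext (congrArg (fun z : ↥(fixedBy φ n ⊓ tor A ℓ) => (z : A)) e)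
  rw [Nat.card_eq_finsetCard, hcard] at this
  omega

theorem IsCountedBy.finite_tor_pow (H : IsCountedBy φ M h) (hM : ¬ (ℓ : ℤ) ∣ M.det) (k : ℕ) :
    Finite (tor A (ℓ ^ k)) := by
  induction k with
  | zero =>
      have := subsingleton_tor_pow_zero (A := A) ℓ
      infer_instance
  | succ k ih =>
      have := H.finite_tor ℓ hM
      rw [pow_succ]
      exact finite_tor_mul _ _

/-- With divisibility, the exact count. -/
theorem IsCountedBy.natCard_tor_pow (H : IsCountedBy φ M h) (hM : ¬ (ℓ : ℤ) ∣ M.det)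
    (hdiv : ∀ x : A, ∃ y, ℓ • y = x) (k : ℕ) :
    Nat.card (tor A (ℓ ^ k)) = ℓ ^ (d * k) := by
  classical
  obtain ⟨n₀, c, hn₀, hc⟩ := H.exists_natCard_inf_prim ℓ hM
  have := H.finite_tor_pow ℓ hM 2
  have : Fintype (tor A (ℓ ^ 2)) := Fintype.ofFinite _
  obtain ⟨m, hm, hmfix⟩ := exists_common_period H.periodic
    (Finset.univ.map (Function.Embedding.subtype fun x => x ∈ tor A (ℓ ^ 2)))
  have hN : tor A (ℓ ^ 2) ≤ fixedBy φ (n₀ * m) := fun x hx =>
    fixedBy_dvd (dvd_mul_left m n₀) (hmfix x (by simpa using hx))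
  have e := natCard_eq_mul ℓ hdiv (mem_fixedBy_mul_iff φ ℓ hN)
  rw [mul_assoc, hc _ (Nat.mul_pos hm hℓ.out.pos), hc m hm,
    padicValNat.mul hm.ne' hℓ.out.ne_zero, padicValNat_self, mul_add, mul_one,
    show c + (d * padicValNat ℓ m + d) = d + (c + d * padicValNat ℓ m) by ring, pow_add] at e
  have e1 := Nat.eq_of_mul_eq_mul_right (pow_pos hℓ.out.pos _) e
  rw [ZetaGroup.natCard_tor_pow ℓ hdiv, ← e1, ← pow_mul]

end Fermat.Agent.Curve.ZetaGroup
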