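/-
Rationality of the zeta function from the counting facts: `δ = 1` (F. K. Schmidt), and the
class numbers of all constant extensions are `det (1 - M ^ n)` for one integral matrix `M`
of size `2 g` and determinant `q ^ g`.
-/
import Fermat.Agent.Curve.ZetaSeries
import Mathlib.Analysis.Complex.Polynomial.Basic
import Mathlib.LinearAlgebra.Matrix.Charpoly.Minpoly
import Mathlib.RingTheory.AdjoinRoot
import Mathlib.RingTheory.RootsOfUnity.Complex

set_option autoImplicit false

noncomputable section

open PowerSeries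

namespace Fermat.Agent.Curve.ZetaSeries

variable {q g δ h : ℕ} {A N : ℕ → ℕ}

theorem one_sub_X_eq_coe : (1 - X : PowerSeries ℂ) = ((1 - Polynomial.X : Polynomial ℂ) :) := by
  simp

theorem expand_coe (d : ℕ) (hd : d ≠ 0) (P : Polynomial ℂ) :
    PowerSeries.expand d hd (P : PowerSeries ℂ) =
      ((Polynomial.expand ℂ d P : Polynomial ℂ) : PowerSeries ℂ) := by
  ext m
  rw [PowerSeries.coeff_expand, Polynomial.coeff_coe, Polynomial.coeff_coe,
    Polynomial.coeff_expand (Nat.pos_of_ne_zero hd)]

theorem ZetaData.expand_contract (D : ZetaData q g δ h A N) :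
    PowerSeries.expand δ D.delta_pos.ne' (countSeries fun m => A (δ * m)) = countSeries A := by
  ext m
  rw [PowerSeries.coeff_expand]
  split_ifs with hm
  · rw [countSeries, countSeries, coeff_mk, coeff_mk, Nat.mul_div_cancel' hm]
  · rw [countSeries, coeff_mk]
    have : A m = 0 := by
      by_contra hA
      exact hm (D.dvd m hA)
    simp [this]

theorem ZetaData.exists_polynomial (D : ZetaData q g δ h A N) :
    ∃ P : Polynomial ℂ,
      (P : PowerSeries ℂ) = (1 - X) * (1 - C ((q : ℂ) ^ δ) * X) *
        countSeries (fun m => A (δ * m)) ∧ P.eval 1 ≠ 0 := by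
  have hq : (q : ℂ) - 1 ≠ 0 := by
    rw [sub_ne_zero]; exact_mod_cast D.one_lt.ne'
  obtain ⟨P, hP, -, hev, -⟩ := exists_polynomial_of_eventually
    (Q := (q : ℂ) ^ δ) (E := (h : ℂ) * ((q : ℂ) ^ δ - 1) / ((q : ℂ) - 1))
    (B := fun m => A (δ * m)) (k := 2 * g + 1) fun m hm => by
      have := D.large_eq (q ^ δ) rfl m (by omega) (by omega)
      rw [eq_div_iff hq, mul_comm]
      simpa using this
  refine ⟨P, hP, ?_⟩
  rw [hev]
  refine div_ne_zero (mul_ne_zero (Nat.cast_ne_zero.2 D.h_pos.ne') ?_) hq
  rw [sub_ne_zero]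
  exact_mod_cast (Nat.one_lt_pow D.delta_pos.ne' D.one_lt).ne'

/-- F. K. Schmidt: compare the zeta functions over `F_q` and over the degree `δ` extension. -/
theorem ZetaData.delta_eq_one {δ' h' : ℕ} {A' : ℕ → ℕ} (D : ZetaData q g δ h A N)
    (D' : ZetaData (q ^ δ) g δ' h' A' fun m => N (δ * m)) : δ = 1 := by
  obtain ⟨P, hP, hP1⟩ := D.exists_polynomial
  obtain ⟨P', hP', -⟩ := D'.exists_polynomial
  set Q : ℂ := (q : ℂ) ^ δ with hQ
  set Q' : ℂ := ((q ^ δ : ℕ) : ℂ) ^ δ' with hQ'
  -- the two zeta functions over the extension agree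
  have hZ : countSeries (fun m => A (δ * m)) ^ δ = countSeries A' := by
    refine D.hasLD_contract.unique D'.hasLD (constantCoeff_pointSeries _) ?_
    rw [D'.constantCoeff_count, map_pow]
    simp [countSeries, ← coeff_zero_eq_constantCoeff, D.A_zero]
  have hpoly : (Polynomial.expand ℂ δ' P') *
      ((1 - Polynomial.X) * (1 - Polynomial.C Q * Polynomial.X)) ^ δ =
      P ^ δ * (1 - Polynomial.X ^ δ') * (1 - Polynomial.C Q' * Polynomial.X ^ δ') := by
    apply Polynomial.coe_injective ℂ
    have e := congrArg (PowerSeries.expand δ' D'.delta_pos.ne') hP'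
    rw [expand_coe] at e
    simp only [map_mul, map_sub, map_one, expand_X, expand_C, D'.expand_contract] at e
    push_cast [Polynomial.coe_C]
    rw [e, hP, ← hZ]
    simp only [mul_pow]
    ring
  by_contra hne
  have h2 : 2 ≤ δ := by have := D.delta_pos; omega
  obtain ⟨k, hk⟩ : ∃ k, δ = k + 2 := ⟨δ - 2, by omega⟩
  have e := congrArg (fun p => Polynomial.eval 1 (Polynomial.derivative p)) hpoly
  simp only [Polynomial.derivative_mul, Polynomial.derivative_pow, Polynomial.derivative_sub,
    Polynomial.derivative_one, Polynomial.derivative_X, Polynomial.derivative_C,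
    Polynomial.eval_add, Polynomial.eval_mul, Polynomial.eval_pow, Polynomial.eval_sub,
    Polynomial.eval_one, Polynomial.eval_X, Polynomial.eval_C, Polynomial.eval_zero,
    Polynomial.derivative_X_pow, one_pow, sub_self, zero_mul, mul_zero, add_zero,
    zero_sub, mul_one] at e
  have hδ : δ ≠ 0 := by omega
  have hδ1 : δ - 1 ≠ 0 := by omega
  rw [zero_pow hδ, zero_pow hδ1] at e
  simp only [Polynomial.eval_neg, Polynomial.eval_mul, Polynomial.eval_C, Polynomial.eval_pow,
    Polynomial.eval_X, one_pow, mul_one, mul_zero, zero_mul, add_zero, zero_add, mul_neg, neg_mul,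
    neg_zero] at e
  replace e := e.symm
  simp only [neg_eq_zero, mul_eq_zero, pow_eq_zero_iff hδ, Nat.cast_eq_zero] at e
  rcases e with (h | h) | h
  · exact hP1 h
  · exact D'.delta_pos.ne' h
  · have : (1 : ℂ) = Q' := sub_eq_zero.1 h
    rw [hQ'] at this
    have h1 : (1 : ℕ) < (q ^ δ) ^ δ' :=
      Nat.one_lt_pow D'.delta_pos.ne' (Nat.one_lt_pow hδ D.one_lt)
    exact h1.ne (by exact_mod_cast this)

/-- An integral matrix with given monic characteristic polynomial. -/
theorem exists_charpoly_eq {d : ℕ} (P : Polynomial ℤ) (hP : P.Monic) (hd : P.natDegree = d) :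
    ∃ M : Matrix (Fin d) (Fin d) ℤ, M.charpoly = P := by
  subst hd
  let pb := AdjoinRoot.powerBasis' hP
  refine ⟨Algebra.leftMulMatrix pb.basis (AdjoinRoot.root P), ?_⟩
  set M := Algebra.leftMulMatrix pb.basis (AdjoinRoot.root P)
  have h0 : Polynomial.aeval (AdjoinRoot.root P) M.charpoly = 0 := by
    apply (injective_iff_map_eq_zero (Algebra.leftMulMatrix pb.basis)).1
      (Algebra.leftMulMatrix_injective pb.basis)
    rw [← Polynomial.aeval_algHom_apply, Matrix.aeval_self_charpoly]
  rw [AdjoinRoot.aeval_eq, AdjoinRoot.mk_eq_zero] at h0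
  exact Polynomial.eq_of_monic_of_dvd_of_natDegree_le hP (Matrix.charpoly_monic M) h0
    ((Matrix.charpoly_natDegree_eq_dim M).trans (Fintype.card_fin _)).le

/-- `det (1 - M ^ n)` is the product of the `1 - α ^ n` over the eigenvalues `α`. -/
theorem det_one_sub_pow_eq_prod {d : ℕ} (M : Matrix (Fin d) (Fin d) ℂ) {n : ℕ} (hn : n ≠ 0) :
    (1 - M ^ n).det = (M.charpoly.roots.map fun α => 1 - α ^ n).prod := by
  have hs : M.charpoly.Splits := IsAlgClosed.splits _
  have hdet : ∀ r : ℂ, (algebraMap ℂ (Matrix (Fin d) (Fin d) ℂ) r - M).det =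
      (M.charpoly.roots.map fun α => r - α).prod := by
    intro r
    rw [← hs.eval_eq_prod_roots_of_monic (Matrix.charpoly_monic M), Matrix.eval_charpoly]
    rfl
  have hdet' : ∀ r : ℂ, (M - algebraMap ℂ (Matrix (Fin d) (Fin d) ℂ) r).det =
      (M.charpoly.roots.map fun α => α - r).prod := by
    intro r
    rw [← neg_sub, Matrix.det_neg, hdet, Fintype.card_fin,
      show (M.charpoly.roots.map fun α => α - r) =
        M.charpoly.roots.map (fun α => (-1 : ℂ) * (r - α)) by simp,
      Multiset.prod_map_mul, Multiset.map_const', Multiset.prod_replicate]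
    congr 2
    rw [← hs.natDegree_eq_card_roots, Matrix.charpoly_natDegree_eq_dim, Fintype.card_fin]
  have hsplit : (Polynomial.X ^ n - 1 : Polynomial ℂ) =
      ((Polynomial.X ^ n - 1 : Polynomial ℂ).roots.map
        fun r => Polynomial.X - Polynomial.C r).prod :=
    (IsAlgClosed.splits _).eq_prod_roots_of_monic
      (by simpa using Polynomial.monic_X_pow_sub_C (1 : ℂ) hn)
  set R := (Polynomial.X ^ n - 1 : Polynomial ℂ).roots with hR
  have e1 : (M ^ n - 1).det = (M.charpoly.roots.map fun α => α ^ n - 1).prod := by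
    have e2 : ∀ α : ℂ, (R.map fun r => α - r).prod = α ^ n - 1 := fun α => by
      have := congrArg (Polynomial.eval α) hsplit
      rw [Polynomial.eval_multiset_prod, Multiset.map_map] at this
      simpa using this.symm
    have e3 := congrArg (fun p => (Polynomial.aeval M p).det) hsplit
    simp only [map_sub, map_pow, Polynomial.aeval_X, map_one] at e3
    rw [e3]
    have e4 : ∀ s : Multiset ℂ,
        (Polynomial.aeval M ((s.map fun r => Polynomial.X - Polynomial.C r).prod)).det =
          (s.map fun r => (M.charpoly.roots.map fun α => α - r).prod).prod := by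
      intro s
      induction s using Multiset.induction_on with
      | empty => simp
      | cons a s ih => simp [Matrix.det_mul, ih, hdet']
    rw [e4, Multiset.prod_map_prod_map]
    simp_rw [e2]
  rw [← neg_sub, Matrix.det_neg, e1, Fintype.card_fin,
    show (M.charpoly.roots.map fun α => 1 - α ^ n) =
      M.charpoly.roots.map (fun α => (-1 : ℂ) * (α ^ n - 1)) by simp,
    Multiset.prod_map_mul, Multiset.map_const', Multiset.prod_replicate]
  congr 2
  rw [← hs.natDegree_eq_card_roots, Matrix.charpoly_natDegree_eq_dim, Fintype.card_fin]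

theorem reflect_prod_X_sub_C (s : Multiset ℂ) :
    Polynomial.reflect s.card ((s.map fun α => Polynomial.X - Polynomial.C α).prod) =
      (s.map fun α => 1 - Polynomial.C α * Polynomial.X).prod := by
  induction s using Multiset.induction_on with
  | empty => simp
  | cons a s ih =>
      rw [Multiset.card_cons, Multiset.map_cons, Multiset.prod_cons, Multiset.map_cons,
        Multiset.prod_cons, add_comm, Polynomial.reflect_mul _ _ (Polynomial.natDegree_X_sub_C a).le,
        ih]
      · congr 1
        rw [Polynomial.reflect_sub, Polynomial.reflect_one_X, Polynomial.reflect_C, pow_one]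
      · exact (Polynomial.natDegree_multiset_prod_X_sub_C_eq_card s).le

theorem coe_prod_one_sub (s : Multiset ℂ) :
    (((s.map fun α => 1 - Polynomial.C α * Polynomial.X).prod : Polynomial ℂ) :
        PowerSeries ℂ) = (s.map fun α => 1 - C α * X).prod := by
  induction s using Multiset.induction_on with
  | empty => simp
  | cons a s ih => simp [ih]

theorem hasLD_prod_one_sub (s : Multiset ℂ) :
    HasLD ((s.map fun α => 1 - C α * X).prod) (-(s.map geom).sum) := by
  have := HasLD.prod (f := fun α : ℂ => 1 - C α * X) (S := fun α => -geom α) s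
    fun α _ => hasLD_one_sub α
  rwa [Multiset.sum_map_neg] at this

/-- With `δ = 1`, the numerator of the zeta function. -/
theorem ZetaData.numerator (D : ZetaData q g 1 h A N) :
    ∃ P : Polynomial ℂ,
      (P : PowerSeries ℂ) = (1 - X) * (1 - C (q : ℂ) * X) * countSeries A ∧
      P.natDegree ≤ 2 * g ∧ P.eval 1 = h ∧ P.coeff (2 * g) = (q : ℂ) ^ g ∧
      HasLD (P : PowerSeries ℂ) (-geom 1 + -geom (q : ℂ) + pointSeries N) := by
  have hq : (q : ℂ) - 1 ≠ 0 := by
    rw [sub_ne_zero]; exact_mod_cast D.one_lt.ne'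
  obtain ⟨P, hP, hdeg, hev, hc⟩ := exists_polynomial_of_eventually
    (Q := (q : ℂ)) (E := (h : ℂ)) (B := A) (k := 2 * g) fun m hm => by
      have := D.large_eq q (pow_one q).symm m hm (fun _ => rfl)
      simp only [one_mul] at this
      exact mul_left_cancel₀ hq (by rw [this]; ring)
  refine ⟨P, hP, hdeg, hev, ?_, ?_⟩
  · rw [hc]
    rcases Nat.eq_zero_or_pos g with rfl | hg
    · simp only [mul_zero, if_true, sub_zero, pow_zero]
      have h0 := D.large 0 (by omega) (dvd_zero _)
      have c0 := congrArg (Nat.cast (R := ℂ)) h0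
      push_cast [D.A_zero, Nat.cast_sub D.one_lt.le, Nat.sub_zero, zero_add, pow_one] at c0
      apply mul_left_cancel₀ hq
      linear_combination -c0
    · rw [if_neg (by omega), if_neg (by omega)]
      have h1 := D.large (2 * g - 1) (by omega) (one_dvd _)
      have h2 := D.canonical hg
      rw [show 2 * g - 1 + 1 - g = g - 1 + 1 by omega, pow_succ] at h1
      rw [show 2 * g - 1 - 1 = 2 * g - 2 by omega]
      have c1 := congrArg (Nat.cast (R := ℂ)) h1
      have c2 := congrArg (Nat.cast (R := ℂ)) h2
      push_cast [Nat.cast_sub D.one_lt.le] at c1 c2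
      have hg' : (q : ℂ) ^ g = (q : ℂ) ^ (g - 1) * q := by
        rw [← pow_succ, Nat.sub_add_cancel hg]
      rw [hg']
      apply mul_left_cancel₀ hq
      linear_combination -c1 + (q : ℂ) * c2
  · rw [hP]
    have e := ((hasLD_one_sub 1).mul (hasLD_one_sub (q : ℂ))).mul D.hasLD
    simpa using e

/-- The class numbers of all constant extensions, from one integral matrix. -/
theorem exists_matrix_of_zetaData (q g : ℕ) (N : ℕ → ℕ) (δ h : ℕ → ℕ) (A : ℕ → ℕ → ℕ)
    (H : ∀ n, 0 < n → ZetaData (q ^ n) g (δ n) (h n) (A n) fun m => N (n * m)) :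
    ∃ M : Matrix (Fin (2 * g)) (Fin (2 * g)) ℤ, M.det = (q : ℤ) ^ g ∧
      ∀ n, 0 < n → (h n : ℤ) = (1 - M ^ n).det := by
  have hδ : ∀ n, 0 < n → δ n = 1 := fun n hn => by
    have D := H n hn
    refine D.delta_eq_one (δ' := δ (n * δ n)) (h' := h (n * δ n)) (A' := A (n * δ n)) ?_
    have := H (n * δ n) (Nat.mul_pos hn D.delta_pos)
    rw [pow_mul] at this
    simpa only [mul_assoc] using this
  have hD : ∀ n, 0 < n → ZetaData (q ^ n) g 1 (h n) (A n) fun m => N (n * m) := fun n hn => by
    have := H n hn; rwa [hδ n hn] at this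
  have D1 : ZetaData q g 1 (h 1) (A 1) N := by
    simpa using hD 1 one_pos
  obtain ⟨P, hP, hdeg, -, htop, hLD⟩ := D1.numerator
  have h0 : P.coeff 0 = 1 := by
    rw [← Polynomial.coeff_coe, hP, coeff_zero_eq_constantCoeff, map_mul, map_mul,
      D1.constantCoeff_count]
    simp
  -- integrality of the numerator
  set ser : PowerSeries ℤ := (1 - X) * (1 - C (q : ℤ) * X) * mk fun d => (A 1 d : ℤ) with hser
  have hmap : PowerSeries.map (Int.castRingHom ℂ) ser = (P : PowerSeries ℂ) := by
    rw [hP, hser, map_mul]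
    congr 1
    · simp
  set PZ : Polynomial ℤ := trunc (2 * g + 1) ser
  have hPZ : PZ.map (Int.castRingHom ℂ) = P := by
    ext m
    rw [Polynomial.coeff_map, coeff_trunc]
    split_ifs with hm
    · rw [← Polynomial.coeff_coe, ← hmap, PowerSeries.coeff_map]
    · rw [map_zero, Polynomial.coeff_eq_zero_of_natDegree_lt (by omega)]
  set R : Polynomial ℤ := Polynomial.reflect (2 * g) PZ
  have hR : ∀ i, i ≤ 2 * g → (R.coeff i : ℂ) = P.coeff (2 * g - i) := fun i hi => by
    rw [← hPZ, Polynomial.coeff_map, Polynomial.coeff_reflect, Polynomial.revAt_le hi]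
    rfl
  have hRdeg : R.natDegree ≤ 2 * g := by
    refine Polynomial.natDegree_le_iff_coeff_eq_zero.2 fun i hi => ?_
    rw [Polynomial.coeff_reflect, Polynomial.revAt_eq_self_of_lt hi, coeff_trunc,
      if_neg (by omega)]
  have hRtop : R.coeff (2 * g) = 1 := by
    have := hR _ le_rfl
    rw [Nat.sub_self, h0] at this
    exact_mod_cast this
  have hRdeg' : R.natDegree = 2 * g :=
    le_antisymm hRdeg (Polynomial.le_natDegree_of_ne_zero (by rw [hRtop]; exact one_ne_zero))
  have hRm : R.Monic := by
    rw [Polynomial.Monic, Polynomial.leadingCoeff, hRdeg', hRtop]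
  obtain ⟨M, hM⟩ := exists_charpoly_eq R hRm hRdeg'
  refine ⟨M, ?_, fun n hn => ?_⟩
  · rw [Matrix.det_eq_sign_charpoly_coeff, hM, Fintype.card_fin, pow_mul, neg_one_sq, one_pow,
      one_mul]
    have := hR 0 (Nat.zero_le _)
    rw [Nat.sub_zero, htop] at this
    exact_mod_cast this
  set MC : Matrix (Fin (2 * g)) (Fin (2 * g)) ℂ := M.map (Int.castRingHom ℂ) with hMC
  have hcp : MC.charpoly = Polynomial.reflect (2 * g) P := by
    rw [hMC, Matrix.charpoly_map, hM, ← hPZ]
    ext i
    simp [R, Polynomial.coeff_reflect]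
  set s := MC.charpoly.roots with hs
  have hcard : s.card = 2 * g := by
    rw [hs, ← (IsAlgClosed.splits MC.charpoly).natDegree_eq_card_roots,
      Matrix.charpoly_natDegree_eq_dim, Fintype.card_fin]
  have hfac : (P : PowerSeries ℂ) = (s.map fun α => 1 - C α * X).prod := by
    rw [← coe_prod_one_sub, ← reflect_prod_X_sub_C, hcard, hs,
      ← (IsAlgClosed.splits MC.charpoly).eq_prod_roots_of_monic (Matrix.charpoly_monic _), hcp,
      Polynomial.reflect_reflect]
  have hne : (P : PowerSeries ℂ) ≠ 0 := fun e => by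
    have := congrArg constantCoeff e
    rw [← coeff_zero_eq_constantCoeff, Polynomial.coeff_coe, h0] at this
    simp at this
  have hS : -geom 1 + -geom (q : ℂ) + pointSeries N = -(s.map geom).sum :=
    hLD.unique_right (hfac ▸ hasLD_prod_one_sub s) hne
  obtain ⟨Pn, hPn, -, hevn, -, hLDn⟩ := (hD n hn).numerator
  have hfn : (Pn : PowerSeries ℂ) = ((s.map (· ^ n)).map fun α => 1 - C α * X).prod := by
    refine hLDn.unique ?_ ?_ ?_
    · convert hasLD_prod_one_sub (s.map (· ^ n)) using 1
      ext m
      rcases Nat.eq_zero_or_pos m with rfl | hm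
      · have : ∀ t : Multiset ℂ, constantCoeff (t.map geom).sum = 0 := fun t => by
          induction t using Multiset.induction_on with
          | empty => simp
          | cons a t ih => simp [ih, constantCoeff_geom]
        have := this (s.map (· ^ n))
        rw [Multiset.map_map] at this
        simp [constantCoeff_geom, constantCoeff_pointSeries, *, Function.comp_def] at this ⊢
        exact this
      · have e := congrArg (coeff (n * m)) hS
        simp only [map_add, map_neg, map_multiset_sum, Multiset.map_map, Function.comp_def,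
          geom, pointSeries, coeff_mk, one_pow] at e ⊢
        simp only [if_neg (Nat.mul_ne_zero hn.ne' hm.ne'), if_neg hm.ne', Nat.cast_pow,
          ← pow_mul] at e ⊢
        exact e
    · simp [constantCoeff_geom, constantCoeff_pointSeries]
    · rw [← coeff_zero_eq_constantCoeff, Polynomial.coeff_coe, ← Polynomial.coeff_coe, hPn,
        coeff_zero_eq_constantCoeff, map_mul, (hD n hn).constantCoeff_count]
      simp [map_multiset_prod, Multiset.map_map, Function.comp_def]
  rw [← coe_prod_one_sub] at hfn
  replace hfn := Polynomial.coe_injective ℂ hfn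
  have e : (h n : ℂ) = ((1 - MC ^ n).det) := by
    rw [det_one_sub_pow_eq_prod MC hn.ne', ← hevn, hfn, Polynomial.eval_multiset_prod]
    simp [Multiset.map_map, Function.comp_def, hs]
  have e2 : (1 - MC ^ n).det = ((1 - M ^ n).det : ℂ) := by
    rw [hMC]
    have := RingHom.map_det (Int.castRingHom ℂ) (1 - M ^ n)
    simp only [map_sub, map_pow, map_one, RingHom.mapMatrix_apply, eq_intCast] at this
    exact this.symm
  rw [e2] at e
  exact_mod_cast e

end Fermat.Agent.Curve.ZetaSeries
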