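/-
Torsion of `Pic⁰` over the algebraic closure of a finite field, from the facts of the
Riemann–Roch theorem.
-/
import Fermat.Agent.Curve.ZetaClass
import Fermat.Agent.Curve.ZetaRational
import Fermat.Agent.Curve.ZetaGroup

set_option autoImplicit false

noncomputable section

namespace Fermat.Agent.Curve.ZetaFrob

open AlgebraicCurve AlgebraicCurve.SemilinearAut ZetaGroup

variable {K F : Type*} [Field K] [Field F] [Algebra K F]

/-- A Frobenius acting on the classes of degree zero. -/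
def frobEnd (σ : SemilinearAut K F) : AddMonoid.End (Pic0 K F) :=
  DistribSMul.toAddMonoidHom (Pic0 K F) σ

theorem frobEnd_pow (σ : SemilinearAut K F) (n : ℕ) (x : Pic0 K F) :
    (frobEnd σ ^ n) x = σ ^ n • x := by
  induction n with
  | zero => rw [pow_zero, pow_zero, one_smul]; rfl
  | succ n ih => rw [pow_succ', end_mul_apply, ih, pow_succ', mul_smul]; rfl

theorem tor_eq_torsion (m : ℕ) : tor (Pic0 K F) m = Pic0.torsion K F m := by
  ext x
  rw [mem_tor, Pic0.mem_torsion, natCast_zsmul]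

variable [IsAlgClosed K] [IsCurveOver K F] [Algebra.EssFiniteType K F]

/-- The matrix of Frobenius. -/
theorem exists_isCountedBy {g : ℕ} (R : RRFacts K F g) (p : ℕ) [Fact p.Prime] [CharP K p]
    (hK : ∀ c : K, ∃ n, 0 < n ∧ c ^ p ^ n = c) :
    ∃ (φ : AddMonoid.End (Pic0 K F)) (M : Matrix (Fin (2 * g)) (Fin (2 * g)) ℤ) (h : ℕ → ℕ)
      (r : ℕ), M.det = (p : ℤ) ^ r ∧ IsCountedBy φ M h := by
  obtain ⟨σ, r, -, hσ⟩ := exists_isFrob (F := F) p hK
  choose! δ hδ using fun n (hn : 0 < n) => (hσ.pow hn).zetaData R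
  obtain ⟨M, hdet, hM⟩ := ZetaSeries.exists_matrix_of_zetaData (p ^ r) g
    (fun m => (fixSet σ m).ncard) δ (fun n => (fixClass (σ ^ n)).ncard)
    (fun n d => (effSet (σ ^ n) d).ncard) fun n hn => by
      have := hδ n hn
      simpa only [fixSet, ← pow_mul] using this
  refine ⟨frobEnd σ, M, fun n => (fixClass (σ ^ n)).ncard, r * g, ?_, ?_, ?_, ?_, hM⟩
  · rw [hdet]; push_cast; rw [pow_mul]
  · intro x
    obtain ⟨⟨D, hD⟩, rfl⟩ := Pic0.mk_surjective x
    obtain ⟨N, hN, e⟩ := hσ.exists_period_divisor D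
    refine ⟨N, hN, ?_⟩
    rw [frobEnd_pow, pic0_smul_mk]
    exact congrArg Pic0.mk (Subtype.ext e)
  · intro n hn
    rw [← Nat.card_coe_set_eq]
    refine Nat.card_congr (Equiv.subtypeEquivRight fun x => ?_)
    rw [mem_fixedBy, frobEnd_pow]
    rfl
  · intro n hn
    obtain ⟨δ', hδ'⟩ := (hσ.pow hn).zetaData R
    exact hδ'.h_pos

theorem isTorsion_of_rrFacts {g : ℕ} (R : RRFacts K F g) (p : ℕ) [Fact p.Prime] [CharP K p]
    (hK : ∀ c : K, ∃ n, 0 < n ∧ c ^ p ^ n = c) (x : Pic0 K F) :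
    ∃ N : ℕ, 0 < N ∧ N • x = 0 := by
  obtain ⟨φ, M, h, r, -, H⟩ := exists_isCountedBy R p hK
  exact H.isTorsion x

theorem not_dvd_det {ℓ p r : ℕ} (hl : ℓ.Prime) (hp : p.Prime) (hne : ℓ ≠ p) :
    ¬ (ℓ : ℤ) ∣ (p : ℤ) ^ r := by
  intro h
  have := Int.natCast_dvd_natCast.1 (Int.Prime.dvd_pow' hl h)
  exact hne ((Nat.prime_dvd_prime_iff_eq hl hp).1 this)

theorem finite_torsion_of_rrFacts {g : ℕ} (R : RRFacts K F g) (p : ℕ) [hp : Fact p.Prime]
    [CharP K p] (hK : ∀ c : K, ∃ n, 0 < n ∧ c ^ p ^ n = c) (m : ℕ) (hm : (m : K) ≠ 0) :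
    Finite (Pic0.torsion K F m) := by
  obtain ⟨φ, M, h, r, hdet, H⟩ := exists_isCountedBy R p hK
  rw [← tor_eq_torsion]
  have hm' : ¬ p ∣ m := by rwa [← CharP.cast_eq_zero_iff K p]
  clear hm
  induction m using Nat.recOnMul with
  | zero => exact absurd (dvd_zero p) hm'
  | one =>
      exact Finite.of_injective (fun _ => ()) fun a b _ => Subtype.ext (by
        have ha := mem_tor.1 a.2
        have hb := mem_tor.1 b.2
        rw [one_smul] at ha hb
        rw [ha, hb])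
  | prime ℓ hℓ =>
      have : Fact ℓ.Prime := ⟨hℓ⟩
      refine H.finite_tor ℓ ?_
      rw [hdet]
      exact not_dvd_det hℓ hp.out fun e => hm' (e ▸ dvd_rfl)
  | mul a b iha ihb =>
      have := iha fun e => hm' (e.mul_right b)
      have := ihb fun e => hm' (e.mul_left a)
      exact finite_tor_mul a b

theorem natCard_torsion_pow_of_rrFacts {g : ℕ} (R : RRFacts K F g) (p : ℕ) [hp : Fact p.Prime]
    [CharP K p] (hK : ∀ c : K, ∃ n, 0 < n ∧ c ^ p ^ n = c) (ℓ : ℕ) [hℓ : Fact ℓ.Prime]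
    (hne : ℓ ≠ p) (hdiv : ∀ x : Pic0 K F, ∃ y : Pic0 K F, ℓ • y = x) (k : ℕ) :
    Nat.card (Pic0.torsion K F (ℓ ^ k)) = ℓ ^ (2 * g * k) := by
  obtain ⟨φ, M, h, r, hdet, H⟩ := exists_isCountedBy R p hK
  rw [← tor_eq_torsion]
  exact H.natCard_tor_pow ℓ (hdet ▸ not_dvd_det hℓ.out hp.out hne) hdiv k

end Fermat.Agent.Curve.ZetaFrob
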