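/-
Class numbers of function fields over finite fields, seen over an algebraic closure `K` of a
prime field of characteristic `p`: every divisor class of degree zero is torsion, the prime to
`p` torsion is finite and has corank `2 g`.
-/
import Fermat.Prelude.Def_AlgebraicCurve_DivisorClassGroup
import Fermat.Prelude.Def_AlgebraicCurve_IsCurveOver
import Fermat.Prelude.Def_AlgebraicCurve_Repartitions
import Mathlib.RingTheory.EssentialFiniteness
import Fermat.Agent.Curve.ZetaMain
import Fermat.Agent.Curve.BasicInstances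
import Fermat.Agent.Curve.RiemannRochDuality
import Mathlib.Algebra.CharP.Basic

set_option autoImplicit false

open AlgebraicCurve

namespace Fermat.Agent.Curve

variable {K F : Type*} [Field K] [Field F] [Algebra K F]

/-- The facts used by the counting, from the theorem of Riemann and Roch. -/
theorem rrFacts_of_isCurveOver [IsAlgClosed K] [IsCurveOver K F] [Algebra.EssFiniteType K F] :
    ZetaFrob.RRFacts K F (genusFF K F) := by
  have : IsFunctionFieldOne K F := isFunctionFieldOne_of_isCurveOver
  exact ⟨fun D => inferInstance, fun D hD => ellDim_eq_of_degree_ge hD,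
    exists_canonical_divisor_and_eq_of_not_principal K F⟩

/-- Every class of degree zero is torsion. -/
theorem isTorsion_pic0_of_algClosure_finite [IsAlgClosed K] [IsCurveOver K F]
    [Algebra.EssFiniteType K F] (p : ℕ) [Fact p.Prime] [CharP K p]
    (hK : ∀ c : K, ∃ n, 0 < n ∧ c ^ p ^ n = c) (x : Pic0 K F) :
    ∃ N : ℕ, 0 < N ∧ N • x = 0 := by
  exact ZetaFrob.isTorsion_of_rrFacts rrFacts_of_isCurveOver p hK x

/-- The torsion of order prime to the characteristic is finite. -/
theorem finite_torsion_of_algClosure_finite [IsAlgClosed K] [IsCurveOver K F]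
    [Algebra.EssFiniteType K F] (p : ℕ) [Fact p.Prime] [CharP K p]
    (hK : ∀ c : K, ∃ n, 0 < n ∧ c ^ p ^ n = c) (m : ℕ) (hm : (m : K) ≠ 0) :
    Finite (Pic0.torsion K F m) := by
  exact ZetaFrob.finite_torsion_of_rrFacts rrFacts_of_isCurveOver p hK m hm

/-- With `ℓ`-divisibility, the `ℓ^k`-torsion has `ℓ^(2gk)` elements (`ℓ ≠ p`). -/
theorem natCard_torsion_pow_of_algClosure_finite [IsAlgClosed K] [IsCurveOver K F]
    [Algebra.EssFiniteType K F] (p : ℕ) [Fact p.Prime] [CharP K p]
    (hK : ∀ c : K, ∃ n, 0 < n ∧ c ^ p ^ n = c) (ℓ : ℕ) [Fact ℓ.Prime] (hℓ : ℓ ≠ p)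
    (hdiv : ∀ x : Pic0 K F, ∃ y : Pic0 K F, ℓ • y = x) (k : ℕ) :
    Nat.card (Pic0.torsion K F (ℓ ^ k)) = ℓ ^ (2 * genusFF K F * k) := by
  exact ZetaFrob.natCard_torsion_pow_of_rrFacts rrFacts_of_isCurveOver p hK ℓ hℓ hdiv k

end Fermat.Agent.Curve
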