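/-
A valuation ring of an algebraic extension of `ℚ` has rank at most one.
-/
import Mathlib.RingTheory.Valuation.ValuationSubring
import Mathlib.RingTheory.Algebraic.Basic
import Mathlib.Data.Rat.Lemmas
import Mathlib.Algebra.GroupWithZero.Basic
import Mathlib.RingTheory.Int.Basic

set_option autoImplicit false

namespace Fermat.Agent.Curve.Connected

open Polynomial

variable {K : Type*} [Field K] (A : ValuationSubring K)

theorem valuation_intCast_le_one (z : ℤ) : A.valuation (z : K) ≤ 1 :=
  (A.valuation_le_one_iff _).2 (intCast_mem A z)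

/-- All integers of valuation less than one have comparable valuations. -/
theorem exists_pow_valuation_le {z z' : ℤ} (hz : A.valuation (z : K) < 1) (hz' : z' ≠ 0) :
    ∃ n : ℕ, A.valuation (z : K) ^ n ≤ A.valuation (z' : K) := by
  induction h : z'.natAbs using Nat.strong_induction_on generalizing z' with
  | _ N ih =>
    subst h
    rcases lt_or_eq_of_le (valuation_intCast_le_one A z') with hlt | heq
    · set g : ℤ := (Int.gcd z z' : ℤ)
      have hg : A.valuation (g : K) < 1 := by
        rw [show (g : K) = (z : K) * (Int.gcdA z z' : K) + (z' : K) * (Int.gcdB z z' : K) by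
          simp only [g]
          exact_mod_cast congrArg (Int.cast : ℤ → K) (Int.gcd_eq_gcd_ab z z')]
        refine (Valuation.map_add _ _ _).trans_lt (max_lt ?_ ?_) <;> rw [map_mul]
        · exact (mul_le_of_le_one_right' (valuation_intCast_le_one A _)).trans_lt hz
        · exact (mul_le_of_le_one_right' (valuation_intCast_le_one A _)).trans_lt hlt
      have hg1 : (Int.gcd z z') ≠ 1 := fun h1 => by
        simp [g, h1] at hg
      obtain ⟨w, hw⟩ := Int.gcd_dvd_right z z'
      obtain ⟨u, hu⟩ := Int.gcd_dvd_left z z'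
      have hw0 : w ≠ 0 := fun h0 => hz' (by rw [hw, h0, mul_zero])
      have hlt' : w.natAbs < z'.natAbs := by
        conv_rhs => rw [hw, Int.natAbs_mul, Int.natAbs_natCast]
        have h2 : 2 ≤ Int.gcd z z' := by
          have : Int.gcd z z' ≠ 0 := fun h0 => hz' (Int.gcd_eq_zero_iff.1 h0).2
          omega
        have hwpos := Int.natAbs_pos.2 hw0
        calc w.natAbs < 2 * w.natAbs := by omega
          _ ≤ Int.gcd z z' * w.natAbs := Nat.mul_le_mul_right _ h2
      obtain ⟨n, hn⟩ := ih _ hlt' hw0 rfl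
      refine ⟨n + 1, ?_⟩
      have hzg : A.valuation (z : K) ≤ A.valuation (g : K) := by
        conv_lhs => rw [hu, Int.cast_mul, map_mul]
        exact mul_le_of_le_one_right' (valuation_intCast_le_one A _)
      conv_rhs => rw [hw, Int.cast_mul, map_mul, mul_comm]
      rw [pow_succ]
      exact mul_le_mul' hn hzg
    · exact ⟨0, by rw [pow_zero, heq]⟩

/-- Some positive power of a non-zero algebraic number has the valuation of a rational. -/
theorem exists_pow_valuation_eq_rat [Algebra ℚ K] {y : K} (hy0 : y ≠ 0)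
    (hy : IsAlgebraic ℚ y) :
    ∃ (s : ℕ) (q : ℚ), 0 < s ∧ q ≠ 0 ∧
      A.valuation y ^ s = A.valuation (algebraMap ℚ K q) := by
  obtain ⟨p, hp0, hp⟩ := hy
  let f : ℕ → K := fun i => algebraMap ℚ K (p.coeff i) * y ^ i
  have hsum : ∑ i ∈ p.support, f i = 0 := by
    rw [← hp, aeval_def, eval₂_eq_sum]
    rfl
  obtain ⟨i, hi, hmax⟩ := p.support.exists_max_image (fun i => A.valuation (f i))
    (support_nonempty.2 hp0)
  obtain ⟨j, hj, hji, hval⟩ : ∃ j ∈ p.support, j ≠ i ∧ A.valuation (f j) = A.valuation (f i) := by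
    by_contra hc
    push Not at hc
    have := Valuation.map_sum_eq_of_lt A.valuation hi (f := f)
      (fun l hl => by
        rw [Finset.mem_sdiff, Finset.notMem_singleton] at hl
        exact lt_of_le_of_ne (hmax l hl.1) (hc l hl.1 hl.2))
    rw [hsum, map_zero] at this
    exact (Valuation.ne_zero_iff A.valuation).2 (mul_ne_zero
      (fun h' => mem_support_iff.1 hi ((map_eq_zero _).1 h')) (pow_ne_zero _ hy0)) this.symm
  have hci := mem_support_iff.1 hi
  have hcj := mem_support_iff.1 hj
  have hy' := (Valuation.ne_zero_iff A.valuation).2 hy0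
  simp only [f, map_mul, map_pow] at hval
  have hA : ∀ {a b : ℕ}, a < b → p.coeff b ≠ 0 →
      A.valuation (algebraMap ℚ K (p.coeff a)) * A.valuation y ^ a =
        A.valuation (algebraMap ℚ K (p.coeff b)) * A.valuation y ^ b →
      A.valuation y ^ (b - a) = A.valuation (algebraMap ℚ K (p.coeff a / p.coeff b)) := by
    intro a b hab hb he
    have hb' : A.valuation (algebraMap ℚ K (p.coeff b)) ≠ 0 :=
      (Valuation.ne_zero_iff _).2 ((map_ne_zero (algebraMap ℚ K)).2 hb)
    rw [map_div₀, map_div₀, eq_div_iff hb']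
    refine mul_right_cancel₀ (pow_ne_zero a hy') ?_
    rw [he, mul_comm (A.valuation y ^ (b - a)), mul_assoc, ← pow_add, Nat.sub_add_cancel hab.le]
  rcases lt_or_gt_of_ne hji with h | h
  · exact ⟨i - j, _, by omega, div_ne_zero hcj hci, hA h hci hval⟩
  · exact ⟨j - i, _, by omega, div_ne_zero hci hcj, hA h hcj hval.symm⟩

/-- **Rank at most one.** -/
theorem exists_dvd_pow_of_isAlgebraic_rat [Algebra ℚ K] [Algebra.IsAlgebraic ℚ K] (a d : A)
    (ha : a ∈ IsLocalRing.maximalIdeal A) (hd : d ≠ 0) : ∃ n : ℕ, d ∣ a ^ n := by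
  rcases eq_or_ne a 0 with rfl | ha0
  · exact ⟨1, by simp⟩
  have haK : (a : K) ≠ 0 := by simpa using ha0
  have hdK : (d : K) ≠ 0 := by simpa using hd
  obtain ⟨s, q, hs, -, hsq⟩ := exists_pow_valuation_eq_rat A haK (Algebra.IsAlgebraic.isAlgebraic _)
  obtain ⟨t, q', ht, hq', htq⟩ := exists_pow_valuation_eq_rat A hdK (Algebra.IsAlgebraic.isAlgebraic _)
  have hlt : A.valuation (a : K) < 1 := (A.valuation_lt_one_iff a).1 ha
  have hdle : A.valuation (d : K) ≤ 1 := (A.valuation_le_one_iff _).2 d.2
  have hqlt : A.valuation (algebraMap ℚ K q) < 1 := hsq ▸ pow_lt_one₀ zero_le hlt hs.ne'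
  have hcast : ∀ r : ℚ, A.valuation (algebraMap ℚ K r) * A.valuation ((r.den : ℤ) : K) =
      A.valuation ((r.num : ℤ) : K) := fun r => by
    rw [← map_mul, ← map_intCast (algebraMap ℚ K), ← map_intCast (algebraMap ℚ K), ← map_mul,
      Int.cast_natCast, Rat.mul_den_eq_num]
  have hnum : A.valuation (q.num : K) < 1 := by
    rw [← hcast q]
    exact (mul_le_of_le_one_right' (valuation_intCast_le_one A _)).trans_lt hqlt
  have hden : A.valuation ((q.den : ℤ) : K) = 1 := by
    refine (valuation_intCast_le_one A _).antisymm (le_of_not_gt fun hd' => ?_)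
    obtain ⟨x, y, hxy⟩ : IsCoprime q.num (q.den : ℤ) := Rat.isCoprime_num_den q
    have h1 : A.valuation ((x : K) * (q.num : K) + (y : K) * ((q.den : ℤ) : K)) < 1 := by
      refine (Valuation.map_add _ _ _).trans_lt (max_lt ?_ ?_) <;> rw [map_mul]
      · exact (mul_le_of_le_one_left' (valuation_intCast_le_one A _)).trans_lt hnum
      · exact (mul_le_of_le_one_left' (valuation_intCast_le_one A _)).trans_lt hd'
    rw [← Int.cast_mul, ← Int.cast_mul, ← Int.cast_add, hxy, Int.cast_one, map_one] at h1
    exact h1.false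
  obtain ⟨n, hn⟩ := exists_pow_valuation_le A hnum (Rat.num_ne_zero.2 hq')
  refine ⟨s * n, ?_⟩
  suffices hv : A.valuation ((a : K) ^ (s * n)) ≤ A.valuation (d : K) by
    obtain ⟨c, hc⟩ := (A.valuation_le_iff _ _).1 hv
    exact ⟨c, Subtype.ext (by simp [← hc, mul_comm])⟩
  rw [map_pow, pow_mul, hsq]
  calc A.valuation (algebraMap ℚ K q) ^ n = A.valuation (q.num : K) ^ n := by
        rw [← hcast q, hden, mul_one]
    _ ≤ A.valuation (q'.num : K) := hn
    _ ≤ A.valuation (algebraMap ℚ K q') := by
        rw [← hcast q']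
        exact mul_le_of_le_one_right' (valuation_intCast_le_one A _)
    _ = A.valuation (d : K) ^ t := htq.symm
    _ ≤ A.valuation (d : K) := pow_le_of_le_one zero_le hdle ht.ne'

end Fermat.Agent.Curve.Connected
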