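/-
Constant field extension: compatibility of `placeExt`, `divExt`, `picExt` with finite maps of
function fields (push-forward, pull-back, correspondences) and with semilinear automorphisms.
-/
import Fermat.Agent.Curve.ConstExtPlace
import Fermat.Prelude.Def_AlgebraicCurve_Correspondence
import Fermat.Prelude.Def_AlgebraicCurve_BaseChangeGalois

set_option autoImplicit false

noncomputable section

namespace Fermat.Agent.Curve

open AlgebraicCurve

universe uK uF uF₁ uΩ uE uE₁

variable {K : Type uK} {F : Type uF} {F₁ : Type uF₁} {Ω : Type uΩ} {E : Type uE} {E₁ : Type uE₁}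
  [Field K] [Field F] [Field F₁] [Field Ω] [Field E] [Field E₁]
  [Algebra K F] [Algebra K F₁] [Algebra K Ω]
  [Algebra K E] [Algebra F E] [Algebra Ω E] [IsScalarTower K F E] [IsScalarTower K Ω E]
  [Algebra K E₁] [Algebra F₁ E₁] [Algebra Ω E₁] [IsScalarTower K F₁ E₁] [IsScalarTower K Ω E₁]
  [IsAlgClosed K] [IsCurveOver K F] [IsCurveOver K F₁]
  [IsConstExt K F Ω E] [IsConstExt K F₁ Ω E₁]

theorem exists_algebraMap_notMem_placeExt (v : Place K F) :
    ∃ f : F, algebraMap F E f ∉ (placeExt Ω E v).toValuationSubring := by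
  by_contra h
  push Not at h
  exact v.ne_top' (SetLike.ext fun f => ⟨fun _ => ValuationSubring.mem_top f,
    fun _ => (algebraMap_mem_placeExt v).mp (h f)⟩)

section Finite

variable {φ : F →ₐ[K] F₁} {φE : E →ₐ[Ω] E₁}
  (h : ∀ f : F, φE (algebraMap F E f) = algebraMap F₁ E₁ (φ f))
  (hφ : φ.toRingHom.IsIntegral) (hφE : φE.toRingHom.IsIntegral)

omit [IsAlgClosed K] [IsCurveOver K F] [IsCurveOver K F₁] [IsConstExt K F Ω E]
  [IsConstExt K F₁ Ω E₁] in
theorem mem_restrictAlong_iff {L M M' : Type*} [Field L] [Field M] [Field M'] [Algebra L M]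
    [Algebra L M'] (ψ : M →ₐ[L] M') (hψ : ψ.toRingHom.IsIntegral) (w : Place L M') (f : M) :
    f ∈ (w.restrictAlong ψ hψ).toValuationSubring ↔ ψ f ∈ w.toValuationSubring := by
  letI := algebraAlong ψ
  have := isScalarTower_along ψ
  have := isIntegral_along ψ hψ
  exact Place.mem_restrict_iff w

include h in
theorem restrictAlong_placeExt (w : Place K F₁) :
    (placeExt Ω E₁ w).restrictAlong φE hφE = placeExt Ω E (w.restrictAlong φ hφ) := by
  have hmem : ∀ f : F,
      algebraMap F E f ∈ ((placeExt Ω E₁ w).restrictAlong φE hφE).toValuationSubring ↔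
        f ∈ (w.restrictAlong φ hφ).toValuationSubring := fun f => by
    rw [mem_restrictAlong_iff, h, algebraMap_mem_placeExt, mem_restrictAlong_iff]
  refine eq_placeExt _ (fun f hf => (hmem f).mpr hf) ?_
  by_contra hall
  push Not at hall
  exact (w.restrictAlong φ hφ).ne_top' (SetLike.ext fun f =>
    ⟨fun _ => ValuationSubring.mem_top f, fun _ => (hmem f).mp (hall f)⟩)

include h hφ hφE in
theorem ramificationIndexAlong_placeExt (w : Place K F₁) :
    Place.ramificationIndexAlong φE (placeExt Ω E₁ w) = Place.ramificationIndexAlong φ w := by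
  obtain ⟨f, -, hford⟩ := exists_ord_eq (w.restrictAlong φ hφ) 1
  have h1 := Place.ord_restrictAlong φ hφ w f
  have h2 := Place.ord_restrictAlong φE hφE (placeExt Ω E₁ w) (algebraMap F E f)
  rw [restrictAlong_placeExt h hφ hφE, ord_placeExt, h, ord_placeExt, h1, hford] at h2
  omega

variable [IsAlgClosed Ω] [IsCurveOver Ω E] [IsCurveOver Ω E₁]

theorem inertiaDegAlong_eq_one {L M M' : Type*} [Field L] [Field M] [Field M'] [Algebra L M]
    [Algebra L M'] [IsAlgClosed L] [IsCurveOver L M] [IsCurveOver L M'] (ψ : M →ₐ[L] M')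
    (hψ : ψ.toRingHom.IsIntegral) (w : Place L M') : w.inertiaDegAlong ψ hψ = 1 := by
  letI := algebraAlong ψ
  have := isScalarTower_along ψ
  have := isIntegral_along ψ hψ
  have h1 := w.deg_restrict_mul_inertiaDeg (F := M)
  rw [IsCurveOver.deg_eq_one_of_isAlgClosed, IsCurveOver.deg_eq_one_of_isAlgClosed, one_mul] at h1
  exact h1

include h in
theorem pushforwardAlong_divExt (D : Divisor K F₁) :
    Divisor.pushforwardAlong φE hφE (divExt Ω E₁ D) =
      divExt Ω E (Divisor.pushforwardAlong φ hφ D) := by
  induction D using Finsupp.induction with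
  | zero => simp
  | single_add v n D _ _ ih =>
    rw [map_add, map_add, map_add, map_add, ih, divExt_single, Divisor.pushforwardAlong_single,
      Divisor.pushforwardAlong_single, divExt_single, restrictAlong_placeExt h hφ hφE,
      inertiaDegAlong_eq_one, inertiaDegAlong_eq_one]

include h in
omit [IsAlgClosed Ω] [IsCurveOver Ω E] in
theorem pullbackAlong_divExt (D : Divisor K F) :
    Divisor.pullbackAlong φE hφE (divExt Ω E D) =
      divExt Ω E₁ (Divisor.pullbackAlong φ hφ D) := by
  refine Finsupp.ext fun W => ?_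
  rw [Divisor.pullbackAlong_apply]
  rcases exists_eq_placeExt_or (K := K) (F := F₁) W with ⟨w, rfl⟩ | hW
  · rw [divExt_apply_placeExt, Divisor.pullbackAlong_apply,
      restrictAlong_placeExt h hφ hφE, divExt_apply_placeExt,
      ramificationIndexAlong_placeExt h hφ hφE]
  · have hr : ∀ f : F, algebraMap F E f ∈ (W.restrictAlong φE hφE).toValuationSubring := fun f => by
      rw [mem_restrictAlong_iff, h]
      exact hW (φ f)
    rw [divExt_apply_of_forall_mem _ hW, divExt_apply_of_forall_mem _ hr, mul_zero]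

variable {ψ : F →ₐ[K] F₁} {ψE : E →ₐ[Ω] E₁}
  (h' : ∀ f : F, ψE (algebraMap F E f) = algebraMap F₁ E₁ (ψ f))
  (hψ : ψ.toRingHom.IsIntegral) (hψE : ψE.toRingHom.IsIntegral)

include h h' in
theorem divCorrespondence_divExt (D : Divisor K F) :
    Divisor.correspondence φE ψE hφE hψE (divExt Ω E D) =
      divExt Ω E (Divisor.correspondence φ ψ hφ hψ D) := by
  rw [Divisor.correspondence_apply, Divisor.correspondence_apply,
    pullbackAlong_divExt h hφ hφE, pushforwardAlong_divExt h' hψ hψE]

include h h' in
theorem correspondence_picExt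
    (hFI : FundamentalIdentityAlong K φ hφ) (hfin : FiniteAlong K ψ)
    (hN : NormFormulaAlong K ψ hfin)
    (hFIE : FundamentalIdentityAlong Ω φE hφE) (hfinE : FiniteAlong Ω ψE)
    (hNE : NormFormulaAlong Ω ψE hfinE) (x : Pic0 K F) :
    Pic0.correspondence φE ψE hφE hψE hFIE hfinE hNE (picExt Ω E x) =
      picExt Ω E (Pic0.correspondence φ ψ hφ hψ hFI hfin hN x) := by
  obtain ⟨D, rfl⟩ := Pic0.mk_surjective x
  rw [picExt_mk, Pic0.correspondence_mk, Pic0.correspondence_mk, picExt_mk]
  refine congrArg Pic0.mk (Subtype.ext ?_)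
  rw [Pic0.coe_degZeroCorrespondence, coe_degZeroExt, coe_degZeroExt,
    Pic0.coe_degZeroCorrespondence, divCorrespondence_divExt h hφ hφE h' hψ hψE]

end Finite

section Semilinear

variable {g : SemilinearAut K F} {g' : SemilinearAut Ω E}
  (hg : ∀ f : F, g' • algebraMap F E f = algebraMap F E (g • f))

include hg in
theorem smul_placeExt_of_intertwines (v : Place K F) :
    g' • placeExt Ω E v = placeExt Ω E (g • v) := by
  have hg' : ∀ f : F, g'⁻¹ • algebraMap F E f = algebraMap F E (g⁻¹ • f) := fun f => by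
    rw [← smul_inv_smul g f, ← hg, inv_smul_smul, smul_inv_smul]
  have hmem : ∀ f : F, algebraMap F E f ∈ (g' • placeExt Ω E v).toValuationSubring ↔
      f ∈ (g • v).toValuationSubring := fun f => by
    rw [SemilinearAut.smul_toValuationSubring, SemilinearAut.smul_toValuationSubring,
      ValuationSubring.mem_pointwise_smul_iff_inv_smul_mem,
      ValuationSubring.mem_pointwise_smul_iff_inv_smul_mem, hg', algebraMap_mem_placeExt]
  refine eq_placeExt _ (fun f hf => (hmem f).mpr hf) ?_
  obtain ⟨f, hf⟩ := exists_algebraMap_notMem_placeExt (Ω := Ω) (E := E) (g • v)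
  exact ⟨f, fun hf' => hf ((algebraMap_mem_placeExt _).mpr ((hmem f).mp hf'))⟩

include hg in
theorem smul_divExt_of_intertwines (D : Divisor K F) :
    g' • divExt Ω E D = divExt Ω E (g • D) := by
  induction D using Finsupp.induction with
  | zero => simp
  | single_add v n D _ _ ih =>
    rw [map_add, smul_add, smul_add, map_add, ih, divExt_single, SemilinearAut.smul_single,
      SemilinearAut.smul_single, divExt_single, smul_placeExt_of_intertwines hg]

include hg in
theorem smul_picExt_of_intertwines [IsAlgClosed Ω] [IsCurveOver Ω E] (x : Pic0 K F) :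
    g' • picExt Ω E x = picExt Ω E (g • x) := by
  obtain ⟨D, rfl⟩ := Pic0.mk_surjective x
  rw [picExt_mk, SemilinearAut.pic0_smul_mk, SemilinearAut.pic0_smul_mk, picExt_mk]
  refine congrArg Pic0.mk (Subtype.ext ?_)
  rw [SemilinearAut.coe_degZeroSMulHom, coe_degZeroExt, coe_degZeroExt,
    SemilinearAut.coe_degZeroSMulHom, smul_divExt_of_intertwines hg]

end Semilinear

end Fermat.Agent.Curve
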