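/-
Constant field extension for `X₀(N)`: an embedding `ι : ℚ̄ → ℂ` induces a map of places and an
injective map `JZero N → Pic⁰(ℂ(j, j_N))`, bijective on finite torsion.
-/
import Fermat.Agent.Curve.ConstExtModular
import Fermat.Agent.Curve.ConstExtRigid
import Fermat.Agent.Curve.BasicModular
import Fermat.Agent.ModFun.Field
import Fermat.Agent.Galois.QbarInstances

set_option autoImplicit false

noncomputable section

namespace Fermat.Agent.Curve

open AlgebraicCurve ModularCurve

variable (N : ℕ) [NeZero N] (ι : AlgebraicClosure ℚ →+* ℂ)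

theorem jqModC_mem_laurentBaseChange_bar :
    jqModC (AlgebraicClosure ℚ) ∈ modularFunctionFieldBar N := by
  have h := coeffEmb_mem_laurentBaseChange (AlgebraicClosure ℚ)
    (jqd_mem_full N (d := 1) (one_dvd N))
  rwa [qExpand_one_apply, ← jqModC_rat, coeffEmb, coeffMap_jqModC] at h

theorem jqNModC_mem_laurentBaseChange_bar :
    jqNModC (AlgebraicClosure ℚ) N ∈ modularFunctionFieldBar N := by
  have h := coeffEmb_mem_laurentBaseChange (AlgebraicClosure ℚ) (jqd_mem_full N (dvd_refl N))
  rwa [← jqModC_rat, show qExpand ℚ N (jqModC ℚ) = jqNModC ℚ N from rfl, coeffEmb,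
    coeffMap_jqNModC] at h

/-- The algebra structure of `ℂ(j, j_N)` over `ℚ̄` given by `ι`. -/
abbrev qbarAlgebraC : Algebra (AlgebraicClosure ℚ) (modularFunctionFieldC ℂ N) :=
  ((algebraMap ℂ (modularFunctionFieldC ℂ N)).comp ι).toAlgebra

/-- The algebra structure of `ℂ(j, j_N)` over the arithmetic field given by `ι`. -/
abbrev barAlgebraC : Algebra (modularFunctionFieldBar N) (modularFunctionFieldC ℂ N) :=
  (ModFun.barToC N ι).toAlgebra

theorem isScalarTower_qbar_bar_C :
    @IsScalarTower (AlgebraicClosure ℚ) (modularFunctionFieldBar N) (modularFunctionFieldC ℂ N)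
      _ (barAlgebraC N ι).toSMul (qbarAlgebraC N ι).toSMul := by
  letI := qbarAlgebraC N ι
  letI := barAlgebraC N ι
  refine IsScalarTower.of_algebraMap_eq fun a => Subtype.ext ?_
  show algebraMap ℂ (LaurentSeries ℂ) (ι a) =
    coeffMap ι (algebraMap (AlgebraicClosure ℚ) (LaurentSeries (AlgebraicClosure ℚ)) a)
  rw [algebraMap_laurentSeries_eq_single, algebraMap_laurentSeries_eq_single, coeffMap_single]

theorem isScalarTower_qbar_C_C :
    @IsScalarTower (AlgebraicClosure ℚ) ℂ (modularFunctionFieldC ℂ N)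
      ι.toAlgebra.toSMul _ (qbarAlgebraC N ι).toSMul := by
  letI := ι.toAlgebra
  letI := qbarAlgebraC N ι
  exact IsScalarTower.of_algebraMap_eq fun _ => rfl

/-- `ℂ(j, j_N)` is the constant field extension of the arithmetic modular function field. -/
theorem isConstExt_barToC :
    letI := ι.toAlgebra
    letI := qbarAlgebraC N ι
    letI := barAlgebraC N ι
    haveI := isScalarTower_qbar_bar_C N ι
    haveI := isScalarTower_qbar_C_C N ι
    IsConstExt (AlgebraicClosure ℚ) (modularFunctionFieldBar N) ℂ
      (modularFunctionFieldC ℂ N) := by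
  letI := ι.toAlgebra
  letI := qbarAlgebraC N ι
  letI := barAlgebraC N ι
  haveI := isScalarTower_qbar_bar_C N ι
  haveI := isScalarTower_qbar_C_C N ι
  refine isConstExt_laurent (fun _ => rfl) (IntermediateField.adjoin_le_iff.mpr ?_)
  rintro _ (rfl | rfl)
  · exact IntermediateField.subset_adjoin _ _
      ⟨_, jqModC_mem_laurentBaseChange_bar N, coeffMap_jqModC ι⟩
  · exact IntermediateField.subset_adjoin _ _
      ⟨_, jqNModC_mem_laurentBaseChange_bar N, coeffMap_jqNModC ι N⟩

theorem isFunctionFieldOne_modularFunctionFieldC :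
    IsFunctionFieldOne ℂ (modularFunctionFieldC ℂ N) := by
  let ι₀ : AlgebraicClosure ℚ →+* ℂ :=
    (IsAlgClosed.lift : AlgebraicClosure ℚ →ₐ[ℚ] ℂ).toRingHom
  letI := ι₀.toAlgebra
  letI := qbarAlgebraC N ι₀
  letI := barAlgebraC N ι₀
  haveI := isScalarTower_qbar_bar_C N ι₀
  haveI := isScalarTower_qbar_C_C N ι₀
  haveI := isConstExt_barToC N ι₀
  exact IsConstExt.isFunctionFieldOne (K := AlgebraicClosure ℚ) (F := modularFunctionFieldBar N)
    inferInstance

theorem isCurveOver_modularFunctionFieldC : IsCurveOver ℂ (modularFunctionFieldC ℂ N) :=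
  haveI := isFunctionFieldOne_modularFunctionFieldC N
  inferInstance

/-- The unique complex place above a place defined over `ℚ̄`. -/
def placeToC (v : Place (AlgebraicClosure ℚ) (modularFunctionFieldBar N)) :
    Place ℂ (modularFunctionFieldC ℂ N) :=
  letI := ι.toAlgebra
  letI := qbarAlgebraC N ι
  letI := barAlgebraC N ι
  haveI := isScalarTower_qbar_bar_C N ι
  haveI := isScalarTower_qbar_C_C N ι
  haveI := isConstExt_barToC N ι
  placeExt ℂ (modularFunctionFieldC ℂ N) v

theorem placeToC_injective : Function.Injective (placeToC N ι) := by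
  letI := ι.toAlgebra
  letI := qbarAlgebraC N ι
  letI := barAlgebraC N ι
  haveI := isScalarTower_qbar_bar_C N ι
  haveI := isScalarTower_qbar_C_C N ι
  haveI := isConstExt_barToC N ι
  exact fun v v' h => placeExt_injective
    (Ω := ℂ) (E := modularFunctionFieldC ℂ N) h

theorem ord_placeToC (v : Place (AlgebraicClosure ℚ) (modularFunctionFieldBar N))
    (f : modularFunctionFieldBar N) :
    (placeToC N ι v).ord (ModFun.barToC N ι f) = v.ord f := by
  letI := ι.toAlgebra
  letI := qbarAlgebraC N ι
  letI := barAlgebraC N ι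
  haveI := isScalarTower_qbar_bar_C N ι
  haveI := isScalarTower_qbar_C_C N ι
  haveI := isConstExt_barToC N ι
  exact ord_placeExt v f

/-- A complex place is either above a place over `ℚ̄` or all functions over `ℚ̄` have order zero
at it. -/
theorem exists_eq_placeToC_or (w : Place ℂ (modularFunctionFieldC ℂ N)) :
    (∃ v, w = placeToC N ι v) ∨ ∀ f, w.ord (ModFun.barToC N ι f) = 0 := by
  letI := ι.toAlgebra
  letI := qbarAlgebraC N ι
  letI := barAlgebraC N ι
  haveI := isScalarTower_qbar_bar_C N ι
  haveI := isScalarTower_qbar_C_C N ι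
  haveI := isConstExt_barToC N ι
  rcases exists_eq_placeExt_or (K := AlgebraicClosure ℚ) (F := modularFunctionFieldBar N) w with
    h | h
  · exact Or.inl h
  · exact Or.inr fun f => ord_algebraMap_eq_zero_of_forall_mem h f

/-- The map `JZero N → Pic⁰` of the complex curve. -/
def jZeroToC : JZero N →+ Pic0 ℂ (modularFunctionFieldC ℂ N) :=
  letI := ι.toAlgebra
  letI := qbarAlgebraC N ι
  letI := barAlgebraC N ι
  haveI := isScalarTower_qbar_bar_C N ι
  haveI := isScalarTower_qbar_C_C N ι
  haveI := isConstExt_barToC N ι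
  haveI := isCurveOver_modularFunctionFieldC N
  picExt ℂ (modularFunctionFieldC ℂ N)

/-- `jZeroToC` on a class: push the divisor forward along `placeToC`. -/
theorem jZeroToC_mk
    (D : Divisor.degZero (K := AlgebraicClosure ℚ) (F := modularFunctionFieldBar N)) :
    ∃ D' : Divisor.degZero (K := ℂ) (F := modularFunctionFieldC ℂ N),
      (D' : Divisor ℂ (modularFunctionFieldC ℂ N)) = Finsupp.mapDomain (placeToC N ι)
        (D : Divisor (AlgebraicClosure ℚ) (modularFunctionFieldBar N)) ∧
      jZeroToC N ι (Pic0.mk D) = Pic0.mk D' := by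
  letI := ι.toAlgebra
  letI := qbarAlgebraC N ι
  letI := barAlgebraC N ι
  haveI := isScalarTower_qbar_bar_C N ι
  haveI := isScalarTower_qbar_C_C N ι
  haveI := isConstExt_barToC N ι
  haveI := isCurveOver_modularFunctionFieldC N
  exact ⟨degZeroExt ℂ (modularFunctionFieldC ℂ N) D, rfl, rfl⟩

theorem jZeroToC_injective : Function.Injective (jZeroToC N ι) := by
  letI := ι.toAlgebra
  letI := qbarAlgebraC N ι
  letI := barAlgebraC N ι
  haveI := isScalarTower_qbar_bar_C N ι
  haveI := isScalarTower_qbar_C_C N ι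
  haveI := isConstExt_barToC N ι
  haveI := isCurveOver_modularFunctionFieldC N
  exact picExt_injective

/-- A finite complex torsion group is defined over `ℚ̄`. -/
theorem exists_jZeroToC_eq_of_mem_torsion {n : ℕ}
    [Finite (Pic0.torsion ℂ (modularFunctionFieldC ℂ N) n)]
    {x : Pic0 ℂ (modularFunctionFieldC ℂ N)}
    (hx : x ∈ Pic0.torsion ℂ (modularFunctionFieldC ℂ N) n) :
    ∃ y ∈ Pic0.torsion (AlgebraicClosure ℚ) (modularFunctionFieldBar N) n,
      jZeroToC N ι y = x := by
  letI := ι.toAlgebra
  letI := qbarAlgebraC N ι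
  letI := barAlgebraC N ι
  haveI := isScalarTower_qbar_bar_C N ι
  haveI := isScalarTower_qbar_C_C N ι
  haveI := isConstExt_barToC N ι
  haveI := isCurveOver_modularFunctionFieldC N
  haveI : Nonempty (Place (AlgebraicClosure ℚ) (modularFunctionFieldBar N)) :=
    nonempty_place_of_isFunctionFieldOne
  exact mem_range_picExt_of_mem_torsion hx

theorem natCard_torsion_jZero_eq (n : ℕ)
    [Finite (Pic0.torsion ℂ (modularFunctionFieldC ℂ N) n)] :
    Nat.card (Pic0.torsion (AlgebraicClosure ℚ) (modularFunctionFieldBar N) n) =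
      Nat.card (Pic0.torsion ℂ (modularFunctionFieldC ℂ N) n) := by
  let ι₀ : AlgebraicClosure ℚ →+* ℂ :=
    (IsAlgClosed.lift : AlgebraicClosure ℚ →ₐ[ℚ] ℂ).toRingHom
  letI := ι₀.toAlgebra
  letI := qbarAlgebraC N ι₀
  letI := barAlgebraC N ι₀
  haveI := isScalarTower_qbar_bar_C N ι₀
  haveI := isScalarTower_qbar_C_C N ι₀
  haveI := isConstExt_barToC N ι₀
  haveI := isCurveOver_modularFunctionFieldC N
  haveI : Nonempty (Place (AlgebraicClosure ℚ) (modularFunctionFieldBar N)) :=
    nonempty_place_of_isFunctionFieldOne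
  exact natCard_torsion_eq (Ω := ℂ) (E := modularFunctionFieldC ℂ N) n

end Fermat.Agent.Curve
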