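/-
Valuation subrings used by the generic point argument: minimal valuation subrings over an
algebraically closed constant field, and extensions with algebraically independent residues.
-/
import Mathlib.RingTheory.Valuation.LocalSubring
import Mathlib.RingTheory.MvPolynomial.Basic
import Mathlib.RingTheory.AlgebraicIndependent.Defs
import Mathlib.FieldTheory.IsAlgClosed.Basic

set_option autoImplicit false

noncomputable section

namespace Fermat.Agent.Curve

open MvPolynomial IsLocalRing

universe u v w

section Minimal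

variable {K : Type u} [Field K] {Ω : Type v} [Field Ω] [Algebra K Ω]

/-- the composite of a valuation subring with a valuation subring of its residue field -/
def compValuationSubring (B : ValuationSubring Ω) (C : ValuationSubring (ResidueField B)) :
    ValuationSubring Ω :=
  ValuationSubring.ofSubring ((C.toSubring.comap (residue B)).map B.subtype) fun x => by
    by_cases hx : x ∈ B
    · rcases C.mem_or_inv_mem (residue B ⟨x, hx⟩) with h | h
      · exact Or.inl ⟨⟨x, hx⟩, h, rfl⟩
      · by_cases hu : IsUnit (⟨x, hx⟩ : B)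
        · refine Or.inr ⟨((hu.unit⁻¹ : Bˣ) : B), ?_, ?_⟩
          · show residue B ((hu.unit⁻¹ : Bˣ) : B) ∈ C
            rwa [map_units_inv, IsUnit.unit_spec]
          · have h1 : (x : Ω) * (((hu.unit⁻¹ : Bˣ) : B) : Ω) = 1 := by
              exact congrArg Subtype.val hu.mul_val_inv
            exact eq_inv_of_mul_eq_one_right h1
        · left
          refine ⟨⟨x, hx⟩, ?_, rfl⟩
          show residue B ⟨x, hx⟩ ∈ C
          rw [(residue_eq_zero_iff _).2 hu]
          exact C.zero_mem
    · right
      have hx' : x⁻¹ ∈ B := (B.mem_or_inv_mem x).resolve_left hx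
      refine ⟨⟨x⁻¹, hx'⟩, ?_, rfl⟩
      show residue B ⟨x⁻¹, hx'⟩ ∈ C
      rw [(residue_eq_zero_iff _).2 (B.coe_mem_nonunits_iff.1
        (B.inv_mem_nonunits_iff.2 (Or.inr hx)))]
      exact C.zero_mem

theorem mem_compValuationSubring {B : ValuationSubring Ω}
    {C : ValuationSubring (ResidueField B)} {x : Ω} :
    x ∈ compValuationSubring B C ↔ ∃ h : x ∈ B, residue B ⟨x, h⟩ ∈ C := by
  show x ∈ (C.toSubring.comap (residue B)).map B.subtype ↔ _
  constructor
  · rintro ⟨y, hy, rfl⟩
    exact ⟨y.2, hy⟩
  · rintro ⟨h, hy⟩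
    exact ⟨⟨x, h⟩, hy, rfl⟩

variable (K Ω) in
theorem exists_minimal_valuationSubring :
    ∃ B : ValuationSubring Ω, (∀ a, algebraMap K Ω a ∈ B) ∧
      ∀ B' : ValuationSubring Ω, (∀ a, algebraMap K Ω a ∈ B') → B' ≤ B → B ≤ B' := by
  obtain ⟨B, -, hB⟩ := zorn_le_nonempty_Ici₀
    (α := ({B : ValuationSubring Ω // ∀ a, algebraMap K Ω a ∈ B})ᵒᵈ)
    (OrderDual.toDual ⟨⊤, fun a => ValuationSubring.mem_top _⟩) (fun s _ hs y hy => by
      let R : Subring Ω := ⨅ i : s, (OrderDual.ofDual i.1).1.toSubring
      have hR : ∀ x : Ω, x ∈ R ∨ x⁻¹ ∈ R := by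
        intro x
        by_contra hcon
        simp only [R, Subring.mem_iInf, not_or, not_forall] at hcon
        obtain ⟨⟨i, hi⟩, j, hj⟩ := hcon
        rcases hs.total i.2 j.2 with h | h
        · exact (((OrderDual.ofDual j.1).1.mem_or_inv_mem x).resolve_right hj |> fun hx => hi (h hx))
        · exact (((OrderDual.ofDual i.1).1.mem_or_inv_mem x).resolve_left hi |> fun hx => hj (h hx))
      refine ⟨OrderDual.toDual ⟨ValuationSubring.ofSubring R hR, fun a => ?_⟩, fun z hz => ?_⟩
      · exact Subring.mem_iInf.2 fun i => (OrderDual.ofDual i.1).2 a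
      · intro x hx
        exact Subring.mem_iInf.1 hx ⟨z, hz⟩)
    _ le_rfl
  exact ⟨(OrderDual.ofDual B).1, (OrderDual.ofDual B).2, fun B' h1 h2 =>
    hB (b := OrderDual.toDual ⟨B', h1⟩) h2⟩

variable (K Ω) in
/-- A place of `Ω` over an algebraically closed field `K` with values in `K`. -/
theorem exists_valuationSubring_residue_trivial [IsAlgClosed K] :
    ∃ B : ValuationSubring Ω, (∀ a, algebraMap K Ω a ∈ B) ∧
      ∀ z ∈ B, ∃ a : K, z - algebraMap K Ω a ∈ B.nonunits := by
  obtain ⟨B, hK, hmin⟩ := exists_minimal_valuationSubring K Ω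
  refine ⟨B, hK, fun z hz => ?_⟩
  let ι : K →+* ResidueField B :=
    (residue B).comp ((algebraMap K Ω).codRestrict B.toSubring hK)
  let : Algebra K (ResidueField B) := ι.toAlgebra
  by_contra hcon
  have hnot : residue B ⟨z, hz⟩ ∉ ι.range := by
    rintro ⟨a, ha⟩
    refine hcon ⟨a, ?_⟩
    have : residue B (⟨z, hz⟩ - ⟨algebraMap K Ω a, hK a⟩) = 0 := by
      rw [map_sub, sub_eq_zero]
      exact ha.symm
    exact B.coe_mem_nonunits_iff.2 ((residue_eq_zero_iff _).1 this)
  have : IsIntegrallyClosedIn ι.range (ResidueField B) := by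
    rw [Subring.isIntegrallyClosedIn_iff]
    intro y hy
    have hy' : IsIntegral K y := by
      obtain ⟨p, hp, hpy⟩ := hy
      let e := RingEquiv.ofBijective ι.rangeRestrict
        ⟨fun a b h => ι.injective (congrArg Subtype.val h), ι.rangeRestrict_surjective⟩
      refine ⟨p.map e.symm.toRingHom, hp.map _, ?_⟩
      rw [Polynomial.eval₂_map]
      convert hpy using 2
      ext c
      obtain ⟨a, rfl⟩ := e.surjective c
      simp
      rfl
    exact minpoly.mem_range_of_degree_eq_one K y
      (IsAlgClosed.degree_eq_one_of_irreducible K (minpoly.irreducible hy'))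
  obtain ⟨C, hC, hzC⟩ := ι.range.exists_le_valuationSubring_of_isIntegrallyClosedIn hnot
  have h1 : ∀ a, algebraMap K Ω a ∈ compValuationSubring B C := fun a =>
    mem_compValuationSubring.2 ⟨hK a, hC ⟨a, rfl⟩⟩
  have h2 : compValuationSubring B C ≤ B := fun x hx => (mem_compValuationSubring.1 hx).1
  exact hzC (mem_compValuationSubring.1 (hmin _ h1 h2 hz)).2

end Minimal

section Gauss

variable {K : Type u} [Field K] {Ω : Type v} [Field Ω] [Algebra K Ω] {ι : Type w}

/-- evaluation of an integral polynomial at a tuple of elements of `Ω` -/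
def integralEval (A : ValuationSubring K) (t : ι → Ω) : MvPolynomial ι A →+* Ω :=
  MvPolynomial.eval₂Hom ((algebraMap K Ω).comp A.subtype) t

theorem integralEval_C (A : ValuationSubring K) (t : ι → Ω) (a : A) :
    integralEval A t (C a) = algebraMap K Ω a := by
  simp [integralEval]

theorem integralEval_X (A : ValuationSubring K) (t : ι → Ω) (i : ι) :
    integralEval A t (X i) = t i := by
  simp [integralEval]

theorem integralEval_eq_aeval (A : ValuationSubring K) (t : ι → Ω) (p : MvPolynomial ι A) :
    integralEval A t p = aeval t (p.map A.subtype) := by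
  simp [integralEval, aeval_def, eval₂_map]

theorem integralEval_injective (A : ValuationSubring K) {t : ι → Ω}
    (ht : AlgebraicIndependent K t) : Function.Injective (integralEval A t) := by
  intro p q h
  rw [integralEval_eq_aeval, integralEval_eq_aeval] at h
  exact map_injective _ (ValuationSubring.subtype_injective A) (ht h)

/-- An extension of `A` to `Ω` for which the given independent elements are units with
algebraically independent residues. -/
theorem exists_valuationSubring_gauss (A : ValuationSubring K) {t : ι → Ω}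
    (ht : AlgebraicIndependent K t) :
    ∃ B : ValuationSubring Ω, B.comap (algebraMap K Ω) = A ∧
      ∀ p : MvPolynomial ι A, integralEval A t p ∈ B ∧
        (integralEval A t p ∈ B.nonunits ↔ p.map (residue A) = 0) := by
  let Q : Ideal (MvPolynomial ι A) :=
    RingHom.ker (MvPolynomial.map (residue A) : MvPolynomial ι A →+* _)
  have : Q.IsPrime := RingHom.ker_isPrime _
  have hQ : ∀ y : Q.primeCompl, IsUnit (integralEval A t y) := fun y => by
    refine isUnit_iff_ne_zero.2 fun h0 => y.2 ?_
    have : (y : MvPolynomial ι A) = 0 := integralEval_injective A ht (by rw [h0, map_zero])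
    rw [this]
    exact Q.zero_mem
  let f : Localization.AtPrime Q →+* Ω := IsLocalization.lift hQ
  have hf : ∀ p, f (algebraMap _ _ p) = integralEval A t p := fun p => IsLocalization.lift_eq hQ p
  obtain ⟨B, hB, hloc⟩ := IsLocalRing.exists_factor_valuationRing (R := Localization.AtPrime Q) f
  have key : ∀ p : MvPolynomial ι A, integralEval A t p ∈ B ∧
      (integralEval A t p ∈ B.nonunits ↔ p.map (residue A) = 0) := by
    intro p
    have hmem : integralEval A t p ∈ B := hf p ▸ hB _
    refine ⟨hmem, ?_⟩
    have e : (⟨integralEval A t p, hmem⟩ : B) =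
        f.codRestrict B.toSubring hB (algebraMap _ _ p) := Subtype.ext (hf p).symm
    rw [show (p.map (residue A) = 0) ↔ p ∈ Q from Iff.rfl,
      ← IsLocalization.AtPrime.to_map_mem_maximal_iff (Localization.AtPrime Q) Q p]
    refine (B.coe_mem_nonunits_iff (a := ⟨_, hmem⟩)).trans ?_
    rw [e, IsLocalRing.mem_maximalIdeal, IsLocalRing.mem_maximalIdeal, mem_nonunits_iff,
      mem_nonunits_iff]
    exact not_congr (isUnit_map_iff (f.codRestrict B.toSubring hB) _)
  refine ⟨B, ?_, key⟩
  ext a
  rw [ValuationSubring.mem_comap]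
  constructor
  · intro ha
    by_contra hna
    have ha0 : a ≠ 0 := fun h => hna (h ▸ A.zero_mem)
    have hai : a⁻¹ ∈ A := (A.mem_or_inv_mem a).resolve_left hna
    have h1 := (key (C ⟨a⁻¹, hai⟩)).2.2 (by
      rw [map_C]
      have : residue A ⟨a⁻¹, hai⟩ = 0 :=
        (residue_eq_zero_iff _).2 (A.coe_mem_nonunits_iff.1 (A.inv_mem_nonunits_iff.2 (Or.inr hna)))
      rw [this, map_zero])
    rw [integralEval_C, map_inv₀] at h1
    rcases B.inv_mem_nonunits_iff.1 h1 with h2 | h2
    · exact ha0 ((map_eq_zero _).1 h2)
    · exact h2 ha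
  · intro ha
    have := (key (C ⟨a, ha⟩)).1
    rwa [integralEval_C] at this

end Gauss

end Fermat.Agent.Curve

end
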