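/-
Extension of a `GoodReduction` to larger constant fields.
-/
import Fermat.Agent.Curve.DivisibleGauss
import Fermat.Agent.Curve.DivisibleValuation
import Fermat.Agent.Curve.ConstExtExists
import Fermat.Agent.Curve.ConstExtGenus

set_option autoImplicit false

noncomputable section

namespace Fermat.Agent.Curve

open AlgebraicCurve IntermediateField

/-- Over an algebraically closed field of constants with values in `W`, an element algebraic over a
subfield all of whose values come from the constants has its value there as well. -/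
theorem exists_valuation_eq_of_isIntegral {Ω E : Type*} [Field Ω] [IsAlgClosed Ω] [Field E]
    [Algebra Ω E] (W : ValuationSubring E) (M : IntermediateField Ω E)
    (hM : ∀ c ∈ M, c ≠ 0 → ∃ η : Ω, W.valuation c = W.valuation (algebraMap Ω E η))
    {e : E} (he : e ≠ 0) (hint : IsIntegral M e) :
    ∃ η : Ω, η ≠ 0 ∧ W.valuation e = W.valuation (algebraMap Ω E η) := by
  classical
  set P := minpoly M e with hP
  have hwe : W.valuation e ≠ 0 := (Valuation.ne_zero_iff _).2 he
  set t : ℕ → E := fun i => (P.coeff i : E) * e ^ i with ht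
  have hsum : ∑ i ∈ Finset.range (P.natDegree + 1), t i = 0 := by
    have := minpoly.aeval M e
    rw [Polynomial.aeval_eq_sum_range] at this
    simpa [t, P, Algebra.smul_def] using this
  have htop : t P.natDegree ≠ 0 := by
    simp [t, P, (minpoly.monic hint).coeff_natDegree, he]
  obtain ⟨i, hi, himax⟩ := Finset.exists_max_image (Finset.range (P.natDegree + 1))
    (fun i => W.valuation (t i)) ⟨0, by simp⟩
  have hti : W.valuation (t i) ≠ 0 := by
    intro h
    have := himax P.natDegree (by simp)
    simp only [h, le_zero_iff] at this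
    exact htop ((Valuation.zero_iff _).1 this)
  obtain ⟨j, hj, hij, hjv⟩ : ∃ j ∈ Finset.range (P.natDegree + 1), j ≠ i ∧
      W.valuation (t j) = W.valuation (t i) := by
    by_contra hcon
    push Not at hcon
    have h := Valuation.map_sum_eq_of_lt (v := W.valuation) (f := t) hi (fun j hj => by
      rw [Finset.mem_sdiff, Finset.mem_singleton] at hj
      exact lt_of_le_of_ne (himax j hj.1) (hcon j hj.1 hj.2))
    rw [hsum, map_zero] at h
    exact hti h.symm
  wlog hlt : i < j generalizing i j
  · exact this j hj (fun k hk => (himax k hk).trans hjv.ge) (by rw [hjv]; exact hti) i hi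
      hij.symm hjv.symm (lt_of_le_of_ne (not_lt.mp hlt) hij)
  have hci : (P.coeff i : E) ≠ 0 := fun h => hti (by simp [t, h])
  have hcj : (P.coeff j : E) ≠ 0 := fun h => hti (by rw [← hjv]; simp [t, h])
  obtain ⟨η, hη⟩ := hM _ (div_mem (P.coeff i).2 (P.coeff j).2) (div_ne_zero hci hcj)
  obtain ⟨r, hr⟩ := IsAlgClosed.exists_pow_nat_eq η (n := j - i) (by omega)
  have hpow : W.valuation e ^ (j - i) = W.valuation (algebraMap Ω E r) ^ (j - i) := by
    rw [← map_pow W.valuation (algebraMap Ω E r), ← map_pow (algebraMap Ω E), hr, ← hη, map_div₀,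
      eq_div_iff ((Valuation.ne_zero_iff _).2 hcj)]
    simp only [t, map_mul, map_pow] at hjv
    rw [show j = (j - i) + i by omega, pow_add, ← mul_assoc] at hjv
    have h1 := mul_right_cancel₀ (pow_ne_zero i hwe) hjv
    rw [mul_comm, ← h1, Nat.sub_add_cancel hlt.le]
  have heq := (pow_left_inj₀ zero_le' zero_le' (by omega)).1 hpow
  refine ⟨r, fun h0 => hwe ?_, heq⟩
  rw [heq, h0, map_zero, map_zero]

/-- Families with independent residues are independent over the field of rational functions in
elements with independent residues. -/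
theorem linearIndependent_adjoin_of_residue {K : Type*} [Field K] {Ω : Type*} [Field Ω]
    [Algebra K Ω] (A : ValuationSubring K) {k : Type*} [Field k] (π : A →+* k)
    (W : ValuationSubring Ω) {L : Type*} [Field L] [Algebra k L] (red : W →+* L)
    (hA : ∀ a : A, algebraMap K Ω a ∈ W)
    (hred : ∀ a : A, red ⟨algebraMap K Ω a, hA a⟩ = algebraMap k L (π a))
    {σ : Type*} (t : σ → W) {I : Type*} [Fintype I] (f : I → W)
    (hf : ∀ c : I → MvPolynomial σ k,
      ∑ i, MvPolynomial.aeval (fun s => red (t s)) (c i) * red (f i) = 0 → c = 0) :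
    LinearIndependent (IntermediateField.adjoin K (Set.range fun s => (t s : Ω)))
      (fun i => (f i : Ω)) := by
  classical
  open scoped IntermediateField.algebraAdjoinAdjoin in
  refine (LinearIndependent.iff_fractionRing (Algebra.adjoin K (Set.range fun s => (t s : Ω)))
    (IntermediateField.adjoin K (Set.range fun s => (t s : Ω)))).1 ?_
  rw [Fintype.linearIndependent_iff]
  intro c hc
  have hq : ∀ i, ∃ q : MvPolynomial σ K, MvPolynomial.aeval (fun s => (t s : Ω)) q = c i := fun i =>
    AlgHom.mem_range _ |>.1 (by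
      rw [← Algebra.adjoin_range_eq_range_aeval]
      exact (c i).2)
  choose q hq using hq
  have hsum : ∑ i, MvPolynomial.aeval (fun s => (t s : Ω)) (q i) * (f i : Ω) = 0 := by
    simpa [hq, Algebra.smul_def] using hc
  suffices hq0 : ∀ i, q i = 0 from fun i => Subtype.ext (by simp [← hq i, hq0 i])
  by_contra hcon
  simp only [not_forall] at hcon
  obtain ⟨i₀, hi₀⟩ := hcon
  obtain ⟨d₀, hd₀⟩ := MvPolynomial.ne_zero_iff.1 hi₀
  obtain ⟨⟨j, e⟩, -, he, hmem⟩ := exists_scale_div A
    (Finset.univ.sigma fun i => (q i).support) (fun p => (q p.1).coeff p.2)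
    ⟨⟨i₀, d₀⟩, by simp [hd₀], hd₀⟩
  dsimp only at he hmem
  set a := (q j).coeff e
  have hall : ∀ i d, (MvPolynomial.C a⁻¹ * q i).coeff d ∈ A := by
    intro i d
    rw [MvPolynomial.coeff_C_mul]
    by_cases hd : (q i).coeff d = 0
    · rw [hd, mul_zero]; exact A.zero_mem
    · simpa [div_eq_inv_mul] using hmem ⟨i, d⟩ (by simp [hd])
  have hr : ∀ i, ∃ r : MvPolynomial σ A, r.map A.subtype = MvPolynomial.C a⁻¹ * q i := by
    intro i
    refine ⟨∑ d ∈ (MvPolynomial.C a⁻¹ * q i).support, MvPolynomial.monomial d ⟨_, hall i d⟩, ?_⟩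
    rw [map_sum]
    conv_rhs => rw [MvPolynomial.as_sum (MvPolynomial.C a⁻¹ * q i)]
    simp [MvPolynomial.map_monomial]
  choose r hr using hr
  have hev : ∀ p : MvPolynomial σ A,
      MvPolynomial.aeval (fun s => (t s : Ω)) (p.map A.subtype) =
        ((MvPolynomial.eval₂Hom
          (((algebraMap K Ω).comp A.subtype).codRestrict W fun b => hA b) t p : W) : Ω) := by
    intro p
    induction p using MvPolynomial.induction_on with
    | C b =>
      rw [MvPolynomial.map_C, MvPolynomial.aeval_C, MvPolynomial.eval₂Hom_C]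
      rfl
    | add p q hp hq => rw [map_add, map_add, map_add, hp, hq]; rfl
    | mul_X p s hp =>
      rw [map_mul, map_mul, map_mul, hp, MvPolynomial.map_X, MvPolynomial.aeval_X,
        MvPolynomial.eval₂Hom_X']
      rfl
  have hredev : ∀ p : MvPolynomial σ A,
      red (MvPolynomial.eval₂Hom
        (((algebraMap K Ω).comp A.subtype).codRestrict W fun b => hA b) t p) =
        MvPolynomial.aeval (fun s => red (t s)) (p.map π) := by
    intro p
    induction p using MvPolynomial.induction_on with
    | C b =>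
      rw [MvPolynomial.map_C, MvPolynomial.aeval_C, MvPolynomial.eval₂Hom_C]
      exact hred b
    | add p q hp hq => rw [map_add, map_add, map_add, map_add, hp, hq]
    | mul_X p s hp =>
      rw [map_mul, map_mul, map_mul, map_mul, hp, MvPolynomial.map_X, MvPolynomial.aeval_X,
        MvPolynomial.eval₂Hom_X']
  have hzero : ∑ i, (MvPolynomial.eval₂Hom
      (((algebraMap K Ω).comp A.subtype).codRestrict W fun b => hA b) t (r i) : W) * f i = 0 := by
    apply Subtype.ext
    simp only [AddSubmonoidClass.coe_finset_sum, MulMemClass.coe_mul, ← hev, hr, map_mul,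
      mul_assoc, ← Finset.mul_sum, hsum, mul_zero, ZeroMemClass.coe_zero]
  have h0 := congrArg red hzero
  simp only [map_sum, map_mul, hredev, map_zero] at h0
  have h1 := congrFun (hf _ h0) j
  have h2 : (r j).coeff e = 1 := A.subtype_injective <| by
    have := congrArg (fun p => p.coeff e) (hr j)
    simp only [MvPolynomial.coeff_map, MvPolynomial.coeff_C_mul] at this
    rw [this, map_one]
    exact inv_mul_cancel₀ he
  have h3 := congrArg (fun p => p.coeff e) h1
  simp [MvPolynomial.coeff_map, h2] at h3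

namespace GoodReduction

universe uK uF uk uFb uΩ uE ukΩ uEb

variable {K : Type uK} [Field K] {A : ValuationSubring K}
  {F : Type uF} [Field F] [Algebra K F]
  {k : Type uk} [Field k] {Fb : Type uFb} [Field Fb] [Algebra k Fb]
  (G : GoodReduction A F k Fb) [IsAlgClosed K] [IsAlgClosed k]
  [IsFunctionFieldOne K F] [IsFunctionFieldOne k Fb]
  {Ω : Type uΩ} [Field Ω] [Algebra K Ω] [IsAlgClosed Ω] (B : ValuationSubring Ω)
  (hB : B.comap (algebraMap K Ω) = A)
  {kΩ : Type ukΩ} [Field kΩ] [Algebra k kΩ] [IsAlgClosed kΩ]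
  (πB : B →+* kΩ) (hπs : Function.Surjective πB)
  (hπ : ∀ (a : A) (h : algebraMap K Ω a ∈ B), πB ⟨_, h⟩ = algebraMap k kΩ (G.π a))
  (E : Type uE) [Field E] [Algebra K E] [Algebra F E] [Algebra Ω E]
  [IsScalarTower K F E] [IsScalarTower K Ω E] [IsConstExt K F Ω E]
  (Eb : Type uEb) [Field Eb] [Algebra k Eb] [Algebra Fb Eb] [Algebra kΩ Eb]
  [IsScalarTower k Fb Eb] [IsScalarTower k kΩ Eb] [IsConstExt k Fb kΩ Eb]

include hB hπs hπ in
/-- The extended valuation subring and reduction map. -/
theorem exists_extend_data :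
    ∃ (W : ValuationSubring E) (Φ : W →+* Eb),
      (∀ c : Ω, algebraMap Ω E c ∈ W ↔ c ∈ B) ∧ Function.Surjective Φ ∧
      (∀ (b : B) (h : algebraMap Ω E b ∈ W), Φ ⟨_, h⟩ = algebraMap kΩ Eb (πB b)) ∧
      (∀ e : E, e ≠ 0 → ∃ c : Ω, ∃ h : c • e ∈ W, Φ ⟨c • e, h⟩ ≠ 0) ∧
      ∀ f : F, (algebraMap F E f ∈ W ↔ f ∈ G.V) ∧
        ∀ (h : f ∈ G.V) (h' : algebraMap F E f ∈ W),
          Φ ⟨_, h'⟩ = algebraMap Fb Eb (G.φ ⟨f, h⟩) := by
  classical
  have hxK : Transcendental K (G.x : F) := G.transcendental_of_reduction _ G.x_transcendental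
  set y := algebraMap F E (G.x : F) with hy
  have hyt : Transcendental Ω y := IsConstExt.transcendental hxK
  obtain ⟨W, hWB, hWp⟩ := exists_valuationSubring_gauss B
    (t := fun _ : Unit => y) (algebraicIndependent_unique_type_iff.2 hyt)
  have hWΩ : ∀ c : Ω, algebraMap Ω E c ∈ W ↔ c ∈ B := fun c => by
    rw [← hWB]; rfl
  have hBker : ∀ b : B, b ∈ IsLocalRing.maximalIdeal B ↔ πB b = 0 := by
    haveI := RingHom.ker_isMaximal_of_surjective πB hπs
    intro b
    rw [← IsLocalRing.eq_maximalIdeal this, RingHom.mem_ker]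
  have hWpoly : ∀ p : Polynomial B,
      p.eval₂ ((algebraMap Ω E).comp B.subtype) y ∈ W ∧
      (p.eval₂ ((algebraMap Ω E).comp B.subtype) y ∈ W.nonunits → p.map πB = 0) := by
    intro p
    set q : MvPolynomial Unit B :=
      p.sum fun n b => MvPolynomial.monomial (Finsupp.single () n) b with hq
    have hev : integralEval B (fun _ : Unit => y) q =
        p.eval₂ ((algebraMap Ω E).comp B.subtype) y := by
      rw [Polynomial.eval₂_eq_sum, hq, Polynomial.sum, Polynomial.sum, map_sum]
      simp [integralEval, MvPolynomial.eval₂_monomial]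
    refine ⟨hev ▸ (hWp q).1, fun hn => ?_⟩
    have h0 := (hWp q).2.1 (hev ▸ hn)
    ext n
    rw [Polynomial.coeff_map, Polynomial.coeff_zero, ← hBker, ← IsLocalRing.residue_eq_zero_iff]
    have hc : q.coeff (Finsupp.single () n) = p.coeff n := by
      rw [hq, Polynomial.sum, MvPolynomial.coeff_sum]
      simp only [MvPolynomial.coeff_monomial, (Finsupp.single_injective ()).eq_iff]
      rw [Finset.sum_ite_eq' p.support n]
      by_cases hn' : n ∈ p.support
      · rw [if_pos hn']
      · rw [if_neg hn', Polynomial.notMem_support_iff.1 hn']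
    have h1 := congrArg (fun r => r.coeff (Finsupp.single () n)) h0
    simpa [MvPolynomial.coeff_map, hc] using h1
  have hAB : ∀ a : A, algebraMap K Ω a ∈ B := fun a =>
    ValuationSubring.mem_comap.1 (hB.symm ▸ a.2)
  let jA : A →+* B := ((algebraMap K Ω).comp A.subtype).codRestrict B hAB
  have hjA : ∀ p : Polynomial A, algebraMap F E (G.polyHom p : F) =
      (p.map jA).eval₂ ((algebraMap Ω E).comp B.subtype) y := by
    intro p
    rw [G.coe_polyHom, Polynomial.aeval_def, Polynomial.eval₂_map, Polynomial.eval₂_map,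
      Polynomial.hom_eval₂]
    congr 1
    ext a
    show algebraMap F E (algebraMap K F a) = algebraMap Ω E (algebraMap K Ω a)
    rw [← IsScalarTower.algebraMap_apply, ← IsScalarTower.algebraMap_apply]
  have hV := G.mem_V_iff_of_gauss (algebraMap F E) W
    (fun a => by
      rw [← IsScalarTower.algebraMap_apply K F E, IsScalarTower.algebraMap_apply K Ω E, hWΩ,
        ← ValuationSubring.mem_comap, hB])
    (fun p => by rw [hjA]; exact (hWpoly _).1)
    (fun p hp hn => hp (by
      rw [hjA] at hn
      have h0 := (hWpoly _).2 hn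
      rw [Polynomial.map_map] at h0
      refine Polynomial.map_injective _ (algebraMap k kΩ).injective ?_
      rw [Polynomial.map_map, Polynomial.map_zero]
      convert h0 using 2
      exact RingHom.ext fun a => (hπ a (hAB a)).symm))
  let L := IsLocalRing.ResidueField W
  let ρ : W →+* L := IsLocalRing.residue W
  have hρ0 : ∀ z : W, ρ z = 0 ↔ (z : E) ∈ W.nonunits := fun z =>
    (IsLocalRing.residue_eq_zero_iff z).trans W.coe_mem_nonunits_iff.symm
  let cB : B →+* W := ((algebraMap Ω E).comp B.subtype).codRestrict W fun b => (hWΩ b).2 b.2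
  let jk : kΩ →+* L := RingHom.liftOfSurjective πB hπs ⟨ρ.comp cB, fun b hb => by
    rw [RingHom.mem_ker, RingHom.comp_apply, hρ0]
    rw [RingHom.mem_ker, ← hBker, ← B.coe_mem_nonunits_iff, B.mem_nonunits_iff_or] at hb
    show algebraMap Ω E b ∈ W.nonunits
    rw [W.mem_nonunits_iff_or, ← map_inv₀, hWΩ]
    exact hb.imp_left (fun h => by rw [h, map_zero])⟩
  have hjk : ∀ b : B, jk (πB b) = ρ (cB b) := fun b =>
    RingHom.liftOfRightInverse_comp_apply πB _ _ _ b
  let cV : G.V →+* W := ((algebraMap F E).comp G.V.subtype).codRestrict W fun f => (hV f).1.2 f.2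
  let jF : Fb →+* L := RingHom.liftOfSurjective G.φ G.φ_surjective ⟨ρ.comp cV, fun f hf => by
    rw [RingHom.mem_ker, RingHom.comp_apply, hρ0]
    exact ((hV f).2 f.2).2 (RingHom.mem_ker.1 hf)⟩
  have hjF : ∀ f : G.V, jF (G.φ f) = ρ (cV f) := fun f =>
    RingHom.liftOfRightInverse_comp_apply G.φ _ _ _ f
  let : Algebra kΩ L := jk.toAlgebra
  let : Algebra k L := (jk.comp (algebraMap k kΩ)).toAlgebra
  have : IsScalarTower k kΩ L := .of_algebraMap_eq fun _ => rfl
  let ψ : Fb →ₐ[k] L :=
    { jF with
      commutes' := fun c => by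
        obtain ⟨a, rfl⟩ := G.π_surjective c
        show jF (algebraMap k Fb (G.π a)) = jk (algebraMap k kΩ (G.π a))
        rw [← hπ a (hAB a), hjk, ← G.φ_algebraMap, hjF]
        refine congrArg ρ (Subtype.ext ?_)
        show algebraMap F E (algebraMap K F a) = algebraMap Ω E (algebraMap K Ω a)
        rw [← IsScalarTower.algebraMap_apply, ← IsScalarTower.algebraMap_apply] }
  set xb := algebraMap Fb Eb (G.φ G.x) with hxb
  have hψx : ψ (G.φ G.x) = ρ (cV G.x) := hjF G.x
  have hψt : Transcendental kΩ (ψ (G.φ G.x)) := by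
    rw [transcendental_iff]
    intro p hp
    obtain ⟨q, rfl⟩ := Polynomial.map_surjective πB hπs p
    refine (hWpoly q).2 ?_
    have e : (q.eval₂ ((algebraMap Ω E).comp B.subtype) y) = ((q.eval₂ cB (cV G.x) : W) : E) :=
      (Polynomial.hom_eval₂ q cB W.subtype (cV G.x)).symm
    rw [e, ← hρ0, Polynomial.hom_eval₂, ← hψx]
    rw [Polynomial.aeval_def, Polynomial.eval₂_map] at hp
    rw [show ρ.comp cB = (algebraMap kΩ L).comp πB from RingHom.ext fun b => (hjk b).symm]
    exact hp
  have : FiniteDimensional k⟮G.φ G.x⟯ Fb := Module.finite_of_finrank_pos G.degree_pos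
  obtain ⟨Ψ, hΨ⟩ := IsConstExt.exists_liftHom (E := Eb) ψ (G.φ G.x) hψt
  let : Algebra Eb L := Ψ.toRingHom.toAlgebra
  have : IsScalarTower kΩ Eb L := .of_algebraMap_eq fun c => (Ψ.commutes c).symm
  let M := kΩ⟮xb⟯
  have hxbt : Transcendental kΩ xb := IsConstExt.transcendental G.x_transcendental
  have hEb : Module.finrank M Eb = Module.finrank k⟮G.φ G.x⟯ Fb :=
    IsConstExt.finrank_adjoin G.x_transcendental
  have hn : Module.finrank Ω⟮y⟯ E = Module.finrank k⟮G.φ G.x⟯ Fb :=
    (IsConstExt.finrank_adjoin hxK).trans G.degree_eq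
  have : Module.Finite Ω⟮y⟯ E := Module.finite_of_finrank_pos (hn ▸ G.degree_pos)
  have hrank : Module.rank M L ≤ (Module.finrank Ω⟮y⟯ E : ℕ) := by
    refine rank_le fun s hs => ?_
    choose f hf using fun i : s => IsLocalRing.residue_surjective (i : L)
    have hρB : ∀ b : B, ρ ⟨algebraMap Ω E b, (hWΩ b).2 b.2⟩ = algebraMap kΩ L (πB b) :=
      fun b => (hjk b).symm
    have hli := linearIndependent_adjoin_of_residue B πB W ρ (fun b => (hWΩ b).2 b.2) hρB (fun _ : Unit => cV G.x) f (fun c hc => by
        let cM : s → M := fun i => ⟨MvPolynomial.aeval (fun _ : Unit => xb) (c i), by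
          refine algebra_adjoin_le_adjoin kΩ _ ?_
          have : Set.range (fun _ : Unit => xb) = {xb} := Set.range_const
          rw [← this, Algebra.adjoin_range_eq_range_aeval]
          exact ⟨c i, rfl⟩⟩
        have hcM : ∀ i, algebraMap M L (cM i) =
            MvPolynomial.aeval (fun _ : Unit => ρ (cV G.x)) (c i) := fun i => by
          show Ψ (MvPolynomial.aeval (fun _ : Unit => xb) (c i)) = _
          rw [← AlgHom.comp_apply, MvPolynomial.comp_aeval]
          simp [xb, hΨ, hψx]
        have h0 : ∑ i : s, cM i • (i : L) = 0 := by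
          rw [← hc]
          refine Finset.sum_congr rfl fun i _ => ?_
          rw [Algebra.smul_def, hcM]
          exact congrArg _ (hf i).symm
        funext i
        have h1 := congrArg Subtype.val (Fintype.linearIndependent_iff.1 hs cM h0 i)
        exact (algebraicIndependent_unique_type_iff (x := fun _ : Unit => xb)).2 hxbt
          (by simpa [cM] using h1))
    have hrange : (Set.range fun _ : Unit => (cV G.x : E)) = {y} := Set.range_const
    rw [hrange] at hli
    simpa using hli.fintype_card_le_finrank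
  have hfinML : Module.Finite M L :=
    Module.rank_lt_aleph0_iff.1 (hrank.trans_lt Cardinal.natCast_lt_aleph0)
  have hnat : Module.finrank M L ≤ Module.finrank Ω⟮y⟯ E := by
    rw [← Module.finrank_eq_rank M L] at hrank
    exact_mod_cast hrank
  have : Module.Finite Eb L := Module.Finite.right M Eb L
  have hsurj : Function.Surjective Ψ := by
    rw [← Module.finrank_mul_finrank M Eb L, hEb, hn] at hnat
    have hpos : 0 < Module.finrank Eb L := Module.finrank_pos
    have h1 : Module.finrank Eb L = 1 := by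
      have := G.degree_pos
      nlinarith
    intro z
    obtain ⟨c, hc⟩ := (finrank_eq_one_iff_of_nonzero' (1 : L) one_ne_zero).1 h1 z
    exact ⟨c, by rw [← hc, Algebra.smul_def, mul_one]; rfl⟩
  let e := AlgEquiv.ofBijective Ψ ⟨Ψ.toRingHom.injective, hsurj⟩
  have hMval : ∀ c ∈ Ω⟮y⟯, c ≠ 0 →
      ∃ η : Ω, W.valuation c = W.valuation (algebraMap Ω E η) := by
    have hpol : ∀ r : Polynomial Ω, r ≠ 0 → ∃ a : Ω,
        W.valuation (Polynomial.aeval y r) = W.valuation (algebraMap Ω E a) := by
      intro r hr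
      obtain ⟨a, r₀, -, hra, hr₀⟩ := exists_scale_poly B πB hr
      refine ⟨a, ?_⟩
      rw [hra, map_mul, Polynomial.aeval_C, Polynomial.aeval_def, Polynomial.eval₂_map, map_mul]
      have hle := (W.valuation_le_one_iff _).2 (hWpoly r₀).1
      have hnlt : ¬ W.valuation (r₀.eval₂ ((algebraMap Ω E).comp B.subtype) y) < 1 := fun hlt =>
        hr₀ ((hWpoly r₀).2 (W.mem_nonunits_iff.2 hlt))
      rw [le_antisymm hle (not_lt.1 hnlt), mul_one]
    intro c hc hc0
    obtain ⟨r, s, rfl⟩ := IntermediateField.mem_adjoin_simple_iff Ω c |>.1 hc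
    obtain ⟨hr, hs⟩ := div_ne_zero_iff.1 hc0
    obtain ⟨a, ha⟩ := hpol r (by rintro rfl; simp at hr)
    obtain ⟨b, hb⟩ := hpol s (by rintro rfl; simp at hs)
    exact ⟨a / b, by rw [map_div₀, ha, hb, map_div₀, map_div₀]⟩
  refine ⟨W, (e.symm : L →+* Eb).comp ρ, hWΩ, ?_, fun b h => ?_, fun z hz => ?_,
    fun f => ⟨(hV f).1, ?_⟩⟩
  rotate_left 2
  · obtain ⟨η, hη0, hη⟩ := exists_valuation_eq_of_isIntegral W Ω⟮y⟯ hMval hz
      (IsIntegral.of_finite _ z)
    have hv : W.valuation (η⁻¹ • z) = 1 := by
      have h0 : W.valuation (algebraMap Ω E η) ≠ 0 :=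
        (Valuation.ne_zero_iff _).2 ((map_ne_zero _).2 hη0)
      rw [Algebra.smul_def, map_mul, map_inv₀, map_inv₀, hη, inv_mul_cancel₀ h0]
    refine ⟨η⁻¹, (W.valuation_le_one_iff _).1 hv.le, fun h0 => ?_⟩
    have h1 := (map_eq_zero_iff _ e.symm.injective).1 h0
    rw [hρ0, W.mem_nonunits_iff] at h1
    exact h1.ne hv
  rotate_right 2
  · intro z
    obtain ⟨w, hw⟩ := IsLocalRing.residue_surjective (Ψ z)
    exact ⟨w, by rw [RingHom.comp_apply]; show e.symm (ρ w) = z
                 rw [show ρ w = Ψ z from hw]; exact e.symm_apply_apply z⟩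
  · show e.symm (ρ ⟨_, h⟩) = _
    rw [show ρ ⟨_, h⟩ = jk (πB b) from (hjk b).symm]
    exact e.symm_apply_eq.2 (e.commutes (πB b)).symm
  · intro h h'
    show e.symm (ρ ⟨_, h'⟩) = _
    rw [show ρ ⟨_, h'⟩ = ψ (G.φ ⟨f, h⟩) from (hjF ⟨f, h⟩).symm]
    exact e.symm_apply_eq.2 (hΨ _).symm

/-- The extended reduction. -/
def extend : GoodReduction B E kΩ Eb :=
  let W := (G.exists_extend_data B hB πB hπs hπ E Eb).choose
  let h := (G.exists_extend_data B hB πB hπs hπ E Eb).choose_spec
  let Φ := h.choose
  { π := πB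
    π_surjective := hπs
    V := W
    mem_V_iff := h.choose_spec.1
    φ := Φ
    φ_surjective := h.choose_spec.2.1
    φ_algebraMap := fun b => h.choose_spec.2.2.1 b _
    exists_scale := h.choose_spec.2.2.2.1
    x := ⟨algebraMap F E (G.x : F), ((h.choose_spec.2.2.2.2 (G.x : F)).1).2 G.x.2⟩
    x_transcendental := by
      rw [show Φ ⟨algebraMap F E (G.x : F), _⟩ = algebraMap Fb Eb (G.φ G.x) from
        (h.choose_spec.2.2.2.2 (G.x : F)).2 G.x.2 _]
      exact IsConstExt.transcendental G.x_transcendental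
    degree_eq := by
      rw [show Φ ⟨algebraMap F E (G.x : F), _⟩ = algebraMap Fb Eb (G.φ G.x) from
        (h.choose_spec.2.2.2.2 (G.x : F)).2 G.x.2 _,
        IsConstExt.finrank_adjoin (G.transcendental_of_reduction _ G.x_transcendental),
        IsConstExt.finrank_adjoin G.x_transcendental]
      exact G.degree_eq
    degree_pos := by
      rw [show Φ ⟨algebraMap F E (G.x : F), _⟩ = algebraMap Fb Eb (G.φ G.x) from
        (h.choose_spec.2.2.2.2 (G.x : F)).2 G.x.2 _,
        IsConstExt.finrank_adjoin G.x_transcendental]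
      exact G.degree_pos
    genus_eq := by
      haveI := IsConstExt.isFunctionFieldOne (Ω := Ω) (E := E) ‹IsFunctionFieldOne K F›
      haveI := IsConstExt.isFunctionFieldOne (Ω := kΩ) (E := Eb) ‹IsFunctionFieldOne k Fb›
      rw [genusFF_eq (K := K) (F := F) (Ω := Ω) (E := E),
        genusFF_eq (K := k) (F := Fb) (Ω := kΩ) (E := Eb)]
      exact G.genus_eq }

theorem algebraMap_mem_extend_V {f : F} :
    algebraMap F E f ∈ (G.extend B hB πB hπs hπ E Eb).V ↔ f ∈ G.V :=
  ((G.exists_extend_data B hB πB hπs hπ E Eb).choose_spec.choose_spec.2.2.2.2 f).1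

theorem extend_φ_algebraMap {f : F} (h : f ∈ G.V)
    (h' : algebraMap F E f ∈ (G.extend B hB πB hπs hπ E Eb).V) :
    (G.extend B hB πB hπs hπ E Eb).φ ⟨_, h'⟩ = algebraMap Fb Eb (G.φ ⟨f, h⟩) :=
  ((G.exists_extend_data B hB πB hπs hπ E Eb).choose_spec.choose_spec.2.2.2.2 f).2 h h'

end GoodReduction

end Fermat.Agent.Curve

end
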