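/-
Specialisation of divisor classes from an algebraically closed extension of the constants back to
the constants: a left inverse of `picExt`, injective on torsion.
-/
import Fermat.Agent.Curve.DivisibleExtend
import Fermat.Agent.Curve.ConnectedTorsion
import Fermat.Agent.Curve.RiemannRochFunctions

set_option autoImplicit false

noncomputable section

namespace Fermat.Agent.Curve

open AlgebraicCurve IntermediateField

universe uK uF uΩ uE

section Identity

variable {K : Type uK} {F : Type uF} [Field K] [Field F] [Algebra K F]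
  [IsAlgClosed K] [IsFunctionFieldOne K F]

/-- A map on places fixing every divisor of a function is the identity. -/
theorem eq_id_of_mapDomain_divisorOf {s : Place K F → Place K F}
    (hs : ∀ f : F, f ≠ 0 → Finsupp.mapDomain s (divisorOf K f) = divisorOf K f)
    (v : Place K F) : s v = v := by
  classical
  by_contra hne
  obtain ⟨f, hf⟩ := exists_poleDivisor_single v (n := 2 * genusFF K F + 1) (by omega)
  set n : ℕ := 2 * genusFF K F + 1
  have hn : 0 < n := Nat.succ_pos _
  obtain ⟨htr, hdeg⟩ := transcendental_and_finrank_of_poleDivisor_single hn hf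
  have hf0 : f ≠ 0 := fun h => htr (h ▸ isAlgebraic_zero)
  set Z := zeroDivisor K f with hZ
  have hZdeg : Divisor.degree Z = (n : ℤ) := by
    rw [hZ, degree_zeroDivisor htr, hdeg]
  have hdiv : divisorOf K f = Z - Finsupp.single v (n : ℤ) := by
    rw [divisorOf_eq_sub, hf]
  have hZ0 : 0 ≤ Finsupp.mapDomain s Z :=
    Finsupp.le_def.2 fun w => by
      rw [Finsupp.zero_apply, Finsupp.mapDomain, Finsupp.sum_apply, Finsupp.sum]
      refine Finset.sum_nonneg fun u _ => ?_
      rw [Finsupp.single_apply]
      split_ifs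
      · simp [Z]
      · exact le_rfl
  have hZmdeg : Divisor.degree (Finsupp.mapDomain s Z) = (n : ℤ) := by
    rw [← hZdeg]
    induction Z using Finsupp.induction with
    | zero => simp
    | single_add u k D _ _ ih =>
      rw [Finsupp.mapDomain_add, map_add, map_add, ih, Finsupp.mapDomain_single,
        Divisor.degree_single, Divisor.degree_single, deg_eq_one, deg_eq_one]
  have h1 := hs f hf0
  rw [hdiv, Finsupp.mapDomain_sub, Finsupp.mapDomain_single] at h1
  have hv : v.ord f = -(n : ℤ) := by
    have := congrArg (fun D => D v) hf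
    simp only [poleDivisor_apply, Finsupp.single_eq_same] at this
    omega
  have hle : Finsupp.single (s v) (n : ℤ) ≤ Finsupp.mapDomain s Z := by
    refine Finsupp.le_def.2 fun w => ?_
    rcases eq_or_ne w (s v) with rfl | hw
    · have h2 := congrArg (fun D => D (s v)) h1
      have h4 : 0 ≤ Z (s v) := by simp [Z]
      simp only [Finsupp.sub_apply, Finsupp.single_eq_same, Finsupp.single_eq_of_ne hne] at h2
      rw [Finsupp.single_eq_same]
      omega
    · rw [Finsupp.single_eq_of_ne hw]
      exact Finsupp.le_def.1 hZ0 w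
  have heq := eq_of_le_of_degree_le hle
    (by rw [hZmdeg, Divisor.degree_single, deg_eq_one]; omega)
  rw [← heq, sub_self] at h1
  have h2 := congrArg (fun D => D v) h1
  have h3 : Z v = 0 := by simp [Z, hv]
  simp only [Finsupp.zero_apply, Finsupp.sub_apply, Finsupp.single_eq_same, h3] at h2
  omega

end Identity

variable {K : Type uK} {F : Type uF} {Ω : Type uΩ} {E : Type uE}
  [Field K] [Field F] [Field Ω] [Field E]
  [Algebra K F] [Algebra K Ω] [Algebra K E] [Algebra F E] [Algebra Ω E]
  [IsScalarTower K F E] [IsScalarTower K Ω E] [IsConstExt K F Ω E]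
  [IsAlgClosed K] [IsAlgClosed Ω] [IsFunctionFieldOne K F] [IsFunctionFieldOne Ω E]

variable (K F Ω E) in
/-- Specialisation of classes: a left inverse of `picExt`, injective on torsion. -/
theorem exists_retraction : ∃ r : Pic0 Ω E →+ Pic0 K F,
    (∀ y : Pic0 K F, r (picExt Ω E y) = y) ∧
      ∀ m : ℕ, (m : K) ≠ 0 → Set.InjOn r (Pic0.torsion Ω E m : Set (Pic0 Ω E)) := by
  classical
  obtain ⟨B, hBK, hBres⟩ := exists_valuationSubring_residue_trivial K Ω
  let jK : K →+* IsLocalRing.ResidueField B :=
    (IsLocalRing.residue B).comp ((algebraMap K Ω).codRestrict B hBK)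
  have hjK : Function.Surjective jK := by
    intro z
    obtain ⟨b, rfl⟩ := IsLocalRing.residue_surjective z
    obtain ⟨a, ha⟩ := hBres b b.2
    refine ⟨a, ?_⟩
    rw [← sub_eq_zero, RingHom.comp_apply, ← map_sub, IsLocalRing.residue_eq_zero_iff,
      ← neg_mem_iff, neg_sub, ← B.coe_mem_nonunits_iff]
    exact ha
  let e := RingEquiv.ofBijective jK ⟨jK.injective, hjK⟩
  let πB : B →+* K := (e.symm : IsLocalRing.ResidueField B →+* K).comp (IsLocalRing.residue B)
  have hπs : Function.Surjective πB := e.symm.surjective.comp IsLocalRing.residue_surjective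
  obtain ⟨x, hx, hfin⟩ := IsFunctionFieldOne.exists_transcendental_finite (K := K) (F := F)
  let G₀ : GoodReduction (⊤ : ValuationSubring K) F K F :=
    { π := (⊤ : ValuationSubring K).subtype
      π_surjective := fun a => ⟨⟨a, ValuationSubring.mem_top a⟩, rfl⟩
      V := ⊤
      mem_V_iff := fun a => iff_of_true (ValuationSubring.mem_top _) (ValuationSubring.mem_top _)
      φ := (⊤ : ValuationSubring F).subtype
      φ_surjective := fun a => ⟨⟨a, ValuationSubring.mem_top a⟩, rfl⟩
      φ_algebraMap := fun _ => rfl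
      exists_scale := fun f hf => ⟨1, ValuationSubring.mem_top _, by simpa using hf⟩
      x := ⟨x, ValuationSubring.mem_top x⟩
      x_transcendental := hx
      degree_eq := rfl
      degree_pos := finrank_adjoin_pos hx
      genus_eq := rfl }
  have hB : B.comap (algebraMap K Ω) = ⊤ :=
    eq_top_iff.2 fun a _ => ValuationSubring.mem_comap.2 (hBK a)
  have hπ : ∀ (a : (⊤ : ValuationSubring K)) (h : algebraMap K Ω a ∈ B),
      πB ⟨_, h⟩ = algebraMap K K (G₀.π a) := fun a h => e.symm_apply_eq.2 rfl
  haveI : IsConstExt K F K F := by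
    haveI := hfin
    refine IsConstExt.of_transcendental (K := K) (F := F) (Ω := K) (E := F) x hx ?_
    rw [eq_top_iff]
    exact fun z _ => IntermediateField.subset_adjoin _ _ ⟨z, rfl⟩
  let G := G₀.extend B hB πB hπs hπ E F
  have hretr : ∀ v : Place K F, G.placeMap (placeExt Ω E v) = v := by
    refine eq_id_of_mapDomain_divisorOf fun f hf => ?_
    have hmem : algebraMap F E f ∈ G.V :=
      (G₀.algebraMap_mem_extend_V B hB πB hπs hπ E F).2 (ValuationSubring.mem_top f)
    have hφ : G.φ ⟨_, hmem⟩ = f :=
      G₀.extend_φ_algebraMap B hB πB hπs hπ E F (ValuationSubring.mem_top f) hmem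
    ext Q
    rw [show (fun v => G.placeMap (placeExt Ω E v)) = G.placeMap ∘ placeExt Ω E from rfl,
      Finsupp.mapDomain_comp, divisorOf_apply]
    have := G.divMap_apply_eq_ord ⟨_, hmem⟩ (by rwa [hφ])
      (D := divExt Ω E (divisorOf K f)) (ord_algebraMap_eq_divExt (divisorOf_apply f)) Q
    rw [hφ] at this
    exact this
  refine ⟨G.reductionPic0, fun y => ?_, fun m hm => G.reductionPic0_injOn_torsion hm⟩
  obtain ⟨D, rfl⟩ := Pic0.mk_surjective y
  rw [picExt_mk, G.reductionPic0_mk]
  refine congrArg Pic0.mk (Subtype.ext ?_)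
  rw [G.coe_reductionDegZero, coe_degZeroExt]
  show Finsupp.mapDomain G.placeMap (Finsupp.mapDomain (placeExt Ω E) (D : Divisor K F)) = _
  rw [← Finsupp.mapDomain_comp, show G.placeMap ∘ placeExt Ω E = id from funext hretr,
    Finsupp.mapDomain_id]

/-- Torsion classes over the larger constant field come from the smaller one. -/
theorem exists_picExt_eq_of_mem_torsion {m : ℕ} (hm : (m : K) ≠ 0) {x : Pic0 Ω E}
    (hx : x ∈ Pic0.torsion Ω E m) : ∃ y ∈ Pic0.torsion K F m, picExt Ω E y = x := by
  obtain ⟨r, hr, hinj⟩ := exists_retraction K F Ω E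
  have hy : r x ∈ Pic0.torsion K F m := by
    rw [Pic0.mem_torsion] at hx ⊢
    rw [← map_zsmul, hx, map_zero]
  refine ⟨r x, hy, hinj m hm ?_ hx (hr _)⟩
  show picExt Ω E (r x) ∈ Pic0.torsion Ω E m
  rw [Pic0.mem_torsion] at hy ⊢
  rw [← map_zsmul, hy, map_zero]

/-- The torsion does not grow. -/
theorem finite_torsion_of_base {m : ℕ} (hm : (m : K) ≠ 0)
    (hfin : Finite (Pic0.torsion K F m)) : Finite (Pic0.torsion Ω E m) := by
  refine Set.Finite.to_subtype (s := (Pic0.torsion Ω E m : Set (Pic0 Ω E))) ?_
  refine (Set.Finite.image (picExt (K := K) (F := F) Ω E)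
    (Set.toFinite (Pic0.torsion K F m : Set (Pic0 K F)))).subset fun x hx => ?_
  obtain ⟨y, hy, rfl⟩ := exists_picExt_eq_of_mem_torsion (F := F) hm hx
  exact ⟨y, hy, rfl⟩

end Fermat.Agent.Curve

end
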