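/-
Generic tuples of embeddings of a function field into an algebraically closed field.
-/
import Fermat.Agent.Curve.ConstExtExists
import Mathlib.FieldTheory.AlgebraicClosure
import Mathlib.FieldTheory.PrimitiveElement
import Mathlib.RingTheory.AlgebraicIndependent.AlgebraicClosure

set_option autoImplicit false

noncomputable section

namespace Fermat.Agent.Curve

open AlgebraicCurve IntermediateField

universe uK uF uΩ

variable {K : Type uK} {F : Type uF} {Ω : Type uΩ} [Field K] [Field F] [Field Ω]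
  [Algebra K F] [Algebra K Ω]

/-- A tuple of embeddings is generic if its values at `x` form a transcendence basis. -/
def IsGeneric (x : F) {ι : Type*} (ψ : ι → F →ₐ[K] Ω) : Prop :=
  IsTranscendenceBasis K fun i => ψ i x

/-- The map `K(x) → Ω` sending `x` to a transcendental element. -/
def adjoinSimpleHom {x : F} (hx : Transcendental K x) {t : Ω} (ht : Transcendental K t) :
    K⟮x⟯ →ₐ[K] Ω :=
  (((adjoin K (Set.range fun _ : Unit => t)).val.comp
    (algebraicIndependent_unique_type_iff (x := fun _ : Unit => t) |>.2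
      ht).aevalEquivField.toAlgHom).comp
    (algebraicIndependent_unique_type_iff (x := fun _ : Unit => x) |>.2
      hx).aevalEquivField.symm.toAlgHom).comp
    (IntermediateField.equivOfEq (congrArg (adjoin K)
      (Set.range_const (ι := Unit) (c := x)).symm)).toAlgHom

theorem adjoinSimpleHom_gen {x : F} (hx : Transcendental K x) {t : Ω} (ht : Transcendental K t) :
    adjoinSimpleHom hx ht ⟨x, mem_adjoin_simple_self K x⟩ = t := by
  have hxi := algebraicIndependent_unique_type_iff (x := fun _ : Unit => x) |>.2 hx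
  have hti := algebraicIndependent_unique_type_iff (x := fun _ : Unit => t) |>.2 ht
  set P : FractionRing (MvPolynomial Unit K) := algebraMap (MvPolynomial Unit K) _ (MvPolynomial.X ())
  have h1 : (IntermediateField.equivOfEq (congrArg (adjoin K)
      (Set.range_const (ι := Unit) (c := x)).symm)) ⟨x, mem_adjoin_simple_self K x⟩ =
      hxi.aevalEquivField P := by
    refine Subtype.ext ?_
    rw [show ((hxi.aevalEquivField P : adjoin K (Set.range fun _ : Unit => x)) : F) = x by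
      rw [hxi.aevalEquivField_algebraMap_apply_coe]; simp]
    rfl
  show ((hti.aevalEquivField (hxi.aevalEquivField.symm
    ((IntermediateField.equivOfEq (congrArg (adjoin K)
      (Set.range_const (ι := Unit) (c := x)).symm)) ⟨x, mem_adjoin_simple_self K x⟩))) : Ω) = t
  rw [h1, AlgEquiv.symm_apply_apply, hti.aevalEquivField_algebraMap_apply_coe]
  simp

/-- Two embeddings agreeing at `x` agree on `K(x)`. -/
theorem apply_eq_of_apply_gen_eq {x : F} {f g : F →ₐ[K] Ω} (h : f x = g x) (z : K⟮x⟯) :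
    f z = g z := by
  have h1 : f.comp (K⟮x⟯).val = g.comp (K⟮x⟯).val :=
    algHom_ext_of_eq_adjoin _ rfl (by rintro y (rfl : y = x); exact h)
  exact AlgHom.congr_fun h1 z

variable [IsAlgClosed K] [IsFunctionFieldOne K F] [IsAlgClosed Ω]

theorem exists_algHom_apply_eq {x : F} (hx : Transcendental K x) {t : Ω}
    (ht : Transcendental K t) : ∃ ψ : F →ₐ[K] Ω, ψ x = t := by
  let : Algebra K⟮x⟯ Ω := (adjoinSimpleHom hx ht).toRingHom.toAlgebra
  have : IsScalarTower K K⟮x⟯ Ω :=
    .of_algebraMap_eq fun a => ((adjoinSimpleHom hx ht).commutes a).symm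
  have := finite_adjoin_of_transcendental hx
  refine ⟨((IsAlgClosed.lift : F →ₐ[K⟮x⟯] Ω)).restrictScalars K, ?_⟩
  rw [AlgHom.restrictScalars_apply]
  exact ((IsAlgClosed.lift : F →ₐ[K⟮x⟯] Ω).commutes ⟨x, mem_adjoin_simple_self K x⟩).trans
    (adjoinSimpleHom_gen hx ht)

/-- The number of embeddings with a given transcendental value at a separating `x`. -/
theorem natCard_algHom_apply_eq {x : F} (hx : Transcendental K x) [Algebra.IsSeparable K⟮x⟯ F]
    {t : Ω} (ht : Transcendental K t) :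
    Nat.card {ψ : F →ₐ[K] Ω // ψ x = t} = Module.finrank K⟮x⟯ F := by
  obtain ⟨ψ₀, hψ₀⟩ := exists_algHom_apply_eq hx ht
  let : Algebra K⟮x⟯ Ω := (ψ₀.comp (K⟮x⟯).val).toRingHom.toAlgebra
  have : IsScalarTower K K⟮x⟯ Ω :=
    .of_algebraMap_eq fun a => ((ψ₀.comp (K⟮x⟯).val).commutes a).symm
  have := finite_adjoin_of_transcendental hx
  rw [← AlgHom.card K⟮x⟯ F Ω, ← Nat.card_eq_fintype_card]
  refine Nat.card_congr
    { toFun := fun ψ => { ψ.1 with
        commutes' := fun z => apply_eq_of_apply_gen_eq (ψ.2.trans hψ₀.symm) z }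
      invFun := fun φ => ⟨φ.restrictScalars K,
        (φ.commutes ⟨x, mem_adjoin_simple_self K x⟩).trans hψ₀⟩
      left_inv := fun ψ => Subtype.ext (AlgHom.ext fun _ => rfl)
      right_inv := fun φ => AlgHom.ext fun _ => rfl }

theorem finite_algHom_apply_eq {x : F} (hx : Transcendental K x) (t : Ω) :
    {ψ : F →ₐ[K] Ω | ψ x = t}.Finite := by
  rcases Set.eq_empty_or_nonempty {ψ : F →ₐ[K] Ω | ψ x = t} with h | ⟨ψ₀, hψ₀⟩
  · rw [h]; exact Set.finite_empty
  let : Algebra K⟮x⟯ Ω := (ψ₀.comp (K⟮x⟯).val).toRingHom.toAlgebra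
  have : IsScalarTower K K⟮x⟯ Ω :=
    .of_algebraMap_eq fun a => ((ψ₀.comp (K⟮x⟯).val).commutes a).symm
  have := finite_adjoin_of_transcendental hx
  refine (Set.finite_range fun φ : F →ₐ[K⟮x⟯] Ω => φ.restrictScalars K).subset fun ψ hψ => ?_
  exact ⟨{ ψ with
    commutes' := fun z => apply_eq_of_apply_gen_eq (hψ.trans hψ₀.symm) z }, AlgHom.ext fun _ => rfl⟩

omit [IsAlgClosed K] [IsAlgClosed Ω] in
/-- The values of an embedding are algebraic over `K(S)` as soon as its value at `x` is. -/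
theorem isAlgebraic_apply {x : F} (hx : Transcendental K x) (ψ : F →ₐ[K] Ω) {S : Set Ω}
    (hS : IsAlgebraic (adjoin K S) (ψ x)) (f : F) : IsAlgebraic (adjoin K S) (ψ f) := by
  have := finite_adjoin_of_transcendental hx
  let L := algebraicClosure (adjoin K S) Ω
  have hle : ∀ z : K⟮x⟯, ψ z ∈ L := by
    intro z
    have h : K⟮x⟯ ≤ (L.restrictScalars K).comap ψ :=
      adjoin_simple_le_iff.2 (mem_algebraicClosure_iff.2 hS)
    exact h z.2
  have h1 : IsAlgebraic L (ψ f) :=
    (Algebra.IsAlgebraic.isAlgebraic (R := K⟮x⟯) f).ringHom_of_comp_eq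
      ((ψ.toRingHom.comp (K⟮x⟯).val.toRingHom).codRestrict L hle) ψ.toRingHom
      (fun a b hab => Subtype.ext (ψ.toRingHom.injective (congrArg Subtype.val hab)))
      (RingHom.ext fun _ => rfl)
  exact h1.restrictScalars _

/-- Changing one member of a generic tuple, keeping its values at `x`. -/
theorem exists_algEquiv_update {x : F} (hx : Transcendental K x) {ι : Type*} {t : ι → Ω}
    (ht : IsTranscendenceBasis K t) (i : ι) (χ χ' : F →ₐ[K] Ω) (hχ : χ x = t i)
    (hχ' : χ' x = t i) :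
    ∃ τ : Ω ≃ₐ[K] Ω, (∀ z : Ω, IsAlgebraic (adjoin K (t '' {i}ᶜ)) z → τ z = z) ∧
      (τ : Ω →ₐ[K] Ω).comp χ = χ' ∧ τ (t i) = t i := by
  let L := algebraicClosure (adjoin K (t '' {i}ᶜ)) Ω
  have : IsAlgClosed L := (algebraicClosure.isAlgClosure _ Ω).isAlgClosed
  let : Algebra K L := ((algebraMap (adjoin K (t '' {i}ᶜ)) L).comp (algebraMap K _)).toAlgebra
  have : IsScalarTower K L Ω := .of_algebraMap_eq fun a => rfl
  have hti : Transcendental L (t i) := by
    intro halg
    have h1 : IsAlgebraic (adjoin K (t '' {i}ᶜ)) (t i) := halg.restrictScalars _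
    exact (IntermediateField.transcendental_adjoin_iff.2
      (ht.1.transcendental_adjoin (s := {i}ᶜ) (by simp))) h1
  have := finite_adjoin_of_transcendental hx
  obtain ⟨Φ, hΦ⟩ := IsConstExt.exists_liftHom (E := ConstExtField K F L) (E' := Ω) χ x
    (by rwa [hχ])
  obtain ⟨Φ', hΦ'⟩ := IsConstExt.exists_liftHom (E := ConstExtField K F L) (E' := Ω) χ' x
    (by rwa [hχ'])
  have halg : ∀ Ψ : ConstExtField K F L →ₐ[L] Ω, t i ∈ Set.range Ψ →
      Algebra.IsAlgebraic Ψ.fieldRange Ω := by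
    intro Ψ hi
    have hle : adjoin K (Set.range t) ≤ Ψ.fieldRange.restrictScalars K := by
      rw [adjoin_le_iff]
      rintro _ ⟨j, rfl⟩
      rw [SetLike.mem_coe, IntermediateField.mem_restrictScalars, AlgHom.mem_fieldRange]
      by_cases hj : j = i
      · exact hj ▸ hi
      · exact ⟨algebraMap L _ ⟨t j, mem_algebraicClosure_iff.2 (isAlgebraic_algebraMap
          (⟨t j, subset_adjoin _ _ ⟨j, hj, rfl⟩⟩ : adjoin K (t '' {i}ᶜ)))⟩, Ψ.commutes _⟩
    let : Algebra (adjoin K (Set.range t)) Ψ.fieldRange := (inclusion hle).toRingHom.toAlgebra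
    have : IsScalarTower (adjoin K (Set.range t)) Ψ.fieldRange Ω :=
      .of_algebraMap_eq fun _ => rfl
    have := ht.isAlgebraic_field
    exact Algebra.IsAlgebraic.tower_top (K := adjoin K (Set.range t)) Ψ.fieldRange
  have := halg Φ ⟨algebraMap F _ x, (hΦ x).trans hχ⟩
  have := halg Φ' ⟨algebraMap F _ x, (hΦ' x).trans hχ'⟩
  have : IsAlgClosure Φ.fieldRange Ω := ⟨inferInstance, inferInstance⟩
  have : IsAlgClosure Φ'.fieldRange Ω := ⟨inferInstance, inferInstance⟩
  let e : Φ.fieldRange ≃ₐ[L] Φ'.fieldRange :=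
    (AlgEquiv.ofInjectiveField Φ).symm.trans (AlgEquiv.ofInjectiveField Φ')
  let τ₀ : Ω ≃+* Ω := IsAlgClosure.equivOfEquiv Ω Ω e.toRingEquiv
  have hτ : ∀ z, τ₀ (Φ z) = Φ' z := fun z => by
    have h := IsAlgClosure.equivOfEquiv_algebraMap Ω Ω e.toRingEquiv
      (AlgEquiv.ofInjectiveField Φ z : Φ.fieldRange)
    refine h.trans ?_
    show ((AlgEquiv.ofInjectiveField Φ') ((AlgEquiv.ofInjectiveField Φ).symm
      (AlgEquiv.ofInjectiveField Φ z)) : Ω) = Φ' z
    rw [AlgEquiv.symm_apply_apply]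
    rfl
  have hfix : ∀ z : Ω, IsAlgebraic (adjoin K (t '' {i}ᶜ)) z → τ₀ z = z := by
    intro z hz
    have h := hτ (algebraMap L _ (⟨z, mem_algebraicClosure_iff.2 hz⟩ : L))
    rwa [Φ.commutes, Φ'.commutes] at h
  refine ⟨AlgEquiv.ofRingEquiv (f := τ₀) fun a => ?_, hfix, AlgHom.ext fun f => ?_, ?_⟩
  · exact hfix _ (isAlgebraic_algebraMap (algebraMap K (adjoin K (t '' {i}ᶜ)) a))
  · show τ₀ (χ f) = χ' f
    rw [← hΦ f, hτ, hΦ']
  · show τ₀ (t i) = t i
    conv_lhs => rw [← hχ, ← hΦ x]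
    rw [hτ, hΦ', hχ']

omit [IsFunctionFieldOne K F] [IsAlgClosed K] in
/-- Automorphisms act transitively on transcendence bases. -/
theorem exists_algEquiv_map_basis {ι : Type*} {t t' : ι → Ω} (ht : IsTranscendenceBasis K t)
    (ht' : IsTranscendenceBasis K t') : ∃ σ : Ω ≃ₐ[K] Ω, ∀ i, σ (t i) = t' i := by
  have := ht.isAlgebraic_field
  have := ht'.isAlgebraic_field
  have : IsAlgClosure (adjoin K (Set.range t)) Ω := ⟨inferInstance, inferInstance⟩
  have : IsAlgClosure (adjoin K (Set.range t')) Ω := ⟨inferInstance, inferInstance⟩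
  let e : adjoin K (Set.range t) ≃ₐ[K] adjoin K (Set.range t') :=
    ht.1.aevalEquivField.symm.trans ht'.1.aevalEquivField
  let σ₀ : Ω ≃+* Ω := IsAlgClosure.equivOfEquiv Ω Ω e.toRingEquiv
  have hσ : ∀ z : adjoin K (Set.range t), σ₀ (z : Ω) = (e z : Ω) := fun z =>
    IsAlgClosure.equivOfEquiv_algebraMap Ω Ω e.toRingEquiv z
  refine ⟨AlgEquiv.ofRingEquiv (f := σ₀) fun a => ?_, fun i => ?_⟩
  · exact (hσ (algebraMap K _ a)).trans (by rw [e.commutes]; rfl)
  · let P : FractionRing (MvPolynomial ι K) := algebraMap (MvPolynomial ι K) _ (MvPolynomial.X i)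
    have hP : ((ht.1.aevalEquivField P : adjoin K (Set.range t)) : Ω) = t i := by
      rw [ht.1.aevalEquivField_algebraMap_apply_coe]; simp
    show σ₀ (t i) = t' i
    rw [← hP, hσ]
    simp only [e, AlgEquiv.trans_apply, AlgEquiv.symm_apply_apply, P]
    rw [ht'.1.aevalEquivField_algebraMap_apply_coe]
    simp

/-- Transitivity on generic tuples. -/
theorem exists_algEquiv_of_isGeneric {x : F} (hx : Transcendental K x) {ι : Type*} [Finite ι]
    {ψ ψ' : ι → F →ₐ[K] Ω} (hψ : IsGeneric x ψ) (hψ' : IsGeneric x ψ') :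
    ∃ σ : Ω ≃ₐ[K] Ω, ∀ i, (σ : Ω →ₐ[K] Ω).comp (ψ i) = ψ' i := by
  classical
  have := Fintype.ofFinite ι
  obtain ⟨σ₀, hσ₀⟩ := exists_algEquiv_map_basis hψ hψ'
  suffices key : ∀ s : Finset ι, ∃ σ : Ω ≃ₐ[K] Ω, (∀ j, σ (ψ j x) = ψ' j x) ∧
      ∀ j ∈ s, (σ : Ω →ₐ[K] Ω).comp (ψ j) = ψ' j by
    obtain ⟨σ, -, hσ⟩ := key Finset.univ
    exact ⟨σ, fun i => hσ i (Finset.mem_univ i)⟩
  intro s
  induction s using Finset.induction with
  | empty => exact ⟨σ₀, hσ₀, by simp⟩
  | insert i s hi ih =>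
    obtain ⟨σ, hσx, hσ⟩ := ih
    obtain ⟨τ, hfix, hτ, hτi⟩ := exists_algEquiv_update hx hψ' i
      ((σ : Ω →ₐ[K] Ω).comp (ψ i)) (ψ' i) (hσx i) rfl
    have hj : ∀ j, j ≠ i → ∀ f, τ (ψ' j f) = ψ' j f := fun j hji f =>
      hfix _ (isAlgebraic_apply hx (ψ' j) (isAlgebraic_algebraMap
        (⟨ψ' j x, subset_adjoin _ _ ⟨j, hji, rfl⟩⟩ :
          adjoin K ((fun l => ψ' l x) '' {i}ᶜ))) f)
    refine ⟨σ.trans τ, fun j => ?_, fun j hjs => AlgHom.ext fun f => ?_⟩
    · show τ (σ (ψ j x)) = _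
      rw [hσx]
      by_cases h : j = i
      · exact h ▸ hτi
      · exact hj j h x
    · show τ (σ (ψ j f)) = _
      rcases Finset.mem_insert.1 hjs with rfl | hjs
      · exact AlgHom.congr_fun hτ f
      · rw [show σ (ψ j f) = ψ' j f from AlgHom.congr_fun (hσ j hjs) f]
        exact hj j (fun h => hi (h ▸ hjs)) f

end Fermat.Agent.Curve

end
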