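/-
The places of a constant field extension `E/Ω` of `F/K` attached to the `K`-embeddings `F → Ω`.
-/
import Fermat.Agent.Curve.ConstExtAut
import Fermat.Agent.Curve.ConstExtMk
import Fermat.Agent.Curve.BasicInstances
import Mathlib.FieldTheory.Separable
import Mathlib.RingTheory.Valuation.LocalSubring

set_option autoImplicit false

noncomputable section

namespace Fermat.Agent.Curve

open AlgebraicCurve TensorProduct IntermediateField

universe uK uF uΩ uE

section Basic

variable {K : Type uK} {F : Type uF} [Field K] [Field F] [Algebra K F] (v : Place K F)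

theorem ord_pos_of_mem_nonunits {f : F} (hf : f ∈ v.toValuationSubring.nonunits) (hf0 : f ≠ 0) :
    0 < v.ord f := by
  have h := (v.toValuationSubring.mem_nonunits_iff_or.1 hf).resolve_left hf0
  rw [mem_iff_ord_nonneg, v.ord_inv] at h
  omega

theorem mem_nonunits_of_ord_pos {f : F} (hf : 0 < v.ord f) :
    f ∈ v.toValuationSubring.nonunits := by
  refine v.toValuationSubring.mem_nonunits_iff_or.2 (Or.inr fun h => ?_)
  rw [mem_iff_ord_nonneg, v.ord_inv] at h
  omega

theorem algebraMap_mem_nonunits_iff {a : K} :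
    algebraMap K F a ∈ v.toValuationSubring.nonunits ↔ a = 0 := by
  rw [v.toValuationSubring.mem_nonunits_iff_or]
  constructor
  · rintro (h | h)
    · exact (map_eq_zero _).1 h
    · exact absurd (map_inv₀ (algebraMap K F) a ▸ v.algebraMap_mem' a⁻¹) h
  · rintro rfl
    exact Or.inl (map_zero _)

end Basic

variable {K : Type uK} {F : Type uF} {Ω : Type uΩ} {E : Type uE}
  [Field K] [Field F] [Field Ω] [Field E]
  [Algebra K F] [Algebra K Ω] [Algebra K E] [Algebra F E] [Algebra Ω E]
  [IsScalarTower K F E] [IsScalarTower K Ω E] [IsConstExt K F Ω E]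

/-- `P` is the place of `E` attached to the embedding `ψ : F → Ω`. -/
def IsPointOf (ψ : F →ₐ[K] Ω) (P : Place Ω E) : Prop :=
  ∀ f : F, algebraMap F E f - algebraMap Ω E (ψ f) ∈ P.toValuationSubring.nonunits

omit [IsScalarTower K F E] [IsScalarTower K Ω E] [IsConstExt K F Ω E] in
theorem IsPointOf.algebraMap_mem {ψ : F →ₐ[K] Ω} {P : Place Ω E} (h : IsPointOf ψ P) (f : F) :
    algebraMap F E f ∈ P.toValuationSubring := by
  have h1 : algebraMap F E f - algebraMap Ω E (ψ f) ∈ P.toValuationSubring :=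
    P.toValuationSubring.nonunits_le (h f)
  simpa using add_mem h1 (P.algebraMap_mem' (ψ f))

omit [IsScalarTower K F E] [IsScalarTower K Ω E] [IsConstExt K F Ω E] in
/-- A place determines the embedding. -/
theorem IsPointOf.hom_unique {ψ ψ' : F →ₐ[K] Ω} {P : Place Ω E} (h : IsPointOf ψ P)
    (h' : IsPointOf ψ' P) : ψ = ψ' := by
  ext f
  rw [← sub_eq_zero, ← algebraMap_mem_nonunits_iff P]
  have := P.toValuationSubring.nonunits.sub_mem (h' f) (h f)
  rwa [sub_sub_sub_cancel_left, ← map_sub] at this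

variable (E)

theorem exists_isPointOf [IsFunctionFieldOne K F] [IsFunctionFieldOne Ω E] (ψ : F →ₐ[K] Ω) :
    ∃ P : Place Ω E, IsPointOf ψ P := by
  let μ := extConstMap K F Ω E
  let ev : Ω ⊗[K] F →ₐ[Ω] Ω :=
    Algebra.TensorProduct.lift (AlgHom.id Ω Ω) ψ (fun _ _ => Commute.all _ _)
  let R : Subring E := μ.toRingHom.range
  let I : Ideal R := Ideal.map μ.toRingHom.rangeRestrict (RingHom.ker ev.toRingHom)
  have hI : I ≠ ⊤ := by
    rw [Ideal.ne_top_iff_one, Ideal.mem_map_iff_of_surjective _ μ.toRingHom.rangeRestrict_surjective]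
    rintro ⟨h, hh, h1⟩
    have : h = 1 := IsConstExt.injective (K := K) (F := F) (Ω := Ω) (E := E)
      ((congrArg Subtype.val h1).trans (map_one μ).symm)
    rw [RingHom.mem_ker, this, map_one] at hh
    exact one_ne_zero hh
  obtain ⟨V, hRV, hVn⟩ := Ideal.image_subset_nonunits_valuationSubring _ hI
  have hV : ∀ c : Ω, algebraMap Ω E c ∈ V := fun c => hRV ⟨algebraMap Ω _ c, μ.commutes c⟩
  have hn : ∀ f : F, algebraMap F E f - algebraMap Ω E (ψ f) ∈ V.nonunits := by
    intro f
    refine hVn ⟨μ.toRingHom.rangeRestrict (1 ⊗ₜ f - ψ f ⊗ₜ 1), Ideal.mem_map_of_mem _ ?_, ?_⟩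
    · simp [RingHom.mem_ker, ev]
    · show μ (1 ⊗ₜ f - ψ f ⊗ₜ 1) = _
      simp [μ, extConstMap_tmul]
  obtain ⟨x, hx, -⟩ := IsFunctionFieldOne.exists_transcendental_finite (K := K) (F := F)
  have htr : Transcendental Ω (algebraMap F E x - algebraMap Ω E (ψ x)) := fun halg =>
    IsConstExt.transcendental (E := E) hx (by
      simpa using halg.add (isAlgebraic_algebraMap (R := Ω) (A := E) (ψ x)))
  have hne : algebraMap F E x - algebraMap Ω E (ψ x) ≠ 0 := fun h =>
    htr (h ▸ isAlgebraic_zero)
  refine ⟨⟨V, hV, fun htop => ?_, isPrincipalIdealRing_of_mem_nonunits htr V hV (hn x)⟩, hn⟩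
  exact ((V.mem_nonunits_iff_or).1 (hn x)).resolve_left hne (htop ▸ ValuationSubring.mem_top _)

variable {E}

/-- An embedding determines the place. -/
theorem IsPointOf.place_unique [IsAlgClosed K] [IsAlgClosed Ω] [IsFunctionFieldOne K F]
    [IsFunctionFieldOne Ω E] {ψ : F →ₐ[K] Ω} {P Q : Place Ω E} (hP : IsPointOf ψ P)
    (hQ : IsPointOf ψ Q) : P = Q := by
  classical
  by_contra hPQ
  obtain ⟨x, hx, hfin, hsep⟩ := exists_separating (K := K) (F := F)
  let j : K⟮x⟯ →ₐ[K] Ω := ψ.comp (K⟮x⟯).val
  let : Algebra K⟮x⟯ Ω := j.toRingHom.toAlgebra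
  have : IsScalarTower K K⟮x⟯ Ω := .of_algebraMap_eq fun a => (j.commutes a).symm
  have hcard : Fintype.card (F →ₐ[K⟮x⟯] Ω) = Module.finrank K⟮x⟯ F := AlgHom.card K⟮x⟯ F Ω
  choose pl hpl using fun χ : F →ₐ[K⟮x⟯] Ω => exists_isPointOf E (χ.restrictScalars K)
  let ψ₀ : F →ₐ[K⟮x⟯] Ω := { ψ with commutes' := fun _ => rfl }
  let pl' : (F →ₐ[K⟮x⟯] Ω) → Place Ω E := Function.update pl ψ₀ P
  have hpl' : ∀ χ, IsPointOf (χ.restrictScalars K) (pl' χ) := by
    intro χ
    by_cases h : χ = ψ₀
    · subst h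
      simp only [pl', Function.update_self]
      exact hP
    · simp only [pl', Function.update_of_ne h]
      exact hpl χ
  have hinj : Function.Injective pl' := fun a b h =>
    AlgHom.restrictScalars_injective K ((hpl' a).hom_unique (h ▸ hpl' b))
  have hQnot : Q ∉ Finset.univ.image pl' := by
    rintro hmem
    obtain ⟨χ, -, rfl⟩ := Finset.mem_image.1 hmem
    have h1 : χ.restrictScalars K = ψ := (hpl' χ).hom_unique hQ
    have h2 : χ = ψ₀ := AlgHom.restrictScalars_injective K h1
    subst h2
    simp [pl'] at hPQ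
  have hx' := IsConstExt.transcendental (E := E) (Ω := Ω) hx
  set z := algebraMap F E x - algebraMap Ω E (ψ x) with hz
  have htr : Transcendental Ω z := fun halg =>
    hx' (by simpa [z] using halg.add (isAlgebraic_algebraMap (R := Ω) (A := E) (ψ x)))
  have hz0 : z ≠ 0 := fun h => htr (h ▸ isAlgebraic_zero)
  have hpos : ∀ w ∈ insert Q (Finset.univ.image pl'), 0 < w.ord z := by
    intro w hw
    rcases Finset.mem_insert.1 hw with rfl | hw
    · exact ord_pos_of_mem_nonunits _ (hQ x) hz0
    · obtain ⟨χ, -, rfl⟩ := Finset.mem_image.1 hw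
      have hχx : χ x = ψ x := χ.commutes ⟨x, mem_adjoin_simple_self K x⟩
      have h := hpl' χ x
      rw [AlgHom.restrictScalars_apply, hχx] at h
      exact ord_pos_of_mem_nonunits _ h hz0
  have hle := sum_ord_mul_deg_le htr _ hpos
  have hfield : Ω⟮z⟯ = Ω⟮algebraMap F E x⟯ := by
    refine le_antisymm (adjoin_simple_le_iff.2
      (sub_mem (mem_adjoin_simple_self _ _) (IntermediateField.algebraMap_mem _ _)))
      (adjoin_simple_le_iff.2 ?_)
    simpa [z] using add_mem (mem_adjoin_simple_self Ω z)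
      (IntermediateField.algebraMap_mem Ω⟮z⟯ (ψ x))
  rw [hfield, IsConstExt.finrank_adjoin hx, ← hcard] at hle
  have hlow : ((insert Q (Finset.univ.image pl')).card : ℤ) ≤
      ∑ w ∈ insert Q (Finset.univ.image pl'), w.ord z * (w.deg : ℤ) := by
    rw [Finset.card_eq_sum_ones, Nat.cast_sum]
    refine Finset.sum_le_sum fun w hw => ?_
    rw [IsCurveOver.deg_eq_one_of_isAlgClosed]
    have := hpos w hw
    push_cast
    omega
  rw [Finset.card_insert_of_notMem hQnot, Finset.card_image_of_injective _ hinj,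
    Finset.card_univ] at hlow
  omega

variable (E)

/-- The place attached to an embedding. -/
def pointPlace [IsFunctionFieldOne K F] [IsFunctionFieldOne Ω E] (ψ : F →ₐ[K] Ω) : Place Ω E :=
  (exists_isPointOf E ψ).choose

theorem isPointOf_pointPlace [IsFunctionFieldOne K F] [IsFunctionFieldOne Ω E]
    (ψ : F →ₐ[K] Ω) : IsPointOf ψ (pointPlace E ψ) :=
  (exists_isPointOf E ψ).choose_spec

variable {E}

theorem pointPlace_injective [IsFunctionFieldOne K F] [IsFunctionFieldOne Ω E] :
    Function.Injective (pointPlace E : (F →ₐ[K] Ω) → Place Ω E) := fun ψ ψ' h =>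
  (isPointOf_pointPlace E ψ).hom_unique (h ▸ isPointOf_pointPlace E ψ')

variable [IsAlgClosed K] [IsAlgClosed Ω] [IsFunctionFieldOne K F] [IsFunctionFieldOne Ω E]

theorem IsPointOf.eq_pointPlace {ψ : F →ₐ[K] Ω} {P : Place Ω E} (h : IsPointOf ψ P) :
    P = pointPlace E ψ :=
  h.place_unique (isPointOf_pointPlace E ψ)

theorem constAut_smul_pointPlace (σ : Ω ≃ₐ[K] Ω) (ψ : F →ₐ[K] Ω) :
    constAut F E σ • pointPlace E ψ = pointPlace E ((σ : Ω →ₐ[K] Ω).comp ψ) := by
  refine IsPointOf.eq_pointPlace fun f => ?_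
  set g := constAut F E σ with hg
  have he : algebraMap F E f - algebraMap Ω E (((σ : Ω →ₐ[K] Ω).comp ψ) f) =
      g • (algebraMap F E f - algebraMap Ω E (ψ f)) := by
    rw [smul_sub, hg, constAut_smul_algebraMap_base, constAut_smul_algebraMap_const]
    rfl
  rw [he, SemilinearAut.smul_toValuationSubring, ValuationSubring.mem_nonunits_iff_or,
    ← smul_inv'', ValuationSubring.smul_mem_pointwise_smul_iff, smul_eq_zero_iff_eq]
  exact (ValuationSubring.mem_nonunits_iff_or _).1 (isPointOf_pointPlace E ψ f)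

theorem pointPlace_ne_placeExt (ψ : F →ₐ[K] Ω) (v : Place K F) :
    pointPlace E ψ ≠ placeExt Ω E v := by
  intro h
  refine v.ne_top' (SetLike.ext fun f => ⟨fun _ => ValuationSubring.mem_top f, fun _ => ?_⟩)
  exact (algebraMap_mem_placeExt v).1 (h ▸ (isPointOf_pointPlace E ψ).algebraMap_mem f)

/-- Every place is an extended place or a point. -/
theorem exists_eq_placeExt_or_pointPlace (w : Place Ω E) :
    (∃ v : Place K F, w = placeExt Ω E v) ∨ ∃ ψ : F →ₐ[K] Ω, w = pointPlace E ψ := by
  rcases exists_eq_placeExt_or (K := K) (F := F) w with h | h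
  · exact Or.inl h
  refine Or.inr ?_
  let ι : F →+* w.toValuationSubring := (algebraMap F E).codRestrict w.toValuationSubring h
  let χ : F →ₐ[K] Ω :=
    { (constResidue w : w.toValuationSubring →+* Ω).comp ι with
      commutes' := fun a => by
        show constResidue w (ι (algebraMap K F a)) = _
        have : ι (algebraMap K F a) = algebraMap Ω w.toValuationSubring (algebraMap K Ω a) := by
          refine Subtype.ext ?_
          show algebraMap F E (algebraMap K F a) = algebraMap Ω E (algebraMap K Ω a)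
          rw [← IsScalarTower.algebraMap_apply, ← IsScalarTower.algebraMap_apply]
        rw [this, constResidue_algebraMap] }
  refine ⟨χ, IsPointOf.eq_pointPlace fun f => ?_⟩
  have hmem : ι f - algebraMap Ω w.toValuationSubring (constResidue w (ι f)) ∈
      IsLocalRing.maximalIdeal w.toValuationSubring := by
    rw [← constResidue_eq_zero_iff, map_sub, constResidue_algebraMap, sub_self]
  exact (w.toValuationSubring.coe_mem_nonunits_iff).2 hmem

end Fermat.Agent.Curve

end
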