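/-
Divisor classes of generic effective divisors of degree `g` on a constant field extension.
-/
import Fermat.Agent.Curve.DivisibleGeneric
import Fermat.Agent.Curve.DivisiblePoint
import Fermat.Agent.Curve.ConstExtGenus
import Fermat.Agent.Curve.RiemannRochFunctions

set_option autoImplicit false

noncomputable section

namespace Fermat.Agent.Curve

open AlgebraicCurve IntermediateField

universe uK uF uΩ uE

theorem IsGeneric.comp_algEquiv {K F Ω : Type*} [Field K] [Field F] [Field Ω] [Algebra K F]
    [Algebra K Ω] {x : F} {ι : Type*} [Finite ι] {ψ : ι → F →ₐ[K] Ω} (h : IsGeneric x ψ)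
    (σ : Ω ≃ₐ[K] Ω) : IsGeneric x (fun j => (σ : Ω →ₐ[K] Ω).comp (ψ j)) := by
  have h0 : IsTranscendenceBasis K fun i => ψ i x := h
  have hi : AlgebraicIndependent K fun i => σ (ψ i x) :=
    h0.1.map' (f := (σ : Ω →ₐ[K] Ω)) σ.injective
  exact hi.isTranscendenceBasis_of_lift_trdeg_le_of_finite h0.lift_cardinalMk_eq_trdeg.ge

section SemilinearInvariance

variable {K : Type uK} {F : Type uF} [Field K] [Field F] [Algebra K F]

theorem smul_mem_riemannRochSpace {D : Divisor K F} (g : SemilinearAut K F) {f : F}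
    (hf : f ∈ riemannRochSpace D) : g • f ∈ riemannRochSpace (g • D) := by
  rw [mem_riemannRochSpace_iff] at hf ⊢
  intro w
  rcases hf (g⁻¹ • w) with h | h
  · exact Or.inl (by rw [h, smul_zero])
  · refine Or.inr ?_
    rw [SemilinearAut.divisor_smul_apply]
    have := SemilinearAut.ord_smul g (g⁻¹ • w) f
    rw [smul_inv_smul] at this
    rwa [this]

/-- `l` is invariant under semilinear automorphisms. -/
theorem ellDim_smul (g : SemilinearAut K F) (D : Divisor K F) : ellDim (g • D) = ellDim D := by
  let j : riemannRochSpace D ≃+ riemannRochSpace (g • D) :=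
    { toFun := fun f => ⟨g • (f : F), smul_mem_riemannRochSpace g f.2⟩
      invFun := fun f => ⟨g⁻¹ • (f : F), by
        simpa using smul_mem_riemannRochSpace g⁻¹ f.2⟩
      left_inv := fun f => Subtype.ext (inv_smul_smul g (f : F))
      right_inv := fun f => Subtype.ext (smul_inv_smul g (f : F))
      map_add' := fun f f' => Subtype.ext (smul_add g (f : F) f') }
  have h := rank_eq_of_equiv_equiv (SemilinearAut.baseAut g) j
    (SemilinearAut.baseAut g).bijective (fun c f => Subtype.ext (by
      show g • ((c • f : riemannRochSpace D) : F) = SemilinearAut.baseAut g c • (g • (f : F))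
      rw [Submodule.coe_smul, Algebra.smul_def, smul_mul', SemilinearAut.smul_algebraMap,
        ← Algebra.smul_def]))
  exact (congrArg Cardinal.toNat h).symm

end SemilinearInvariance

variable {K : Type uK} {F : Type uF} {Ω : Type uΩ} {E : Type uE}
  [Field K] [Field F] [Field Ω] [Field E]
  [Algebra K F] [Algebra K Ω] [Algebra K E] [Algebra F E] [Algebra Ω E]
  [IsScalarTower K F E] [IsScalarTower K Ω E] [IsConstExt K F Ω E]
  [IsAlgClosed K] [IsAlgClosed Ω] [IsFunctionFieldOne K F] [IsFunctionFieldOne Ω E]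

section PointDiv

variable (E) {ι : Type*}

/-- The sum of the points of a tuple of embeddings over a finset. -/
def pointDivOn (ψ : ι → F →ₐ[K] Ω) (s : Finset ι) : Divisor Ω E :=
  ∑ i ∈ s, Finsupp.single (pointPlace E (ψ i)) 1

theorem pointDivOn_nonneg (ψ : ι → F →ₐ[K] Ω) (s : Finset ι) : 0 ≤ pointDivOn E ψ s :=
  Finset.sum_nonneg fun _ _ => Finsupp.single_nonneg.2 zero_le_one

theorem degree_pointDivOn (ψ : ι → F →ₐ[K] Ω) (s : Finset ι) :
    Divisor.degree (pointDivOn E ψ s) = s.card := by
  simp [pointDivOn, map_sum, deg_eq_one]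

theorem constAut_smul_pointDivOn (σ : Ω ≃ₐ[K] Ω) (ψ : ι → F →ₐ[K] Ω) (s : Finset ι) :
    constAut F E σ • pointDivOn E ψ s =
      pointDivOn E (fun i => (σ : Ω →ₐ[K] Ω).comp (ψ i)) s := by
  simp only [pointDivOn, Finset.smul_sum, SemilinearAut.smul_single, constAut_smul_pointPlace]

theorem exists_of_pointDivOn_ne_zero (ψ : ι → F →ₐ[K] Ω) (s : Finset ι) {w : Place Ω E}
    (h : pointDivOn E ψ s w ≠ 0) : ∃ i ∈ s, w = pointPlace E (ψ i) := by
  by_contra hcon
  push Not at hcon
  refine h ?_
  rw [pointDivOn, Finsupp.finsetSum_apply]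
  exact Finset.sum_eq_zero fun i hi => Finsupp.single_eq_of_ne (hcon i hi)

theorem one_le_pointDivOn (ψ : ι → F →ₐ[K] Ω) {s : Finset ι} {i : ι} (hi : i ∈ s) :
    1 ≤ pointDivOn E ψ s (pointPlace E (ψ i)) := by
  classical
  rw [pointDivOn, Finsupp.finsetSum_apply]
  refine le_trans (le_of_eq (Finsupp.single_eq_same).symm)
    (Finset.single_le_sum (f := fun j => Finsupp.single (pointPlace E (ψ j)) (1 : ℤ)
      (pointPlace E (ψ i))) (fun j _ => ?_) hi)
  rw [Finsupp.single_apply]
  split_ifs <;> simp

omit [IsScalarTower K F E] [IsScalarTower K Ω E] [IsConstExt K F Ω E] [IsAlgClosed K]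
  [IsFunctionFieldOne K F] [Algebra K E] [Algebra F E] [Algebra K F] [Algebra K Ω] in
/-- Only finitely many places are base points of `D + P` for a special effective `D`. -/
theorem finite_setOf_ellDim_add_single_gt (D : Divisor Ω E) :
    (Module.finrank Ω (riemannRochSpace D) : ℤ) ≠ Divisor.degree D + 1 - genusFF Ω E →
    {P : Place Ω E | ellDim D < ellDim (D + Finsupp.single P 1)}.Finite := by
  classical
  intro hne
  by_contra hinf
  obtain ⟨S, hS, hcard⟩ := Set.Infinite.exists_subset_card_eq hinf
    (2 * genusFF Ω E + (Divisor.degree D).natAbs)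
  have key : ∀ T : Finset (Place Ω E), T ⊆ S →
      ellDim D + T.card ≤ ellDim (D + ∑ P ∈ T, Finsupp.single P 1) := by
    intro T
    induction T using Finset.induction with
    | empty => intro _; simp
    | insert P T hPT ih =>
      intro hTS
      have hP : ellDim D < ellDim (D + Finsupp.single P 1) := hS (hTS (Finset.mem_insert_self P T))
      have ihT := ih fun q hq => hTS (Finset.mem_insert_of_mem hq)
      set D' := D + ∑ Q ∈ T, Finsupp.single Q (1 : ℤ) with hD'
      rw [Finset.card_insert_of_notMem hPT, Finset.sum_insert hPT,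
        show D + (Finsupp.single P 1 + ∑ Q ∈ T, Finsupp.single Q (1 : ℤ)) =
          D' + Finsupp.single P 1 by rw [hD']; abel]
      have hTP : (∑ Q ∈ T, Finsupp.single Q (1 : ℤ)) P = 0 := by
        rw [Finsupp.finsetSum_apply]
        exact Finset.sum_eq_zero fun Q hQ =>
          Finsupp.single_eq_of_ne fun h => hPT (h ▸ hQ)
      have hsum0 : 0 ≤ ∑ Q ∈ T, Finsupp.single Q (1 : ℤ) :=
        Finset.sum_nonneg fun _ _ => Finsupp.single_nonneg.2 zero_le_one
      obtain ⟨f, hf, hfD⟩ : ∃ f ∈ riemannRochSpace (D + Finsupp.single P 1),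
          f ∉ riemannRochSpace D := by
        by_contra hcon
        push Not at hcon
        exact hP.not_ge (Submodule.finrank_mono hcon)
      have hfD' : f ∉ riemannRochSpace D' := by
        intro hf'
        refine hfD (mem_riemannRochSpace_iff.2 fun w => ?_)
        rcases eq_or_ne w P with rfl | hw
        · have h := mem_riemannRochSpace_iff.1 hf' w
          rwa [show D' w = D w by rw [hD', Finsupp.add_apply, hTP, add_zero]] at h
        · simpa [Finsupp.single_eq_of_ne hw] using mem_riemannRochSpace_iff.1 hf w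
      have hlt : riemannRochSpace D' < riemannRochSpace (D' + Finsupp.single P 1) := by
        refine lt_of_le_of_ne (riemannRochSpace_mono
          (le_add_of_nonneg_right (Finsupp.single_nonneg.2 zero_le_one))) fun heq => hfD' ?_
        rw [heq]
        refine riemannRochSpace_mono ?_ hf
        rw [hD', add_right_comm]
        exact le_add_of_nonneg_right hsum0
      have := Submodule.finrank_lt_finrank_of_lt hlt
      simp only [ellDim] at ihT ⊢
      omega
  have h1 := key S subset_rfl
  have hdeg : Divisor.degree (D + ∑ P ∈ S, Finsupp.single P (1 : ℤ)) =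
      Divisor.degree D + S.card := by
    simp [map_sum, deg_eq_one]
  have h2 := ellDim_eq_of_degree_ge (D := D + ∑ P ∈ S, Finsupp.single P (1 : ℤ))
    (by rw [hdeg, hcard]; omega)
  rw [hdeg] at h2
  have h3 := riemann_inequality D
  refine hne ?_
  simp only [ellDim] at h1 h2 h3 ⊢
  omega

/-- `l = 1` for at most `g` points of a generic tuple. -/
theorem ellDim_pointDivOn [Finite ι] {x : F} (hx : Transcendental K x) {ψ : ι → F →ₐ[K] Ω}
    (hψ : IsGeneric x ψ) (hι : Nat.card ι ≤ genusFF Ω E) (s : Finset ι) :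
    ellDim (pointDivOn E ψ s) = 1 := by
  classical
  have := Fintype.ofFinite ι
  induction s using Finset.induction with
  | empty => simp [pointDivOn, ellDim_zero]
  | insert i s hi ih =>
    have hins : pointDivOn E ψ (insert i s) =
        pointDivOn E ψ s + Finsupp.single (pointPlace E (ψ i)) 1 := by
      simp [pointDivOn, Finset.sum_insert hi, add_comm]
    have hslt : s.card < genusFF Ω E :=
      lt_of_lt_of_le (Finset.card_lt_univ_of_notMem hi) (by rwa [← Nat.card_eq_fintype_card])
    have hne : (Module.finrank Ω (riemannRochSpace (pointDivOn E ψ s)) : ℤ) ≠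
        Divisor.degree (pointDivOn E ψ s) + 1 - genusFF Ω E := by
      rw [show Module.finrank Ω (riemannRochSpace (pointDivOn E ψ s)) = 1 from ih,
        degree_pointDivOn]
      omega
    have hfin := finite_setOf_ellDim_add_single_gt E (pointDivOn E ψ s) hne
    refine le_antisymm ?_ ?_
    · by_contra hgt
      have hP : ellDim (pointDivOn E ψ s) <
          ellDim (pointDivOn E ψ s + Finsupp.single (pointPlace E (ψ i)) 1) := by
        rw [← hins, ih]; omega
      -- the orbit of the point is infinite but stays inside a finite set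
      let L := algebraicClosure (adjoin K ((fun j => ψ j x) '' {i}ᶜ)) Ω
      have : IsAlgClosed L := (algebraicClosure.isAlgClosure _ Ω).isAlgClosed
      have htr : Transcendental L (ψ i x) := fun halg =>
        (IntermediateField.transcendental_adjoin_iff.2
          (hψ.1.transcendental_adjoin (s := {i}ᶜ) (by simp))) (halg.restrictScalars _)
      refine exists_infinite_orbit htr ?_
      let val : Place Ω E → Ω := fun w =>
        if h : ∃ χ : F →ₐ[K] Ω, w = pointPlace E χ then h.choose x else 0
      refine (hfin.image val).subset ?_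
      rintro _ ⟨σ, rfl⟩
      let τ : Ω ≃ₐ[K] Ω := AlgEquiv.ofRingEquiv (f := σ.toRingEquiv) fun a =>
        σ.commutes ⟨algebraMap K Ω a, mem_algebraicClosure_iff.2
          (isAlgebraic_algebraMap (algebraMap K (adjoin K ((fun j => ψ j x) '' {i}ᶜ)) a))⟩
      have hfix : ∀ j ∈ s, (τ : Ω →ₐ[K] Ω).comp (ψ j) = ψ j := fun j hj => AlgHom.ext fun f =>
        σ.commutes ⟨ψ j f, mem_algebraicClosure_iff.2 (isAlgebraic_apply hx (ψ j)
          (isAlgebraic_algebraMap (⟨ψ j x, subset_adjoin _ _
            ⟨j, fun h => hi (h ▸ hj), rfl⟩⟩ : adjoin K ((fun j => ψ j x) '' {i}ᶜ))) f)⟩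
      refine ⟨pointPlace E ((τ : Ω →ₐ[K] Ω).comp (ψ i)), ?_, ?_⟩
      · have hD : constAut F E τ • pointDivOn E ψ s = pointDivOn E ψ s := by
          rw [constAut_smul_pointDivOn]
          exact Finset.sum_congr rfl fun j hj => by simp only [hfix j hj]
        show ellDim (pointDivOn E ψ s) < ellDim (pointDivOn E ψ s +
          Finsupp.single (pointPlace E ((τ : Ω →ₐ[K] Ω).comp (ψ i))) 1)
        rw [← hD, ← constAut_smul_pointPlace, ← SemilinearAut.smul_single, ← smul_add,
          ellDim_smul, ellDim_smul]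
        exact hP
      · have h : ∃ χ : F →ₐ[K] Ω, pointPlace E ((τ : Ω →ₐ[K] Ω).comp (ψ i)) = pointPlace E χ :=
          ⟨_, rfl⟩
        simp only [val, dif_pos h]
        rw [← pointPlace_injective h.choose_spec]
        rfl
    · rw [← ih]
      refine ellDim_mono ?_
      rw [hins]
      exact le_add_of_nonneg_right (Finsupp.single_nonneg.2 zero_le_one)

end PointDiv

section Classes

variable (E) (O : Place K F)

/-- The class of `D - g O` for a divisor `D` of degree `g`. -/
def divClass (D : Divisor Ω E) (hD : Divisor.degree D = genusFF K F) : Pic0 Ω E :=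
  Pic0.mk ⟨D - Finsupp.single (placeExt Ω E O) (genusFF K F : ℤ), by
    rw [Divisor.mem_degZero, map_sub, hD, Divisor.degree_single, deg_eq_one]; simp⟩

theorem exists_divClass_eq (c : Pic0 Ω E) :
    ∃ (D : Divisor Ω E) (hD : Divisor.degree D = genusFF K F), 0 ≤ D ∧
      c = divClass E O D hD := by
  obtain ⟨⟨D₀, hD₀⟩, rfl⟩ := Pic0.mk_surjective c
  rw [Divisor.mem_degZero] at hD₀
  set D₁ := D₀ + Finsupp.single (placeExt Ω E O) (genusFF K F : ℤ) with hD₁
  have hdeg : Divisor.degree D₁ = genusFF K F := by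
    simp [hD₁, hD₀, deg_eq_one]
  obtain ⟨f, hf, hf0⟩ := exists_ne_zero_of_ellDim_pos
    (ellDim_pos_of_degree_ge (D := D₁) (by
      rw [hdeg, genusFF_eq (K := K) (F := F) (Ω := Ω) (E := E)]))
  refine ⟨D₁ + divisorOf Ω f, by rw [map_add, degree_divisorOf, hdeg, add_zero],
    nonneg_of_mem_riemannRochSpace hf hf0, ?_⟩
  rw [divClass, Pic0.mk, Pic0.mk, QuotientAddGroup.eq, AddSubgroup.mem_addSubgroupOf]
  refine ⟨f, hf0, fun w => ?_⟩
  simp [hD₁]
  ring

theorem eq_of_divClass_eq {D D' : Divisor Ω E} {hD : Divisor.degree D = genusFF K F}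
    {hD' : Divisor.degree D' = genusFF K F} (h1 : ellDim D = 1) (hD0 : 0 ≤ D) (h0' : 0 ≤ D')
    (h : divClass E O D hD = divClass E O D' hD') : D = D' := by
  rw [divClass, divClass, Pic0.mk, Pic0.mk, QuotientAddGroup.eq,
    AddSubgroup.mem_addSubgroupOf] at h
  obtain ⟨f, hf0, hf⟩ := h
  have hf' : ∀ w, D' w - D w = w.ord f := fun w => by
    rw [← hf w]
    simp
  have hfmem : f ∈ riemannRochSpace D := mem_riemannRochSpace_iff.2 fun w => Or.inr (by
    have := hf' w
    have := Finsupp.le_def.1 h0' w
    simp only [Finsupp.zero_apply] at this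
    omega)
  have h1mem : (1 : E) ∈ riemannRochSpace D := one_mem_riemannRochSpace hD0
  obtain ⟨c, hc⟩ := (finrank_eq_one_iff_of_nonzero' (⟨1, h1mem⟩ : riemannRochSpace D)
    (fun h => one_ne_zero (congrArg Subtype.val h))).1 h1 ⟨f, hfmem⟩
  ext w
  have hcf : f = algebraMap Ω E c := by
    rw [← mul_one (algebraMap Ω E c), ← Algebra.smul_def]
    exact (congrArg Subtype.val hc).symm
  have := hf' w
  rw [hcf, ord_algebraMap] at this
  omega

theorem constAut_smul_divClass (σ : Ω ≃ₐ[K] Ω) (D : Divisor Ω E)
    (hD : Divisor.degree D = genusFF K F) :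
    constAut F E σ • divClass E O D hD =
      divClass E O (constAut F E σ • D) (by rw [SemilinearAut.degree_smul, hD]) := by
  rw [divClass, divClass, SemilinearAut.pic0_smul_mk]
  refine congrArg Pic0.mk (Subtype.ext ?_)
  rw [SemilinearAut.coe_degZeroSMulHom]
  show constAut F E σ • (D - Finsupp.single (placeExt Ω E O) (genusFF K F : ℤ)) = _
  rw [smul_sub, SemilinearAut.smul_single, constAut_smul_placeExt]

/-- The class of a tuple of `g` embeddings. -/
def pointClass (ψ : Fin (genusFF K F) → F →ₐ[K] Ω) : Pic0 Ω E :=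
  divClass E O (pointDivOn E ψ Finset.univ) (by simp [degree_pointDivOn])

theorem constAut_smul_pointClass (σ : Ω ≃ₐ[K] Ω) (ψ : Fin (genusFF K F) → F →ₐ[K] Ω) :
    constAut F E σ • pointClass E O ψ =
      pointClass E O (fun i => (σ : Ω →ₐ[K] Ω).comp (ψ i)) := by
  rw [pointClass, constAut_smul_divClass, pointClass]
  congr 1
  exact constAut_smul_pointDivOn E σ ψ _

/-- A generic class determines the embeddings. -/
theorem mem_range_of_pointClass_eq {x : F} (hx : Transcendental K x)
    {ψ ψ' : Fin (genusFF K F) → F →ₐ[K] Ω} (hψ : IsGeneric x ψ)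
    (h : pointClass E O ψ = pointClass E O ψ') (i : Fin (genusFF K F)) :
    ψ' i ∈ Set.range ψ := by
  have h1 := ellDim_pointDivOn E hx hψ
    (by simp [genusFF_eq (K := K) (F := F) (Ω := Ω) (E := E)]) Finset.univ
  have heq := eq_of_divClass_eq E O h1 (pointDivOn_nonneg E ψ _) (pointDivOn_nonneg E ψ' _) h
  have h2 := one_le_pointDivOn E ψ' (Finset.mem_univ i)
  rw [← heq] at h2
  obtain ⟨j, -, hj⟩ := exists_of_pointDivOn_ne_zero E ψ Finset.univ
    (w := pointPlace E (ψ' i)) (by omega)
  exact ⟨j, (pointPlace_injective hj).symm⟩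

/-- A class whose stabiliser moves a generic class only finitely often is generic. -/
theorem exists_isGeneric_of_finite_orbit {x : F} (hx : Transcendental K x)
    {ψ : Fin (genusFF K F) → F →ₐ[K] Ω} (hψ : IsGeneric x ψ) {c : Pic0 Ω E}
    (hfin : {y : Pic0 Ω E | ∃ σ : Ω ≃ₐ[K] Ω, constAut F E σ • c = c ∧
      constAut F E σ • pointClass E O ψ = y}.Finite) :
    ∃ φ : Fin (genusFF K F) → F →ₐ[K] Ω, IsGeneric x φ ∧ c = pointClass E O φ := by
  classical
  obtain ⟨D, hD, hD0, rfl⟩ := exists_divClass_eq E O c
  let S : Finset (F →ₐ[K] Ω) :=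
    D.support.preimage (pointPlace E) pointPlace_injective.injOn
  have hpos : ∀ w ∈ D.support, 1 ≤ D w := fun w hw => by
    have := Finsupp.le_def.1 hD0 w
    have := Finsupp.mem_support_iff.1 hw
    simp only [Finsupp.zero_apply] at *
    omega
  have hSD : pointDivOn E id S ≤ D := Finsupp.le_def.2 fun w => by
    by_cases h : pointDivOn E id S w = 0
    · rw [h]; exact Finsupp.le_def.1 hD0 w
    · obtain ⟨χ, hχ, rfl⟩ := exists_of_pointDivOn_ne_zero E id S h
      have h1 : pointDivOn E id S (pointPlace E χ) = 1 := by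
        rw [pointDivOn, Finsupp.finsetSum_apply, Finset.sum_eq_single χ]
        · simp
        · exact fun b _ hb => Finsupp.single_eq_of_ne
            (fun hh => hb (pointPlace_injective hh).symm)
        · exact fun hh => absurd hχ hh
      show pointDivOn E id S (pointPlace E χ) ≤ D (pointPlace E χ)
      rw [h1]
      exact hpos _ (Finset.mem_preimage.1 hχ)
  have hScard : S.card ≤ genusFF K F := by
    have := degree_mono hSD
    rw [degree_pointDivOn, hD] at this
    exact_mod_cast this
  let V : Set Ω := (fun χ : F →ₐ[K] Ω => χ x) '' ↑S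
  let L := algebraicClosure (adjoin K V) Ω
  have : IsAlgClosed L := (algebraicClosure.isAlgClosure _ Ω).isAlgClosed
  -- the values of `ψ` lie in `L`
  have hmem : ∀ i, ψ i x ∈ L := by
    intro i
    rw [mem_algebraicClosure_iff]
    by_contra hnot
    have htr : Transcendental L (ψ i x) := fun halg => hnot (halg.restrictScalars _)
    refine exists_infinite_orbit htr ?_
    choose! pick hpick using fun y (hy : y ∈ {y : Pic0 Ω E | ∃ σ : Ω ≃ₐ[K] Ω,
      constAut F E σ • divClass E O D hD = divClass E O D hD ∧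
        constAut F E σ • pointClass E O ψ = y}) => hy
    refine (hfin.biUnion fun y _ => Set.finite_range fun j => pick y (ψ j x)).subset ?_
    rintro _ ⟨σ, rfl⟩
    let τ : Ω ≃ₐ[K] Ω := AlgEquiv.ofRingEquiv (f := σ.toRingEquiv) fun a =>
      σ.commutes ⟨algebraMap K Ω a, mem_algebraicClosure_iff.2
        (isAlgebraic_algebraMap (algebraMap K (adjoin K V) a))⟩
    have hfixD : constAut F E τ • divClass E O D hD = divClass E O D hD := by
      rw [constAut_smul_divClass]
      congr 1
      rw [SemilinearAut.divisor_smul_def]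
      conv_rhs => rw [← Finsupp.mapDomain_id (v := D)]
      refine Finsupp.mapDomain_congr fun w hw => ?_
      rcases exists_eq_placeExt_or_pointPlace (K := K) (F := F) w with ⟨v, rfl⟩ | ⟨χ, rfl⟩
      · exact constAut_smul_placeExt τ v
      · rw [id_eq, constAut_smul_pointPlace]
        congr 1
        refine AlgHom.ext fun f => σ.commutes ⟨χ f, mem_algebraicClosure_iff.2 ?_⟩
        exact isAlgebraic_apply hx χ (isAlgebraic_algebraMap (⟨χ x, subset_adjoin _ _
          ⟨χ, Finset.mem_preimage.2 hw, rfl⟩⟩ : adjoin K V)) f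
    set y := constAut F E τ • pointClass E O ψ with hy
    have hyS : y ∈ {y : Pic0 Ω E | ∃ σ : Ω ≃ₐ[K] Ω,
        constAut F E σ • divClass E O D hD = divClass E O D hD ∧
          constAut F E σ • pointClass E O ψ = y} := ⟨τ, hfixD, rfl⟩
    refine Set.mem_biUnion hyS ?_
    have h2 := ((constAut_smul_pointClass E O (pick y) ψ).symm.trans (hpick y hyS).2).trans
      (constAut_smul_pointClass E O τ ψ)
    have hgen := hψ.comp_algEquiv (pick y)
    obtain ⟨j, hj⟩ := mem_range_of_pointClass_eq E O hx hgen h2 i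
    exact ⟨j, AlgHom.congr_fun hj x⟩
  have hle : adjoin K (Set.range fun i => ψ i x) ≤ L.restrictScalars K :=
    adjoin_le_iff.2 (by rintro _ ⟨i, rfl⟩; exact hmem i)
  have halgV : Algebra.IsAlgebraic (adjoin K V) Ω := by
    let : Algebra (adjoin K (Set.range fun i => ψ i x)) L := (inclusion hle).toRingHom.toAlgebra
    have : IsScalarTower (adjoin K (Set.range fun i => ψ i x)) L Ω := .of_algebraMap_eq fun _ => rfl
    have := hψ.isAlgebraic_field
    have := Algebra.IsAlgebraic.tower_top (K := adjoin K (Set.range fun i => ψ i x)) L (A := Ω)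
    exact Algebra.IsAlgebraic.trans (adjoin K V) L Ω
  have := IntermediateField.isAlgebraic_adjoin_iff_top.1 halgV
  obtain ⟨T, hTV, hT⟩ := exists_isTranscendenceBasis_subset (R := K) V
  have hVfin : V.Finite := S.finite_toSet.image _
  have hTcard : Nat.card T = genusFF K F := by
    have h := hψ.lift_cardinalMk_eq hT
    have h' := congrArg Cardinal.toNat h
    simpa [Nat.card] using h'.symm
  have hVcard : V.ncard ≤ S.card := by
    rw [← Set.ncard_coe_finset S]
    exact Set.ncard_image_le S.finite_toSet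
  have hTle : T.ncard ≤ V.ncard := Set.ncard_le_ncard hTV hVfin
  rw [← Nat.card_coe_set_eq] at hTle
  have hTeq : T = V := Set.eq_of_subset_of_ncard_le hTV
    (by rw [← Nat.card_coe_set_eq T]; omega) hVfin
  have hSg : S.card = genusFF K F := by omega
  have hinj : Set.InjOn (fun χ : F →ₐ[K] Ω => χ x) ↑S :=
    Set.injOn_of_ncard_image_eq (by
      rw [Set.ncard_coe_finset]
      show V.ncard = S.card
      omega) S.finite_toSet
  let e : Fin (genusFF K F) ≃ S := (finCongr hSg.symm).trans S.equivFin.symm
  refine ⟨fun i => (e i : F →ₐ[K] Ω), ?_, ?_⟩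
  · have hb : Function.Bijective
        (fun i => (⟨(e i : F →ₐ[K] Ω) x, hTeq ▸ ⟨_, (e i).2, rfl⟩⟩ : T)) := by
      refine ⟨fun i j hij => e.injective (Subtype.ext
        (hinj (e i).2 (e j).2 (congrArg Subtype.val hij))), fun z => ?_⟩
      obtain ⟨χ, hχ, hz⟩ : (z : Ω) ∈ V := hTeq ▸ z.2
      exact ⟨e.symm ⟨χ, hχ⟩, Subtype.ext (by simpa using hz)⟩
    exact hT.comp_equiv (Equiv.ofBijective _ hb)
  · rw [pointClass]
    congr 1
    refine (eq_of_le_of_degree_le (D := pointDivOn E (fun i => (e i : F →ₐ[K] Ω)) Finset.univ)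
      ?_ ?_).symm
    · refine le_of_eq_of_le ?_ hSD
      rw [pointDivOn, pointDivOn, ← Finset.sum_coe_sort S]
      exact Fintype.sum_equiv e _ _ fun i => rfl
    · rw [degree_pointDivOn, hD]
      simp

end Classes

end Fermat.Agent.Curve

end
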