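/-
Multiples, roots and translates of generic divisor classes are generic.
-/
import Fermat.Agent.Curve.DivisibleClass

set_option autoImplicit false

noncomputable section

namespace Fermat.Agent.Curve

open AlgebraicCurve

universe uK uF uΩ uE

variable {K : Type uK} {F : Type uF} {Ω : Type uΩ} (E : Type uE)
  [Field K] [Field F] [Field Ω] [Field E]
  [Algebra K F] [Algebra K Ω] [Algebra K E] [Algebra F E] [Algebra Ω E]
  [IsScalarTower K F E] [IsScalarTower K Ω E] [IsConstExt K F Ω E]
  [IsAlgClosed K] [IsAlgClosed Ω] [IsFunctionFieldOne K F] [IsFunctionFieldOne Ω E]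
  (O : Place K F) {x : F} (hx : Transcendental K x)
  {ψ : Fin (genusFF K F) → F →ₐ[K] Ω} (hψ : IsGeneric x ψ)

omit [IsAlgClosed K] [IsAlgClosed Ω] [IsFunctionFieldOne K F] [IsFunctionFieldOne Ω E] in
theorem constAut_smul_nsmul (σ : Ω ≃ₐ[K] Ω) (m : ℕ) (c : Pic0 Ω E) :
    constAut F E σ • (m • c) = m • (constAut F E σ • c) :=
  map_nsmul (DistribSMul.toAddMonoidHom (Pic0 Ω E) (constAut F E σ)) m c

include hx hψ

/-- A translate of a generic class by a class of `F` is generic. -/
theorem exists_pointClass_eq_picExt_add (y : Pic0 K F) :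
    ∃ φ : Fin (genusFF K F) → F →ₐ[K] Ω, IsGeneric x φ ∧
      picExt Ω E y + pointClass E O ψ = pointClass E O φ := by
  refine exists_isGeneric_of_finite_orbit E O hx hψ ((Set.finite_singleton
    (pointClass E O ψ)).subset ?_)
  rintro _ ⟨σ, hσ, rfl⟩
  rw [smul_add, constAut_smul_picExt] at hσ
  exact add_left_cancel hσ

/-- A root of a generic class is generic. -/
theorem exists_pointClass_eq_of_nsmul_eq {m : ℕ} {c : Pic0 Ω E}
    (hc : m • c = pointClass E O ψ) :
    ∃ φ : Fin (genusFF K F) → F →ₐ[K] Ω, IsGeneric x φ ∧ c = pointClass E O φ := by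
  refine exists_isGeneric_of_finite_orbit E O hx hψ ((Set.finite_singleton
    (pointClass E O ψ)).subset ?_)
  rintro _ ⟨σ, hσ, rfl⟩
  rw [← hc, constAut_smul_nsmul, hσ, hc]
  rfl

/-- A multiple of a generic class is generic, if there are only finitely many torsion classes. -/
theorem exists_pointClass_eq_nsmul {m : ℕ} (hfin : Finite (Pic0.torsion Ω E m)) :
    ∃ φ : Fin (genusFF K F) → F →ₐ[K] Ω, IsGeneric x φ ∧
      m • pointClass E O ψ = pointClass E O φ := by
  refine exists_isGeneric_of_finite_orbit E O hx hψ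
    (((Set.toFinite (Pic0.torsion Ω E m : Set (Pic0 Ω E))).image
      (fun z => z + pointClass E O ψ)).subset ?_)
  rintro _ ⟨σ, hσ, rfl⟩
  refine ⟨constAut F E σ • pointClass E O ψ - pointClass E O ψ, ?_, sub_add_cancel _ _⟩
  rw [SetLike.mem_coe, Pic0.mem_torsion, natCast_zsmul, nsmul_sub, ← constAut_smul_nsmul, hσ,
    sub_self]

/-- Two generic classes are conjugate. -/
theorem exists_constAut_smul_pointClass_eq {φ : Fin (genusFF K F) → F →ₐ[K] Ω}
    (hφ : IsGeneric x φ) :
    ∃ σ : Ω ≃ₐ[K] Ω, constAut F E σ • pointClass E O ψ = pointClass E O φ := by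
  obtain ⟨σ, hσ⟩ := exists_algEquiv_of_isGeneric hx hψ hφ
  refine ⟨σ, ?_⟩
  rw [constAut_smul_pointClass, funext hσ]

/-- A generic class is divisible, if there are only finitely many torsion classes. -/
theorem exists_nsmul_eq_pointClass {m : ℕ} (hfin : Finite (Pic0.torsion Ω E m)) :
    ∃ c : Pic0 Ω E, m • c = pointClass E O ψ := by
  obtain ⟨φ, hφ, heq⟩ := exists_pointClass_eq_nsmul E O hx hψ hfin
  obtain ⟨σ, hσ⟩ := exists_constAut_smul_pointClass_eq E O hx hφ hψ
  exact ⟨constAut F E σ • pointClass E O ψ, by rw [← constAut_smul_nsmul, heq, hσ]⟩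

include O in
/-- Classes of `F` are divisible in the larger field, if there are only finitely many torsion
classes there. -/
theorem exists_nsmul_eq_picExt {m : ℕ} (hfin : Finite (Pic0.torsion Ω E m)) (y : Pic0 K F) :
    ∃ c : Pic0 Ω E, m • c = picExt Ω E y := by
  obtain ⟨φ, hφ, heq⟩ := exists_pointClass_eq_picExt_add E O hx hψ y
  obtain ⟨a, ha⟩ := exists_nsmul_eq_pointClass E O hx hφ hfin
  obtain ⟨b, hb⟩ := exists_nsmul_eq_pointClass E O hx hψ hfin
  exact ⟨a - b, by rw [nsmul_sub, ha, hb, ← heq, add_sub_cancel_right]⟩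

end Fermat.Agent.Curve

end
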