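/-
`Pic0` is divisible when its torsion is finite: the proof over a chosen large algebraically closed
field.
-/
import Fermat.Agent.Curve.DivisibleRoots
import Fermat.Agent.Curve.DivisibleRetract

set_option autoImplicit false

noncomputable section

namespace Fermat.Agent.Curve

open AlgebraicCurve IntermediateField

universe uK uF uΩ

variable {K : Type uK} {F : Type uF} [Field K] [Field F] [Algebra K F]
  [IsAlgClosed K] [IsFunctionFieldOne K F]

theorem exists_nsmul_eq_of_basis {Ω : Type uΩ} [Field Ω] [Algebra K Ω] [IsAlgClosed Ω]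
    {t : Fin (genusFF K F) → Ω} (ht : IsTranscendenceBasis K t) {m : ℕ} (hm : (m : K) ≠ 0)
    (hfin : Finite (Pic0.torsion K F m)) (c : Pic0 K F) : ∃ d : Pic0 K F, m • d = c := by
  have : IsFunctionFieldOne Ω (ConstExtField K F Ω) :=
    IsConstExt.isFunctionFieldOne (K := K) (F := F) ‹IsFunctionFieldOne K F›
  obtain ⟨x, hx, -⟩ := IsFunctionFieldOne.exists_transcendental_finite (K := K) (F := F)
  choose ψ hψ using fun i => exists_algHom_apply_eq hx (ht.1.transcendental i)
  have hgen : IsGeneric x ψ := by
    show IsTranscendenceBasis K fun i => ψ i x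
    simpa only [hψ] using ht
  obtain ⟨O, -⟩ := exists_place (K := K) (F := F)
  obtain ⟨r, hr, -⟩ := exists_retraction K F Ω (ConstExtField K F Ω)
  obtain ⟨d, hd⟩ := exists_nsmul_eq_picExt (ConstExtField K F Ω) O hx hgen
    (finite_torsion_of_base hm hfin) c
  exact ⟨r d, by rw [← map_nsmul, hd, hr]⟩

end Fermat.Agent.Curve

end
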