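/-
Normalisation of a `GoodReduction`: the distinguished function has a single pole whose reduction
is a single pole, and functions regular away from it generate the special fibre.
-/
import Fermat.Agent.Curve.ReductionMap
import Fermat.Agent.Curve.RiemannRochFunctions

set_option autoImplicit false

noncomputable section

namespace Fermat.Agent.Curve

open AlgebraicCurve IntermediateField

universe uK uF uk uFb

variable {K : Type uK} [Field K] {A : ValuationSubring K}
  {F : Type uF} [Field F] [Algebra K F]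
  {k : Type uk} [Field k] {Fb : Type uFb} [Field Fb] [Algebra k Fb]

/-- A good reduction may be replaced by one whose function `x` has a single pole reducing to a
single pole, is separating on the special fibre, and such that the reductions of functions
regular away from that pole generate the special fibre. -/
theorem GoodReduction.exists_normalized (G : GoodReduction A F k Fb) [IsAlgClosed K]
    [IsAlgClosed k] [IsFunctionFieldOne K F] [IsFunctionFieldOne k Fb] :
    ∃ (G' : GoodReduction A F k Fb) (P₀ : Place K F) (Q₀ : Place k Fb) (n : ℕ), 0 < n ∧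
      poleDivisor K (G'.x : F) = Finsupp.single P₀ (n : ℤ) ∧
      poleDivisor k (G'.φ G'.x) = Finsupp.single Q₀ (n : ℤ) ∧
      Algebra.IsSeparable k⟮G'.φ G'.x⟯ Fb ∧
      IntermediateField.adjoin k {y : Fb | ∃ f : G'.V,
        (∃ N : ℕ, (f : F) ∈ riemannRochSpace (Finsupp.single P₀ (N : ℤ))) ∧
          G'.φ f = y} = ⊤ := by
  obtain ⟨P₀⟩ := RedAux.nonempty_place (K := K) (F := F)
  set Q₀ := G.placeMap P₀ with hQ₀
  have hg := G.genus_eq
  obtain ⟨n, hn⟩ : ∃ n : ℕ, n = 2 * genusFF K F + 3 := ⟨_, rfl⟩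
  have hlift : ∀ (N : ℕ) (y : Fb), 2 * genusFF K F ≤ N →
      poleDivisor k y ≤ Finsupp.single Q₀ (N : ℤ) →
      ∃ f : G.V, (f : F) ∈ riemannRochSpace (Finsupp.single P₀ (N : ℤ)) ∧ G.φ f = y := by
    intro N y hN hy
    have h := G.reduceSubspace_eq_of_degree_ge (D := Finsupp.single P₀ (N : ℤ))
      (by rw [Divisor.degree_single, RedAux.deg_one]; push_cast; omega)
    have hmem : y ∈ riemannRochSpace (G.divMap (Finsupp.single P₀ (N : ℤ))) := by
      rw [G.divMap_single]
      exact mem_riemannRochSpace_of_poleDivisor_le hy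
    rw [← h] at hmem
    obtain ⟨f, hf, hfy⟩ := hmem
    exact ⟨f, hf, hfy⟩
  obtain ⟨fb, hfb, hfbt, hfbd, hfbs, -⟩ :=
    exists_separating_poleDivisor_single Q₀ (n := n) (by omega)
  obtain ⟨f, hfL, hffb⟩ := hlift n fb (by omega) hfb.le
  have hnn : (0 : Divisor K F) ≤ Finsupp.single P₀ (n : ℤ) :=
    Finsupp.single_nonneg.2 (Int.natCast_nonneg n)
  have hpole : poleDivisor K (f : F) = Finsupp.single P₀ (n : ℤ) := by
    refine RedAux.eq_of_le_of_degree_le ((RedAux.poleDivisor_le_iff hnn).2 hfL) ?_
    refine le_trans ?_ (G.degree_poleDivisor_φ_le f)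
    rw [hffb, hfb, Divisor.degree_single, Divisor.degree_single, RedAux.deg_one, RedAux.deg_one]
  obtain ⟨hft, hfd⟩ := transcendental_and_finrank_of_poleDivisor_single (by omega) hpole
  obtain ⟨u, w, hu, hw, huw⟩ := exists_poleDivisor_single_pair Q₀ (n := n) (by omega) (by omega)
  let G' : GoodReduction A F k Fb :=
    { G with
      x := f
      x_transcendental := hffb.symm ▸ hfbt
      degree_eq := by rw [hffb, hfd, hfbd]
      degree_pos := by rw [hffb, hfbd]; omega }
  refine ⟨G', P₀, Q₀, n, by omega, hpole, ?_, ?_, ?_⟩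
  · show poleDivisor k (G.φ f) = _
    rw [hffb, hfb]
  · show Algebra.IsSeparable k⟮G.φ f⟯ Fb
    rw [hffb]
    exact hfbs
  · refine top_le_iff.1 (huw ▸ IntermediateField.adjoin.mono k _ _ ?_)
    have hle : Finsupp.single Q₀ (n : ℤ) ≤ Finsupp.single Q₀ ((n + 1 : ℕ) : ℤ) :=
      Finsupp.single_le_single.2 (by push_cast; omega)
    rintro y (rfl | rfl)
    · obtain ⟨g, hgL, hgy⟩ := hlift (n + 1) y (by omega) (hu.le.trans hle)
      exact ⟨g, ⟨n + 1, hgL⟩, hgy⟩
    · obtain ⟨g, hgL, hgy⟩ := hlift (n + 1) y (by omega) hw.le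
      exact ⟨g, ⟨n + 1, hgL⟩, hgy⟩

end Fermat.Agent.Curve

end
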