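/-
Reduction of point places of an extended good reduction.
-/
import Fermat.Agent.Curve.DivisibleExtend
import Fermat.Agent.Curve.DivisiblePoint
import Fermat.Agent.Curve.DivisibleNormalize

set_option autoImplicit false

noncomputable section

namespace Fermat.Agent.Curve

open AlgebraicCurve IntermediateField

universe uK uF uk uFb uΩ uE ukΩ uEb

section Pole

variable {K : Type uK} {F : Type uF} {Ω : Type uΩ} {E : Type uE}
  [Field K] [Field F] [Field Ω] [Field E]
  [Algebra K F] [Algebra K Ω] [Algebra K E] [Algebra F E] [Algebra Ω E]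
  [IsScalarTower K F E] [IsScalarTower K Ω E] [IsConstExt K F Ω E]
  [IsAlgClosed K] [IsAlgClosed Ω] [IsFunctionFieldOne K F] [IsFunctionFieldOne Ω E]

/-- A function with poles only at `P₀` has poles only at the extension of `P₀`. -/
theorem ord_algebraMap_nonneg_of_mem_single {P₀ : Place K F} {N : ℕ} {f : F}
    (hf : f ∈ riemannRochSpace (Finsupp.single P₀ (N : ℤ))) {P : Place Ω E}
    (hP : P ≠ placeExt Ω E P₀) : 0 ≤ P.ord (algebraMap F E f) := by
  rcases eq_or_ne f 0 with rfl | hf0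
  · simp
  rcases exists_eq_placeExt_or_pointPlace (K := K) (F := F) P with ⟨v, rfl⟩ | ⟨χ, rfl⟩
  · have hv : v ≠ P₀ := fun h => hP (h ▸ rfl)
    have h := (RedAux.mem_L_iff hf0).1 hf v
    rw [Finsupp.single_eq_of_ne hv, neg_zero] at h
    rw [ord_placeExt]
    exact h
  · exact ord_nonneg_of_mem _ ((isPointOf_pointPlace E χ).algebraMap_mem f)

/-- A translate of a function with a single pole `P₀` has a single pole at the extension of
`P₀`. -/
theorem ord_sub_const_of_poleDivisor_single {P₀ : Place K F} {n : ℕ} (hn : 0 < n) {x : F}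
    (hx : poleDivisor K x = Finsupp.single P₀ (n : ℤ)) (c : Ω) :
    (placeExt Ω E P₀).ord (algebraMap F E x - algebraMap Ω E c) = -(n : ℤ) ∧
      ∀ P : Place Ω E, P ≠ placeExt Ω E P₀ →
        0 ≤ P.ord (algebraMap F E x - algebraMap Ω E c) := by
  refine ⟨?_, fun P hP => ?_⟩
  · have h := DFunLike.congr_fun hx P₀
    rw [poleDivisor_apply, Finsupp.single_eq_same] at h
    have hord : (placeExt Ω E P₀).ord (algebraMap F E x) = -(n : ℤ) := by
      rw [ord_placeExt]; omega
    have hne : algebraMap F E x ≠ 0 := fun h0 => by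
      rw [h0, Place.ord_zero] at hord; omega
    rw [sub_eq_add_neg, ord_add_eq_left _ hne, hord]
    intro _
    rw [ord_neg, ord_algebraMap, hord]
    omega
  · refine ord_nonneg_of_mem _ (sub_mem ?_ (P.algebraMap_mem' c))
    exact mem_of_ord_nonneg _
      (ord_algebraMap_nonneg_of_mem_single (mem_riemannRochSpace_of_poleDivisor_le hx.le) hP)

omit [IsAlgClosed Ω] [IsFunctionFieldOne Ω E] in
theorem adicValuation_lt_one_iff_mem_nonunits (P : Place Ω E) (e : E) :
    P.adicValuation e < 1 ↔ e ∈ P.toValuationSubring.nonunits := by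
  rcases eq_or_ne e 0 with rfl | he
  · simp
  rw [P.adicValuation_eq_exp_neg_ord he, ← WithZero.exp_zero, WithZero.exp_lt_exp, neg_lt_zero]
  exact ⟨mem_nonunits_of_ord_pos P, fun h => ord_pos_of_mem_nonunits P h he⟩

end Pole

namespace GoodReduction

variable {K : Type uK} [Field K] {A : ValuationSubring K}
  {F : Type uF} [Field F] [Algebra K F]
  {k : Type uk} [Field k] {Fb : Type uFb} [Field Fb] [Algebra k Fb]
  (G : GoodReduction A F k Fb) [IsAlgClosed K] [IsAlgClosed k]
  [IsFunctionFieldOne K F] [IsFunctionFieldOne k Fb]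
  {Ω : Type uΩ} [Field Ω] [Algebra K Ω] [IsAlgClosed Ω] (B : ValuationSubring Ω)
  (hB : B.comap (algebraMap K Ω) = A)
  {kΩ : Type ukΩ} [Field kΩ] [Algebra k kΩ] [IsAlgClosed kΩ]
  (πB : B →+* kΩ) (hπs : Function.Surjective πB)
  (hπ : ∀ (a : A) (h : algebraMap K Ω a ∈ B), πB ⟨_, h⟩ = algebraMap k kΩ (G.π a))
  (E : Type uE) [Field E] [Algebra K E] [Algebra F E] [Algebra Ω E]
  [IsScalarTower K F E] [IsScalarTower K Ω E] [IsConstExt K F Ω E]
  (Eb : Type uEb) [Field Eb] [Algebra k Eb] [Algebra Fb Eb] [Algebra kΩ Eb]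
  [IsScalarTower k Fb Eb] [IsScalarTower k kΩ Eb] [IsConstExt k Fb kΩ Eb]
  [IsFunctionFieldOne Ω E] [IsFunctionFieldOne kΩ Eb]

/-- Under the extended reduction an integral point reduces to the reduced point, and the
extension of the pole `P₀` to the extension of `Q₀`. -/
theorem placeMap_pointPlace {P₀ : Place K F} {Q₀ : Place k Fb} {n : ℕ} (hn : 0 < n)
    (hP : poleDivisor K (G.x : F) = Finsupp.single P₀ (n : ℤ))
    (hQ : poleDivisor k (G.φ G.x) = Finsupp.single Q₀ (n : ℤ))
    (hgen : IntermediateField.adjoin k {y : Fb | ∃ f : G.V,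
      (∃ N : ℕ, (f : F) ∈ riemannRochSpace (Finsupp.single P₀ (N : ℤ))) ∧ G.φ f = y} = ⊤)
    (ψ : F →ₐ[K] Ω) (ψb : Fb →ₐ[k] kΩ)
    (hψ : ∀ f : G.V, ∃ h : ψ (f : F) ∈ B, πB ⟨_, h⟩ = ψb (G.φ f)) :
    (G.extend B hB πB hπs hπ E Eb).placeMap (pointPlace E ψ) = pointPlace Eb ψb ∧
      (G.extend B hB πB hπs hπ E Eb).placeMap (placeExt Ω E P₀) = placeExt kΩ Eb Q₀ := by
  classical
  set H := G.extend B hB πB hπs hπ E Eb
  set P' := placeExt Ω E P₀
  set Q' := placeExt kΩ Eb Q₀
  set P := pointPlace E ψ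
  set Q := H.placeMap P
  have hVmem : ∀ f : G.V, algebraMap F E (f : F) ∈ H.V := fun f =>
    (G.algebraMap_mem_extend_V B hB πB hπs hπ E Eb).2 f.2
  have hφι : ∀ f : G.V, H.φ ⟨_, hVmem f⟩ = algebraMap Fb Eb (G.φ f) := fun f =>
    G.extend_φ_algebraMap B hB πB hπs hπ E Eb f.2 _
  have hsub : ∀ f : G.V, algebraMap F E (f : F) - algebraMap Ω E (ψ (f : F)) ∈ H.V := fun f =>
    sub_mem (hVmem f) ((H.mem_V_iff _).2 (hψ f).1)
  have hφsub : ∀ f : G.V, H.φ ⟨_, hsub f⟩ =
      algebraMap Fb Eb (G.φ f) - algebraMap kΩ Eb (ψb (G.φ f)) := fun f => by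
    obtain ⟨h, he⟩ := hψ f
    rw [H.φ_const ⟨ψ (f : F), h⟩ ⟨_, hVmem f⟩ (hsub f), hφι]
    rw [show H.π ⟨ψ (f : F), h⟩ = πB ⟨ψ (f : F), h⟩ from rfl, he]
  -- the function `x - ψ x` and its reduction
  set g := algebraMap F E (G.x : F) - algebraMap Ω E (ψ (G.x : F))
  set gb := algebraMap Fb Eb (G.φ G.x) - algebraMap kΩ Eb (ψb (G.φ G.x))
  have hgbQ' : Q'.ord gb = -(n : ℤ) := (ord_sub_const_of_poleDivisor_single hn hQ _).1
  have hgb0 : gb ≠ 0 := fun h => by rw [h, Place.ord_zero] at hgbQ'; omega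
  have hgP' : P'.ord g = -(n : ℤ) := (ord_sub_const_of_poleDivisor_single hn hP _).1
  have hg0 : g ≠ 0 := fun h => by rw [h, Place.ord_zero] at hgP'; omega
  set D := divisorOf Ω g
  have hDapp : ∀ R, D R = R.ord g := fun R => divisorOf_apply g R
  have hdiv : ∀ R, H.divMap D R = R.ord gb := fun R => by
    rw [H.divMap_apply_eq_ord ⟨g, hsub G.x⟩ (by rw [hφsub]; exact hgb0) hDapp R, hφsub]
  have hPord : 0 < P.ord g :=
    ord_pos_of_mem_nonunits _ (isPointOf_pointPlace E ψ (G.x : F)) hg0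
  have hPP' : P ≠ P' := pointPlace_ne_placeExt ψ P₀
  have hle : Finsupp.single P (P.ord g) ≤ D + Finsupp.single P' (n : ℤ) := by
    refine Finsupp.le_def.2 fun R => ?_
    rw [Finsupp.add_apply, hDapp]
    rcases eq_or_ne R P with rfl | hR
    · rw [Finsupp.single_eq_same, Finsupp.single_eq_of_ne hPP', add_zero]
    rw [Finsupp.single_eq_of_ne hR]
    rcases eq_or_ne R P' with rfl | hR'
    · rw [Finsupp.single_eq_same, hgP']; omega
    rw [Finsupp.single_eq_of_ne hR', add_zero]
    exact (ord_sub_const_of_poleDivisor_single hn hP _).2 R hR'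
  have hle' := H.divMap_mono hle
  rw [map_add, H.divMap_single, H.divMap_single] at hle'
  have hP'Q' : H.placeMap P' = Q' := by
    by_contra hne
    have h := Finsupp.le_def.1 hle' Q'
    rw [Finsupp.add_apply, hdiv, hgbQ', Finsupp.single_eq_of_ne (Ne.symm hne), add_zero,
      Finsupp.single_apply] at h
    split_ifs at h <;> omega
  have hQQ' : Q ≠ Q' := by
    intro hQ'
    have h := Finsupp.le_def.1 hle' Q'
    rw [show H.placeMap P = Q' from hQ', hP'Q', Finsupp.add_apply, hdiv, hgbQ',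
      Finsupp.single_eq_same, Finsupp.single_eq_same] at h
    omega
  refine ⟨?_, hP'Q'⟩
  -- values of functions regular away from `P₀`
  have hval : ∀ f : G.V, ∀ N : ℕ, (f : F) ∈ riemannRochSpace (Finsupp.single P₀ (N : ℤ)) →
      algebraMap Fb Eb (G.φ f) - algebraMap kΩ Eb (ψb (G.φ f)) ∈
        Q.toValuationSubring.nonunits := by
    intro f N hf
    obtain ⟨h, hlt⟩ := H.residue_compat P ⟨_, hVmem f⟩
      (fun R hR => ord_algebraMap_nonneg_of_mem_single hf fun hR' => hQQ' (by
        show H.placeMap P = Q'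
        rw [← hR, hR', hP'Q']))
      (c := ψ (f : F))
      ((adicValuation_lt_one_iff_mem_nonunits _ _).2 (isPointOf_pointPlace E ψ (f : F)))
    obtain ⟨h', he⟩ := hψ f
    rw [hφι, show H.π ⟨ψ (f : F), h⟩ = πB ⟨ψ (f : F), h'⟩ from rfl, he] at hlt
    exact (adicValuation_lt_one_iff_mem_nonunits _ _).1 hlt
  rcases exists_eq_placeExt_or_pointPlace (K := k) (F := Fb) Q with ⟨w, hw⟩ | ⟨χ, hχ⟩
  · -- `ψb (φ x)` would be algebraic over `k`
    exfalso
    have hxval := hval G.x n (mem_riemannRochSpace_of_poleDivisor_le hP.le)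
    rw [hw] at hxval
    have hxw : G.φ G.x ∈ w.toValuationSubring := (algebraMap_mem_placeExt w).1 (by
      have h1 := add_mem ((placeExt kΩ Eb w).toValuationSubring.nonunits_le hxval)
        ((placeExt kΩ Eb w).algebraMap_mem' (ψb (G.φ G.x)))
      rwa [sub_add_cancel] at h1)
    set a := constResidue w ⟨_, hxw⟩
    have hxa : G.φ G.x - algebraMap k Fb a ≠ 0 := fun h =>
      G.x_transcendental ((sub_eq_zero.1 h) ▸ isAlgebraic_algebraMap a)
    have hxan : G.φ G.x - algebraMap k Fb a ∈ w.toValuationSubring.nonunits := by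
      refine (w.toValuationSubring.coe_mem_nonunits_iff
        (a := ⟨_, hxw⟩ - algebraMap k w.toValuationSubring a)).2 ?_
      rw [← constResidue_eq_zero_iff, map_sub, constResidue_algebraMap, sub_self]
    have hxaQ : algebraMap Fb Eb (G.φ G.x) - algebraMap kΩ Eb (algebraMap k kΩ a) ∈
        (placeExt kΩ Eb w).toValuationSubring.nonunits := by
      have h1 : 0 < (placeExt kΩ Eb w).ord (algebraMap Fb Eb (G.φ G.x - algebraMap k Fb a)) := by
        rw [ord_placeExt]; exact ord_pos_of_mem_nonunits _ hxan hxa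
      have h2 := mem_nonunits_of_ord_pos _ h1
      rwa [map_sub, ← IsScalarTower.algebraMap_apply, IsScalarTower.algebraMap_apply k kΩ Eb]
        at h2
    have h3 := (placeExt kΩ Eb w).toValuationSubring.nonunits.sub_mem hxval hxaQ
    rw [sub_sub_sub_cancel_left, ← map_sub, algebraMap_mem_nonunits_iff, sub_eq_zero] at h3
    exact hxa (sub_eq_zero.2 (ψb.toRingHom.injective (h3.symm.trans (ψb.commutes a).symm)))
  · have hχψ : χ = ψb := by
      ext y
      have hy : y ∈ IntermediateField.adjoin k {y : Fb | ∃ f : G.V,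
          (∃ N : ℕ, (f : F) ∈ riemannRochSpace (Finsupp.single P₀ (N : ℤ))) ∧ G.φ f = y} := by
        rw [hgen]; exact IntermediateField.mem_top
      induction hy using IntermediateField.adjoin_induction with
      | mem y hy =>
        obtain ⟨f, ⟨N, hf⟩, rfl⟩ := hy
        have h1 := hval f N hf
        rw [hχ] at h1
        have h2 := (pointPlace Eb χ).toValuationSubring.nonunits.sub_mem h1
          (isPointOf_pointPlace Eb χ (G.φ f))
        rw [sub_sub_sub_cancel_left, ← map_sub, algebraMap_mem_nonunits_iff, sub_eq_zero] at h2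
        exact h2
      | algebraMap a => rw [AlgHom.commutes, AlgHom.commutes]
      | add a b _ _ ha hb => rw [map_add, map_add, ha, hb]
      | inv a _ ha => rw [map_inv₀, map_inv₀, ha]
      | mul a b _ _ ha hb => rw [map_mul, map_mul, ha, hb]
    rw [hχ, hχψ]

end GoodReduction

end Fermat.Agent.Curve

end
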