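/-
Reduction of the classes of tuples of embeddings under an extended good reduction.
-/
import Fermat.Agent.Curve.DivisibleClass
import Fermat.Agent.Curve.DivisiblePointReduction

set_option autoImplicit false

noncomputable section

namespace Fermat.Agent.Curve

open AlgebraicCurve IntermediateField

universe uK uF uk uFb uΩ uE ukΩ uEb

namespace GoodReduction

variable {K : Type uK} [Field K] {A : ValuationSubring K}
  {F : Type uF} [Field F] [Algebra K F]
  {k : Type uk} [Field k] {Fb : Type uFb} [Field Fb] [Algebra k Fb]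
  (G : GoodReduction A F k Fb) [IsAlgClosed K] [IsAlgClosed k]
  [IsFunctionFieldOne K F] [IsFunctionFieldOne k Fb]
  {Ω : Type uΩ} [Field Ω] [Algebra K Ω] [IsAlgClosed Ω] (B : ValuationSubring Ω)
  (hB : B.comap (algebraMap K Ω) = A)
  {kΩ : Type ukΩ} [Field kΩ] [Algebra k kΩ] [IsAlgClosed kΩ]
  (πB : B →+* kΩ) (hπs : Function.Surjective πB)
  (hπ : ∀ (a : A) (h : algebraMap K Ω a ∈ B), πB ⟨_, h⟩ = algebraMap k kΩ (G.π a))
  (E : Type uE) [Field E] [Algebra K E] [Algebra F E] [Algebra Ω E]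
  [IsScalarTower K F E] [IsScalarTower K Ω E] [IsConstExt K F Ω E]
  (Eb : Type uEb) [Field Eb] [Algebra k Eb] [Algebra Fb Eb] [Algebra kΩ Eb]
  [IsScalarTower k Fb Eb] [IsScalarTower k kΩ Eb] [IsConstExt k Fb kΩ Eb]
  [IsFunctionFieldOne Ω E] [IsFunctionFieldOne kΩ Eb]
  {P₀ : Place K F} {Q₀ : Place k Fb}
  (hPQ : (G.extend B hB πB hπs hπ E Eb).placeMap (placeExt Ω E P₀) = placeExt kΩ Eb Q₀)

include hPQ

/-- Reduction of the class of `D - g P₀`. -/
theorem reductionPic0_divClass (D : Divisor Ω E) (hD : Divisor.degree D = genusFF K F) :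
    (G.extend B hB πB hπs hπ E Eb).reductionPic0 (divClass E P₀ D hD) =
      divClass Eb Q₀ ((G.extend B hB πB hπs hπ E Eb).divMap D)
        (by rw [degree_divMap, hD, G.genus_eq]) := by
  rw [divClass, reductionPic0_mk, divClass]
  refine congrArg Pic0.mk (Subtype.ext ?_)
  rw [coe_reductionDegZero]
  show (G.extend B hB πB hπs hπ E Eb).divMap
    (D - Finsupp.single (placeExt Ω E P₀) (genusFF K F : ℤ)) = _
  rw [map_sub, divMap_single, hPQ]
  simp only [G.genus_eq]

/-- The class of a tuple whose points reduce to those of another tuple reduces to the class of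
that tuple. -/
theorem reductionPic0_pointClass (ψ : Fin (genusFF K F) → F →ₐ[K] Ω)
    (ψb : Fin (genusFF k Fb) → Fb →ₐ[k] kΩ) (e : Fin (genusFF k Fb) ≃ Fin (genusFF K F))
    (hψ : ∀ i, (G.extend B hB πB hπs hπ E Eb).placeMap (pointPlace E (ψ (e i))) =
      pointPlace Eb (ψb i)) :
    (G.extend B hB πB hπs hπ E Eb).reductionPic0 (pointClass E P₀ ψ) =
      pointClass Eb Q₀ ψb := by
  rw [pointClass, G.reductionPic0_divClass B hB πB hπs hπ E Eb hPQ, pointClass]
  congr 1
  rw [pointDivOn, pointDivOn, map_sum]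
  refine (Fintype.sum_equiv e _ _ fun i => ?_).symm
  rw [divMap_single, hψ i]

/-- If a class reduces to a generic class then its points reduce to the generic points. -/
theorem exists_reduce_of_reductionPic0_eq {xb : Fb} (hxb : Transcendental k xb)
    (ψ : Fin (genusFF K F) → F →ₐ[K] Ω) {ψb : Fin (genusFF k Fb) → Fb →ₐ[k] kΩ}
    (hgen : IsGeneric xb ψb)
    (h : (G.extend B hB πB hπs hπ E Eb).reductionPic0 (pointClass E P₀ ψ) =
      pointClass Eb Q₀ ψb) :
    ∃ p : Fin (genusFF K F) ≃ Fin (genusFF k Fb), ∀ (i : Fin (genusFF K F)) (f : G.V) (N : ℕ),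
      (f : F) ∈ riemannRochSpace (Finsupp.single P₀ (N : ℤ)) →
        ∃ hm : ψ i (f : F) ∈ B, πB ⟨_, hm⟩ = ψb (p i) (G.φ f) := by
  classical
  rw [pointClass, G.reductionPic0_divClass B hB πB hπs hπ E Eb hPQ, pointClass] at h
  set H := G.extend B hB πB hπs hπ E Eb with hH
  have heq : pointDivOn Eb ψb Finset.univ = H.divMap (pointDivOn E ψ Finset.univ) := by
    refine eq_of_divClass_eq Eb Q₀ (ellDim_pointDivOn Eb hxb hgen
      (by simp [genusFF_eq (K := k) (F := Fb) (Ω := kΩ) (E := Eb)]) _)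
      (pointDivOn_nonneg Eb ψb _) ?_ h.symm
    simpa using H.divMap_mono (pointDivOn_nonneg E ψ Finset.univ)
  have hto : ∀ i, ∃ j, H.placeMap (pointPlace E (ψ i)) = pointPlace Eb (ψb j) := by
    intro i
    have hle : Finsupp.single (pointPlace E (ψ i)) (1 : ℤ) ≤ pointDivOn E ψ Finset.univ :=
      Finset.single_le_sum (f := fun j => Finsupp.single (pointPlace E (ψ j)) (1 : ℤ))
        (fun _ _ => Finsupp.single_nonneg.2 zero_le_one) (Finset.mem_univ i)
    have h1 := Finsupp.le_def.1 (H.divMap_mono hle) (H.placeMap (pointPlace E (ψ i)))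
    rw [H.divMap_single, Finsupp.single_eq_same, ← heq] at h1
    obtain ⟨j, -, hj⟩ := exists_of_pointDivOn_ne_zero Eb ψb Finset.univ
      (w := H.placeMap (pointPlace E (ψ i))) (by omega)
    exact ⟨j, hj⟩
  choose p hp using hto
  have hinj : Function.Injective ψb := fun a b hab =>
    hgen.1.injective (by show ψb a xb = ψb b xb; rw [hab])
  have hsurj : Function.Surjective p := by
    intro j
    have h1 := one_le_pointDivOn Eb ψb (Finset.mem_univ j)
    rw [heq] at h1
    have hmem : pointPlace Eb (ψb j) ∈ (H.divMap (pointDivOn E ψ Finset.univ)).support :=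
      Finsupp.mem_support_iff.2 (by omega)
    rw [divMap_apply] at hmem
    obtain ⟨w, hw, hwj⟩ := Finset.mem_image.1 (Finsupp.mapDomain_support hmem)
    obtain ⟨i, -, rfl⟩ := exists_of_pointDivOn_ne_zero E ψ Finset.univ
      (Finsupp.mem_support_iff.1 hw)
    exact ⟨i, hinj (pointPlace_injective ((hp i).symm.trans hwj))⟩
  refine ⟨Equiv.ofBijective p ((Fintype.bijective_iff_surjective_and_card p).2
    ⟨hsurj, by simp [G.genus_eq]⟩), fun i f N hf => ?_⟩
  rw [Equiv.ofBijective_apply]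
  have hfV : algebraMap F E (f : F) ∈ H.V :=
    (G.algebraMap_mem_extend_V B hB πB hπs hπ E Eb).2 f.2
  obtain ⟨hm, hlt⟩ := H.residue_compat (pointPlace E (ψ i)) ⟨_, hfV⟩
    (fun R hR => ord_algebraMap_nonneg_of_mem_single hf fun hR' =>
      pointPlace_ne_placeExt (E := Eb) (ψb (p i)) Q₀ (by
        rw [← hPQ, ← hR', hR, hp i]))
    (c := ψ i (f : F))
    ((adicValuation_lt_one_iff_mem_nonunits _ _).2 (isPointOf_pointPlace E (ψ i) (f : F)))
  refine ⟨hm, ?_⟩
  rw [adicValuation_lt_one_iff_mem_nonunits, hp i,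
    show H.φ ⟨_, hfV⟩ = algebraMap Fb Eb (G.φ f) from
      G.extend_φ_algebraMap B hB πB hπs hπ E Eb f.2 hfV] at hlt
  have h2 := (pointPlace Eb (ψb (p i))).toValuationSubring.nonunits.sub_mem hlt
    (isPointOf_pointPlace Eb (ψb (p i)) (G.φ f))
  rw [sub_sub_sub_cancel_left, ← map_sub, algebraMap_mem_nonunits_iff, sub_eq_zero] at h2
  exact h2.symm

end GoodReduction

end Fermat.Agent.Curve

end
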