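/-
The set of roots of the classes of the tuples of embeddings over a fixed transcendence basis,
and bounds on its cardinality.
-/
import Fermat.Agent.Curve.DivisibleRoots
import Fermat.Agent.Curve.DivisibleRetract

set_option autoImplicit false

noncomputable section

namespace Fermat.Agent.Curve

open AlgebraicCurve IntermediateField

universe uK uF uΩ uE

variable {K : Type uK} {F : Type uF} {Ω : Type uΩ} (E : Type uE)
  [Field K] [Field F] [Field Ω] [Field E]
  [Algebra K F] [Algebra K Ω] [Algebra K E] [Algebra F E] [Algebra Ω E]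
  [IsScalarTower K F E] [IsScalarTower K Ω E] [IsConstExt K F Ω E]
  [IsAlgClosed K] [IsAlgClosed Ω] [IsFunctionFieldOne K F] [IsFunctionFieldOne Ω E]

/-- The class of a tuple does not depend on the order. -/
theorem pointClass_comp_equiv (O : Place K F) (ψ : Fin (genusFF K F) → F →ₐ[K] Ω)
    (e : Fin (genusFF K F) ≃ Fin (genusFF K F)) :
    pointClass E O (fun i => ψ (e i)) = pointClass E O ψ := by
  rw [pointClass, pointClass]
  congr 1
  exact Fintype.sum_equiv e _ _ fun i => rfl

/-- Two tuples with the same members have the same class, provided the members of the second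
one are distinct. -/
theorem pointClass_eq_of_forall_mem_range (O : Place K F)
    {ψ ψ' : Fin (genusFF K F) → F →ₐ[K] Ω} (hinj : Function.Injective ψ')
    (h : ∀ i, ψ' i ∈ Set.range ψ) : pointClass E O ψ' = pointClass E O ψ := by
  choose p hp using h
  have hpi : Function.Injective p := fun a b hab => hinj (by rw [← hp a, ← hp b, hab])
  have he : ψ' = fun i => ψ (Equiv.ofBijective p (Finite.injective_iff_bijective.1 hpi) i) :=
    funext fun i => (hp i).symm
  rw [he, pointClass_comp_equiv]

/-- The classes whose `m`-th multiple is the class of a tuple over `t`. -/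
def rootSet (O : Place K F) (x : F) (t : Fin (genusFF K F) → Ω) (m : ℕ) : Set (Pic0 Ω E) :=
  {y | ∃ φ : Fin (genusFF K F) → F →ₐ[K] Ω,
    (∀ i, φ i x = t i) ∧ m • y = pointClass E O φ}

variable {E} (O : Place K F) {x : F} (hx : Transcendental K x)
  {t : Fin (genusFF K F) → Ω} (ht : IsTranscendenceBasis K t) {m : ℕ}

include ht in
omit [IsAlgClosed K] [IsAlgClosed Ω] [IsFunctionFieldOne K F] [IsFunctionFieldOne Ω E]
  [IsScalarTower K F E] [IsScalarTower K Ω E] [IsConstExt K F Ω E] [Algebra K E] [Algebra F E]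
  [Algebra Ω E] [Field E] in
theorem isGeneric_of_forall_apply_eq {φ : Fin (genusFF K F) → F →ₐ[K] Ω}
    (hφ : ∀ i, φ i x = t i) : IsGeneric x φ := by
  show IsTranscendenceBasis K fun i => φ i x
  simpa only [hφ] using ht

include hx ht in
theorem exists_isGeneric_of_mem_rootSet {y : Pic0 Ω E} (hy : y ∈ rootSet E O x t m) :
    ∃ φ : Fin (genusFF K F) → F →ₐ[K] Ω, IsGeneric x φ ∧ y = pointClass E O φ := by
  obtain ⟨φ, hφ, hmy⟩ := hy
  exact exists_pointClass_eq_of_nsmul_eq E O hx (isGeneric_of_forall_apply_eq ht hφ) hmy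

include hx ht in
/-- There are at most `[F : K(x)]^g · #T` roots. -/
theorem finite_rootSet [Algebra.IsSeparable K⟮x⟯ F] (hfin : Finite (Pic0.torsion Ω E m)) :
    (rootSet E O x t m).Finite ∧ Nat.card (rootSet E O x t m) ≤
      Module.finrank K⟮x⟯ F ^ genusFF K F * Nat.card (Pic0.torsion Ω E m) := by
  classical
  have : ∀ i, Finite {ψ : F →ₐ[K] Ω // ψ x = t i} := fun i =>
    (finite_algHom_apply_eq hx (t i)).to_subtype
  have hroot : ∀ τ : ∀ i, {ψ : F →ₐ[K] Ω // ψ x = t i},
      ∃ c : Pic0 Ω E, m • c = pointClass E O fun i => (τ i).1 := fun τ =>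
    exists_nsmul_eq_pointClass E O hx
      (isGeneric_of_forall_apply_eq ht fun i => (τ i).2) hfin
  choose r hr using hroot
  let τ : rootSet E O x t m → ∀ i, {ψ : F →ₐ[K] Ω // ψ x = t i} := fun y i =>
    ⟨y.2.choose i, y.2.choose_spec.1 i⟩
  let j : rootSet E O x t m →
      (∀ i, {ψ : F →ₐ[K] Ω // ψ x = t i}) × Pic0.torsion Ω E m := fun y =>
    (τ y, ⟨(y : Pic0 Ω E) - r (τ y), by
      rw [Pic0.mem_torsion, natCast_zsmul, nsmul_sub, hr, y.2.choose_spec.2]
      exact sub_self _⟩)
  have hj : Function.Injective j := by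
    intro y y' h
    have h1 : τ y = τ y' := congrArg Prod.fst h
    have h2 : (y : Pic0 Ω E) - r (τ y) = y' - r (τ y') :=
      congrArg (fun p => ((Prod.snd p : Pic0.torsion Ω E m) : Pic0 Ω E)) h
    rw [h1] at h2
    exact Subtype.ext (sub_left_injective h2)
  have := Finite.of_injective j hj
  refine ⟨Set.toFinite _, (Nat.card_le_card_of_injective j hj).trans_eq ?_⟩
  rw [Nat.card_prod, Nat.card_pi]
  congr 1
  rw [Finset.prod_eq_pow_card (b := Module.finrank K⟮x⟯ F) fun i _ =>
    natCard_algHom_apply_eq hx (ht.1.transcendental i)]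
  simp

include hx ht in
/-- There are at least `[F : K(x)]^g · #T` roots, with `T` the torsion over `K`. -/
theorem le_natCard_rootSet [Algebra.IsSeparable K⟮x⟯ F]
    (hfin : Finite (Pic0.torsion Ω E m)) :
    Module.finrank K⟮x⟯ F ^ genusFF K F * Nat.card (Pic0.torsion K F m) ≤
      Nat.card (rootSet E O x t m) := by
  classical
  have := (finite_rootSet O hx ht hfin).1.to_subtype
  have hroot : ∀ τ : ∀ i, {ψ : F →ₐ[K] Ω // ψ x = t i},
      ∃ c : Pic0 Ω E, m • c = pointClass E O fun i => (τ i).1 := fun τ =>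
    exists_nsmul_eq_pointClass E O hx
      (isGeneric_of_forall_apply_eq ht fun i => (τ i).2) hfin
  choose r hr using hroot
  have hmem : ∀ p : (∀ i, {ψ : F →ₐ[K] Ω // ψ x = t i}) × Pic0.torsion K F m,
      m • (r p.1 + picExt Ω E (p.2 : Pic0 K F)) = pointClass E O fun i => (p.1 i).1 := by
    rintro ⟨τ, z, hz⟩
    rw [Pic0.mem_torsion, natCast_zsmul] at hz
    rw [nsmul_add, hr, ← map_nsmul, hz, map_zero, add_zero]
  let j : (∀ i, {ψ : F →ₐ[K] Ω // ψ x = t i}) × Pic0.torsion K F m → rootSet E O x t m :=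
    fun p => ⟨r p.1 + picExt Ω E (p.2 : Pic0 K F), fun i => (p.1 i).1, fun i => (p.1 i).2,
      hmem p⟩
  have hj : Function.Injective j := by
    intro p q h
    have hv : r p.1 + picExt Ω E (p.2 : Pic0 K F) = r q.1 + picExt Ω E (q.2 : Pic0 K F) :=
      congrArg Subtype.val h
    have hcl := (hmem p).symm.trans ((congrArg (fun z => m • z) hv).trans (hmem q))
    have h1 : p.1 = q.1 := funext fun i => by
      obtain ⟨l, hl⟩ := mem_range_of_pointClass_eq E O hx
        (isGeneric_of_forall_apply_eq ht fun i => (p.1 i).2) hcl i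
      have hli : l = i := ht.1.injective (by
        rw [← (p.1 l).2, ← (q.1 i).2]
        exact AlgHom.congr_fun hl x)
      subst hli
      exact Subtype.ext hl
    rw [h1] at hv
    exact Prod.ext h1 (Subtype.ext (picExt_injective (add_left_cancel hv)))
  refine le_of_eq_of_le ?_ (Nat.card_le_card_of_injective j hj)
  rw [Nat.card_prod, Nat.card_pi]
  congr 1
  rw [Finset.prod_eq_pow_card (b := Module.finrank K⟮x⟯ F) fun i _ =>
    natCard_algHom_apply_eq hx (ht.1.transcendental i)]
  simp

omit [IsAlgClosed Ω] in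
variable (F Ω E) in
/-- The torsion of the larger field is at most that of the smaller one. -/
theorem natCard_torsion_le_base [IsAlgClosed Ω] (hm : (m : K) ≠ 0)
    (hfin : Finite (Pic0.torsion K F m)) :
    Nat.card (Pic0.torsion Ω E m) ≤ Nat.card (Pic0.torsion K F m) := by
  refine Nat.card_le_card_of_surjective
    (fun y : Pic0.torsion K F m => (⟨picExt Ω E (y : Pic0 K F), ?_⟩ : Pic0.torsion Ω E m)) ?_
  · have := y.2
    rw [Pic0.mem_torsion] at this ⊢
    rw [← map_zsmul, this, map_zero]
  · rintro ⟨z, hz⟩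
    obtain ⟨y, hy, rfl⟩ := exists_picExt_eq_of_mem_torsion (F := F) hm hz
    exact ⟨⟨y, hy⟩, rfl⟩

end Fermat.Agent.Curve

end
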