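/-
Counting roots of generic classes by conjugates of the symmetric functions of the values of
their members.
-/
import Fermat.Agent.Curve.DivisibleRootSet
import Mathlib.FieldTheory.Normal.Basic
import Mathlib.FieldTheory.SeparableDegree

set_option autoImplicit false

noncomputable section

namespace Fermat.Agent.Curve

open AlgebraicCurve IntermediateField Polynomial

universe uK uF uΩ uE

section ProdPoly

variable {ι : Type*} [Fintype ι]

/-- The monic polynomial with prescribed roots. -/
def prodPoly {R : Type*} [CommRing R] (u : ι → R) : R[X] := ∏ i, (X - C (u i))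

theorem prodPoly_monic {R : Type*} [CommRing R] (u : ι → R) : (prodPoly u).Monic :=
  monic_prod_X_sub_C u Finset.univ

theorem natDegree_prodPoly {R : Type*} [CommRing R] [Nontrivial R] (u : ι → R) :
    (prodPoly u).natDegree = Fintype.card ι :=
  natDegree_finsetProd_X_sub_C_eq_card _ u

theorem map_prodPoly {R S : Type*} [CommRing R] [CommRing S] (φ : R →+* S) (u : ι → R) :
    (prodPoly u).map φ = prodPoly fun i => φ (u i) := by
  simp [prodPoly, Polynomial.map_prod]

theorem prodPoly_comp_equiv {R : Type*} [CommRing R] {κ : Type*} [Fintype κ] (u : ι → R)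
    (e : κ ≃ ι) : prodPoly (fun j => u (e j)) = prodPoly u :=
  Fintype.prod_equiv e _ _ fun _ => rfl

theorem coeff_prodPoly_map {R S F : Type*} [CommRing R] [CommRing S] [FunLike F R S]
    [RingHomClass F R S] (φ : F) (u : ι → R) (j : ℕ) :
    (prodPoly fun i => φ (u i)).coeff j = φ ((prodPoly u).coeff j) := by
  have h := congrArg (fun P => P.coeff j) (map_prodPoly (φ : R →+* S) u)
  simp only [coeff_map] at h
  exact h.symm

theorem eval_prodPoly {R : Type*} [CommRing R] (u : ι → R) (r : R) :
    (prodPoly u).eval r = ∏ i, (r - u i) := by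
  simp [prodPoly, eval_prod]

theorem mem_range_of_prodPoly_eq {R : Type*} [CommRing R] [IsDomain R] {u v : ι → R}
    (h : prodPoly u = prodPoly v) (i : ι) : v i ∈ Set.range u := by
  have h1 : (prodPoly u).eval (v i) = 0 := by
    rw [h, eval_prodPoly]
    exact Finset.prod_eq_zero (Finset.mem_univ i) (sub_self _)
  rw [eval_prodPoly, Finset.prod_eq_zero_iff] at h1
  obtain ⟨j, -, hj⟩ := h1
  exact ⟨j, (sub_eq_zero.1 hj).symm⟩

/-- The products are determined by their lower coefficients. -/
theorem prodPoly_eq_of_coeff {R : Type*} [CommRing R] [Nontrivial R] {u v : ι → R} {n : ℕ}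
    (hn : n = Fintype.card ι) (h : ∀ j : Fin n, (prodPoly u).coeff j = (prodPoly v).coeff j) :
    prodPoly u = prodPoly v := by
  refine Polynomial.ext fun j => ?_
  rcases lt_trichotomy j n with hj | rfl | hj
  · exact h ⟨j, hj⟩
  · have h1 := (prodPoly_monic u).coeff_natDegree
    have h2 := (prodPoly_monic v).coeff_natDegree
    rw [natDegree_prodPoly, ← hn] at h1 h2
    rw [h1, h2]
  · rw [coeff_eq_zero_of_natDegree_lt (by rwa [natDegree_prodPoly, ← hn]),
      coeff_eq_zero_of_natDegree_lt (by rwa [natDegree_prodPoly, ← hn])]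

end ProdPoly

section Coeff

variable {K : Type uK} {Ω : Type uΩ} [Field K] [Field Ω] [Algebra K Ω]
  {g : ℕ} {t : Fin g → Ω} {n : ℕ} {e : Fin n → Ω}

/-- A root of a monic polynomial is algebraic over the field generated by its coefficients. -/
theorem isAlgebraic_adjoin_coeff (hn : n = g) (he : ∀ j : Fin n, e j = (prodPoly t).coeff j)
    (ht : IsTranscendenceBasis K t) : Algebra.IsAlgebraic (adjoin K (Set.range e)) Ω := by
  set E0 := adjoin K (Set.range e)
  have hcoeff : ∀ j, (prodPoly t).coeff j ∈ E0 := by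
    intro j
    rcases lt_trichotomy j n with hj | rfl | hj
    · exact subset_adjoin _ _ ⟨⟨j, hj⟩, he ⟨j, hj⟩⟩
    · have h1 := (prodPoly_monic t).coeff_natDegree
      rw [natDegree_prodPoly, Fintype.card_fin] at h1
      rw [(congrArg (prodPoly t).coeff hn).trans h1]
      exact one_mem E0
    · rw [coeff_eq_zero_of_natDegree_lt (by rwa [natDegree_prodPoly, Fintype.card_fin, ← hn])]
      exact zero_mem E0
  have hlift : prodPoly t ∈ Polynomial.lifts (algebraMap E0 Ω) := by
    rw [lifts_iff_coeff_lifts]
    exact fun j => ⟨⟨_, hcoeff j⟩, rfl⟩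
  obtain ⟨P, hP⟩ := (mem_lifts _).1 hlift
  have hroot : ∀ i, IsAlgebraic E0 (t i) := fun i => by
    refine ⟨P, fun h0 => (prodPoly_monic t).ne_zero (by rw [← hP, h0, Polynomial.map_zero]), ?_⟩
    rw [aeval_def, ← eval_map, hP, eval_prodPoly]
    exact Finset.prod_eq_zero (Finset.mem_univ i) (sub_self _)
  let L := algebraicClosure E0 Ω
  have hle : adjoin K (Set.range t) ≤ L.restrictScalars K :=
    adjoin_le_iff.2 (by rintro _ ⟨i, rfl⟩; exact mem_algebraicClosure_iff.2 (hroot i))
  let : Algebra (adjoin K (Set.range t)) L := (inclusion hle).toRingHom.toAlgebra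
  have : IsScalarTower (adjoin K (Set.range t)) L Ω := .of_algebraMap_eq fun _ => rfl
  have := ht.isAlgebraic_field
  have := Algebra.IsAlgebraic.tower_top (K := adjoin K (Set.range t)) L (A := Ω)
  exact Algebra.IsAlgebraic.trans E0 L Ω

/-- The lower coefficients of the polynomial with roots a transcendence basis are algebraically
independent. -/
theorem algebraicIndependent_coeff (hn : n = g)
    (he : ∀ j : Fin n, e j = (prodPoly t).coeff j) (ht : IsTranscendenceBasis K t) :
    AlgebraicIndependent K e := by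
  classical
  have halg := isAlgebraic_adjoin_coeff hn he ht
  have := IntermediateField.isAlgebraic_adjoin_iff_top.1 halg
  obtain ⟨T, hTe, hT⟩ := exists_isTranscendenceBasis_subset (R := K) (Set.range e)
  have hTcard : Nat.card T = n := by
    have h := congrArg Cardinal.toNat (ht.lift_cardinalMk_eq hT)
    simpa [Nat.card, hn] using h.symm
  have hfin : (Set.range e).Finite := Set.finite_range e
  have hle : (Set.range e).ncard ≤ n := by
    rw [← Nat.card_coe_set_eq]
    exact (Finite.card_range_le e).trans (by simp)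
  have hTeq : T = Set.range e := Set.eq_of_subset_of_ncard_le hTe
    (by rw [← Nat.card_coe_set_eq T, hTcard]; exact hle) hfin
  have hinj : Function.Injective e := by
    rw [← Set.injOn_univ]
    refine Set.injOn_of_ncard_image_eq ?_ Set.finite_univ
    rw [Set.image_univ, ← hTeq, ← Nat.card_coe_set_eq T, hTcard, Set.ncard_univ]
    simp
  exact (algebraicIndependent_subtype_range hinj).1 (hTeq ▸ hT.1)

end Coeff

variable {K : Type uK} {F : Type uF} {Ω : Type uΩ} (E : Type uE)
  [Field K] [Field F] [Field Ω] [Field E]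
  [Algebra K F] [Algebra K Ω] [Algebra K E] [Algebra F E] [Algebra Ω E]
  [IsScalarTower K F E] [IsScalarTower K Ω E] [IsConstExt K F Ω E]
  [IsAlgClosed K] [IsAlgClosed Ω] [IsFunctionFieldOne K F] [IsFunctionFieldOne Ω E]
  (O : Place K F) {x : F} (hx : Transcendental K x)
  {t : Fin (genusFF K F) → Ω} (ht : IsTranscendenceBasis K t) {m : ℕ}
  {n : ℕ} (hn : n = genusFF K F) {e : Fin n → Ω} (he : ∀ j : Fin n, e j = (prodPoly t).coeff j)
  {ψ φ : Fin (genusFF K F) → F →ₐ[K] Ω} (hψ : IsGeneric x ψ) (hφ : ∀ i, φ i x = t i)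
  (hmψ : m • pointClass E O ψ = pointClass E O φ)

include hn he ht in
omit [IsAlgClosed K] [IsFunctionFieldOne K F] [IsFunctionFieldOne Ω E] [IsScalarTower K F E]
  [IsScalarTower K Ω E] [IsConstExt K F Ω E] [Algebra K E] [Algebra F E] [Algebra Ω E] [Field E]
  [IsAlgClosed Ω] in
/-- An automorphism fixing the coefficients permutes the roots. -/
theorem exists_perm_of_fix_coeff (σ : Ω ≃ₐ[K] Ω) (hσ : ∀ j, σ (e j) = e j) :
    ∃ p : Fin (genusFF K F) ≃ Fin (genusFF K F), ∀ i, σ (t i) = t (p i) := by
  have hP : prodPoly (fun i => σ (t i)) = prodPoly t := by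
    refine prodPoly_eq_of_coeff (n := n) (by simpa using hn) fun j => ?_
    rw [coeff_prodPoly_map σ t, ← he j]
    exact hσ j
  choose p hp using fun i => mem_range_of_prodPoly_eq hP.symm i
  have hinj : Function.Injective p := fun a b hab =>
    ht.1.injective (σ.injective (by rw [← hp a, ← hp b, hab]))
  exact ⟨Equiv.ofBijective p (Finite.injective_iff_bijective.1 hinj), fun i => (hp i).symm⟩

include hn he ht hx hψ hφ hmψ in
/-- The degree of the field generated by the symmetric functions of the values of the members of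
a root is at most the number of roots. -/
theorem finrank_le_natCard_rootSet [CharZero K] (hfin : (rootSet E O x t m).Finite) (f : F)
    {a : Fin n → Ω} (ha : ∀ j : Fin n, a j = (prodPoly fun i => ψ i f).coeff j) :
    FiniteDimensional (adjoin K (Set.range e)) (adjoin (adjoin K (Set.range e)) (Set.range a)) ∧
    Module.finrank (adjoin K (Set.range e)) (adjoin (adjoin K (Set.range e)) (Set.range a)) ≤
      Nat.card (rootSet E O x t m) := by
  classical
  set E0 := adjoin K (Set.range e)
  set M := adjoin E0 (Set.range a)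
  have halg := isAlgebraic_adjoin_coeff hn he ht
  have hfd : FiniteDimensional E0 M := by
    have : Finite (Set.range a) := Set.finite_range a
    exact finiteDimensional_adjoin fun z _ => (Algebra.IsAlgebraic.isAlgebraic z).isIntegral
  refine ⟨hfd, ?_⟩
  have : CharZero E0 := charZero_of_injective_algebraMap (algebraMap K E0).injective
  have : IsAlgClosure E0 Ω := ⟨inferInstance, inferInstance⟩
  have : Normal E0 Ω := inferInstance
  rw [← AlgHom.card E0 M Ω, ← Nat.card_eq_fintype_card]
  have hext : ∀ h : M →ₐ[E0] Ω, ∃ σ : Ω ≃ₐ[K] Ω, (∀ j, σ (e j) = e j) ∧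
      ∀ z : M, σ z = h z := by
    intro h
    let s : Ω →ₐ[E0] Ω := h.liftNormal Ω
    let s' : Ω ≃ₐ[E0] Ω := AlgEquiv.ofBijective s (Algebra.IsAlgebraic.algHom_bijective s)
    refine ⟨s'.restrictScalars K, fun j => ?_, fun z => ?_⟩
    · exact s'.commutes ⟨e j, subset_adjoin _ _ ⟨j, rfl⟩⟩
    · exact h.liftNormal_commutes Ω z
  choose σ hσe hσ using hext
  have hmem : ∀ h, constAut F E (σ h) • pointClass E O ψ ∈ rootSet E O x t m := by
    intro h
    obtain ⟨p, hp⟩ := exists_perm_of_fix_coeff ht hn he (σ h) (hσe h)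
    refine ⟨fun i => (σ h : Ω →ₐ[K] Ω).comp (φ (p.symm i)), fun i => ?_, ?_⟩
    · show σ h (φ (p.symm i) x) = t i
      rw [hφ, hp, Equiv.apply_symm_apply]
    · rw [← constAut_smul_nsmul, hmψ, constAut_smul_pointClass,
        ← pointClass_comp_equiv E O (fun i => (σ h : Ω →ₐ[K] Ω).comp (φ i)) p.symm]
  have := hfin.to_subtype
  refine Nat.card_le_card_of_injective
    (fun h => (⟨_, hmem h⟩ : rootSet E O x t m)) fun h h' hh => ?_
  have hc : pointClass E O (fun i => (σ h : Ω →ₐ[K] Ω).comp (ψ i)) =
      pointClass E O fun i => (σ h' : Ω →ₐ[K] Ω).comp (ψ i) := by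
    rw [← constAut_smul_pointClass, ← constAut_smul_pointClass]
    exact congrArg Subtype.val hh
  choose q hq using mem_range_of_pointClass_eq E O hx (hψ.comp_algEquiv (σ h)) hc
  have hqi : Function.Injective q := fun i l hil =>
    hψ.1.injective ((σ h').injective (by
      show σ h' (ψ i x) = σ h' (ψ l x)
      exact AlgHom.congr_fun ((hq i).symm.trans ((by rw [hil]) : _ = _) |>.trans (hq l)) x))
  have hpoly : (prodPoly fun i => ψ i f).map (σ h' : Ω →+* Ω) =
      (prodPoly fun i => ψ i f).map (σ h : Ω →+* Ω) := by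
    rw [map_prodPoly, map_prodPoly, ← prodPoly_comp_equiv (fun i => (σ h : Ω →+* Ω) (ψ i f))
      (Equiv.ofBijective q (Finite.injective_iff_bijective.1 hqi))]
    congr 1
    funext i
    exact (AlgHom.congr_fun (hq i) f).symm
  refine algHom_ext_of_eq_adjoin E0 (S := M) rfl fun y hy => ?_
  obtain ⟨j, rfl⟩ := hy
  rw [← hσ h, ← hσ h']
  have hj := congrArg (fun P => P.coeff (j : ℕ)) hpoly
  simp only [coeff_map] at hj
  show σ h (a j) = σ h' (a j)
  rw [ha]
  exact hj.symm

include hn he ht hx hψ hφ hmψ in
/-- If `f` separates finitely many given embeddings then the number of roots is at most the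
degree of the field generated by the symmetric functions of the values at `f` of the members of
a root. -/
theorem exists_finite_natCard_rootSet_le (hfin : (rootSet E O x t m).Finite) :
    ∃ T : Set (F →ₐ[K] Ω), T.Finite ∧ ∀ f : F, Set.InjOn (fun χ : F →ₐ[K] Ω => χ f) T →
      ∀ a : Fin n → Ω, (∀ j : Fin n, a j = (prodPoly fun i => ψ i f).coeff j) →
        Nat.card (rootSet E O x t m) ≤
          Module.finrank (adjoin K (Set.range e))
            (adjoin (adjoin K (Set.range e)) (Set.range a)) := by
  classical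
  have := hfin.to_subtype
  have hconj : ∀ y : rootSet E O x t m, ∃ σ : Ω ≃ₐ[K] Ω, (∀ j, σ (e j) = e j) ∧
      (y : Pic0 Ω E) = pointClass E O fun i => (σ : Ω →ₐ[K] Ω).comp (ψ i) := by
    intro y
    obtain ⟨χ, hχ, hy⟩ := exists_isGeneric_of_mem_rootSet O hx ht y.2
    obtain ⟨σ, hσ⟩ := exists_constAut_smul_pointClass_eq E O hx hψ hχ
    refine ⟨σ, ?_, by rw [hy, ← hσ, constAut_smul_pointClass]⟩
    obtain ⟨τ, hτ, hmy⟩ := y.2
    rw [hy, ← hσ, ← constAut_smul_nsmul, hmψ, constAut_smul_pointClass] at hmy
    choose p hp using mem_range_of_pointClass_eq E O hx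
      ((isGeneric_of_forall_apply_eq ht hφ).comp_algEquiv σ) hmy
    have hpt : ∀ i, σ (t (p i)) = t i := fun i => by
      rw [← hφ, ← hτ i]
      exact AlgHom.congr_fun (hp i) x
    have hpi : Function.Injective p := fun i l hil =>
      ht.1.injective (by rw [← hpt i, ← hpt l, hil])
    intro j
    have hP : (prodPoly t).map (σ : Ω →+* Ω) = prodPoly t := by
      rw [map_prodPoly, ← prodPoly_comp_equiv (fun i => (σ : Ω →+* Ω) (t i))
        (Equiv.ofBijective p (Finite.injective_iff_bijective.1 hpi))]
      congr 1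
      funext i
      exact hpt i
    have hj := congrArg (fun P => P.coeff (j : ℕ)) hP
    simp only [coeff_map, ← he j] at hj
    exact hj
  choose σ hσe hσy using hconj
  refine ⟨Set.range fun p : rootSet E O x t m × Fin (genusFF K F) =>
    (σ p.1 : Ω →ₐ[K] Ω).comp (ψ p.2), Set.finite_range _, fun f hf a ha => ?_⟩
  set E0 := adjoin K (Set.range e)
  set M := adjoin E0 (Set.range a)
  have halg := isAlgebraic_adjoin_coeff hn he ht
  have hfd : FiniteDimensional E0 M := by
    have : Finite (Set.range a) := Set.finite_range a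
    exact finiteDimensional_adjoin fun z _ => (Algebra.IsAlgebraic.isAlgebraic z).isIntegral
  have hfix : ∀ y, ∀ z ∈ E0, σ y z = z := fun y z hz => by
    induction hz using IntermediateField.adjoin_induction with
    | mem z hz =>
      obtain ⟨j, rfl⟩ := hz
      exact hσe y j
    | algebraMap c => exact (σ y).commutes c
    | add u v _ _ hu hv => rw [map_add, hu, hv]
    | inv u _ hu => rw [map_inv₀, hu]
    | mul u v _ _ hu hv => rw [map_mul, hu, hv]
  let res : rootSet E O x t m → (M →ₐ[E0] Ω) := fun y =>
    { (σ y : Ω →+* Ω).comp (algebraMap M Ω) with commutes' := fun z => hfix y z z.2 }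
  refine le_trans (Nat.card_le_card_of_injective res fun y y' hyy => Subtype.ext ?_) ?_
  · have hpoly : prodPoly (fun i => σ y (ψ i f)) = prodPoly fun i => σ y' (ψ i f) := by
      refine prodPoly_eq_of_coeff (n := n) (by simpa using hn) fun j => ?_
      have hj := AlgHom.congr_fun hyy ⟨a j, subset_adjoin _ _ ⟨j, rfl⟩⟩
      change σ y (a j) = σ y' (a j) at hj
      rw [ha] at hj
      rw [coeff_prodPoly_map (σ y), coeff_prodPoly_map (σ y')]
      exact hj
    rw [hσy y, hσy y']
    refine (pointClass_eq_of_forall_mem_range E O ?_ fun i => ?_).symm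
    · exact fun i l hil => hψ.1.injective ((σ y').injective (AlgHom.congr_fun hil x))
    · obtain ⟨l, hl⟩ := mem_range_of_prodPoly_eq hpoly i
      exact ⟨l, hf ⟨(y, l), rfl⟩ ⟨(y', i), rfl⟩ hl⟩
  · rw [← Field.finSepDegree_eq_of_isAlgClosed E0 M Ω]
    exact Field.finSepDegree_le_finrank E0 M

end Fermat.Agent.Curve

end
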