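/-
Algebra used in counting root classes: tuples with the same values, separating functions, and
the degree of a residual extension.
-/
import Fermat.Agent.Curve.DivisibleExtend
import Mathlib.GroupTheory.CosetCover
import Mathlib.FieldTheory.IntermediateField.Adjoin.Algebra

set_option autoImplicit false

noncomputable section

namespace Fermat.Agent.Curve

open IntermediateField

theorem exists_equiv_comp_eq {ι L : Type*} [Finite ι] {u v : ι → L} (hu : Function.Injective u)
    (h : ∀ i, u i ∈ Set.range v) : ∃ π : ι ≃ ι, ∀ i, u i = v (π i) := by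
  choose g hg using h
  have hinj : Function.Injective g := fun a b hab => hu (by rw [← hg a, ← hg b, hab])
  exact ⟨Equiv.ofBijective g (Finite.injective_iff_bijective.1 hinj), fun i => (hg i).symm⟩

/-- A generating space contains a function separating finitely many embeddings. -/
theorem exists_mem_injOn {k : Type*} [Field k] [Infinite k] {F L : Type*} [Field F] [Field L]
    [Algebra k F] [Algebra k L] (R : Submodule k F)
    (hR : IntermediateField.adjoin k (R : Set F) = ⊤) (T : Set (F →ₐ[k] L)) (hT : T.Finite) :
    ∃ f ∈ R, Set.InjOn (fun χ : F →ₐ[k] L => χ f) T := by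
  classical
  let S := (hT.toFinset ×ˢ hT.toFinset).filter fun q => q.1 ≠ q.2
  let p : (F →ₐ[k] L) × (F →ₐ[k] L) → Submodule k R := fun q =>
    LinearMap.ker ((q.1.toLinearMap - q.2.toLinearMap).comp R.subtype)
  have htop : (⊤ : Submodule k R) ∉ S.image p := by
    intro h
    obtain ⟨⟨χ, χ'⟩, hq, hp⟩ := Finset.mem_image.1 h
    refine (Finset.mem_filter.1 hq).2 (AlgHom.ext fun y => ?_)
    have hy : y ∈ IntermediateField.adjoin k (R : Set F) := hR ▸ mem_top
    induction hy using IntermediateField.adjoin_induction with
    | mem x hx =>
      have := LinearMap.congr_fun (LinearMap.ker_eq_top.1 hp) ⟨x, hx⟩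
      exact sub_eq_zero.1 (by simpa using this)
    | algebraMap a => rw [AlgHom.commutes, AlgHom.commutes]
    | add a b _ _ ha hb => rw [map_add, map_add, ha, hb]
    | inv a _ ha => rw [map_inv₀, map_inv₀, ha]
    | mul a b _ _ ha hb => rw [map_mul, map_mul, ha, hb]
  obtain ⟨f, hf⟩ := (Set.ne_univ_iff_exists_notMem _).mp
    (Subspace.biUnion_ne_univ_of_top_notMem htop)
  simp only [Set.mem_iUnion, SetLike.mem_coe, not_exists, Finset.mem_image] at hf
  refine ⟨f, f.2, fun χ hχ χ' hχ' he => ?_⟩
  by_contra hne
  refine hf (p (χ, χ')) ⟨(χ, χ'), Finset.mem_filter.2 ⟨Finset.mem_product.2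
    ⟨hT.mem_toFinset.2 hχ, hT.mem_toFinset.2 hχ'⟩, hne⟩, rfl⟩ ?_
  simpa [p] using sub_eq_zero.2 he

/-- The residual degree is at most the degree. -/
theorem finrank_adjoin_residue_le {K Ω k kΩ : Type*} [Field K] [Field Ω] [Field k] [Field kΩ]
    [Algebra K Ω] [Algebra k kΩ] (A : ValuationSubring K) (π : A →+* k)
    (hπ : Function.Surjective π) (B : ValuationSubring Ω) (red : B →+* kΩ)
    (hA : ∀ a : A, algebraMap K Ω a ∈ B)
    (hred : ∀ a : A, red ⟨algebraMap K Ω a, hA a⟩ = algebraMap k kΩ (π a))
    {σ τ : Type*} [Finite σ] [Finite τ] (e : σ → B) (a : τ → B)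
    (he : AlgebraicIndependent k fun s => red (e s))
    (halg : ∀ j, IsAlgebraic (IntermediateField.adjoin k (Set.range fun s => red (e s)))
      (red (a j)))
    [FiniteDimensional (IntermediateField.adjoin K (Set.range fun s => (e s : Ω)))
      (IntermediateField.adjoin (IntermediateField.adjoin K (Set.range fun s => (e s : Ω)))
        (Set.range fun j => (a j : Ω)))] :
    Module.finrank (IntermediateField.adjoin k (Set.range fun s => red (e s)))
      (IntermediateField.adjoin (IntermediateField.adjoin k (Set.range fun s => red (e s)))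
        (Set.range fun j => red (a j))) ≤
    Module.finrank (IntermediateField.adjoin K (Set.range fun s => (e s : Ω)))
      (IntermediateField.adjoin (IntermediateField.adjoin K (Set.range fun s => (e s : Ω)))
        (Set.range fun j => (a j : Ω))) := by
  classical
  set M := IntermediateField.adjoin K (Set.range fun s => (e s : Ω))
  set M' := IntermediateField.adjoin k (Set.range fun s => red (e s))
  set L := IntermediateField.adjoin M (Set.range fun j => (a j : Ω))
  set Mon : Set kΩ := (Submonoid.closure (Set.range fun j => red (a j)) : Set kΩ)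
  have hspan : Subalgebra.toSubmodule
      (IntermediateField.adjoin M' (Set.range fun j => red (a j))).toSubalgebra =
        Submodule.span M' Mon := by
    rw [IntermediateField.adjoin_toSubalgebra_of_isAlgebraic (fun _ hx => by
      obtain ⟨j, rfl⟩ := hx
      exact halg j)]
    exact Algebra.adjoin_eq_span _ _
  obtain ⟨b, hbsub, hbspan, hbli⟩ := exists_linearIndependent M' Mon
  have key : ∀ s : Finset b, s.card ≤ Module.finrank M L := by
    intro s
    have hlift : ∀ i : s, ∃ f : B, (f : Ω) ∈ L ∧ red f = ((i : b) : kΩ) := fun i => by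
      have hm : ((i : b) : kΩ) ∈ (Submonoid.closure (Set.range a)).map red.toMonoidHom := by
        rw [MonoidHom.map_mclosure, ← Set.range_comp]
        exact hbsub (i : b).2
      obtain ⟨f, hf, hfi⟩ := hm
      refine ⟨f, ?_, hfi⟩
      have hle : Submonoid.closure (Set.range a) ≤
          L.toSubalgebra.toSubmonoid.comap B.subtype.toMonoidHom := by
        rw [Submonoid.closure_le]
        rintro _ ⟨j, rfl⟩
        exact subset_adjoin M _ ⟨j, rfl⟩
      exact hle hf
    choose f hfL hfi using hlift
    have hli := linearIndependent_adjoin_of_residue A π B red hA hred e f (fun c hc => by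
      let cM : s → M' := fun i => ⟨MvPolynomial.aeval (fun x => red (e x)) (c i), by
        refine algebra_adjoin_le_adjoin k _ ?_
        rw [Algebra.adjoin_range_eq_range_aeval]
        exact ⟨c i, rfl⟩⟩
      have h0 : ∑ i : s, cM i • ((i : b) : kΩ) = 0 := by
        rw [← hc]
        refine Finset.sum_congr rfl fun i _ => ?_
        rw [Algebra.smul_def, hfi]
        rfl
      funext i
      have hs : LinearIndependent M' fun i : s => ((i : b) : kΩ) :=
        hbli.comp _ Subtype.val_injective
      have h1 := congrArg Subtype.val (Fintype.linearIndependent_iff.1 hs cM h0 i)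
      exact he.eq_zero_of_aeval_eq_zero _ h1)
    have hli' : LinearIndependent M (fun i : s => (⟨(f i : Ω), hfL i⟩ : L)) :=
      LinearIndependent.of_comp L.val.toLinearMap hli
    simpa using hli'.fintype_card_le_finrank
  have : Finite b := by
    by_contra hinf
    haveI := not_finite_iff_infinite.1 hinf
    obtain ⟨s, hs⟩ := Infinite.exists_subset_card_eq b (Module.finrank M L + 1)
    have := key s
    omega
  have := Fintype.ofFinite b
  have h1 : Module.finrank M' (IntermediateField.adjoin M' (Set.range fun j => red (a j))) =
      Fintype.card b := by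
    show Module.finrank M' (Subalgebra.toSubmodule
      (IntermediateField.adjoin M' (Set.range fun j => red (a j))).toSubalgebra) = _
    rw [hspan, ← hbspan, finrank_span_set_eq_card hbli, Set.toFinset_card]
  rw [h1]
  simpa using key Finset.univ

end Fermat.Agent.Curve

end
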