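/-
The residual setting for the divisibility argument: an algebraically closed field with a finite
transcendence basis, an extension of the valuation of constants along which the basis reduces to
a transcendence basis, and the reductions of the embeddings of the function field.
-/
import Fermat.Agent.Curve.DivisibleExtend
import Mathlib.RingTheory.AlgebraicIndependent.TranscendenceBasis
import Mathlib.RingTheory.AlgebraicIndependent.AlgebraicClosure

set_option autoImplicit false

noncomputable section

namespace Fermat.Agent.Curve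

open AlgebraicCurve IntermediateField

universe uK uF uk uFb uΩ

/-- Algebraically closed fields with a transcendence basis of any finite size. -/
theorem exists_isTranscendenceBasis_algClosed (K : Type uK) [Field K] (g : ℕ) :
    ∃ (Ω : Type uK) (_ : Field Ω) (_ : Algebra K Ω) (_ : IsAlgClosed Ω),
      ∃ t : Fin g → Ω, IsTranscendenceBasis K t := by
  have : Algebra.IsAlgebraic (MvPolynomial (Fin g) K) (FractionRing (MvPolynomial (Fin g) K)) :=
    IsLocalization.isAlgebraic _ (nonZeroDivisors (MvPolynomial (Fin g) K))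
  exact ⟨AlgebraicClosure (FractionRing (MvPolynomial (Fin g) K)), inferInstance, inferInstance,
    inferInstance, _, IsTranscendenceBasis.algebraMap_comp
      (A := AlgebraicClosure (FractionRing (MvPolynomial (Fin g) K)))
      (IsTranscendenceBasis.algebraMap_comp (A := FractionRing (MvPolynomial (Fin g) K))
        (IsTranscendenceBasis.mvPolynomial (Fin g) K))⟩

/-- The residue field of a valuation subring of an algebraically closed field is algebraically
closed. -/
theorem isAlgClosed_residueField {Ω : Type uΩ} [Field Ω] [IsAlgClosed Ω] (B : ValuationSubring Ω) :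
    IsAlgClosed (IsLocalRing.ResidueField B) := by
  refine IsAlgClosed.of_exists_root _ fun p hp hirr => ?_
  have hlift : p ∈ Polynomial.lifts (IsLocalRing.residue B) := by
    rw [Polynomial.lifts_iff_coeff_lifts]
    exact fun n => IsLocalRing.residue_surjective _
  obtain ⟨q, hq, hdeg, hmon⟩ := Polynomial.lifts_and_degree_eq_and_monic hlift hp
  have hd : (q.map (algebraMap B Ω)).degree ≠ 0 := by
    rw [hmon.degree_map, hdeg]
    exact (Polynomial.degree_pos_of_irreducible hirr).ne'
  obtain ⟨z, hz⟩ := IsAlgClosed.exists_root _ hd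
  have hint : IsIntegral B z := ⟨q, hmon, by
    rwa [Polynomial.IsRoot.def, Polynomial.eval_map] at hz⟩
  obtain ⟨a, ha⟩ := IsIntegrallyClosed.isIntegral_iff.1 hint
  refine ⟨IsLocalRing.residue B a, ?_⟩
  have hqa : Polynomial.eval₂ (RingHom.id B) a q = 0 := by
    apply Subtype.coe_injective
    have := hz
    rw [Polynomial.IsRoot.def, Polynomial.eval_map, ← ha, Polynomial.eval₂_at_apply] at this
    simpa using this
  have h := congrArg (IsLocalRing.residue B) hqa
  rw [map_zero, Polynomial.hom_eval₂, RingHom.comp_id] at h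
  rw [← hq, Polynomial.eval_map]
  exact h

variable {K : Type uK} [Field K] {A : ValuationSubring K}
  {F : Type uF} [Field F] [Algebra K F]
  {k : Type uk} [Field k] {Fb : Type uFb} [Field Fb] [Algebra k Fb]

theorem GoodReduction.exists_residual_setting (G : GoodReduction A F k Fb) [IsAlgClosed K]
    [IsAlgClosed k] {Ω : Type uΩ} [Field Ω] [Algebra K Ω] [IsAlgClosed Ω] {ι : Type} [Finite ι]
    {t : ι → Ω} (ht : IsTranscendenceBasis K t) :
    ∃ (B : ValuationSubring Ω) (_ : B.comap (algebraMap K Ω) = A) (kΩ : Type uΩ) (_ : Field kΩ)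
      (_ : Algebra k kΩ) (_ : IsAlgClosed kΩ) (πB : B →+* kΩ) (_ : Function.Surjective πB)
      (_ : ∀ (a : A) (h : algebraMap K Ω a ∈ B), πB ⟨_, h⟩ = algebraMap k kΩ (G.π a))
      (htB : ∀ i, t i ∈ B),
      IsTranscendenceBasis k (fun i => πB ⟨t i, htB i⟩) ∧
      ∀ (ψ : F →ₐ[K] Ω) (i : ι), ψ (G.x : F) = t i → ∃ ψb : Fb →ₐ[k] kΩ,
        ∀ f : G.V, ∃ h : ψ (f : F) ∈ B, πB ⟨_, h⟩ = ψb (G.φ f) := by
  classical
  obtain ⟨B, hBA, hgauss⟩ := exists_valuationSubring_gauss A ht.1
  have hA : ∀ a : K, algebraMap K Ω a ∈ B ↔ a ∈ A := fun a => by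
    rw [← hBA, ValuationSubring.mem_comap]
  set cB : A →+* B := ((algebraMap K Ω).comp A.subtype).codRestrict B
    (fun a => (hA a).2 a.2) with hcB
  set res := IsLocalRing.residue B with hres
  have hker : RingHom.ker G.π ≤ RingHom.ker (res.comp cB) := by
    intro a ha
    rw [RingHom.mem_ker, G.π_eq_zero_iff] at ha
    rw [RingHom.mem_ker, RingHom.comp_apply, hres, IsLocalRing.residue_eq_zero_iff,
      IsLocalRing.mem_maximalIdeal, mem_nonunits_iff]
    intro hu
    refine ha ?_
    obtain ⟨u, hu⟩ := hu
    have hinv : (a : K)⁻¹ ∈ A := by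
      rw [← hA, map_inv₀]
      have h1 : ((u⁻¹ : Bˣ) : B) * cB a = 1 := by rw [← hu, u.inv_mul]
      have h2 : (((u⁻¹ : Bˣ) : B) : Ω) * algebraMap K Ω a = 1 := congrArg Subtype.val h1
      rw [← eq_inv_of_mul_eq_one_left h2]
      exact ((u⁻¹ : Bˣ) : B).2
    refine IsUnit.of_mul_eq_one ⟨_, hinv⟩ (Subtype.ext (mul_inv_cancel₀ fun h0 => ?_))
    have h3 : cB a = 0 := Subtype.ext (by
      show algebraMap K Ω a = 0
      rw [h0, map_zero])
    exact u.ne_zero (hu.trans h3)
  let : Algebra k (IsLocalRing.ResidueField B) :=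
    ((G.π.liftOfSurjective G.π_surjective) ⟨res.comp cB, hker⟩).toAlgebra
  have hπ : ∀ (a : A) (h : algebraMap K Ω a ∈ B),
      res ⟨_, h⟩ = algebraMap k (IsLocalRing.ResidueField B) (G.π a) := fun a h =>
    (G.π.liftOfSurjective_comp_apply G.π_surjective ⟨res.comp cB, hker⟩ a).symm
  have htB : ∀ i, t i ∈ B := fun i => integralEval_X A t i ▸ (hgauss (MvPolynomial.X i)).1
  set tb : ι → IsLocalRing.ResidueField B := fun i => res ⟨t i, htB i⟩ with htb
  -- evaluation of integral polynomials and its residue
  have hev : ∀ p : MvPolynomial ι A,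
      res ⟨integralEval A t p, (hgauss p).1⟩ = MvPolynomial.aeval tb (p.map G.π) := by
    intro p
    have h1 : ∀ q : MvPolynomial ι A, (MvPolynomial.eval₂Hom cB (fun i => ⟨t i, htB i⟩) q : B)
        = (⟨integralEval A t q, (hgauss q).1⟩ : B) := fun q => Subtype.ext <| by
      show ((SubringClass.subtype B).comp (MvPolynomial.eval₂Hom cB fun i => ⟨t i, htB i⟩)) q = _
      congr 1
      refine MvPolynomial.ringHom_ext (fun a => ?_) fun i => ?_
      · rw [RingHom.comp_apply, MvPolynomial.eval₂Hom_C, integralEval_C]; rfl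
      · rw [RingHom.comp_apply, MvPolynomial.eval₂Hom_X', integralEval_X]; rfl
    rw [← h1, MvPolynomial.aeval_def, MvPolynomial.eval₂_map,
      MvPolynomial.coe_eval₂Hom, MvPolynomial.hom_eval₂]
    congr 1
    ext a
    exact hπ a _
  have hind : AlgebraicIndependent k tb := by
    rw [algebraicIndependent_iff]
    intro p hp
    obtain ⟨p₀, rfl⟩ := MvPolynomial.map_surjective G.π G.π_surjective p
    rw [← hev, IsLocalRing.residue_eq_zero_iff, ← ValuationSubring.coe_mem_nonunits_iff,
      (hgauss p₀).2] at hp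
    refine MvPolynomial.ext _ _ fun d => ?_
    have h := congrArg (fun q => q.coeff d) hp
    simp only [MvPolynomial.coeff_map, MvPolynomial.coeff_zero] at h
    rw [MvPolynomial.coeff_map, MvPolynomial.coeff_zero, G.π_eq_zero_iff]
    rwa [IsLocalRing.residue_eq_zero_iff, IsLocalRing.mem_maximalIdeal, mem_nonunits_iff] at h
  refine ⟨B, hBA, IsLocalRing.ResidueField B, inferInstance, inferInstance,
    isAlgClosed_residueField B, res, IsLocalRing.residue_surjective, hπ, htB, ?_, ?_⟩
  · rw [hind.isTranscendenceBasis_iff_isAlgebraic]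
    refine ⟨fun y => ?_⟩
    obtain ⟨u, rfl⟩ := IsLocalRing.residue_surjective y
    by_contra htr
    have halg := ht.isAlgebraic_field.1 (u : Ω)
    obtain ⟨P, hP0, hP⟩ := halg
    have hli := linearIndependent_adjoin_of_residue A G.π B res (fun a => (hA a).2 a.2)
      (fun a => hπ a _) (fun i => ⟨t i, htB i⟩) (fun j : Fin (P.natDegree + 1) => u ^ (j : ℕ))
      (fun c hc => by
        let Q : Polynomial (Algebra.adjoin k (Set.range tb)) :=
          ∑ j : Fin (P.natDegree + 1), Polynomial.monomial (j : ℕ)
            ⟨MvPolynomial.aeval tb (c j), by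
              rw [Algebra.adjoin_range_eq_range_aeval]; exact ⟨c j, rfl⟩⟩
        have hQ : Polynomial.aeval (res u) Q = 0 := by
          rw [map_sum, ← hc]
          refine Finset.sum_congr rfl fun j _ => ?_
          rw [Polynomial.aeval_monomial, map_pow]
          rfl
        have hQ0 : Q = 0 := transcendental_iff.1 htr Q hQ
        funext j
        refine algebraicIndependent_iff.1 hind _ ?_
        have := congrArg (fun q => q.coeff (j : ℕ)) hQ0
        simpa [Q, Polynomial.coeff_monomial, Fin.val_inj, Subtype.ext_iff] using this)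
    rw [Fintype.linearIndependent_iff] at hli
    refine hP0 (Polynomial.ext fun m => ?_)
    by_cases hm : m < P.natDegree + 1
    · refine hli (fun j => P.coeff j) ?_ ⟨m, hm⟩
      rw [Polynomial.aeval_eq_sum_range] at hP
      rw [Fin.sum_univ_eq_sum_range (fun j => P.coeff j • (((u ^ j : B) : Ω)))]
      simpa using hP
    · rw [Polynomial.coeff_zero, Polynomial.coeff_eq_zero_of_natDegree_lt (by omega)]
  · intro ψ i hψ
    set eB : Polynomial A →+* B := Polynomial.eval₂RingHom cB ⟨t i, htB i⟩ with heB
    have hcoe : ∀ p : Polynomial A, ((eB p : B) : Ω) = ψ (G.polyHom p) := by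
      intro p
      rw [G.coe_polyHom, ← Polynomial.aeval_algHom_apply, hψ, Polynomial.aeval_def,
        Polynomial.eval₂_map]
      exact Polynomial.hom_eval₂ p cB (SubringClass.subtype B) ⟨t i, htB i⟩
    have hreseB : ∀ p : Polynomial A, res (eB p) = Polynomial.aeval (tb i) (p.map G.π) := by
      intro p
      rw [Polynomial.aeval_def, Polynomial.eval₂_map, heB, Polynomial.coe_eval₂RingHom,
        Polynomial.hom_eval₂]
      congr 1
      ext a
      exact hπ a _
    have hV := G.mem_V_iff_of_gauss (ψ : F →+* Ω) B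
      (fun a => by rw [RingHom.coe_coe, AlgHom.commutes, hA])
      (fun p => by rw [RingHom.coe_coe, ← hcoe]; exact (eB p).2)
      (fun p hp hn => by
        rw [RingHom.coe_coe, ← hcoe, ValuationSubring.coe_mem_nonunits_iff,
          ← IsLocalRing.residue_eq_zero_iff] at hn
        exact hp (transcendental_iff.1 (hind.transcendental i) _ ((hreseB p).symm.trans hn)))
    have hmem : ∀ f : G.V, ψ (f : F) ∈ B := fun f => (hV f).1.2 f.2
    set ρ : G.V →+* IsLocalRing.ResidueField B :=
      res.comp (((ψ : F →+* Ω).comp G.V.subtype).codRestrict B hmem) with hρ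
    have hkerρ : RingHom.ker G.φ ≤ RingHom.ker ρ := by
      intro f hf
      rw [RingHom.mem_ker, hρ, RingHom.comp_apply, hres, IsLocalRing.residue_eq_zero_iff,
        ← ValuationSubring.coe_mem_nonunits_iff]
      exact ((hV f).2 f.2).2 (RingHom.mem_ker.1 hf)
    refine ⟨⟨(G.φ.liftOfSurjective G.φ_surjective) ⟨ρ, hkerρ⟩, fun c => ?_⟩,
      fun f => ⟨hmem f, (G.φ.liftOfSurjective_comp_apply G.φ_surjective ⟨ρ, hkerρ⟩ f).symm⟩⟩
    obtain ⟨a, rfl⟩ := G.π_surjective c
    rw [← G.φ_algebraMap]
    refine (G.φ.liftOfSurjective_comp_apply G.φ_surjective ⟨ρ, hkerρ⟩ _).trans ?_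
    rw [← hπ a ((hA a).2 a.2)]
    exact congrArg res (Subtype.ext (ψ.commutes a))

end Fermat.Agent.Curve

end
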