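/-
The special fibre of a normalised good reduction has at most as much torsion as the generic
fibre.
-/
import Fermat.Agent.Curve.DivisibleClassReduce
import Fermat.Agent.Curve.DivisibleConjugates
import Fermat.Agent.Curve.DivisibleCountAux
import Fermat.Agent.Curve.DivisibleSetting
import Fermat.Agent.Curve.ConnectedTorsion

set_option autoImplicit false

noncomputable section

namespace Fermat.Agent.Curve

open AlgebraicCurve IntermediateField

universe uK uF uk uFb

/-- A curve of genus zero has trivial `Pic0`. -/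
theorem subsingleton_pic0_of_genusFF_eq_zero {K : Type uK} {F : Type uF} [Field K] [Field F]
    [Algebra K F] [IsAlgClosed K] [IsFunctionFieldOne K F] (hg : genusFF K F = 0) :
    Subsingleton (Pic0 K F) := by
  refine ⟨fun a b => ?_⟩
  suffices h : ∀ c : Pic0 K F, c = 0 by rw [h a, h b]
  intro c
  obtain ⟨⟨D, hD⟩, rfl⟩ := Pic0.mk_surjective c
  rw [Divisor.mem_degZero] at hD
  obtain ⟨f, hf, hf0⟩ := exists_ne_zero_of_ellDim_pos
    (ellDim_pos_of_degree_ge (D := D) (by rw [hD, hg]; simp))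
  have hnn : 0 ≤ D + divisorOf K f := nonneg_of_mem_riemannRochSpace hf hf0
  have hzero : 0 = D + divisorOf K f := eq_of_le_of_degree_le hnn
    (by rw [map_add, degree_divisorOf, hD, map_zero, add_zero])
  rw [← (Pic0.mk : Divisor.degZero (K := K) (F := F) → Pic0 K F).comp_apply]
  refine (QuotientAddGroup.eq_zero_iff _).2 ?_
  rw [AddSubgroup.mem_addSubgroupOf]
  refine ⟨f⁻¹, inv_ne_zero hf0, fun w => ?_⟩
  have h := DFunLike.congr_fun hzero w
  simp only [Finsupp.zero_apply, Finsupp.add_apply, divisorOf_apply] at h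
  rw [Place.ord_inv]
  show D w = _
  omega

namespace GoodReduction

variable {K : Type uK} [Field K] [IsAlgClosed K] [CharZero K] {A : ValuationSubring K}
  {F : Type uF} [Field F] [Algebra K F]
  {k : Type uk} [Field k] [IsAlgClosed k] {Fb : Type uFb} [Field Fb] [Algebra k Fb]
  (G : GoodReduction A F k Fb) [IsFunctionFieldOne K F] [IsFunctionFieldOne k Fb]

/-- The count of torsion for a normalised good reduction. -/
theorem natCard_torsion_le_of_normalized {P₀ : Place K F} {Q₀ : Place k Fb} {n : ℕ} (hn : 0 < n)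
    (hP : poleDivisor K (G.x : F) = Finsupp.single P₀ (n : ℤ))
    (hQ : poleDivisor k (G.φ G.x) = Finsupp.single Q₀ (n : ℤ))
    (hsep : Algebra.IsSeparable k⟮G.φ G.x⟯ Fb)
    (hgen : IntermediateField.adjoin k {y : Fb | ∃ f : G.V,
      (∃ N : ℕ, (f : F) ∈ riemannRochSpace (Finsupp.single P₀ (N : ℤ))) ∧ G.φ f = y} = ⊤)
    {m : ℕ} (hm : (m : k) ≠ 0) (hfin : Finite (Pic0.torsion k Fb m))
    (hTfin : Finite (Pic0.torsion K F m)) :
    Nat.card (Pic0.torsion k Fb m) ≤ Nat.card (Pic0.torsion K F m) := by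
  classical
  rcases Nat.eq_zero_or_pos (genusFF K F) with hg | hg
  · have := subsingleton_pic0_of_genusFF_eq_zero (K := k) (F := Fb) (G.genus_eq.trans hg)
    rw [Nat.card_of_subsingleton (0 : Pic0.torsion k Fb m)]
    exact Nat.card_pos
  have hmK : (m : K) ≠ 0 := Nat.cast_ne_zero.2 fun h => hm (by rw [h, Nat.cast_zero])
  obtain ⟨Ω, iΩ, iKΩ, iΩac, t, ht⟩ := exists_isTranscendenceBasis_algClosed K (genusFF K F)
  obtain ⟨B, hB, kΩ, ikΩ, iakΩ, ikΩac, πB, hπs, hπ, htB, htb, hlift⟩ :=
    G.exists_residual_setting ht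
  let E := ConstExtField K F Ω
  let Eb := ConstExtField k Fb kΩ
  have : IsFunctionFieldOne Ω E :=
    IsConstExt.isFunctionFieldOne (K := K) (F := F) ‹IsFunctionFieldOne K F›
  have : IsFunctionFieldOne kΩ Eb :=
    IsConstExt.isFunctionFieldOne (K := k) (F := Fb) ‹IsFunctionFieldOne k Fb›
  have hx : Transcendental K (G.x : F) := G.transcendental_of_reduction G.x G.x_transcendental
  have hxb : Transcendental k (G.φ G.x) := G.x_transcendental
  have hsepK : Algebra.IsSeparable K⟮(G.x : F)⟯ F := by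
    have := finite_adjoin_of_transcendental hx
    have : CharZero K⟮(G.x : F)⟯ :=
      charZero_of_injective_algebraMap (algebraMap K K⟮(G.x : F)⟯).injective
    infer_instance
  choose φ hφ using fun i => exists_algHom_apply_eq hx (ht.1.transcendental i)
  choose φb hφb using fun i => hlift (φ i) i (hφ i)
  set eg := finCongr G.genus_eq
  set tb : Fin (genusFF k Fb) → kΩ := fun i => πB ⟨t (eg i), htB _⟩ with htbdef
  have htb' : IsTranscendenceBasis k tb := htb.comp_equiv eg
  have hφbx : ∀ i, φb (eg i) (G.φ G.x) = tb i := fun i => by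
    obtain ⟨h, he⟩ := hφb (eg i) G.x
    rw [← he]
    exact congrArg πB (Subtype.ext (hφ _))
  have hPQ := (G.placeMap_pointPlace B hB πB hπs hπ E Eb hn hP hQ hgen (φ ⟨0, hg⟩) (φb ⟨0, hg⟩)
    (hφb ⟨0, hg⟩)).2
  have hTΩ : Finite (Pic0.torsion Ω E m) := finite_torsion_of_base (F := F) hmK hTfin
  have hTbΩ : Finite (Pic0.torsion kΩ Eb m) := finite_torsion_of_base (F := Fb) hm hfin
  obtain ⟨c, hc⟩ := exists_nsmul_eq_pointClass E P₀ hx (isGeneric_of_forall_apply_eq ht hφ) hTΩ
  obtain ⟨ψ, hψ, rfl⟩ :=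
    exists_pointClass_eq_of_nsmul_eq E P₀ hx (isGeneric_of_forall_apply_eq ht hφ) hc
  have hred : (G.extend B hB πB hπs hπ E Eb).reductionPic0 (pointClass E P₀ φ) =
      pointClass Eb Q₀ fun i => φb (eg i) :=
    G.reductionPic0_pointClass B hB πB hπs hπ E Eb hPQ φ (fun i => φb (eg i)) eg fun i =>
      (G.placeMap_pointPlace B hB πB hπs hπ E Eb hn hP hQ hgen (φ (eg i)) (φb (eg i))
        (hφb (eg i))).1
  have hcb : m • (G.extend B hB πB hπs hπ E Eb).reductionPic0 (pointClass E P₀ ψ) =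
      pointClass Eb Q₀ fun i => φb (eg i) := by rw [← map_nsmul, hc, hred]
  obtain ⟨ψb, hψb, hcψ⟩ :=
    exists_pointClass_eq_of_nsmul_eq Eb Q₀ hxb (isGeneric_of_forall_apply_eq htb' hφbx) hcb
  rw [hcψ] at hcb
  obtain ⟨p, hp⟩ :=
    G.exists_reduce_of_reductionPic0_eq B hB πB hπs hπ E Eb hPQ hxb ψ hψb hcψ
  -- the symmetric functions of the basis
  let eB : Fin (genusFF K F) → B := fun j =>
    (prodPoly fun i => (⟨t i, htB i⟩ : B)).coeff j
  have he : ∀ j : Fin (genusFF K F), (eB j : Ω) = (prodPoly t).coeff j := fun j =>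
    (coeff_prodPoly_map B.subtype (fun i => (⟨t i, htB i⟩ : B)) j).symm
  have heb : ∀ j : Fin (genusFF K F), πB (eB j) = (prodPoly tb).coeff j := fun j => by
    rw [← coeff_prodPoly_map πB, ← prodPoly_comp_equiv (fun i => πB (⟨t i, htB i⟩ : B)) eg]
  -- a function separating the residual conjugates
  obtain ⟨hRfin, hRle⟩ := finite_rootSet (E := E) P₀ hx ht hTΩ
  obtain ⟨hRbfin, -⟩ := finite_rootSet (E := Eb) Q₀ hxb htb' hTbΩ
  obtain ⟨T, hT, hTle⟩ := exists_finite_natCard_rootSet_le Eb Q₀ hxb htb' G.genus_eq.symm heb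
    hψb hφbx hcb hRbfin
  let W : ℕ → Submodule k Fb := fun N =>
    G.reduceSubspace (riemannRochSpace (Finsupp.single P₀ (N : ℤ)))
  have hW : Monotone W := fun a b hab =>
    G.reduceSubspace_mono (riemannRochSpace_mono (Finsupp.single_le_single.2 (by exact_mod_cast hab)))
  obtain ⟨fb, hfR, hinj⟩ := exists_mem_injOn (⨆ N, W N) (by
    refine top_le_iff.1 (hgen ▸ IntermediateField.adjoin.mono k _ _ ?_)
    rintro y ⟨f, ⟨N, hf⟩, rfl⟩
    exact Submodule.mem_iSup_of_mem N ⟨f, hf, rfl⟩) T hT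
  obtain ⟨N, f, hf, rfl⟩ := (Submodule.mem_iSup_of_directed _ hW.directed_le).1 hfR
  choose hfB hfe using fun i => hp i f N hf
  let aB : Fin (genusFF K F) → B := fun j =>
    (prodPoly fun i => (⟨ψ i (f : F), hfB i⟩ : B)).coeff j
  have ha : ∀ j : Fin (genusFF K F), (aB j : Ω) = (prodPoly fun i => ψ i (f : F)).coeff j :=
    fun j => (coeff_prodPoly_map B.subtype (fun i => (⟨ψ i (f : F), hfB i⟩ : B)) j).symm
  have hab : ∀ j : Fin (genusFF K F), πB (aB j) =
      (prodPoly fun i => ψb i (G.φ f)).coeff j := fun j => by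
    rw [← coeff_prodPoly_map πB, ← prodPoly_comp_equiv (fun i => ψb i (G.φ f)) p]
    simp only [hfe]
  obtain ⟨hfd, hle⟩ := finrank_le_natCard_rootSet E P₀ hx ht rfl he hψ hφ hc hRfin (f : F) ha
  have hbar := hTle (G.φ f) hinj _ hab
  have hA : ∀ a : A, algebraMap K Ω a ∈ B := fun a =>
    ValuationSubring.mem_comap.1 (hB.symm ▸ a.2)
  have hres := finrank_adjoin_residue_le A G.π G.π_surjective B πB hA (fun a => hπ a (hA a))
    eB aB (algebraicIndependent_coeff G.genus_eq.symm heb htb') fun j =>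
      (isAlgebraic_adjoin_coeff G.genus_eq.symm heb htb').isAlgebraic _
  have hlow := le_natCard_rootSet (E := Eb) Q₀ hxb htb' hTbΩ
  rw [← G.degree_eq, G.genus_eq] at hlow
  have hT' := natCard_torsion_le_base F Ω E hmK hTfin
  have hmain : Module.finrank K⟮(G.x : F)⟯ F ^ genusFF K F * Nat.card (Pic0.torsion k Fb m) ≤
      Module.finrank K⟮(G.x : F)⟯ F ^ genusFF K F * Nat.card (Pic0.torsion K F m) :=
    hlow.trans (hbar.trans (hres.trans (hle.trans (hRle.trans (Nat.mul_le_mul_left _ hT')))))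
  exact Nat.le_of_mul_le_mul_left hmain (pow_pos (G.degree_eq ▸ G.degree_pos) _)

/-- Every torsion class of the special fibre lifts to a torsion class. -/
theorem reductionPic0_bijOn_torsion_of_finite {m : ℕ} (hm : (m : k) ≠ 0)
    (hfin : Finite (Pic0.torsion k Fb m)) :
    Set.BijOn G.reductionPic0 (Pic0.torsion K F m : Set (Pic0 K F))
      (Pic0.torsion k Fb m : Set (Pic0 k Fb)) := by
  have hinj := G.reductionPic0_injOn_torsion hm
  have hmaps : Set.MapsTo G.reductionPic0 (Pic0.torsion K F m : Set (Pic0 K F))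
      (Pic0.torsion k Fb m : Set (Pic0 k Fb)) := fun y hy => by
    rw [SetLike.mem_coe, Pic0.mem_torsion] at hy ⊢
    rw [← map_zsmul, hy, map_zero]
  have hTfin : Finite (Pic0.torsion K F m) :=
    Finite.of_injective _ (hmaps.restrict_inj.2 hinj)
  obtain ⟨G', P₀, Q₀, n, hn, hP, hQ, hsep, hgen⟩ := G.exists_normalized
  have hle := G'.natCard_torsion_le_of_normalized hn hP hQ hsep hgen hm hfin hTfin
  refine ⟨hmaps, hinj, ?_⟩
  intro y hy
  rwa [Set.eq_of_subset_of_ncard_le hmaps.image_subset (by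
    rw [hinj.ncard_image, ← Nat.card_coe_set_eq, ← Nat.card_coe_set_eq]
    exact hle) (Set.toFinite _)]

end GoodReduction

end Fermat.Agent.Curve

end
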