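/-
Divisibility of `Pic0` of a curve over an algebraically closed field, and surjectivity of the
reduction map on torsion, by a generic point argument.
-/
import Fermat.Agent.Curve.DivisibleBase
import Fermat.Agent.Curve.DivisibleCount

set_option autoImplicit false

noncomputable section

namespace Fermat.Agent.Curve

open AlgebraicCurve IntermediateField

universe uK uF uk uFb

section Divisible

variable {K : Type uK} [Field K] [IsAlgClosed K] {F : Type uF} [Field F] [Algebra K F]
  [IsCurveOver K F] [Algebra.EssFiniteType K F]

/-- If the `m`-torsion is finite then `Pic0` is `m`-divisible (`m` invertible). -/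
theorem pic0_exists_nsmul_eq {m : ℕ} (hm : (m : K) ≠ 0)
    (hfin : Finite (Pic0.torsion K F m)) (c : Pic0 K F) : ∃ d : Pic0 K F, m • d = c := by
  have : IsFunctionFieldOne K F := isFunctionFieldOne_of_isCurveOver
  obtain ⟨Ω, iΩ, iKΩ, iΩac, t, ht⟩ := exists_isTranscendenceBasis_algClosed K (genusFF K F)
  exact exists_nsmul_eq_of_basis ht hm hfin c

end Divisible

namespace GoodReduction

variable {K : Type uK} [Field K] [IsAlgClosed K] [CharZero K] {A : ValuationSubring K}
  {F : Type uF} [Field F] [Algebra K F]
  {k : Type uk} [Field k] [IsAlgClosed k] {Fb : Type uFb} [Field Fb] [Algebra k Fb]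
  (G : GoodReduction A F k Fb)
  [IsCurveOver K F] [Algebra.EssFiniteType K F]
  [IsCurveOver k Fb] [Algebra.EssFiniteType k Fb]

/-- Every torsion class of the special fibre (order invertible there) lifts to a torsion class
of the same order. -/
theorem reductionPic0_bijOn_torsion {m : ℕ} (hm : (m : k) ≠ 0)
    (hfin : Finite (Pic0.torsion k Fb m)) :
    Set.BijOn G.reductionPic0 (Pic0.torsion K F m : Set (Pic0 K F))
      (Pic0.torsion k Fb m : Set (Pic0 k Fb)) :=
  haveI : IsFunctionFieldOne K F := G.isFunctionFieldOne
  haveI : IsFunctionFieldOne k Fb := G.isFunctionFieldOne_special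
  G.reductionPic0_bijOn_torsion_of_finite hm hfin

include G in
/-- consequence of `reductionPic0_bijOn_torsion` -/
theorem natCard_torsion_eq {m : ℕ} (hm : (m : k) ≠ 0)
    (hfin : Finite (Pic0.torsion k Fb m)) :
    Nat.card (Pic0.torsion K F m) = Nat.card (Pic0.torsion k Fb m) :=
  Nat.card_congr (G.reductionPic0_bijOn_torsion hm hfin).equiv

include G in
/-- consequence of `reductionPic0_bijOn_torsion` -/
theorem finite_torsion {m : ℕ} (hm : (m : k) ≠ 0)
    (hfin : Finite (Pic0.torsion k Fb m)) : Finite (Pic0.torsion K F m) :=
  Finite.of_equiv _ (G.reductionPic0_bijOn_torsion hm hfin).equiv.symm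

end GoodReduction

end Fermat.Agent.Curve

end
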